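/-
S28 (Igusa), shared definitions: the coefficientwise twist `f(u) ↦ f(ζ u)` on Laurent series,
the substituted `j`-series `jS R ζ e = j(ζ u^e)`, the `Δ`-series, the modular unit `nuQ`,
evaluation of integer polynomial expressions in the `j(q^d)`, and the two data structures
`ModPolyData` (prime-level modular equation, factored) and `UnitData` (the modular unit
`Δ(q^p)/Δ(q)`: integrality and rational expression in `j(q), j(q^p)`).
-/
import Mathlib
import Fermat.Prelude.Def_ModularCurve_X0ModL

set_option autoImplicit false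

noncomputable section

namespace Fermat.Agent.S28lib

open ModularCurve HahnSeries Polynomial

section Twist

variable {R : Type*} [CommRing R]

/-- The underlying function of the twist `f(u) ↦ f(ζ u)`. -/
def twistFun (ζ : Rˣ) (f : LaurentSeries R) : LaurentSeries R where
  coeff n := ((ζ ^ n : Rˣ) : R) * f.coeff n
  isPWO_support' := f.isPWO_support.mono fun n hn => by
    simp only [Function.mem_support, ne_eq] at hn
    intro h
    exact hn (by rw [h, mul_zero])

@[simp] theorem twistFun_coeff (ζ : Rˣ) (f : LaurentSeries R) (n : ℤ) :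
    (twistFun ζ f).coeff n = ((ζ ^ n : Rˣ) : R) * f.coeff n := rfl

theorem support_twistFun (ζ : Rˣ) (f : LaurentSeries R) :
    (twistFun ζ f).support = f.support := by
  ext n
  simp only [HahnSeries.mem_support, twistFun_coeff, ne_eq]
  constructor
  · intro h h0; exact h (by rw [h0, mul_zero])
  · intro h h0
    exact h ((Units.mul_right_eq_zero (ζ ^ n)).mp h0)

/-- The twist `f(u) ↦ f(ζ u)` as a ring endomorphism of `R((u))`. -/
def twist (ζ : Rˣ) : LaurentSeries R →+* LaurentSeries R where
  toFun := twistFun ζ
  map_zero' := by ext n; simp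
  map_one' := by
    ext n
    simp only [twistFun_coeff, HahnSeries.coeff_one]
    split_ifs with h
    · subst h; simp
    · simp
  map_add' x y := by ext n; simp [mul_add]
  map_mul' x y := by
    ext n
    simp only [twistFun_coeff, HahnSeries.coeff_mul, Finset.mul_sum]
    have hset : Finset.antidiagonal (twistFun ζ x).isPWO_support (twistFun ζ y).isPWO_support n =
        Finset.antidiagonal x.isPWO_support y.isPWO_support n := by
      ext ij
      simp only [Finset.mem_antidiagonal, support_twistFun]
    refine (Finset.sum_congr hset.symm fun ij hij => ?_)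
    have hsum : ij.1 + ij.2 = n := by
      have := Finset.mem_antidiagonal.mp hij
      exact this.2.2
    rw [← hsum, zpow_add, Units.val_mul]
    ring

@[simp] theorem twist_coeff (ζ : Rˣ) (f : LaurentSeries R) (n : ℤ) :
    (twist ζ f).coeff n = ((ζ ^ n : Rˣ) : R) * f.coeff n := rfl

end Twist

section Series

variable (R : Type*) [CommRing R]

/-- `j(ζ u^e)`: the `j`-series with `u ↦ ζ u^e` substituted. -/
def jS (ζ : Rˣ) (e : ℕ) [NeZero e] : LaurentSeries R :=
  qExpand R e (twist ζ (jqModC R))

/-- The `Δ`-series `q ∏ (1 - q^n)^24` over `R`. -/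
def DeltaQ : LaurentSeries R :=
  HahnSeries.single (1 : ℤ) 1 *
    HahnSeries.ofPowerSeries ℤ R (dedekindEtaUnit.map (Int.castRingHom R))

/-- `Δ(ζ u^e)`. -/
def DS (ζ : Rˣ) (e : ℕ) [NeZero e] : LaurentSeries R :=
  qExpand R e (twist ζ (DeltaQ R))

/-- `j(q^d)` over `R` (junk value `0` for `d = 0`). -/
def jAt (d : ℕ) : LaurentSeries R :=
  if h : d = 0 then 0 else @qExpand R _ d ⟨h⟩ (jqModC R)

theorem jAt_of_neZero (d : ℕ) [hd : NeZero d] : jAt R d = qExpand R d (jqModC R) := by
  rw [jAt, dif_neg hd.out]

/-- Evaluation of a polynomial at a Laurent series. -/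
def evalJ (y : LaurentSeries R) : Polynomial R →+* LaurentSeries R :=
  (Polynomial.aeval y).toRingHom

@[simp] theorem evalJ_X (y : LaurentSeries R) : evalJ R y Polynomial.X = y := by
  simp [evalJ]

/-- Evaluation of an integer polynomial expression in variables `X_d` at `X_d ↦ j(q^d)`. -/
def evalDiv : MvPolynomial ℕ ℤ →+* LaurentSeries R :=
  MvPolynomial.eval₂Hom (Int.castRingHom (LaurentSeries R)) (fun d => jAt R d)

@[simp] theorem evalDiv_X (d : ℕ) : evalDiv R (MvPolynomial.X d) = jAt R d := by
  simp [evalDiv]

end Series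

section Data

variable (k : Type*) [Field k]

/-- The modular unit `Δ(q^p)/Δ(q)` as a Laurent series over the field `k`. -/
def nuQ (p : ℕ) [NeZero p] : LaurentSeries k :=
  qExpand k p (DeltaQ k) * (DeltaQ k)⁻¹

/-- The prime-level modular equation over `k`, completely factored over `k((t))` after the
substitution `t ↦ t^p`:
`Φ(X, j(t^p)) = (X - j(t^{p²})) ∏_{i<p} (X - j(ζ^i t))`. The outer variable of `Φ` is `X`, the
inner one is `Y`. -/
structure ModPolyData (p : ℕ) [NeZero p] where
  /-- the modular polynomial, in `(k[Y])[X]` -/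
  Φ : Polynomial (Polynomial k)
  monic : Φ.Monic
  natDegree_eq : Φ.natDegree = p + 1
  /-- a primitive `p`-th root of unity -/
  ζ : kˣ
  prim : IsPrimitiveRoot ζ p
  factor : Φ.map (evalJ k (qExpand k p (jqModC k))) =
    (Polynomial.X - Polynomial.C (qExpand k p (qExpand k p (jqModC k)))) *
      ∏ i ∈ Finset.range p, (Polynomial.X - Polynomial.C (twist (ζ ^ i) (jqModC k)))

/-- The modular unit `ν = Δ(q^p)/Δ(q)`: it is integral over `k[j]` and is a rational expression
in `j(q^p)` (outer variable `X`) and `j(q)` (inner variable `Y`). -/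
structure UnitData (p : ℕ) [NeZero p] where
  /-- a monic polynomial over `k[j]` killing `ν` -/
  Ψ : Polynomial (Polynomial k)
  monic : Ψ.Monic
  root : Ψ.eval₂ (evalJ k (jqModC k)) (nuQ k p) = 0
  /-- numerator and denominator of `ν` as polynomials in `X = j(q^p)` over `k[Y]`, `Y = j(q)` -/
  A : Polynomial (Polynomial k)
  B : Polynomial (Polynomial k)
  den_ne : B.eval₂ (evalJ k (jqModC k)) (qExpand k p (jqModC k)) ≠ 0
  expr : nuQ k p * B.eval₂ (evalJ k (jqModC k)) (qExpand k p (jqModC k)) =
    A.eval₂ (evalJ k (jqModC k)) (qExpand k p (jqModC k))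

end Data

end Fermat.Agent.S28lib
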