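import Mathlib
import Fermat.Agent.S28lib.Defs

/-!
# S28 library, brick C1: the twist `q ↦ ζ q` on Laurent series

For a unit `ζ` of a commutative ring `R` the map `∑ aₙ qⁿ ↦ ∑ ζⁿ aₙ qⁿ` is a ring automorphism
`twist ζ` of `R((q))` (defined in `Defs.lean`).  We record its interaction with `qExpand` (the
substitution `q ↦ q^N`) and `coeffMap`, and identify its fixed points when `ζ` is a primitive root
of unity.
-/

set_option autoImplicit false

noncomputable section

open HahnSeries ModularCurve

namespace Fermat.Agent.S28lib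

section Twist

variable {R : Type*} [CommRing R]

@[simp] theorem twist_single (ζ : Rˣ) (k : ℤ) (r : R) :
    twist ζ (HahnSeries.single k r) = HahnSeries.single k (((ζ ^ k : Rˣ) : R) * r) := by
  ext n
  rcases eq_or_ne n k with rfl | hn
  · simp [HahnSeries.coeff_single_same]
  · simp [HahnSeries.coeff_single_of_ne hn]

@[simp] theorem twist_C (ζ : Rˣ) (r : R) : twist ζ (HahnSeries.C r) = HahnSeries.C r := by
  rw [HahnSeries.C_apply, twist_single]
  simp

@[simp] theorem twist_one_unit (f : LaurentSeries R) : twist (1 : Rˣ) f = f := by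
  ext n; simp

theorem twist_mul_unit (ζ ξ : Rˣ) (f : LaurentSeries R) :
    twist (ζ * ξ) f = twist ζ (twist ξ f) := by
  ext n
  simp only [twist_coeff, mul_zpow, Units.val_mul]
  ring

theorem twist_comm (ζ ξ : Rˣ) (f : LaurentSeries R) :
    twist ζ (twist ξ f) = twist ξ (twist ζ f) := by
  rw [← twist_mul_unit, ← twist_mul_unit, mul_comm]

@[simp] theorem twist_inv_twist (ζ : Rˣ) (f : LaurentSeries R) : twist ζ⁻¹ (twist ζ f) = f := by
  rw [← twist_mul_unit, inv_mul_cancel, twist_one_unit]

@[simp] theorem twist_twist_inv (ζ : Rˣ) (f : LaurentSeries R) : twist ζ (twist ζ⁻¹ f) = f := by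
  rw [← twist_mul_unit, mul_inv_cancel, twist_one_unit]

theorem twist_injective (ζ : Rˣ) : Function.Injective (twist ζ : LaurentSeries R → _) :=
  Function.LeftInverse.injective (twist_inv_twist ζ)

theorem twist_surjective (ζ : Rˣ) : Function.Surjective (twist ζ : LaurentSeries R → _) :=
  Function.RightInverse.surjective (twist_twist_inv ζ)

/-- `twist ζ` as a ring automorphism. -/
def twistEquiv (ζ : Rˣ) : LaurentSeries R ≃+* LaurentSeries R :=
  { twist ζ with
    invFun := twist ζ⁻¹
    left_inv := twist_inv_twist ζ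
    right_inv := twist_twist_inv ζ }

@[simp] theorem twistEquiv_apply (ζ : Rˣ) (f : LaurentSeries R) : twistEquiv ζ f = twist ζ f := rfl

theorem twist_pow_unit (ζ : Rˣ) (i : ℕ) (f : LaurentSeries R) :
    twist (ζ ^ i) f = (twist ζ)^[i] f := by
  induction i with
  | zero => simp
  | succ i ih => rw [pow_succ', twist_mul_unit, ih, Function.iterate_succ_apply']

theorem twist_order (ζ : Rˣ) {f : LaurentSeries R} (n : ℤ) :
    (twist ζ f).coeff n = 0 ↔ f.coeff n = 0 := by
  rw [twist_coeff, Units.mul_right_eq_zero]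

theorem coeffMap_twist {S : Type*} [CommRing S] (φ : R →+* S) (ζ : Rˣ) (f : LaurentSeries R) :
    coeffMap φ (twist ζ f) = twist (Units.map (φ : R →* S) ζ) (coeffMap φ f) := by
  ext n
  simp only [coeffMap_coeff, twist_coeff, map_mul]
  congr 1
  rw [← map_zpow]
  rfl

theorem twist_qExpand (ζ : Rˣ) (N : ℕ) [NeZero N] (f : LaurentSeries R) :
    twist ζ (qExpand R N f) = qExpand R N (twist (ζ ^ N) f) := by
  ext n
  by_cases hn : (N : ℤ) ∣ n
  · obtain ⟨m, rfl⟩ := hn
    rw [twist_coeff, qExpand_coeff_mul, qExpand_coeff_mul, twist_coeff, zpow_mul, zpow_natCast]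
  · rw [twist_coeff, qExpand_coeff_of_not_dvd N f hn, qExpand_coeff_of_not_dvd N _ hn, mul_zero]

theorem twist_qExpand_of_pow_eq_one (ζ : Rˣ) (N : ℕ) [NeZero N] (hζ : ζ ^ N = 1)
    (f : LaurentSeries R) : twist ζ (qExpand R N f) = qExpand R N f := by
  rw [twist_qExpand, hζ, twist_one_unit]

end Twist

section Range

variable {R : Type*} [CommRing R]

/-- Membership in the range of `qExpand R m` is the vanishing of all coefficients of index
not divisible by `m`. -/
theorem mem_range_qExpand_iff (m : ℕ) [NeZero m] (f : LaurentSeries R) :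
    f ∈ Set.range (qExpand R m) ↔ ∀ n : ℤ, ¬ (m : ℤ) ∣ n → f.coeff n = 0 := by
  constructor
  · rintro ⟨g, rfl⟩ n hn
    exact qExpand_coeff_of_not_dvd m g hn
  · intro h
    have hm : (0 : ℤ) < m := by exact_mod_cast Nat.pos_of_ne_zero (NeZero.ne m)
    have hbdd : BddBelow (Function.support fun k : ℤ => f.coeff ((m : ℤ) * k)) := by
      refine ⟨min f.order 0, fun k hk => ?_⟩
      by_contra hlt
      rw [not_le, lt_min_iff] at hlt
      apply hk
      show f.coeff ((m : ℤ) * k) = 0
      apply HahnSeries.coeff_eq_zero_of_lt_order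
      have h1 : (m : ℤ) * k ≤ 1 * k :=
        mul_le_mul_of_nonpos_right (by omega) hlt.2.le
      omega
    refine ⟨HahnSeries.ofSuppBddBelow (fun k : ℤ => f.coeff ((m : ℤ) * k)) hbdd, ?_⟩
    ext n
    by_cases hn : (m : ℤ) ∣ n
    · obtain ⟨k, rfl⟩ := hn
      rw [qExpand_coeff_mul]
      rfl
    · rw [qExpand_coeff_of_not_dvd m _ hn, h n hn]

/-- For a primitive `m`-th root of unity `ζ`, the fixed points of `twist ζ` are the series in
`q^m`. -/
theorem twist_eq_self_iff [IsDomain R] {ζ : Rˣ} {m : ℕ} [NeZero m] (hζ : IsPrimitiveRoot ζ m)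
    (f : LaurentSeries R) : twist ζ f = f ↔ f ∈ Set.range (qExpand R m) := by
  rw [mem_range_qExpand_iff]
  constructor
  · intro h n hn
    have h1 := congrArg (fun g : LaurentSeries R => g.coeff n) h
    simp only [twist_coeff] at h1
    have h2 : (((ζ ^ n : Rˣ) : R) - 1) * f.coeff n = 0 := by rw [sub_mul, h1, one_mul, sub_self]
    rcases mul_eq_zero.mp h2 with h3 | h3
    · exfalso
      apply hn
      rw [← hζ.zpow_eq_one_iff_dvd]
      exact Units.ext (by rw [Units.val_one]; exact sub_eq_zero.mp h3)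
    · exact h3
  · intro h
    ext n
    rw [twist_coeff]
    by_cases hn : (m : ℤ) ∣ n
    · rw [(hζ.zpow_eq_one_iff_dvd n).mpr hn, Units.val_one, one_mul]
    · rw [h n hn, mul_zero]

end Range

end Fermat.Agent.S28lib
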