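import Mathlib
import Fermat.Agent.S28lib.Twist

/-!
# S28 library, brick C1: conjugates under the twist

For a primitive `p`-th root of unity `ξ` of a field `k` and a Laurent series `f` having a nonzero
coefficient of index prime to `p`, the `p` series `f(ξ^i q)` are pairwise distinct, and any
polynomial over `k((q))` fixed by `twist ξ` which vanishes at one of them is divisible by
`conjProd ξ p f = ∏_{i<p} (X - f(ξ^i q))`.
-/

set_option autoImplicit false

noncomputable section

open HahnSeries ModularCurve Polynomial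

namespace Fermat.Agent.S28lib

variable {k : Type*} [Field k]

/-- The twists `f(ξ^i q)`, `i < p`, are pairwise distinct. -/
theorem twist_pow_inj {ξ : kˣ} {p : ℕ} (hξ : IsPrimitiveRoot ξ p) {f : LaurentSeries k}
    {e : ℤ} (he : f.coeff e ≠ 0) (hcop : IsCoprime e (p : ℤ)) {i j : ℕ} (hi : i < p) (hj : j < p)
    (h : twist (ξ ^ i) f = twist (ξ ^ j) f) : i = j := by
  have h1 := congrArg (fun g : LaurentSeries k => g.coeff e) h
  simp only [twist_coeff] at h1
  have h2 : (((ξ ^ i) ^ e : kˣ) : k) = (((ξ ^ j) ^ e : kˣ) : k) := mul_right_cancel₀ he h1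
  have h3 : (ξ ^ i) ^ e = (ξ ^ j) ^ e := Units.ext h2
  have h4 : ξ ^ (((i : ℤ) - j) * e) = 1 := by
    have h0 : ξ ^ ((i : ℤ) - j) = ξ ^ i / ξ ^ j := by
      rw [zpow_sub, zpow_natCast, zpow_natCast, div_eq_mul_inv]
    rw [zpow_mul, h0, div_zpow, h3, div_self']
  have h5 : (p : ℤ) ∣ ((i : ℤ) - j) * e := (hξ.zpow_eq_one_iff_dvd _).mp h4
  have h6 : (p : ℤ) ∣ (i : ℤ) - j := hcop.symm.dvd_of_dvd_mul_right h5
  obtain ⟨c, hc⟩ := h6
  have hp : (0 : ℤ) < p := by omega
  have hc0 : c = 0 := by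
    by_contra hne
    rcases lt_or_gt_of_ne hne with hneg | hpos
    · have : (p : ℤ) * c ≤ (p : ℤ) * (-1) := mul_le_mul_of_nonneg_left (by omega) hp.le
      omega
    · have : (p : ℤ) * 1 ≤ (p : ℤ) * c := mul_le_mul_of_nonneg_left (by omega) hp.le
      omega
  rw [hc0, mul_zero] at hc
  omega

/-- A root of a polynomial fixed by a ring endomorphism `σ` is mapped by `σ` to a root. -/
theorem isRoot_map_of_map_eq {L : Type*} [CommRing L] {σ : L →+* L} {m : L[X]}
    (hfix : m.map σ = m) {x : L} (hx : m.IsRoot x) : m.IsRoot (σ x) := by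
  have h := eval_map_apply (p := m) σ x
  rw [hfix, hx.eq_zero, map_zero] at h
  exact h

/-- The product of the `X - f(ξ^i q)`, `i < p`. -/
def conjProd (ξ : kˣ) (p : ℕ) (f : LaurentSeries k) : (LaurentSeries k)[X] :=
  ∏ i ∈ Finset.range p, (X - Polynomial.C (twist (ξ ^ i) f))

theorem conjProd_monic (ξ : kˣ) (p : ℕ) (f : LaurentSeries k) : (conjProd ξ p f).Monic :=
  monic_prod_of_monic _ _ fun i _ => monic_X_sub_C _

theorem conjProd_natDegree (ξ : kˣ) (p : ℕ) (f : LaurentSeries k) :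
    (conjProd ξ p f).natDegree = p := by
  rw [conjProd, natDegree_prod_of_monic _ _ fun _ _ => monic_X_sub_C _]
  simp

theorem conjProd_ne_zero (ξ : kˣ) (p : ℕ) (f : LaurentSeries k) : conjProd ξ p f ≠ 0 :=
  (conjProd_monic ξ p f).ne_zero

theorem conjProd_isRoot {ξ : kˣ} {p : ℕ} {f : LaurentSeries k} {i : ℕ} (hi : i < p) :
    (conjProd ξ p f).IsRoot (twist (ξ ^ i) f) := by
  rw [← dvd_iff_isRoot, conjProd]
  exact Finset.dvd_prod_of_mem _ (Finset.mem_range.mpr hi)

/-- If a nonzero polynomial fixed by `twist ξ` has the root `f(ξ^i q)` for one `i`, it is divisible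
by `conjProd ξ p f`. -/
theorem conjProd_dvd {ξ : kˣ} {p : ℕ} (hξ : IsPrimitiveRoot ξ p) {f : LaurentSeries k}
    {e : ℤ} (he : f.coeff e ≠ 0) (hcop : IsCoprime e (p : ℤ))
    {m : (LaurentSeries k)[X]} (hfix : m.map (twist ξ) = m) {i : ℕ}
    (hroot : m.IsRoot (twist (ξ ^ i) f)) : conjProd ξ p f ∣ m := by
  -- all twists are roots
  have hall : ∀ j : ℕ, m.IsRoot (twist (ξ ^ (i + j)) f) := by
    intro j
    induction j with
    | zero => simpa using hroot
    | succ j ih =>
      have := isRoot_map_of_map_eq hfix ih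
      rwa [← twist_mul_unit, ← pow_succ', add_assoc] at this
  have hper : ∀ a b : ℕ, a % p = b % p → twist (ξ ^ a) f = twist (ξ ^ b) f := by
    intro a b hab
    have : ξ ^ a = ξ ^ b := by
      rw [← Nat.mod_add_div a p, ← Nat.mod_add_div b p, _root_.pow_add, _root_.pow_add, pow_mul, pow_mul,
        hξ.pow_eq_one, one_pow, one_pow, hab]
    rw [this]
  rcases Nat.eq_zero_or_pos p with hp0 | hp
  · subst hp0
    simp [conjProd]
  have hroots : ∀ j ∈ Finset.range p, (X - Polynomial.C (twist (ξ ^ j) f)) ∣ m := by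
    intro j _
    rw [dvd_iff_isRoot]
    -- j ≡ i + (j + (p - 1) * i) mod p
    have := hall (j + (p - 1) * i)
    rwa [hper (i + (j + (p - 1) * i)) j (by
      have : i + (j + (p - 1) * i) = j + p * i := by
        have hp1 : p = (p - 1) + 1 := by omega
        conv_rhs => rw [hp1]
        ring
      rw [this, Nat.add_mul_mod_self_left])] at this
  refine Finset.prod_dvd_of_coprime ?_ hroots
  intro a ha b hb hab
  have hinj : twist (ξ ^ a) f ≠ twist (ξ ^ b) f := fun h =>
    hab (twist_pow_inj hξ he hcop (Finset.mem_range.mp ha) (Finset.mem_range.mp hb) h)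
  exact (isCoprime_X_sub_C_of_isUnit_sub (sub_ne_zero.mpr hinj).isUnit)

theorem le_natDegree_of_isRoot_twist {ξ : kˣ} {p : ℕ} (hξ : IsPrimitiveRoot ξ p)
    {f : LaurentSeries k} {e : ℤ} (he : f.coeff e ≠ 0) (hcop : IsCoprime e (p : ℤ))
    {m : (LaurentSeries k)[X]} (hm0 : m ≠ 0) (hfix : m.map (twist ξ) = m) {i : ℕ}
    (hroot : m.IsRoot (twist (ξ ^ i) f)) : p ≤ m.natDegree := by
  have h := natDegree_le_of_dvd (conjProd_dvd hξ he hcop hfix hroot) hm0
  rwa [conjProd_natDegree] at h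

/-- `conjProd ξ p f` is fixed by `twist ξ` when `ξ ^ p = 1`. -/
theorem conjProd_map_twist {ξ : kˣ} {p : ℕ} (hξ : ξ ^ p = 1) (f : LaurentSeries k) :
    (conjProd ξ p f).map (twist ξ) = conjProd ξ p f := by
  rcases Nat.eq_zero_or_pos p with hp0 | hp
  · subst hp0; simp [conjProd]
  obtain ⟨n, rfl⟩ : ∃ n, p = n + 1 := ⟨p - 1, by omega⟩
  rw [conjProd, Polynomial.map_prod]
  have hg : ∀ i, (X - Polynomial.C (twist (ξ ^ i) f)).map (twist ξ) =
      X - Polynomial.C (twist (ξ ^ (i + 1)) f) := by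
    intro i
    rw [Polynomial.map_sub, Polynomial.map_X, Polynomial.map_C, ← twist_mul_unit, ← pow_succ']
  simp only [hg]
  rw [Finset.prod_range_succ,
    Finset.prod_range_succ' (fun i => X - Polynomial.C (twist (ξ ^ i) f)), hξ, pow_zero]

/-- The coefficients of `conjProd ξ p f` are series in `q^p`. -/
theorem conjProd_coeff_mem_range {ξ : kˣ} {p : ℕ} [NeZero p] (hξ : IsPrimitiveRoot ξ p)
    (f : LaurentSeries k) (n : ℕ) : (conjProd ξ p f).coeff n ∈ Set.range (qExpand k p) := by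
  rw [← twist_eq_self_iff hξ]
  have h := congrArg (fun P : (LaurentSeries k)[X] => P.coeff n) (conjProd_map_twist hξ.pow_eq_one f)
  simpa [Polynomial.coeff_map] using h

end Fermat.Agent.S28lib
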