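import Mathlib
import Fermat.Agent.S28lib.Conjugates

/-!
# S28 library, brick C1: Kummer-type lemmas for the series `j(z u^e)`

We write `j(z u^e)` for `jS k z e = qExpand k e (twist z (jqModC k))` (see `Defs.lean`).
* `K1`: transport of the factored modular equation `ModPolyData.factor` along `t ↦ ζ' u^e'`.
* `K2`: `j(z u^e)` determines `(z, e)`; it lies in the range of `qExpand k m` iff `m ∣ e`.
* `K3`: the orbit lemma — a polynomial over `k((u))` fixed by `twist ξ` which vanishes at one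
  `j(ζ^i w u^e)` (`ζ = ξ^e` a primitive `p`-th root of unity) is divisible by
  `∏_{i<p} (X - j(ζ^i w u^e))`.
* `K4`: a nonzero polynomial in `jqModC` has a nonzero coefficient of index `≤ 0`.
-/

set_option autoImplicit false

noncomputable section

open HahnSeries ModularCurve Polynomial

namespace Fermat.Agent.S28lib

section OrbitGeneral

variable {k : Type*} [Field k]

/-- General orbit lemma: if the orbit `f, f(ξq), …` of `f` under `twist ξ` has exact period `p`,
any polynomial fixed by `twist ξ` and vanishing at one point of the orbit is divisible by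
`conjProd ξ p f`. -/
theorem conjProd_dvd_of_orbit {ξ : kˣ} {p : ℕ} {f : LaurentSeries k}
    (hper : twist (ξ ^ p) f = f)
    (hinj : ∀ i < p, ∀ j < p, twist (ξ ^ i) f = twist (ξ ^ j) f → i = j)
    {m : (LaurentSeries k)[X]} (hfix : m.map (twist ξ) = m) {i : ℕ}
    (hroot : m.IsRoot (twist (ξ ^ i) f)) : conjProd ξ p f ∣ m := by
  have hall : ∀ j : ℕ, m.IsRoot (twist (ξ ^ (i + j)) f) := by
    intro j
    induction j with
    | zero => simpa using hroot
    | succ j ih =>
      have := isRoot_map_of_map_eq hfix ih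
      rwa [← twist_mul_unit, ← pow_succ', add_assoc] at this
  have hmul : ∀ c a : ℕ, twist (ξ ^ (a + p * c)) f = twist (ξ ^ a) f := by
    intro c a
    induction c with
    | zero => simp
    | succ c ih =>
      rw [Nat.mul_succ, ← add_assoc, _root_.pow_add, twist_mul_unit, hper, ih]
  rcases Nat.eq_zero_or_pos p with hp0 | hp
  · subst hp0
    simp [conjProd]
  have hroots : ∀ j ∈ Finset.range p, (X - Polynomial.C (twist (ξ ^ j) f)) ∣ m := by
    intro j _
    rw [dvd_iff_isRoot]
    have h1 := hall (j + (p - 1) * i)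
    have h2 : i + (j + (p - 1) * i) = j + p * i := by
      have hp1 : p = (p - 1) + 1 := by omega
      conv_rhs => rw [hp1]
      ring
    rwa [h2, hmul] at h1
  refine Finset.prod_dvd_of_coprime ?_ hroots
  intro a ha b hb hab
  have hne : twist (ξ ^ a) f ≠ twist (ξ ^ b) f := fun h =>
    hab (hinj a (Finset.mem_range.mp ha) b (Finset.mem_range.mp hb) h)
  exact isCoprime_X_sub_C_of_isUnit_sub (sub_ne_zero.mpr hne).isUnit

/-- A polynomial all of whose coefficients are series in `q^m` is fixed by `twist ξ` when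
`ξ ^ m = 1`. -/
theorem map_twist_eq_self_of_coeff_mem_range {ξ : kˣ} {m : ℕ} [NeZero m] (hξ : ξ ^ m = 1)
    {g : (LaurentSeries k)[X]} (hg : ∀ n, g.coeff n ∈ Set.range (qExpand k m)) :
    g.map (twist ξ) = g := by
  ext n : 1
  rw [Polynomial.coeff_map]
  obtain ⟨c, hc⟩ := hg n
  rw [← hc, twist_qExpand_of_pow_eq_one ξ m hξ]

/-- Conversely: the coefficients of a polynomial fixed by `twist ξ`, `ξ` a primitive `m`-th root
of unity, are series in `q^m`. -/
theorem coeff_mem_range_of_map_twist_eq_self {ξ : kˣ} {m : ℕ} [NeZero m]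
    (hξ : IsPrimitiveRoot ξ m) {g : (LaurentSeries k)[X]} (hg : g.map (twist ξ) = g) (n : ℕ) :
    g.coeff n ∈ Set.range (qExpand k m) := by
  rw [← twist_eq_self_iff hξ]
  have h := congrArg (fun P : (LaurentSeries k)[X] => P.coeff n) hg
  simpa [Polynomial.coeff_map] using h

/-- Reindexing a product over the powers of a primitive root. -/
theorem prod_pow_primitiveRoot_eq {M : Type*} [CommMonoid M] {ζ ζ' : kˣ} {p : ℕ}
    (hζ : IsPrimitiveRoot ζ p) (hζ' : IsPrimitiveRoot ζ' p) (F : kˣ → M) :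
    ∏ i ∈ Finset.range p, F (ζ ^ i) = ∏ i ∈ Finset.range p, F (ζ' ^ i) := by
  classical
  have key : ∀ {η : kˣ}, IsPrimitiveRoot η p →
      (Finset.range p).image (fun i => η ^ i) = (Finset.range p).image (fun i => ζ ^ i) := by
    intro η hη
    apply Finset.eq_of_subset_of_card_le
    · intro x hx
      obtain ⟨i, _, rfl⟩ := Finset.mem_image.mp hx
      have h1 : (η ^ i) ^ p = 1 := by rw [← pow_mul, mul_comm, pow_mul, hη.pow_eq_one, one_pow]
      rcases Nat.eq_zero_or_pos p with hp0 | hp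
      · subst hp0; simp at *
      have : NeZero p := ⟨hp.ne'⟩
      obtain ⟨j, hj, hj'⟩ := hζ.eq_pow_of_mem_rootsOfUnity ((mem_rootsOfUnity p _).mpr h1)
      exact Finset.mem_image.mpr ⟨j, Finset.mem_range.mpr hj, hj'⟩
    · rw [Finset.card_image_of_injOn, Finset.card_image_of_injOn]
      · intro a ha b hb hab
        exact hη.pow_inj (Finset.mem_range.mp ha) (Finset.mem_range.mp hb) hab
      · intro a ha b hb hab
        exact hζ.pow_inj (Finset.mem_range.mp ha) (Finset.mem_range.mp hb) hab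
  have h1 : ∀ {η : kˣ}, IsPrimitiveRoot η p →
      ∏ i ∈ Finset.range p, F (η ^ i) = ∏ x ∈ (Finset.range p).image (fun i => η ^ i), F x := by
    intro η hη
    rw [Finset.prod_image]
    intro a ha b hb hab
    exact hη.pow_inj (Finset.mem_range.mp ha) (Finset.mem_range.mp hb) hab
  rw [h1 hζ, h1 hζ', key hζ']

end OrbitGeneral

section JSub

variable {R : Type*} [CommRing R]

namespace Kummer

theorem jS_coeff_neg (z : Rˣ) (e : ℕ) [NeZero e] :
    (jS R z e).coeff (-(e : ℤ)) = ((z⁻¹ : Rˣ) : R) := by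
  have h : -(e : ℤ) = (e : ℤ) * (-1) := by ring
  rw [jS, h, qExpand_coeff_mul, twist_coeff, coeff_jqModC_neg_one, mul_one, zpow_neg_one]

theorem jS_coeff_of_lt (z : Rˣ) (e : ℕ) [NeZero e] {n : ℤ} (hn : n < -(e : ℤ)) :
    (jS R z e).coeff n = 0 := by
  by_cases hdvd : (e : ℤ) ∣ n
  · obtain ⟨m, rfl⟩ := hdvd
    have he : (0 : ℤ) < e := by exact_mod_cast Nat.pos_of_ne_zero (NeZero.ne e)
    have hm : m < -1 := by
      by_contra hm
      rw [not_lt] at hm
      have : (e : ℤ) * (-1) ≤ (e : ℤ) * m := mul_le_mul_of_nonneg_left hm he.le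
      omega
    rw [jS, qExpand_coeff_mul, twist_coeff, coeff_jqModC_of_lt R hm, mul_zero]
  · exact qExpand_coeff_of_not_dvd e _ hdvd

theorem jS_ne_zero [Nontrivial R] (z : Rˣ) (e : ℕ) [NeZero e] : jS R z e ≠ 0 := by
  intro h
  have h1 := jS_coeff_neg z e
  rw [h, HahnSeries.coeff_zero] at h1
  exact (z⁻¹).ne_zero h1.symm

theorem twist_jS (ξ w : Rˣ) (e : ℕ) [NeZero e] :
    twist ξ (jS R w e) = jS R (ξ ^ e * w) e := by
  rw [jS, twist_qExpand, ← twist_mul_unit, jS]

theorem qExpand_jS (m : ℕ) [NeZero m] (w : Rˣ) (e : ℕ) [NeZero e] :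
    haveI : NeZero (m * e) := ⟨Nat.mul_ne_zero (NeZero.ne m) (NeZero.ne e)⟩
    qExpand R m (jS R w e) = jS R w (m * e) := by
  rw [jS, qExpand_qExpand, jS]

theorem coeffMap_jS {S : Type*} [CommRing S] (φ : R →+* S) (w : Rˣ) (e : ℕ) [NeZero e] :
    coeffMap φ (jS R w e) = jS S (Units.map (φ : R →* S) w) e := by
  rw [jS, coeffMap_qExpand, coeffMap_twist, coeffMap_jqModC, jS]

theorem jS_one_one : jS R 1 1 = jqModC R := by
  rw [jS, twist_one_unit, qExpand_one_apply]

theorem jS_congr (w : Rˣ) {e e' : ℕ} [NeZero e] [NeZero e'] (h : e = e') :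
    jS R w e = jS R w e' := by
  subst h; rfl

end Kummer

open Kummer

/-- `K2`: the series `j(z u^e)` determines `z` and `e`. -/
theorem jS_inj [Nontrivial R] {z z' : Rˣ} {e e' : ℕ} [NeZero e] [NeZero e'] :
    jS R z e = jS R z' e' ↔ z = z' ∧ e = e' := by
  constructor
  · intro h
    have he : e = e' := by
      by_contra hne
      rcases lt_or_gt_of_ne hne with hlt | hgt
      · have h1 := jS_coeff_neg z' e'
        rw [← h, jS_coeff_of_lt z e (by omega)] at h1
        exact (z'⁻¹).ne_zero h1.symm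
      · have h1 := jS_coeff_neg z e
        rw [h, jS_coeff_of_lt z' e' (by omega)] at h1
        exact (z⁻¹).ne_zero h1.symm
    subst he
    refine ⟨?_, rfl⟩
    have h1 := jS_coeff_neg z e
    rw [h, jS_coeff_neg] at h1
    exact inv_injective (Units.ext h1.symm)
  · rintro ⟨rfl, rfl⟩
    rfl

/-- `j(w u^e)` is a series in `u^m` iff `m ∣ e`. -/
theorem jS_mem_range_qExpand_iff [Nontrivial R] (m : ℕ) [NeZero m] (w : Rˣ) (e : ℕ) [NeZero e] :
    jS R w e ∈ Set.range (qExpand R m) ↔ m ∣ e := by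
  constructor
  · intro h
    rw [mem_range_qExpand_iff] at h
    by_contra hdvd
    have h1 := h (-(e : ℤ)) (by
      rw [Int.dvd_neg]
      exact_mod_cast hdvd)
    rw [jS_coeff_neg] at h1
    exact (w⁻¹).ne_zero h1
  · rintro ⟨c, rfl⟩
    have : NeZero c := ⟨fun h => NeZero.ne (m * c) (by rw [h, mul_zero])⟩
    exact ⟨jS R w c, qExpand_jS m w c⟩

end JSub

section OrbitJ

open Kummer

variable {k : Type*} [Field k]

/-- `K3`, orbit lemma for the series `j(ζ^i w u^e)`, with `ζ = ξ^e`. -/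
theorem prod_jS_dvd_of_isRoot {ξ : kˣ} {p e : ℕ} [NeZero e] (hξ : IsPrimitiveRoot (ξ ^ e) p)
    (w : kˣ) {m : (LaurentSeries k)[X]} (hfix : m.map (twist ξ) = m) {i : ℕ}
    (hroot : m.IsRoot (jS k ((ξ ^ e) ^ i * w) e)) :
    ∏ j ∈ Finset.range p, (X - Polynomial.C (jS k ((ξ ^ e) ^ j * w) e)) ∣ m := by
  have htw : ∀ j : ℕ, twist (ξ ^ j) (jS k w e) = jS k ((ξ ^ e) ^ j * w) e := by
    intro j
    rw [twist_jS, ← pow_mul, ← pow_mul, mul_comm j e]
  have h := conjProd_dvd_of_orbit (ξ := ξ) (p := p) (f := jS k w e) (m := m) (i := i)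
    (by rw [htw, hξ.pow_eq_one, one_mul])
    (fun a ha b hb hab => by
      rw [htw, htw, jS_inj] at hab
      exact hξ.pow_inj ha hb (mul_right_cancel hab.1))
    hfix (by rw [htw]; exact hroot)
  rw [conjProd] at h
  simpa only [htw] using h

/-- `K3` for an arbitrary primitive `p`-th root of unity `ζ` in place of `ξ^e`. -/
theorem prod_jS_dvd_of_isRoot' {ξ ζ : kˣ} {p e : ℕ} [NeZero e]
    (hξ : IsPrimitiveRoot (ξ ^ e) p) (hζ : IsPrimitiveRoot ζ p)
    (w : kˣ) {m : (LaurentSeries k)[X]} (hfix : m.map (twist ξ) = m) {i : ℕ}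
    (hroot : m.IsRoot (jS k (w * ζ ^ i) e)) :
    ∏ j ∈ Finset.range p, (X - Polynomial.C (jS k (w * ζ ^ j) e)) ∣ m := by
  rcases Nat.eq_zero_or_pos p with hp0 | hp
  · subst hp0; simp
  have : NeZero p := ⟨hp.ne'⟩
  have h1 : (ζ ^ i) ^ p = 1 := by rw [← pow_mul, mul_comm, pow_mul, hζ.pow_eq_one, one_pow]
  obtain ⟨i', _, hi'⟩ := hξ.eq_pow_of_mem_rootsOfUnity ((mem_rootsOfUnity p _).mpr h1)
  have h2 := prod_jS_dvd_of_isRoot hξ w hfix (i := i') (by rw [hi', mul_comm]; exact hroot)
  have h3 := prod_pow_primitiveRoot_eq hξ hζ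
    (fun x : kˣ => (X - Polynomial.C (jS k (x * w) e) : (LaurentSeries k)[X]))
  rw [h3] at h2
  simpa only [mul_comm w] using h2

end OrbitJ

section Poly

variable {R : Type*} [CommRing R]

namespace Kummer

theorem algebraMap_laurent_eq_C (c : R) :
    algebraMap R (LaurentSeries R) c = HahnSeries.C c := by
  rw [HahnSeries.algebraMap_apply']
  simp

theorem coeff_algebraMap_mul (c : R) (x : LaurentSeries R) (n : ℤ) :
    (algebraMap R (LaurentSeries R) c * x).coeff n = c * x.coeff n := by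
  rw [algebraMap_laurent_eq_C, HahnSeries.C_mul_eq_smul, HahnSeries.coeff_smul, smul_eq_mul]

end Kummer

open Kummer

/-- `K4`: the coefficient of index `-(deg P)` of `P(j)` is the leading coefficient of `P`. -/
theorem coeff_aeval_jqModC_neg_natDegree (P : R[X]) :
    (Polynomial.aeval (jqModC R) P).coeff (-(P.natDegree : ℤ)) = P.leadingCoeff := by
  rw [Polynomial.aeval_eq_sum_range, HahnSeries.coeff_sum, Finset.sum_range_succ]
  rw [Finset.sum_eq_zero, zero_add]
  · rw [Algebra.smul_def, coeff_algebraMap_mul, coeff_jqModC_pow_self, mul_one,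
      Polynomial.leadingCoeff]
  · intro i hi
    rw [Algebra.smul_def, coeff_algebraMap_mul, coeff_jqModC_pow_of_lt R (by
      have := Finset.mem_range.mp hi
      omega), mul_zero]

/-- `K4`: a polynomial `P` with `P(j)` having no nonzero coefficient of index `≤ 0` is zero. -/
theorem eq_zero_of_aeval_jqModC_coeff_nonpos {P : R[X]}
    (h : ∀ n : ℤ, n ≤ 0 → (Polynomial.aeval (jqModC R) P).coeff n = 0) : P = 0 := by
  have h1 := h (-(P.natDegree : ℤ)) (by omega)
  rw [coeff_aeval_jqModC_neg_natDegree] at h1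
  exact Polynomial.leadingCoeff_eq_zero.mp h1

theorem aeval_jqModC_injective :
    Function.Injective (Polynomial.aeval (jqModC R) : R[X] → LaurentSeries R) := by
  rw [injective_iff_map_eq_zero]
  intro P hP
  exact eq_zero_of_aeval_jqModC_coeff_nonpos fun n _ => by rw [hP, HahnSeries.coeff_zero]

/-- `K4`, order form: a nonzero polynomial in `j` has order `≤ 0`. -/
theorem order_aeval_jqModC_le {P : R[X]} (hP : P ≠ 0) :
    (Polynomial.aeval (jqModC R) P).order ≤ 0 := by
  have h1 : (Polynomial.aeval (jqModC R) P).coeff (-(P.natDegree : ℤ)) ≠ 0 := by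
    rw [coeff_aeval_jqModC_neg_natDegree]
    exact Polynomial.leadingCoeff_ne_zero.mpr hP
  have h2 := HahnSeries.order_le_of_coeff_ne_zero h1
  omega

end Poly

section Transport

open Kummer

variable {R : Type*} [CommRing R]

/-- A ring endomorphism of `R((u))` fixing the constants commutes with evaluation of polynomials. -/
theorem comp_evalJ (s : LaurentSeries R →+* LaurentSeries R)
    (hs : ∀ c : R, s (HahnSeries.C c) = HahnSeries.C c) (y : LaurentSeries R) :
    s.comp (evalJ R y) = evalJ R (s y) := by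
  apply Polynomial.ringHom_ext
  · intro a
    simp only [evalJ, RingHom.comp_apply, AlgHom.toRingHom_eq_coe, RingHom.coe_coe,
      Polynomial.aeval_C, algebraMap_laurent_eq_C, hs]
  · simp only [RingHom.comp_apply, evalJ_X]

/-- The substitution `t ↦ ζ' u^e'` on Laurent series. -/
def substHom (ζ' : Rˣ) (e' : ℕ) [NeZero e'] : LaurentSeries R →+* LaurentSeries R :=
  (qExpand R e').comp (twist ζ')

theorem substHom_apply (ζ' : Rˣ) (e' : ℕ) [NeZero e'] (f : LaurentSeries R) :
    substHom ζ' e' f = qExpand R e' (twist ζ' f) := rfl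

theorem substHom_C (ζ' : Rˣ) (e' : ℕ) [NeZero e'] (c : R) :
    substHom ζ' e' (HahnSeries.C c) = HahnSeries.C c := by
  rw [substHom_apply, twist_C, qExpand_C]

theorem substHom_jqModC (ζ' : Rˣ) (e' : ℕ) [NeZero e'] :
    substHom ζ' e' (jqModC R) = jS R ζ' e' := rfl

theorem substHom_twist_jqModC (ζ' w : Rˣ) (e' : ℕ) [NeZero e'] :
    substHom ζ' e' (twist w (jqModC R)) = jS R (ζ' * w) e' := by
  rw [substHom_apply, ← twist_mul_unit, jS]

theorem substHom_qExpand_jqModC (ζ' : Rˣ) (e' : ℕ) [NeZero e'] (m : ℕ) [NeZero m] :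
    substHom ζ' e' (qExpand R m (jqModC R)) = jS R (ζ' ^ m) (e' * m) := by
  rw [substHom_apply, twist_qExpand, qExpand_qExpand, jS]

theorem substHom_jS (ζ' : Rˣ) (e' : ℕ) [NeZero e'] (w : Rˣ) (e : ℕ) [NeZero e] :
    substHom ζ' e' (jS R w e) = jS R (ζ' ^ e * w) (e' * e) := by
  rw [substHom_apply, twist_jS, qExpand_jS]

theorem substHom_comp_evalJ (ζ' : Rˣ) (e' : ℕ) [NeZero e'] (y : LaurentSeries R) :
    (substHom ζ' e').comp (evalJ R y) = evalJ R (substHom ζ' e' y) :=
  comp_evalJ _ (substHom_C ζ' e') y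

end Transport

section K1

open Kummer

variable {k : Type*} [Field k]

/-- `K1`: the factored modular equation transported along `t ↦ ζ' u^e'`:
`Φ(X, j(ζ'^p u^{e'p})) = (X - j(ζ'^{p²} u^{e'p²})) ∏_{i<p} (X - j(ζ' ζ^i u^{e'}))`. -/
theorem ModPolyData.factor_subst {p : ℕ} [NeZero p] (D : ModPolyData k p) (ζ' : kˣ) (e' : ℕ)
    [NeZero e'] :
    D.Φ.map (evalJ k (jS k (ζ' ^ p) (e' * p))) =
      (X - Polynomial.C (jS k (ζ' ^ (p * p)) (e' * p * p))) *
        ∏ i ∈ Finset.range p, (X - Polynomial.C (jS k (ζ' * D.ζ ^ i) e')) := by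
  have h := congrArg (Polynomial.map (substHom ζ' e')) D.factor
  rw [Polynomial.map_map, substHom_comp_evalJ, substHom_qExpand_jqModC, Polynomial.map_mul,
    Polynomial.map_sub, Polynomial.map_X, Polynomial.map_C, Polynomial.map_prod] at h
  rw [h]
  congr 1
  · congr 2
    rw [qExpand_qExpand, substHom_qExpand_jqModC]
    exact jS_congr _ (mul_assoc e' p p).symm
  · refine Finset.prod_congr rfl fun i _ => ?_
    rw [Polynomial.map_sub, Polynomial.map_X, Polynomial.map_C, substHom_twist_jqModC]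

end K1

end Fermat.Agent.S28lib
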