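/-
S28 (Igusa), brick C2a (helper3): abstract irreducibility criteria.

`ε : G →+* L` is an embedding of fields, `τ : L →+* L` fixes `ε G` pointwise and permutes
`r 0, …, r (p-1)` cyclically.  A monic polynomial over `G` whose image over `L` is
`∏_{i<p} (X - r i)` is irreducible; one whose image is `(X - s) ∏_{i<p} (X - r i)` with
`s ∉ ε G` is irreducible as well.
-/
import Mathlib

set_option autoImplicit false

namespace Fermat.Agent.S28lib.Chain

open Polynomial

section Orbit

variable {L : Type*} [Field L]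

/-- If `m` is fixed by `τ`, `τ (r i) = r (i+1)`, `r p = r 0`, the `r i` (`i < p`) are pairwise
distinct and one `r i₀` is a root of `m`, then `∏_{i<p} (X - r i)` divides `m`. -/
theorem orbit_prod_dvd (τ : L →+* L) {m : L[X]} (hm : m.map τ = m) (p : ℕ) (r : ℕ → L)
    (hτ : ∀ i, τ (r i) = r (i + 1)) (hper : r p = r 0)
    (hinj : ∀ i, i < p → ∀ j, j < p → r i = r j → i = j) (i₀ : ℕ) (hroot : m.IsRoot (r i₀)) :
    ∏ i ∈ Finset.range p, (X - C (r i)) ∣ m := by
  have hstep : ∀ x : L, m.IsRoot x → m.IsRoot (τ x) := by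
    intro x hx
    have h := eval_map_apply (p := m) τ x
    rw [hm, hx.eq_zero, map_zero] at h
    exact h
  have hall : ∀ j, m.IsRoot (r (i₀ + j)) := by
    intro j
    induction j with
    | zero => simpa using hroot
    | succ j ih =>
      have := hstep _ ih
      rwa [hτ, add_assoc] at this
  have hperiod : ∀ i, r (i + p) = r i := by
    intro i
    induction i with
    | zero => simpa using hper
    | succ i ih =>
      have h1 : r (i + 1 + p) = τ (r (i + p)) := by rw [hτ]; congr 1; ring
      rw [h1, ih, hτ]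
  have hperiod' : ∀ c i, r (i + c * p) = r i := by
    intro c
    induction c with
    | zero => intro i; simp
    | succ c ih =>
      intro i
      have : i + (c + 1) * p = (i + c * p) + p := by ring
      rw [this, hperiod, ih]
  rcases Nat.eq_zero_or_pos p with hp0 | hp
  · subst hp0; simp
  have hroots : ∀ j ∈ Finset.range p, (X - C (r j)) ∣ m := by
    intro j _
    rw [dvd_iff_isRoot]
    -- `j + p * i₀ = i₀ + (j + (p - 1) * i₀)`
    have h1 := hall (j + (p - 1) * i₀)
    have h2 : i₀ + (j + (p - 1) * i₀) = j + i₀ * p := by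
      obtain ⟨n, rfl⟩ : ∃ n, p = n + 1 := ⟨p - 1, by omega⟩
      simp only [Nat.add_sub_cancel]
      ring
    rwa [h2, hperiod'] at h1
  refine Finset.prod_dvd_of_coprime ?_ hroots
  intro a ha b hb hab
  have hne : r a ≠ r b := fun h =>
    hab (hinj a (Finset.mem_range.mp ha) b (Finset.mem_range.mp hb) h)
  exact isCoprime_X_sub_C_of_isUnit_sub (sub_ne_zero.mpr hne).isUnit

end Orbit

section Irred

variable {G L : Type*} [Field G] [Field L]

/-- Degree bound: a monic factor over `G` one of whose roots (after `ε`) is some `r i₀`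
has degree at least `p`. -/
theorem orbit_le_natDegree (ε : G →+* L) (τ : L →+* L) (hτε : ∀ x, τ (ε x) = ε x)
    (p : ℕ) (r : ℕ → L) (hτ : ∀ i, τ (r i) = r (i + 1)) (hper : r p = r 0)
    (hinj : ∀ i, i < p → ∀ j, j < p → r i = r j → i = j) {f : G[X]} (hf : f.Monic) (i₀ : ℕ)
    (hroot : (f.map ε).IsRoot (r i₀)) :
    ∏ i ∈ Finset.range p, (X - C (r i)) ∣ f.map ε ∧ p ≤ f.natDegree := by
  have hfix : (f.map ε).map τ = f.map ε := by
    rw [Polynomial.map_map]
    congr 1
    ext x
    exact hτε x
  have hdvd := orbit_prod_dvd τ hfix p r hτ hper hinj i₀ hroot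
  refine ⟨hdvd, ?_⟩
  have h := natDegree_le_of_dvd hdvd (hf.map ε).ne_zero
  rw [natDegree_prod_of_monic _ _ fun _ _ => monic_X_sub_C _] at h
  simpa [hf.natDegree_map] using h

/-- A monic polynomial over `G` splitting over `L` into one `τ`-orbit of `p` distinct roots
is irreducible. -/
theorem irreducible_of_orbit (ε : G →+* L) (τ : L →+* L) (hτε : ∀ x, τ (ε x) = ε x)
    (p : ℕ) (hp : 0 < p) (r : ℕ → L) (hτ : ∀ i, τ (r i) = r (i + 1)) (hper : r p = r 0)
    (hinj : ∀ i, i < p → ∀ j, j < p → r i = r j → i = j) {Q : G[X]} (hQ : Q.Monic)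
    (hmap : Q.map ε = ∏ i ∈ Finset.range p, (X - C (r i))) : Irreducible Q := by
  have hdeg : Q.natDegree = p := by
    have h := congrArg natDegree hmap
    rw [hQ.natDegree_map, natDegree_prod_of_monic _ _ fun _ _ => monic_X_sub_C _] at h
    simpa using h
  rw [hQ.irreducible_iff_natDegree]
  refine ⟨fun h1 => ?_, ?_⟩
  · rw [h1, natDegree_one] at hdeg; omega
  intro f g hf hg hfg
  have hsum : f.natDegree + g.natDegree = p := by
    rw [← hdeg, ← hfg, hf.natDegree_mul hg]
  have hr0 : (Q.map ε).IsRoot (r 0) := by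
    rw [hmap, ← dvd_iff_isRoot]
    exact Finset.dvd_prod_of_mem _ (Finset.mem_range.mpr hp)
  rw [← hfg, Polynomial.map_mul, IsRoot.def, eval_mul, mul_eq_zero] at hr0
  rcases hr0 with h0 | h0
  · have := (orbit_le_natDegree ε τ hτε p r hτ hper hinj hf 0 h0).2
    right; omega
  · have := (orbit_le_natDegree ε τ hτε p r hτ hper hinj hg 0 h0).2
    left; omega

/-- A monic polynomial over `G` whose image over `L` is `(X - s) ∏_{i<p} (X - r i)`, the `r i`
forming one `τ`-orbit of `p` distinct elements and `s ∉ ε G`, is irreducible. -/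
theorem irreducible_of_orbit_of_not_mem (ε : G →+* L) (τ : L →+* L) (hτε : ∀ x, τ (ε x) = ε x)
    (p : ℕ) (hp : 0 < p) (r : ℕ → L) (hτ : ∀ i, τ (r i) = r (i + 1)) (hper : r p = r 0)
    (hinj : ∀ i, i < p → ∀ j, j < p → r i = r j → i = j) (s : L) (hs : ∀ c : G, ε c ≠ s)
    {P : G[X]} (hP : P.Monic)
    (hmap : P.map ε = (X - C s) * ∏ i ∈ Finset.range p, (X - C (r i))) : Irreducible P := by
  set R : L[X] := ∏ i ∈ Finset.range p, (X - C (r i)) with hR
  have hRmonic : R.Monic := monic_prod_of_monic _ _ fun _ _ => monic_X_sub_C _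
  have hRdeg : R.natDegree = p := by
    rw [hR, natDegree_prod_of_monic _ _ fun _ _ => monic_X_sub_C _]; simp
  have hdeg : P.natDegree = p + 1 := by
    have h := congrArg natDegree hmap
    rw [hP.natDegree_map, (monic_X_sub_C s).natDegree_mul hRmonic, natDegree_X_sub_C, hRdeg] at h
    omega
  -- key: a monic factorisation `f * g = P` with `r 0` a root of `f` forces `g` constant
  have key : ∀ f g : G[X], f.Monic → g.Monic → f * g = P → (f.map ε).IsRoot (r 0) →
      g.natDegree = 0 := by
    intro f g hf hg hfg h0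
    have hsum : f.natDegree + g.natDegree = p + 1 := by
      rw [← hdeg, ← hfg, hf.natDegree_mul hg]
    obtain ⟨hdvd, hle⟩ := orbit_le_natDegree ε τ hτε p r hτ hper hinj hf 0 h0
    by_contra hg0
    have hg1 : g.natDegree = 1 := by omega
    have hfp : f.natDegree = p := by omega
    -- `f.map ε = R`
    have hfR : f.map ε = R := by
      refine eq_of_monic_of_dvd_of_natDegree_le hRmonic (hf.map ε) hdvd ?_
      rw [hf.natDegree_map, hRdeg, hfp]
    -- cancel `R`
    have h1 : R * g.map ε = R * (X - C s) := by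
      rw [← hfR, ← Polynomial.map_mul, hfg, hmap, hfR, mul_comm]
    have h2 : g.map ε = X - C s := mul_left_cancel₀ hRmonic.ne_zero h1
    -- `g = X + C c`
    have hgX : g = X + C (g.coeff 0) := hg.eq_X_add_C hg1
    rw [hgX, Polynomial.map_add, Polynomial.map_X, Polynomial.map_C] at h2
    have h3 : C (ε (g.coeff 0)) = C (-s) := by
      have : (X : L[X]) + C (ε (g.coeff 0)) = X + C (-s) := by
        rw [h2, C_neg, sub_eq_add_neg]
      exact add_left_cancel this
    have h4 : ε (g.coeff 0) = -s := C_injective h3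
    exact hs (-(g.coeff 0)) (by rw [map_neg, h4, neg_neg])
  rw [hP.irreducible_iff_natDegree]
  refine ⟨fun h1 => ?_, ?_⟩
  · rw [h1, natDegree_one] at hdeg; omega
  intro f g hf hg hfg
  have hr0 : (P.map ε).IsRoot (r 0) := by
    rw [hmap, IsRoot.def, eval_mul, mul_eq_zero]
    right
    rw [← IsRoot.def, ← dvd_iff_isRoot]
    exact Finset.dvd_prod_of_mem _ (Finset.mem_range.mpr hp)
  rw [← hfg, Polynomial.map_mul, IsRoot.def, eval_mul, mul_eq_zero] at hr0
  rcases hr0 with h0 | h0
  · right; exact key f g hf hg hfg h0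
  · left; exact key g f hg hf (by rw [mul_comm]; exact hfg) h0

end Irred

end Fermat.Agent.S28lib.Chain
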