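/-
S28 (Igusa), brick C2a (helper3): the two multiplicativity steps of the Dedekind `ψ`-function
`dedekindPsi M = ∑_{d ∣ M squarefree} M / d` along a prime:
`ψ(M p) = p ψ(M)` if `p ∣ M`, and `ψ(M p) = (p + 1) ψ(M)` if `p ∤ M`.
-/
import Mathlib
import Fermat.Prelude.Def_ModularCurve_X0

set_option autoImplicit false

namespace Fermat.Agent.S28lib.Chain

open ModularCurve

/-- The squarefree divisors of `M * p` are those of `M` when `p ∣ M`. -/
theorem sqfree_divisors_mul_prime_of_dvd {M p : ℕ} (hM : M ≠ 0) (hp : p.Prime) (hpM : p ∣ M) :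
    (M * p).divisors.filter Squarefree = M.divisors.filter Squarefree := by
  ext d
  simp only [Finset.mem_filter, Nat.mem_divisors, ne_eq, mul_eq_zero, hM, hp.ne_zero, or_self,
    not_false_eq_true, and_true]
  constructor
  · rintro ⟨hd, hsq⟩
    refine ⟨?_, hsq⟩
    -- a squarefree divisor of `M * p` with `p ∣ M` divides `M`
    by_cases hpd : p ∣ d
    · obtain ⟨e, rfl⟩ := hpd
      have hcop : Nat.Coprime p e := by
        have := (Nat.squarefree_mul_iff.mp hsq).1
        exact this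
      obtain ⟨M', rfl⟩ := hpM
      have h1 : e ∣ p * M' * p := (Dvd.intro_left p rfl).trans hd
      have h2 : e ∣ p * M' := by
        have := (Nat.Coprime.dvd_mul_right hcop.symm).mp h1
        exact this
      have h3 : e ∣ M' := (Nat.Coprime.dvd_mul_left hcop.symm).mp h2
      exact mul_dvd_mul_left p h3
    · have hcop : Nat.Coprime d p := (Nat.Coprime.symm ((Nat.Prime.coprime_iff_not_dvd hp).mpr hpd))
      exact (Nat.Coprime.dvd_mul_right hcop).mp hd
  · rintro ⟨hd, hsq⟩
    exact ⟨hd.trans (Dvd.intro p rfl), hsq⟩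

theorem dedekindPsi_mul_prime_of_dvd {M p : ℕ} (hM : M ≠ 0) (hp : p.Prime) (hpM : p ∣ M) :
    dedekindPsi (M * p) = dedekindPsi M * p := by
  rw [dedekindPsi, dedekindPsi, sqfree_divisors_mul_prime_of_dvd hM hp hpM, Finset.sum_mul]
  refine Finset.sum_congr rfl fun d hd => ?_
  have hdM : d ∣ M := (Nat.mem_divisors.mp (Finset.mem_filter.mp hd).1).1
  obtain ⟨e, rfl⟩ := hdM
  have hd0 : 0 < d := Nat.pos_of_ne_zero (fun h => hM (by rw [h, zero_mul]))
  rw [mul_assoc, Nat.mul_div_cancel_left _ hd0, Nat.mul_div_cancel_left _ hd0]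

/-- The squarefree divisors of `M * p` for `p ∤ M`: those of `M`, and `p` times those. -/
theorem sqfree_divisors_mul_prime_of_not_dvd {M p : ℕ} (hM : M ≠ 0) (hp : p.Prime)
    (hpM : ¬ p ∣ M) :
    (M * p).divisors.filter Squarefree =
      M.divisors.filter Squarefree ∪ (M.divisors.filter Squarefree).image (· * p) := by
  ext d
  simp only [Finset.mem_filter, Nat.mem_divisors, ne_eq, mul_eq_zero, hM, hp.ne_zero, or_self,
    not_false_eq_true, and_true, Finset.mem_union, Finset.mem_image]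
  have hcopM : Nat.Coprime M p := (Nat.Coprime.symm ((Nat.Prime.coprime_iff_not_dvd hp).mpr hpM))
  constructor
  · rintro ⟨hd, hsq⟩
    by_cases hpd : p ∣ d
    · right
      obtain ⟨e, rfl⟩ := hpd
      have hsq' := Nat.squarefree_mul_iff.mp hsq
      refine ⟨e, ⟨?_, hsq'.2.2⟩, mul_comm e p⟩
      have h1 : p * e ∣ p * M := by rwa [mul_comm M p] at hd
      exact (Nat.mul_dvd_mul_iff_left hp.pos).mp h1
    · left
      have hcop : Nat.Coprime d p := (Nat.Coprime.symm ((Nat.Prime.coprime_iff_not_dvd hp).mpr hpd))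
      exact ⟨(Nat.Coprime.dvd_mul_right hcop).mp hd, hsq⟩
  · rintro (⟨hd, hsq⟩ | ⟨e, ⟨he, hsq⟩, rfl⟩)
    · exact ⟨hd.trans (Dvd.intro p rfl), hsq⟩
    · refine ⟨mul_dvd_mul_right he p, ?_⟩
      have hcop : Nat.Coprime e p := Nat.Coprime.coprime_dvd_left he hcopM
      exact Nat.squarefree_mul_iff.mpr ⟨hcop, hsq, hp.prime.squarefree⟩

theorem dedekindPsi_mul_prime_of_not_dvd {M p : ℕ} (hM : M ≠ 0) (hp : p.Prime) (hpM : ¬ p ∣ M) :
    dedekindPsi (M * p) = dedekindPsi M * (p + 1) := by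
  rw [dedekindPsi, dedekindPsi, sqfree_divisors_mul_prime_of_not_dvd hM hp hpM]
  have hdisj : Disjoint (M.divisors.filter Squarefree)
      ((M.divisors.filter Squarefree).image (· * p)) := by
    rw [Finset.disjoint_left]
    rintro d hd hd'
    obtain ⟨e, -, rfl⟩ := Finset.mem_image.mp hd'
    have hdM : e * p ∣ M := (Nat.mem_divisors.mp (Finset.mem_filter.mp hd).1).1
    exact hpM ((Dvd.intro_left e rfl).trans hdM)
  rw [Finset.sum_union hdisj, Finset.sum_image (fun a _ b _ h => Nat.eq_of_mul_eq_mul_right hp.pos h),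
    mul_add, mul_one, Finset.sum_mul]
  congr 1
  · refine Finset.sum_congr rfl fun d hd => ?_
    have hdM : d ∣ M := (Nat.mem_divisors.mp (Finset.mem_filter.mp hd).1).1
    obtain ⟨e, rfl⟩ := hdM
    have hd0 : 0 < d := Nat.pos_of_ne_zero (fun h => hM (by rw [h, zero_mul]))
    rw [mul_assoc, Nat.mul_div_cancel_left _ hd0, Nat.mul_div_cancel_left _ hd0]
  · refine Finset.sum_congr rfl fun d hd => ?_
    rw [Nat.mul_div_mul_right _ _ hp.pos]

end Fermat.Agent.S28lib.Chain
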