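/-
S28 library, brick F0 (helper7): lemmas on the shared series of `Defs.lean`
(`jS`, `DS`, `DeltaQ`, `jAt`, `evalJ`, `evalDiv`, `nuQ`): behaviour under `qExpand`, `twist`,
`coeffMap`; leading coefficients; and (over a field) orders, transcendence of `j`, and the order of
a polynomial in `j`.
-/
import Mathlib
import Fermat.Prelude.Def_ModularCurve_X0ModL
import Fermat.Agent.S28lib.Defs
import Fermat.Agent.S28lib.Twist

set_option autoImplicit false

noncomputable section

namespace Fermat.Agent.S28lib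

open ModularCurve HahnSeries Polynomial

section CommRing

variable {R : Type*} [CommRing R] {S : Type*} [CommRing S]

/-! ### `coeffMap` and constants -/

theorem coeffMap_C (f : R →+* S) (a : R) :
    coeffMap f (HahnSeries.C a : LaurentSeries R) = HahnSeries.C (f a) := by
  rw [HahnSeries.C_apply, coeffMap_single, HahnSeries.C_apply]

theorem algebraMap_laurent_eq_C (a : R) :
    algebraMap R (LaurentSeries R) a = (HahnSeries.C a : LaurentSeries R) := by
  have h1 : algebraMap R (PowerSeries R) a = PowerSeries.C a := by simp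
  rw [HahnSeries.algebraMap_apply', h1, HahnSeries.ofPowerSeries_C]

theorem coeffMap_algebraMap' (f : R →+* S) (a : R) :
    coeffMap f (algebraMap R (LaurentSeries R) a) = algebraMap S (LaurentSeries S) (f a) := by
  rw [algebraMap_laurent_eq_C, algebraMap_laurent_eq_C, coeffMap_C]

theorem coeffMap_evalJ (f : R →+* S) (y : LaurentSeries R) (P : Polynomial R) :
    coeffMap f (evalJ R y P) = evalJ S (coeffMap f y) (P.map f) := by
  have h : (coeffMap f).comp (evalJ R y) =
      (evalJ S (coeffMap f y)).comp (Polynomial.mapRingHom f) := by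
    apply Polynomial.ringHom_ext
    · intro a
      simp only [RingHom.coe_comp, Function.comp_apply, evalJ, AlgHom.toRingHom_eq_coe,
        RingHom.coe_coe, Polynomial.aeval_C, Polynomial.coe_mapRingHom, Polynomial.map_C]
      exact coeffMap_algebraMap' f a
    · simp only [RingHom.coe_comp, Function.comp_apply, evalJ, AlgHom.toRingHom_eq_coe,
        RingHom.coe_coe, Polynomial.aeval_X, Polynomial.coe_mapRingHom, Polynomial.map_X]
  exact congrFun (congrArg DFunLike.coe h) P

theorem coeffMap_jAt (f : R →+* S) (d : ℕ) : coeffMap f (jAt R d) = jAt S d := by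
  by_cases hd : d = 0
  · subst hd
    simp [jAt]
  · have : NeZero d := ⟨hd⟩
    rw [jAt_of_neZero, jAt_of_neZero, coeffMap_qExpand, coeffMap_jqModC]

theorem coeffMap_evalDiv (f : R →+* S) (P : MvPolynomial ℕ ℤ) :
    coeffMap f (evalDiv R P) = evalDiv S P := by
  have h : (coeffMap f).comp (evalDiv R) = evalDiv S := by
    apply MvPolynomial.ringHom_ext
    · intro a
      simp only [RingHom.coe_comp, Function.comp_apply, evalDiv, MvPolynomial.coe_eval₂Hom,
        MvPolynomial.eval₂_C]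
      simp
    · intro d
      simp only [RingHom.coe_comp, Function.comp_apply, evalDiv_X, coeffMap_jAt]
  exact congrFun (congrArg DFunLike.coe h) P

/-! ### `jS` -/

variable (R)

theorem qExpand_jS (ζ : Rˣ) (m e : ℕ) [NeZero m] [NeZero e] [NeZero (m * e)] :
    qExpand R m (jS R ζ e) = jS R ζ (m * e) := by
  rw [jS, jS, qExpand_qExpand]

theorem twist_jS (ξ ζ : Rˣ) (e : ℕ) [NeZero e] :
    twist ξ (jS R ζ e) = jS R (ζ * ξ ^ e) e := by
  rw [jS, jS, twist_qExpand, ← twist_mul_unit, mul_comm]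

theorem jS_one (e : ℕ) [NeZero e] : jS R 1 e = jAt R e := by
  rw [jS, twist_one_unit, jAt_of_neZero]

theorem jS_one_one : jS R 1 1 = jqModC R := by
  rw [jS, twist_one_unit, qExpand_one_apply]

variable {R}

theorem coeffMap_jS (f : R →+* S) (ζ : Rˣ) (e : ℕ) [NeZero e] :
    coeffMap f (jS R ζ e) = jS S (Units.map (f : R →* S) ζ) e := by
  rw [jS, jS, coeffMap_qExpand, coeffMap_twist, coeffMap_jqModC]

variable (R)

theorem jS_coeff_neg (ζ : Rˣ) (e : ℕ) [NeZero e] :
    (jS R ζ e).coeff (-(e : ℤ)) = ((ζ⁻¹ : Rˣ) : R) := by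
  have h : (-(e : ℤ)) = (e : ℤ) * (-1) := by ring
  rw [jS, h, qExpand_coeff_mul, twist_coeff, coeff_jqModC_neg_one, mul_one, zpow_neg_one]

theorem jS_coeff_of_lt (ζ : Rˣ) (e : ℕ) [NeZero e] {n : ℤ} (hn : n < -(e : ℤ)) :
    (jS R ζ e).coeff n = 0 := by
  by_cases hd : (e : ℤ) ∣ n
  · obtain ⟨m, rfl⟩ := hd
    have he : (0 : ℤ) < e := by exact_mod_cast Nat.pos_of_ne_zero (NeZero.ne e)
    have hm : m < -1 := by
      by_contra hcon
      rw [not_lt] at hcon
      have : (e : ℤ) * (-1) ≤ (e : ℤ) * m := mul_le_mul_of_nonneg_left hcon he.le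
      omega
    rw [jS, qExpand_coeff_mul, twist_coeff, coeff_jqModC_of_lt R hm, mul_zero]
  · rw [jS, qExpand_coeff_of_not_dvd e _ hd]

/-! ### `DeltaQ`, `DS` -/

theorem DeltaQ_coeff_one : (DeltaQ R).coeff 1 = 1 := by
  rw [DeltaQ, HahnSeries.coeff_single_mul, one_mul, sub_self,
    show (0 : ℤ) = ((0 : ℕ) : ℤ) from rfl, HahnSeries.ofPowerSeries_apply_coeff,
    PowerSeries.coeff_map, PowerSeries.coeff_zero_eq_constantCoeff, constantCoeff_dedekindEtaUnit,
    map_one]

theorem DeltaQ_coeff_of_lt {n : ℤ} (hn : n < 1) : (DeltaQ R).coeff n = 0 := by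
  rw [DeltaQ, HahnSeries.coeff_single_mul, one_mul]
  exact ofPowerSeries_coeff_of_neg _ (by omega)

variable {R}

theorem coeffMap_DeltaQ (f : R →+* S) : coeffMap f (DeltaQ R) = DeltaQ S := by
  rw [DeltaQ, map_mul, coeffMap_single, map_one, coeffMap_ofPowerSeries,
    ← RingHom.comp_apply (PowerSeries.map f) (PowerSeries.map (Int.castRingHom R)),
    ← PowerSeries.map_comp, RingHom.ext_int (f.comp (Int.castRingHom R)) (Int.castRingHom S)]
  rfl

theorem coeffMap_DS (f : R →+* S) (ζ : Rˣ) (e : ℕ) [NeZero e] :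
    coeffMap f (DS R ζ e) = DS S (Units.map (f : R →* S) ζ) e := by
  rw [DS, DS, coeffMap_qExpand, coeffMap_twist, coeffMap_DeltaQ]

variable (R)

theorem qExpand_DS (ζ : Rˣ) (m e : ℕ) [NeZero m] [NeZero e] [NeZero (m * e)] :
    qExpand R m (DS R ζ e) = DS R ζ (m * e) := by
  rw [DS, DS, qExpand_qExpand]

theorem twist_DS (ξ ζ : Rˣ) (e : ℕ) [NeZero e] :
    twist ξ (DS R ζ e) = DS R (ζ * ξ ^ e) e := by
  rw [DS, DS, twist_qExpand, ← twist_mul_unit, mul_comm]

theorem DS_one_one : DS R 1 1 = DeltaQ R := by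
  rw [DS, twist_one_unit, qExpand_one_apply]

theorem DS_coeff (ζ : Rˣ) (e : ℕ) [NeZero e] : (DS R ζ e).coeff (e : ℤ) = (ζ : R) := by
  have h : ((e : ℤ)) = (e : ℤ) * 1 := by ring
  rw [DS, h, qExpand_coeff_mul, twist_coeff, DeltaQ_coeff_one, mul_one, zpow_one]

theorem DS_coeff_of_lt (ζ : Rˣ) (e : ℕ) [NeZero e] {n : ℤ} (hn : n < (e : ℤ)) :
    (DS R ζ e).coeff n = 0 := by
  by_cases hd : (e : ℤ) ∣ n
  · obtain ⟨m, rfl⟩ := hd
    have he : (0 : ℤ) < e := by exact_mod_cast Nat.pos_of_ne_zero (NeZero.ne e)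
    have hm : m < 1 := by
      by_contra hcon
      rw [not_lt] at hcon
      have : (e : ℤ) * 1 ≤ (e : ℤ) * m := mul_le_mul_of_nonneg_left hcon he.le
      omega
    rw [DS, qExpand_coeff_mul, twist_coeff, DeltaQ_coeff_of_lt R hm, mul_zero]
  · rw [DS, qExpand_coeff_of_not_dvd e _ hd]

end CommRing

/-! ### Orders over a field -/

section Field

variable {k : Type*} [Field k]

theorem twist_ne_zero (ξ : kˣ) {f : LaurentSeries k} (hf : f ≠ 0) : twist ξ f ≠ 0 :=
  fun h => hf (twist_injective ξ (by rw [h, map_zero]))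

theorem qExpand_ne_zero (e : ℕ) [NeZero e] {f : LaurentSeries k} (hf : f ≠ 0) :
    qExpand k e f ≠ 0 := fun h => hf (qExpand_injective e (by rw [h, map_zero]))

theorem support_twist (ξ : kˣ) (f : LaurentSeries k) : (twist ξ f).support = f.support :=
  support_twistFun ξ f

theorem order_twist (ξ : kˣ) (f : LaurentSeries k) : (twist ξ f).order = f.order := by
  by_cases hf : f = 0
  · subst hf; simp
  · rw [HahnSeries.order_of_ne (twist_ne_zero ξ hf), HahnSeries.order_of_ne hf]
    congr 1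
    exact support_twist ξ f

theorem orderTop_twist (ξ : kˣ) (f : LaurentSeries k) : (twist ξ f).orderTop = f.orderTop := by
  by_cases hf : f = 0
  · subst hf; simp
  · rw [← HahnSeries.order_eq_orderTop_of_ne_zero (twist_ne_zero ξ hf),
      ← HahnSeries.order_eq_orderTop_of_ne_zero hf, order_twist]

theorem orderTop_qExpand (e : ℕ) [NeZero e] (f : LaurentSeries k) :
    (qExpand k e f).orderTop = WithTop.map (fun n : ℤ => (e : ℤ) * n) f.orderTop := by
  unfold qExpand
  show (HahnSeries.embDomain _ f).orderTop = _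
  rw [HahnSeries.orderTop_embDomain]
  rfl

theorem order_qExpand (e : ℕ) [NeZero e] (f : LaurentSeries k) :
    (qExpand k e f).order = (e : ℤ) * f.order := by
  by_cases hf : f = 0
  · subst hf; simp
  · have h1 := orderTop_qExpand e f
    rw [← HahnSeries.order_eq_orderTop_of_ne_zero hf,
      ← HahnSeries.order_eq_orderTop_of_ne_zero (qExpand_ne_zero e hf), WithTop.map_coe] at h1
    exact_mod_cast h1

/-- A series with a nonzero coefficient at `n` and nothing below has order `n`. -/
theorem order_eq_of_coeff {f : LaurentSeries k} {n : ℤ} (h1 : f.coeff n ≠ 0)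
    (h2 : ∀ m, m < n → f.coeff m = 0) : f.order = n := by
  have hne : f ≠ 0 := fun h => h1 (by rw [h, HahnSeries.coeff_zero])
  refine le_antisymm (HahnSeries.order_le_of_coeff_ne_zero h1) ?_
  by_contra hlt
  rw [not_le] at hlt
  exact (HahnSeries.coeff_order_eq_zero.not.mpr hne) (h2 _ hlt)

variable (k)

theorem jqModC_ne_zero : jqModC k ≠ 0 := jqModC_ne_zero_of_nontrivial k

theorem order_jqModC : (jqModC k).order = -1 :=
  order_eq_of_coeff (by rw [coeff_jqModC_neg_one]; exact one_ne_zero)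
    (fun _ hm => coeff_jqModC_of_lt k hm)

theorem order_jqModC_pow (n : ℕ) : ((jqModC k) ^ n).order = -(n : ℤ) :=
  order_eq_of_coeff (by rw [coeff_jqModC_pow_self]; exact one_ne_zero)
    (fun _ hm => coeff_jqModC_pow_of_lt k hm)

theorem jS_ne_zero (ζ : kˣ) (e : ℕ) [NeZero e] : jS k ζ e ≠ 0 :=
  qExpand_ne_zero e (twist_ne_zero ζ (jqModC_ne_zero k))

theorem order_jS (ζ : kˣ) (e : ℕ) [NeZero e] : (jS k ζ e).order = -(e : ℤ) := by
  rw [jS, order_qExpand, order_twist, order_jqModC]; ring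

theorem DeltaQ_ne_zero : DeltaQ k ≠ 0 := fun h => by
  have := DeltaQ_coeff_one k
  rw [h, HahnSeries.coeff_zero] at this
  exact zero_ne_one this

theorem order_DeltaQ : (DeltaQ k).order = 1 :=
  order_eq_of_coeff (by rw [DeltaQ_coeff_one]; exact one_ne_zero)
    (fun _ hm => DeltaQ_coeff_of_lt k hm)

theorem DS_ne_zero (ζ : kˣ) (e : ℕ) [NeZero e] : DS k ζ e ≠ 0 :=
  qExpand_ne_zero e (twist_ne_zero ζ (DeltaQ_ne_zero k))

theorem order_DS (ζ : kˣ) (e : ℕ) [NeZero e] : (DS k ζ e).order = (e : ℤ) := by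
  rw [DS, order_qExpand, order_twist, order_DeltaQ]; ring

theorem nuQ_ne_zero (p : ℕ) [NeZero p] : nuQ k p ≠ 0 :=
  mul_ne_zero (qExpand_ne_zero p (DeltaQ_ne_zero k)) (inv_ne_zero (DeltaQ_ne_zero k))

theorem nuQ_mul_DeltaQ (p : ℕ) [NeZero p] : nuQ k p * DeltaQ k = qExpand k p (DeltaQ k) := by
  rw [nuQ, mul_assoc, inv_mul_cancel₀ (DeltaQ_ne_zero k), mul_one]

theorem order_nuQ (p : ℕ) [NeZero p] : (nuQ k p).order = (p : ℤ) - 1 := by
  have h := congrArg HahnSeries.order (nuQ_mul_DeltaQ k p)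
  rw [HahnSeries.order_mul (nuQ_ne_zero k p) (DeltaQ_ne_zero k), order_qExpand, order_DeltaQ] at h
  omega

/-! ### Polynomials in `j` -/

theorem coeff_algebraMap_mul (c : k) (f : LaurentSeries k) (n : ℤ) :
    (algebraMap k (LaurentSeries k) c * f).coeff n = c * f.coeff n := by
  rw [algebraMap_laurentSeries_eq_single, HahnSeries.coeff_single_mul, sub_zero]

/-- The coefficient of `q ^ (-n)` in a polynomial of degree `n` in `j` is its leading
coefficient, and there is nothing below. -/
theorem coeff_evalJ_jqModC (P : k[X]) :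
    (evalJ k (jqModC k) P).coeff (-(P.natDegree : ℤ)) = P.leadingCoeff ∧
      ∀ m : ℤ, m < -(P.natDegree : ℤ) → (evalJ k (jqModC k) P).coeff m = 0 := by
  show (aeval (jqModC k) P).coeff (-(P.natDegree : ℤ)) = P.leadingCoeff ∧
      ∀ m : ℤ, m < -(P.natDegree : ℤ) → (aeval (jqModC k) P).coeff m = 0
  rw [aeval_eq_sum_range]
  constructor
  · rw [HahnSeries.coeff_sum, Finset.sum_eq_single_of_mem P.natDegree (Finset.self_mem_range_succ _)]
    · rw [Algebra.smul_def, coeff_algebraMap_mul, coeff_jqModC_pow_self, mul_one]; rfl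
    · intro i hi hne
      have hi' : i < P.natDegree := lt_of_le_of_ne (Finset.mem_range_succ_iff.mp hi) hne
      rw [Algebra.smul_def, coeff_algebraMap_mul,
        coeff_jqModC_pow_of_lt k (by exact_mod_cast (by omega)), mul_zero]
  · intro m hm
    rw [HahnSeries.coeff_sum]
    refine Finset.sum_eq_zero fun i hi => ?_
    have hi' : i ≤ P.natDegree := Finset.mem_range_succ_iff.mp hi
    rw [Algebra.smul_def, coeff_algebraMap_mul, coeff_jqModC_pow_of_lt k (by omega), mul_zero]

variable {k}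

theorem evalJ_jqModC_ne_zero {P : k[X]} (hP : P ≠ 0) : evalJ k (jqModC k) P ≠ 0 := by
  intro h
  have h1 := (coeff_evalJ_jqModC k P).1
  rw [h, HahnSeries.coeff_zero] at h1
  exact (Polynomial.leadingCoeff_ne_zero.mpr hP) h1.symm

/-- (K4) a nonzero polynomial of degree `n` in `j` has order `-n ≤ 0`. -/
theorem order_evalJ_jqModC {P : k[X]} (hP : P ≠ 0) :
    (evalJ k (jqModC k) P).order = -(P.natDegree : ℤ) := by
  obtain ⟨h1, h2⟩ := coeff_evalJ_jqModC k P
  exact order_eq_of_coeff (by rw [h1]; exact Polynomial.leadingCoeff_ne_zero.mpr hP) h2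

variable (k)

/-- `j` is transcendental over the constants. -/
theorem transcendental_jqModC : Transcendental k (jqModC k) := by
  intro h
  obtain ⟨P, hP, h0⟩ := h
  exact evalJ_jqModC_ne_zero hP h0

theorem evalJ_injective_jqModC : Function.Injective (evalJ k (jqModC k)) := by
  rw [injective_iff_map_eq_zero]
  intro P hP
  by_contra hne
  exact evalJ_jqModC_ne_zero hne hP

variable {k}

/-- `evalJ` at `j (ζ u ^ e)` is the substitution `u ↦ ζ u ^ e` applied to `evalJ` at `j`. -/
theorem evalJ_jS (ζ : kˣ) (e : ℕ) [NeZero e] (P : k[X]) :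
    evalJ k (jS k ζ e) P = qExpand k e (twist ζ (evalJ k (jqModC k) P)) := by
  have h : evalJ k (jS k ζ e) = ((qExpand k e).comp (twist ζ)).comp (evalJ k (jqModC k)) := by
    apply Polynomial.ringHom_ext
    · intro a
      simp only [evalJ, AlgHom.toRingHom_eq_coe, RingHom.coe_coe, Polynomial.aeval_C,
        RingHom.coe_comp, Function.comp_apply]
      rw [algebraMap_laurent_eq_C, twist_C, qExpand_C]
    · simp only [evalJ, AlgHom.toRingHom_eq_coe, RingHom.coe_coe, Polynomial.aeval_X,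
        RingHom.coe_comp, Function.comp_apply]
      rfl
  rw [h]; rfl

theorem order_evalJ_jS (ζ : kˣ) (e : ℕ) [NeZero e] {P : k[X]} (hP : P ≠ 0) :
    (evalJ k (jS k ζ e) P).order = -((e : ℤ) * P.natDegree) := by
  rw [evalJ_jS, order_qExpand, order_twist, order_evalJ_jqModC hP]; ring

theorem evalJ_jS_ne_zero (ζ : kˣ) (e : ℕ) [NeZero e] {P : k[X]} (hP : P ≠ 0) :
    evalJ k (jS k ζ e) P ≠ 0 := by
  rw [evalJ_jS]
  exact qExpand_ne_zero e (twist_ne_zero ζ (evalJ_jqModC_ne_zero hP))

end Field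

end Fermat.Agent.S28lib
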