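/-
S28 (Igusa), brick C2a (helper3): the tower of fields `k(j(u^N), j(u^{N d_1}), …, j(u^{N M}))`
inside `k((u))`, realised as an abstract field `G` with two embeddings into `k((u))`
(the expansion at the cusp `∞`, `g_d ↦ j(u^{N d})`, and at the cusp `0`, `g_d ↦ j(u^{N/d})`).
-/
import Mathlib
import Fermat.Agent.S28lib.Defs
import Fermat.Agent.S28lib.Twist
import Fermat.Agent.S28lib.Series
import Fermat.Agent.S28lib.Kummer
import Fermat.Agent.S28lib.PsiStep
import Fermat.Agent.S28lib.OrbitIrred

set_option autoImplicit false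

universe u

noncomputable section

namespace Fermat.Agent.S28lib.Chain

open ModularCurve Polynomial

section Basics

variable (k : Type u) [Field k]

theorem qExpand_jAt (m : ℕ) [NeZero m] (e : ℕ) : qExpand k m (jAt k e) = jAt k (m * e) := by
  rcases Nat.eq_zero_or_pos e with rfl | he
  · simp [jAt]
  · have : NeZero e := ⟨he.ne'⟩
    rw [jAt_of_neZero, qExpand_qExpand, jAt_of_neZero]

theorem twist_jAt (ξ : kˣ) (e : ℕ) (h : ξ ^ e = 1) : twist ξ (jAt k e) = jAt k e := by
  rcases Nat.eq_zero_or_pos e with rfl | he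
  · simp [jAt]
  · have : NeZero e := ⟨he.ne'⟩
    rw [jAt_of_neZero, twist_qExpand_of_pow_eq_one ξ e h]

theorem jAt_inj {e e' : ℕ} (he : e ≠ 0) (he' : e' ≠ 0) (h : jAt k e = jAt k e') : e = e' := by
  have : NeZero e := ⟨he⟩
  have : NeZero e' := ⟨he'⟩
  rw [← jS_one, ← jS_one] at h
  exact (jS_inj.mp h).2

/-- `K1` with `ζ' = 1`, in the `jAt` spelling. -/
theorem factor_jAt {p : ℕ} [NeZero p] (D : ModPolyData k p) (e' : ℕ) [NeZero e'] :
    D.Φ.map (evalJ k (jAt k (e' * p))) =
      (X - C (jAt k (e' * p * p))) *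
        ∏ i ∈ Finset.range p, (X - C (jS k (D.ζ ^ i) e')) := by
  have h := D.factor_subst (1 : kˣ) e'
  simp only [one_pow, one_mul, jS_one] at h
  exact h

end Basics

section Tower

variable (k : Type u) [Field k] (N : ℕ) [NeZero N]

/-- The generators `j(u^{N d})`, `d ∣ M`, of the `∞`-tower up to level `M`. -/
def genSet (M : ℕ) : Set (LaurentSeries k) := {y | ∃ d, d ∣ M ∧ y = jAt k (N * d)}

theorem genSet_mono {M M' : ℕ} (h : M ∣ M') : genSet k N M ⊆ genSet k N M' := by
  rintro y ⟨d, hd, rfl⟩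
  exact ⟨d, hd.trans h, rfl⟩

/-- The tower data at level `M ∣ N`. -/
structure Tower (M : ℕ) where
  /-- the abstract field -/
  G : Type u
  [fld : Field G]
  [alg : Algebra (Polynomial k) G]
  /-- expansion at `∞` -/
  eInf : G →+* LaurentSeries k
  /-- expansion at `0` -/
  eZero : G →+* LaurentSeries k
  eInf_base : ∀ f : Polynomial k, eInf (algebraMap (Polynomial k) G f) = evalJ k (jAt k N) f
  eZero_base : ∀ f : Polynomial k, eZero (algebraMap (Polynomial k) G f) = evalJ k (jAt k N) f
  /-- the top generator -/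
  top : G
  eInf_top : eInf top = jAt k (N * M)
  eZero_top : eZero top = jAt k (N / M)
  prev : ∀ p : ℕ, p.Prime → p ∣ M → (∀ q : ℕ, q.Prime → q ∣ M → q ≤ p) →
    ∃ g : G, eInf g = jAt k (N * (M / p)) ∧ eZero g = jAt k (N / (M / p))
  fix_inf : ∀ ξ : kˣ, ξ ^ N = 1 → ∀ x : G, twist ξ (eInf x) = eInf x
  fix_zero : ∀ ξ : kˣ, ξ ^ (N / M) = 1 → ∀ x : G, twist ξ (eZero x) = eZero x
  mem_inf : ∀ x : G, eInf x ∈ IntermediateField.adjoin k (genSet k N M)
  /-- index set of the monomial basis -/
  ι : Type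
  [fin : Fintype ι]
  card_eq : Fintype.card ι = dedekindPsi M
  /-- the monomials -/
  mon : ι → MvPolynomial ℕ ℤ
  mon_vars : ∀ i, ∀ d ∈ (mon i).vars, d ∣ M
  /-- their values in `G` -/
  elt : ι → G
  eInf_elt : ∀ i, eInf (elt i) = qExpand k N (evalDiv k (mon i))
  indep : LinearIndependent (Polynomial k) elt

attribute [instance] Tower.fld Tower.alg Tower.fin

variable {k N}

/-- Extending the tower by a root of an irreducible monic polynomial `Q` of the right degree
having `j(u^{N M p})` resp. `j(u^{N/(M p)})` as a root under the two embeddings. -/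
theorem Tower.extend {M : ℕ} (T : Tower k N M) (p : ℕ) (hp : p.Prime) (hMp : M * p ∣ N)
    (hmax : ∀ q : ℕ, q.Prime → q ∣ M → q ≤ p)
    (Q : T.G[X]) (hQm : Q.Monic) (hQi : Irreducible Q)
    (hdeg : dedekindPsi (M * p) = dedekindPsi M * Q.natDegree)
    (hInf : Q.eval₂ T.eInf (jAt k (N * (M * p))) = 0)
    (hZero : Q.eval₂ T.eZero (jAt k (N / (M * p))) = 0) : Nonempty (Tower k N (M * p)) := by
  haveI : Fact (Irreducible Q) := ⟨hQi⟩
  have hN0 : N ≠ 0 := NeZero.ne N
  have hM0 : M ≠ 0 := fun h => hN0 (by rw [h, zero_mul] at hMp; exact Nat.eq_zero_of_zero_dvd hMp)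
  have hMpos : 0 < M := Nat.pos_of_ne_zero hM0
  set eI : AdjoinRoot Q →+* LaurentSeries k := AdjoinRoot.lift T.eInf _ hInf with heI
  set eZ : AdjoinRoot Q →+* LaurentSeries k := AdjoinRoot.lift T.eZero _ hZero with heZ
  have heI_of : ∀ x, eI (AdjoinRoot.of Q x) = T.eInf x := fun x => AdjoinRoot.lift_of hInf
  have heZ_of : ∀ x, eZ (AdjoinRoot.of Q x) = T.eZero x := fun x => AdjoinRoot.lift_of hZero
  have heI_root : eI (AdjoinRoot.root Q) = jAt k (N * (M * p)) := AdjoinRoot.lift_root hInf
  have heZ_root : eZ (AdjoinRoot.root Q) = jAt k (N / (M * p)) := AdjoinRoot.lift_root hZero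
  have halg : ∀ f : Polynomial k, algebraMap (Polynomial k) (AdjoinRoot Q) f =
      AdjoinRoot.of Q (algebraMap (Polynomial k) T.G f) := fun f => by
    rw [AdjoinRoot.algebraMap_eq']; rfl
  obtain ⟨c, hc⟩ := hMp
  have hdiv1 : N / (M * p) = c := by rw [hc]; exact Nat.mul_div_cancel_left _ (Nat.mul_pos hMpos hp.pos)
  have hdiv2 : N / M = c * p := by
    rw [hc, mul_assoc, Nat.mul_div_cancel_left _ hMpos, mul_comm]
  let pb := AdjoinRoot.powerBasis' hQm
  refine ⟨{
    G := AdjoinRoot Q
    eInf := eI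
    eZero := eZ
    eInf_base := fun f => by rw [halg, heI_of, T.eInf_base]
    eZero_base := fun f => by rw [halg, heZ_of, T.eZero_base]
    top := AdjoinRoot.root Q
    eInf_top := heI_root
    eZero_top := heZ_root
    prev := ?_
    fix_inf := ?_
    fix_zero := ?_
    mem_inf := ?_
    ι := T.ι × Fin pb.dim
    card_eq := ?_
    mon := fun x => T.mon x.1 * MvPolynomial.X (M * p) ^ (x.2 : ℕ)
    mon_vars := ?_
    elt := fun x => T.elt x.1 • pb.gen ^ (x.2 : ℕ)
    eInf_elt := ?_
    indep := ?_ }⟩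
  · -- prev
    intro p' hp' hp'dvd hp'max
    have hpp' : p' = p := by
      have h1 : p ≤ p' := hp'max p hp (Dvd.intro_left M rfl)
      rcases (Nat.Prime.dvd_mul hp').mp hp'dvd with h2 | h2
      · exact le_antisymm (hmax p' hp' h2) h1
      · exact (Nat.prime_dvd_prime_iff_eq hp' hp).mp h2
    subst hpp'
    refine ⟨AdjoinRoot.of Q T.top, ?_, ?_⟩
    · rw [heI_of, T.eInf_top, Nat.mul_div_cancel _ hp.pos]
    · rw [heZ_of, T.eZero_top, Nat.mul_div_cancel _ hp.pos]
  · -- fix_inf
    intro ξ hξ x
    induction x using AdjoinRoot.induction_on with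
    | ih f =>
      rw [heI, AdjoinRoot.lift_mk, Polynomial.hom_eval₂]
      have h1 : (twist ξ).comp T.eInf = T.eInf := RingHom.ext fun y => T.fix_inf ξ hξ y
      rw [h1, twist_jAt k ξ _ (by rw [pow_mul, hξ, one_pow])]
  · -- fix_zero
    intro ξ hξ x
    rw [hdiv1] at hξ
    induction x using AdjoinRoot.induction_on with
    | ih f =>
      rw [heZ, AdjoinRoot.lift_mk, Polynomial.hom_eval₂]
      have h1 : (twist ξ).comp T.eZero = T.eZero :=
        RingHom.ext fun y => T.fix_zero ξ (by rw [hdiv2, pow_mul, hξ, one_pow]) y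
      rw [h1, twist_jAt k ξ _ (by rw [hdiv1, hξ])]
  · -- mem_inf
    intro x
    induction x using AdjoinRoot.induction_on with
    | ih f =>
      rw [heI, AdjoinRoot.lift_mk, Polynomial.eval₂_eq_sum_range]
      refine sum_mem fun i _ => mul_mem ?_ (pow_mem ?_ _)
      · exact IntermediateField.adjoin.mono k _ _ (genSet_mono k N (Dvd.intro p rfl)) (T.mem_inf _)
      · exact IntermediateField.subset_adjoin k _ ⟨M * p, dvd_rfl, rfl⟩
  · -- card
    rw [Fintype.card_prod, Fintype.card_fin, T.card_eq, hdeg, AdjoinRoot.powerBasis'_dim]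
  · -- vars
    intro x d hd
    have h1 := MvPolynomial.vars_mul _ _ hd
    rcases Finset.mem_union.mp h1 with h2 | h2
    · exact (T.mon_vars x.1 d h2).trans (Dvd.intro p rfl)
    · have h3 := MvPolynomial.vars_pow _ _ h2
      rw [MvPolynomial.vars_X, Finset.mem_singleton] at h3
      rw [h3]
  · -- eInf_elt
    intro x
    rw [Algebra.smul_def, AdjoinRoot.algebraMap_eq, map_mul, heI_of, map_pow,
      AdjoinRoot.powerBasis'_gen, heI_root, T.eInf_elt, map_mul, map_mul, map_pow, map_pow,
      evalDiv_X, qExpand_jAt]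
  · -- indep
    have hc : LinearIndependent T.G (fun j : Fin pb.dim => pb.gen ^ (j : ℕ)) := by
      have := pb.basis.linearIndependent
      rwa [PowerBasis.coe_basis] at this
    have h := linearIndependent_smul (R := Polynomial k) (S := T.G) (A := AdjoinRoot Q) T.indep hc
    exact h

theorem evalJ_jAt_injective (e : ℕ) (he : e ≠ 0) : Function.Injective (evalJ k (jAt k e)) := by
  have : NeZero e := ⟨he⟩
  rw [injective_iff_map_eq_zero]
  intro P hP
  by_contra hne
  rw [← jS_one] at hP
  exact evalJ_jS_ne_zero 1 e hne hP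

theorem evalJ_mem_adjoin (y : LaurentSeries k) (f : Polynomial k) (K : IntermediateField k (LaurentSeries k))
    (hy : y ∈ K) : evalJ k y f ∈ K := by
  have h : evalJ k y f = Polynomial.aeval y f := rfl
  rw [h, Polynomial.aeval_def, Polynomial.eval₂_eq_sum_range]
  exact sum_mem fun i _ => mul_mem (K.algebraMap_mem _) (pow_mem hy _)

variable (k N) in
/-- The tower at level `1`: the rational function field `k(j(u^N))`. -/
theorem Tower.base : Nonempty (Tower k N 1) := by
  have hN0 : N ≠ 0 := NeZero.ne N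
  have hinj := evalJ_jAt_injective (k := k) N hN0
  set e : RatFunc k →+* LaurentSeries k := IsFractionRing.lift hinj with he
  have he_alg : ∀ f : Polynomial k, e (algebraMap (Polynomial k) (RatFunc k) f) =
      evalJ k (jAt k N) f := fun f => IsFractionRing.lift_algebraMap hinj f
  have hfix : ∀ ξ : kˣ, ξ ^ N = 1 → ∀ x : RatFunc k, twist ξ (e x) = e x := by
    intro ξ hξ x
    have h1 : (twist ξ).comp e = e := by
      apply IsLocalization.ringHom_ext (nonZeroDivisors (Polynomial k))
      refine RingHom.ext fun f => ?_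
      simp only [RingHom.comp_apply]
      rw [he_alg]
      have h2 := comp_evalJ (twist ξ) (fun c => twist_C ξ c) (jAt k N)
      have h3 := congrArg (fun φ : Polynomial k →+* LaurentSeries k => φ f) h2
      simp only [RingHom.comp_apply] at h3
      rw [h3, twist_jAt k ξ N hξ]
    exact congrArg (fun φ : RatFunc k →+* LaurentSeries k => φ x) h1
  refine ⟨{
    G := RatFunc k
    eInf := e
    eZero := e
    eInf_base := he_alg
    eZero_base := he_alg
    top := algebraMap (Polynomial k) (RatFunc k) Polynomial.X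
    eInf_top := by rw [he_alg, evalJ_X, mul_one]
    eZero_top := by rw [he_alg, evalJ_X, Nat.div_one]
    prev := fun p hp hp1 _ => absurd (Nat.dvd_one.mp hp1) hp.ne_one
    fix_inf := hfix
    fix_zero := fun ξ hξ => hfix ξ (by rwa [Nat.div_one] at hξ)
    mem_inf := ?_
    ι := Unit
    card_eq := by simp
    mon := fun _ => 1
    mon_vars := fun i d hd => by simp at hd
    elt := fun _ => 1
    eInf_elt := fun i => by simp
    indep := ?_ }⟩
  · intro x
    obtain ⟨a, b, rfl⟩ := IsLocalization.mk'_surjective (nonZeroDivisors (Polynomial k)) x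
    rw [he, IsFractionRing.lift_mk']
    have hy : jAt k N ∈ IntermediateField.adjoin k (genSet k N 1) :=
      IntermediateField.subset_adjoin k _ ⟨1, dvd_rfl, by rw [mul_one]⟩
    exact div_mem (evalJ_mem_adjoin _ _ _ hy) (evalJ_mem_adjoin _ _ _ hy)
  · rw [Fintype.linearIndependent_iff]
    intro g hg i
    simp only [Finset.univ_unique, Finset.sum_singleton, Algebra.smul_def, mul_one] at hg
    have := (IsFractionRing.injective (Polynomial k) (RatFunc k)) (hg.trans (map_zero _).symm)
    cases i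
    exact this

end Tower

end Fermat.Agent.S28lib.Chain
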