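/-
S28 (Igusa), brick C2a (helper3): one step `M ↦ M p` of the tower, and the induction.
-/
import Mathlib
import Fermat.Agent.S28lib.ChainTower

set_option autoImplicit false

universe u

noncomputable section

namespace Fermat.Agent.S28lib.Chain

open ModularCurve Polynomial

section Step

variable {k : Type u} [Field k] {N : ℕ} [NeZero N]

theorem exists_unit_pow_eq [IsAlgClosed k] (ζ : kˣ) {n : ℕ} (hn : 0 < n) : ∃ ξ : kˣ, ξ ^ n = ζ := by
  obtain ⟨z, hz⟩ := IsAlgClosed.exists_pow_nat_eq (ζ : k) hn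
  have hz0 : z ≠ 0 := by
    rintro rfl
    rw [zero_pow hn.ne'] at hz
    exact ζ.ne_zero hz.symm
  exact ⟨Units.mk0 z hz0, Units.ext (by simpa using hz)⟩

/-- Common data of a step: the polynomial `Φ_p(X, g_M)` over `G` and its two factorisations. -/
theorem Tower.step_data {M : ℕ} (T : Tower k N M) (p : ℕ) [NeZero p] (c : ℕ) [NeZero c]
    [NeZero (M * c * M)] (hc : N = M * p * c) (D : ModPolyData k p) :
    ∃ P : T.G[X], P.Monic ∧ P.natDegree = p + 1 ∧
      P.map T.eInf = (X - C (jAt k (N * (M * p)))) *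
        ∏ i ∈ Finset.range p, (X - C (jS k (D.ζ ^ i) (M * c * M))) ∧
      P.map T.eZero = (X - C (jAt k (c * p * p))) *
        ∏ i ∈ Finset.range p, (X - C (jS k (D.ζ ^ i) c)) := by
  have hN0 : N ≠ 0 := NeZero.ne N
  have hM0 : M ≠ 0 := fun h => hN0 (by rw [hc, h]; simp)
  have hc0 : c ≠ 0 := fun h => hN0 (by rw [hc, h]; simp)
  have hMpos : 0 < M := Nat.pos_of_ne_zero hM0
  set φ : Polynomial k →+* T.G :=
    Polynomial.eval₂RingHom ((algebraMap (Polynomial k) T.G).comp Polynomial.C) T.top with hφ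
  have hφI : T.eInf.comp φ = evalJ k (jAt k (N * M)) := by
    apply Polynomial.ringHom_ext
    · intro a
      simp only [RingHom.comp_apply, hφ, Polynomial.coe_eval₂RingHom, Polynomial.eval₂_C]
      rw [T.eInf_base]
      simp [evalJ]
    · simp only [RingHom.comp_apply, hφ, Polynomial.coe_eval₂RingHom, Polynomial.eval₂_X,
        evalJ_X, T.eInf_top]
  have hφZ : T.eZero.comp φ = evalJ k (jAt k (N / M)) := by
    apply Polynomial.ringHom_ext
    · intro a
      simp only [RingHom.comp_apply, hφ, Polynomial.coe_eval₂RingHom, Polynomial.eval₂_C]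
      rw [T.eZero_base]
      simp [evalJ]
    · simp only [RingHom.comp_apply, hφ, Polynomial.coe_eval₂RingHom, Polynomial.eval₂_X,
        evalJ_X, T.eZero_top]
  have hNM : N * M = M * c * M * p := by rw [hc]; ring
  have hNMp : M * c * M * p * p = N * (M * p) := by rw [hc]; ring
  have hdiv : N / M = c * p := by
    rw [hc, mul_assoc, Nat.mul_div_cancel_left _ hMpos, mul_comm]
  refine ⟨D.Φ.map φ, D.monic.map φ, ?_, ?_, ?_⟩
  · rw [(D.monic).natDegree_map, D.natDegree_eq]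
  · rw [Polynomial.map_map, hφI, hNM, factor_jAt k D (M * c * M), hNMp]
  · rw [Polynomial.map_map, hφZ, hdiv, factor_jAt k D c]

theorem orbit_facts {p : ℕ} {ζ ξ : kˣ} (hζ : IsPrimitiveRoot ζ p) (e : ℕ) [NeZero e]
    (hξ : ξ ^ e = ζ) :
    (∀ i, twist ξ (jS k (ζ ^ i) e) = jS k (ζ ^ (i + 1)) e) ∧
      jS k (ζ ^ p) e = jS k (ζ ^ 0) e ∧
      ∀ i, i < p → ∀ j, j < p → jS k (ζ ^ i) e = jS k (ζ ^ j) e → i = j := by
  refine ⟨fun i => ?_, ?_, fun i hi j hj h => ?_⟩
  · rw [twist_jS, hξ, pow_succ]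
  · rw [hζ.pow_eq_one, pow_zero]
  · exact hζ.pow_inj hi hj (jS_inj.mp h).1

theorem eval_prod_X_sub_C_eq_zero {L : Type*} [Field L] (p : ℕ) (r : ℕ → L) {i : ℕ} (hi : i < p) :
    (∏ j ∈ Finset.range p, (X - C (r j))).eval (r i) = 0 := by
  rw [Polynomial.eval_prod]
  exact Finset.prod_eq_zero (Finset.mem_range.mpr hi) (by simp)

/-- The step `M ↦ M p` for `p ∤ M`: degree `p + 1`. -/
theorem Tower.step_of_not_dvd [IsAlgClosed k] {M : ℕ} (T : Tower k N M) (p : ℕ) [NeZero p]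
    (hp : p.Prime) (hMp : M * p ∣ N) (hmax : ∀ q : ℕ, q.Prime → q ∣ M → q ≤ p)
    (D : ModPolyData k p) (hpM : ¬ p ∣ M)
    (hexcl : jAt k (N * (M * p)) ∉ IntermediateField.adjoin k (genSet k N M)) :
    Nonempty (Tower k N (M * p)) := by
  have hN0 : N ≠ 0 := NeZero.ne N
  obtain ⟨c, hc⟩ := id hMp
  have hM0 : M ≠ 0 := fun h => hN0 (by rw [hc, h]; simp)
  have hc0 : c ≠ 0 := fun h => hN0 (by rw [hc, h]; simp)
  have hMpos : 0 < M := Nat.pos_of_ne_zero hM0
  have : NeZero c := ⟨hc0⟩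
  have : NeZero (M * c * M) := ⟨Nat.mul_ne_zero (Nat.mul_ne_zero hM0 hc0) hM0⟩
  obtain ⟨P, hPm, hPdeg, hPI, hPZ⟩ := T.step_data p c hc D
  -- the twisting root of unity
  have hcop : Nat.Coprime M p := (Nat.Coprime.symm ((Nat.Prime.coprime_iff_not_dvd hp).mpr hpM))
  obtain ⟨b, -, hb⟩ := Nat.exists_mul_mod_eq_one_of_coprime hcop hp.one_lt
  obtain ⟨ξ, hξ⟩ := exists_unit_pow_eq (D.ζ ^ b) (Nat.mul_pos hMpos (Nat.pos_of_ne_zero hc0))
  have hξN : ξ ^ N = 1 := by
    rw [hc, show M * p * c = M * c * p by ring, pow_mul, hξ, ← pow_mul, mul_comm, pow_mul,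
      D.prim.pow_eq_one, one_pow]
  have hξe : ξ ^ (M * c * M) = D.ζ := by
    rw [pow_mul, hξ, ← pow_mul, mul_comm b M, pow_eq_pow_mod _ D.prim.pow_eq_one, hb, pow_one]
  obtain ⟨hτ, hper, hinj⟩ := orbit_facts (k := k) D.prim (M * c * M) hξe
  have hirr : Irreducible P :=
    irreducible_of_orbit_of_not_mem T.eInf (twist ξ) (T.fix_inf ξ hξN) p hp.pos
      (fun i => jS k (D.ζ ^ i) (M * c * M)) hτ hper hinj (jAt k (N * (M * p)))
      (fun x hx => hexcl (hx ▸ T.mem_inf x)) hPm hPI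
  refine T.extend p hp hMp hmax P hPm hirr ?_ ?_ ?_
  · rw [hPdeg, dedekindPsi_mul_prime_of_not_dvd hM0 hp hpM]
  · rw [Polynomial.eval₂_eq_eval_map, hPI, Polynomial.eval_mul, Polynomial.eval_sub,
      Polynomial.eval_X, Polynomial.eval_C, sub_self, zero_mul]
  · have hdiv : N / (M * p) = c := by
      rw [hc]; exact Nat.mul_div_cancel_left _ (Nat.mul_pos hMpos hp.pos)
    rw [Polynomial.eval₂_eq_eval_map, hPZ, Polynomial.eval_mul, hdiv]
    have h0 : jAt k c = jS k (D.ζ ^ 0) c := by rw [pow_zero, jS_one]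
    rw [h0, eval_prod_X_sub_C_eq_zero p (fun i => jS k (D.ζ ^ i) c) hp.pos, mul_zero]

/-- The step `M ↦ M p` for `p ∣ M`: degree `p`. -/
theorem Tower.step_of_dvd [IsAlgClosed k] {M : ℕ} (T : Tower k N M) (p : ℕ) [NeZero p]
    (hp : p.Prime) (hMp : M * p ∣ N) (hmax : ∀ q : ℕ, q.Prime → q ∣ M → q ≤ p)
    (D : ModPolyData k p) (hpM : p ∣ M) :
    Nonempty (Tower k N (M * p)) := by
  have hN0 : N ≠ 0 := NeZero.ne N
  obtain ⟨c, hc⟩ := id hMp
  have hM0 : M ≠ 0 := fun h => hN0 (by rw [hc, h]; simp)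
  have hc0 : c ≠ 0 := fun h => hN0 (by rw [hc, h]; simp)
  have hMpos : 0 < M := Nat.pos_of_ne_zero hM0
  have : NeZero c := ⟨hc0⟩
  have : NeZero (M * c * M) := ⟨Nat.mul_ne_zero (Nat.mul_ne_zero hM0 hc0) hM0⟩
  obtain ⟨P, hPm, hPdeg, hPI, hPZ⟩ := T.step_data p c hc D
  obtain ⟨g, hgI, hgZ⟩ := T.prev p hp hpM hmax
  obtain ⟨M', hM'⟩ := id hpM
  have hM'0 : M' ≠ 0 := fun h => hM0 (by rw [hM', h]; simp)
  have hMdivp : M / p = M' := by rw [hM']; exact Nat.mul_div_cancel_left _ hp.pos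
  -- `g` is a root of `P`
  have hgI' : T.eInf g = jS k (D.ζ ^ 0) (M * c * M) := by
    rw [hgI, pow_zero, jS_one, hMdivp]
    congr 1
    rw [hc, hM']; ring
  have hroot : P.IsRoot g := by
    apply T.eInf.injective
    rw [map_zero, ← Polynomial.eval_map_apply, hPI, Polynomial.eval_mul, hgI',
      eval_prod_X_sub_C_eq_zero p (fun i => jS k (D.ζ ^ i) (M * c * M)) hp.pos, mul_zero]
  obtain ⟨Q, hQ⟩ := dvd_iff_isRoot.mpr hroot
  have hQm : Q.Monic := (monic_X_sub_C g).of_mul_monic_left (hQ ▸ hPm)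
  have hQdeg : Q.natDegree = p := by
    have h := congrArg natDegree hQ
    rw [(monic_X_sub_C g).natDegree_mul hQm, natDegree_X_sub_C, hPdeg] at h
    omega
  -- the image of `Q` under the expansion at `0`
  have hgZ' : T.eZero g = jAt k (c * p * p) := by
    rw [hgZ, hMdivp]
    congr 1
    rw [hc, hM', show p * M' * p * c = M' * (c * p * p) by ring,
      Nat.mul_div_cancel_left _ (Nat.pos_of_ne_zero hM'0)]
  have hQZ : Q.map T.eZero = ∏ i ∈ Finset.range p, (X - C (jS k (D.ζ ^ i) c)) := by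
    have h := hPZ
    rw [hQ, Polynomial.map_mul, Polynomial.map_sub, Polynomial.map_X, Polynomial.map_C, hgZ'] at h
    exact mul_left_cancel₀ (X_sub_C_ne_zero _) h
  -- the twisting root of unity
  obtain ⟨ξ, hξ⟩ := exists_unit_pow_eq D.ζ (Nat.pos_of_ne_zero hc0)
  have hdiv : N / M = c * p := by
    rw [hc, mul_assoc, Nat.mul_div_cancel_left _ hMpos, mul_comm]
  have hξN : ξ ^ (N / M) = 1 := by
    rw [hdiv, pow_mul, hξ, D.prim.pow_eq_one]
  obtain ⟨hτ, hper, hinj⟩ := orbit_facts (k := k) D.prim c hξ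
  have hirr : Irreducible Q :=
    irreducible_of_orbit T.eZero (twist ξ) (T.fix_zero ξ hξN) p hp.pos
      (fun i => jS k (D.ζ ^ i) c) hτ hper hinj hQm hQZ
  refine T.extend p hp hMp hmax Q hQm hirr ?_ ?_ ?_
  · rw [hQdeg, dedekindPsi_mul_prime_of_dvd hM0 hp hpM]
  · -- `j(u^{N M p})` is a root of `Q` at `∞`
    have h1 : (P.map T.eInf).eval (jAt k (N * (M * p))) = 0 := by
      rw [hPI, Polynomial.eval_mul, Polynomial.eval_sub, Polynomial.eval_X, Polynomial.eval_C,
        sub_self, zero_mul]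
    rw [hQ, Polynomial.map_mul, Polynomial.eval_mul, Polynomial.map_sub, Polynomial.map_X,
      Polynomial.map_C, Polynomial.eval_sub, Polynomial.eval_X, Polynomial.eval_C, hgI,
      mul_eq_zero] at h1
    rcases h1 with h1 | h1
    · exfalso
      have h2 := jAt_inj k (Nat.mul_ne_zero hN0 (Nat.mul_ne_zero hM0 hp.ne_zero))
        (Nat.mul_ne_zero hN0 (by rw [hMdivp]; exact hM'0)) (sub_eq_zero.mp h1)
      have h3 : M * p = M / p := Nat.eq_of_mul_eq_mul_left (Nat.pos_of_ne_zero hN0) h2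
      rw [hMdivp, hM'] at h3
      have : 2 ≤ p := hp.two_le
      have : 0 < M' := Nat.pos_of_ne_zero hM'0
      nlinarith
    · rw [Polynomial.eval₂_eq_eval_map]; exact h1
  · have hdiv' : N / (M * p) = c := by
      rw [hc]; exact Nat.mul_div_cancel_left _ (Nat.mul_pos hMpos hp.pos)
    rw [Polynomial.eval₂_eq_eval_map, hQZ, hdiv']
    have h0 : jAt k c = jS k (D.ζ ^ 0) c := by rw [pow_zero, jS_one]
    rw [h0, eval_prod_X_sub_C_eq_zero p (fun i => jS k (D.ζ ^ i) c) hp.pos]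

/-- The tower exists at every level `M ∣ N`. -/
theorem exists_tower [IsAlgClosed k]
    (hΦ : ∀ (p : ℕ) [NeZero p], p.Prime → p ∣ N → ModPolyData k p)
    (hexcl : ∀ M p : ℕ, p.Prime → ¬ p ∣ M → M * p ∣ N →
      jAt k (N * (M * p)) ∉ IntermediateField.adjoin k (genSet k N M)) :
    ∀ M : ℕ, M ∣ N → Nonempty (Tower k N M) := by
  intro M
  induction M using Nat.strong_induction_on with
  | _ M ih =>
    intro hM
    have hN0 : N ≠ 0 := NeZero.ne N
    have hM0 : M ≠ 0 := fun h => hN0 (by rw [h] at hM; exact Nat.eq_zero_of_zero_dvd hM)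
    by_cases h1 : M = 1
    · subst h1; exact Tower.base k N
    have hM1 : 1 < M := by omega
    have hne : M.primeFactors.Nonempty := Nat.nonempty_primeFactors.mpr hM1
    set p := M.primeFactors.max' hne with hp_def
    have hpmem : p ∈ M.primeFactors := Finset.max'_mem _ hne
    have hp : p.Prime := Nat.prime_of_mem_primeFactors hpmem
    have hpM : p ∣ M := Nat.dvd_of_mem_primeFactors hpmem
    have hM' : M / p * p = M := Nat.div_mul_cancel hpM
    have hlt : M / p < M := Nat.div_lt_self (Nat.pos_of_ne_zero hM0) hp.one_lt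
    have hM'N : M / p ∣ N := (Nat.div_dvd_of_dvd hpM).trans hM
    obtain ⟨T⟩ := ih (M / p) hlt hM'N
    have hmax : ∀ q : ℕ, q.Prime → q ∣ M / p → q ≤ p := by
      intro q hq hqd
      exact Finset.le_max' _ q
        (Nat.mem_primeFactors.mpr ⟨hq, hqd.trans (Nat.div_dvd_of_dvd hpM), hM0⟩)
    have : NeZero p := ⟨hp.ne_zero⟩
    have hMpN : M / p * p ∣ N := by rw [hM']; exact hM
    have D : ModPolyData k p := hΦ p hp (hpM.trans hM)
    have key : Nonempty (Tower k N (M / p * p)) := by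
      by_cases hpd : p ∣ M / p
      · exact T.step_of_dvd p hp hMpN hmax D hpd
      · exact T.step_of_not_dvd p hp hMpN hmax D hpd (hexcl (M / p) p hp hpd hMpN)
    rwa [hM'] at key

/-- `ψ(N)` monomials in the `j(q^d)`, `d ∣ N`, linearly independent over `k[j]`, assuming the
exclusion statement (brick C2b). -/
theorem exists_independent_monomials_of_excl [IsAlgClosed k]
    (hΦ : ∀ (p : ℕ) [NeZero p], p.Prime → p ∣ N → ModPolyData k p)
    (hexcl : ∀ M p : ℕ, p.Prime → ¬ p ∣ M → M * p ∣ N →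
      jAt k (N * (M * p)) ∉ IntermediateField.adjoin k (genSet k N M)) :
    ∃ x : Fin (dedekindPsi N) → MvPolynomial ℕ ℤ, (∀ i, ∀ d ∈ (x i).vars, d ∣ N) ∧
      ∀ P : Fin (dedekindPsi N) → Polynomial k,
        ∑ i, evalJ k (jqModC k) (P i) * evalDiv k (x i) = 0 → ∀ i, P i = 0 := by
  obtain ⟨T⟩ := exists_tower hΦ hexcl N dvd_rfl
  let e : T.ι ≃ Fin (dedekindPsi N) := Fintype.equivFinOfCardEq T.card_eq
  refine ⟨fun i => T.mon (e.symm i), fun i d hd => T.mon_vars _ d hd, ?_⟩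
  intro P hP
  have h1 := congrArg (qExpand k N) hP
  rw [map_zero, map_sum] at h1
  have h2 : ∀ i, qExpand k N (evalJ k (jqModC k) (P i) * evalDiv k (T.mon (e.symm i))) =
      T.eInf (P i • T.elt (e.symm i)) := by
    intro i
    rw [map_mul, Algebra.smul_def, map_mul, T.eInf_base, T.eInf_elt]
    congr 1
    have h3 := comp_evalJ (qExpand k N) (fun c => qExpand_C N c) (jqModC k)
    have h4 := congrArg (fun φ : Polynomial k →+* LaurentSeries k => φ (P i)) h3
    simp only [RingHom.comp_apply] at h4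
    rw [h4, jAt_of_neZero]
  simp only [h2] at h1
  rw [← map_sum] at h1
  have h5 : ∑ i, P i • T.elt (e.symm i) = 0 :=
    T.eInf.injective (h1.trans (map_zero _).symm)
  have h6 : ∑ j, (P (e j)) • T.elt j = 0 := by
    rw [← h5]
    exact Fintype.sum_equiv e _ _ (fun j => by simp)
  have h7 := Fintype.linearIndependent_iff.mp T.indep (fun j => P (e j)) h6
  intro i
  have := h7 (e.symm i)
  simpa using this

end Step

end Fermat.Agent.S28lib.Chain
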