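import Mathlib

/-!
# A norm/order argument in Laurent series fields

`L = k((u))`.  Let `K₁ ⊆ G ⊆ L` be fields with `G / K₁` algebraic, `R₁ ⊆ K₁` an integrally closed
domain with fraction field `K₁` all of whose nonzero elements have `u`-order `≤ 0` in `L`.
If `ν ∈ G` is integral over `R₁` and all its conjugates (images under `K₁`-embeddings of `G` into an
algebraic closure of `L`) are Laurent series of positive order (or zero), then `ν = 0`.
-/

namespace Fermat.Agent.S28lib

open Polynomial

variable {k : Type*} [Field k]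

/-- A Laurent series which is zero or of positive order. -/
def PosOrd (y : LaurentSeries k) : Prop := y = 0 ∨ 0 < y.order

lemma PosOrd.zero : PosOrd (0 : LaurentSeries k) := Or.inl rfl

lemma PosOrd.neg {y : LaurentSeries k} (h : PosOrd y) : PosOrd (-y) := by
  rcases h with h | h
  · left; rw [h, neg_zero]
  · right; rwa [HahnSeries.order_neg]

lemma PosOrd.mul_of_order_nonneg {y z : LaurentSeries k} (hy : PosOrd y) (hz : 0 ≤ z.order) :
    PosOrd (y * z) := by
  rcases hy with hy | hy
  · left; rw [hy, zero_mul]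
  · by_cases hz0 : z = 0
    · left; rw [hz0, mul_zero]
    · right
      have hy0 : y ≠ 0 := by
        rintro rfl
        simp at hy
      rw [HahnSeries.order_mul hy0 hz0]
      omega

lemma PosOrd.mul {y z : LaurentSeries k} (hy : PosOrd y) (hz : PosOrd z) : PosOrd (y * z) := by
  rcases hz with hz | hz
  · left; rw [hz, mul_zero]
  · exact hy.mul_of_order_nonneg hz.le

lemma PosOrd.order_nonneg {y : LaurentSeries k} (hy : PosOrd y) : 0 ≤ y.order := by
  rcases hy with hy | hy
  · rw [hy, HahnSeries.order_zero]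
  · exact hy.le

/-- A nonempty product of `PosOrd` series is `PosOrd`. -/
lemma PosOrd.multiset_prod {Ω : Type*} [Field Ω] [Algebra (LaurentSeries k) Ω]
    (M : Multiset Ω)
    (hM : ∀ ρ ∈ M, ∃ y : LaurentSeries k, ρ = algebraMap (LaurentSeries k) Ω y ∧ PosOrd y)
    (hne : M ≠ 0) :
    ∃ Y : LaurentSeries k, M.prod = algebraMap (LaurentSeries k) Ω Y ∧ PosOrd Y := by
  induction M using Multiset.induction_on with
  | empty => exact absurd rfl hne
  | cons a M ih =>
    obtain ⟨y, hy, hypos⟩ := hM a (Multiset.mem_cons_self a M)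
    by_cases hM0 : M = 0
    · subst hM0
      exact ⟨y, by simp [hy], hypos⟩
    · obtain ⟨Y, hY, hYpos⟩ := ih (fun ρ hρ => hM ρ (Multiset.mem_cons_of_mem hρ)) hM0
      exact ⟨y * Y, by rw [Multiset.prod_cons, hy, hY, map_mul], hypos.mul hYpos⟩

/-- The norm/order argument. -/
theorem eq_zero_of_forall_algHom_posOrd
    {K₁ : Type*} [Field K₁] [Algebra K₁ (LaurentSeries k)]
    {R₁ : Type*} [CommRing R₁] [IsDomain R₁] [IsIntegrallyClosed R₁] [Algebra R₁ K₁]
    [IsFractionRing R₁ K₁] [Algebra R₁ (LaurentSeries k)] [IsScalarTower R₁ K₁ (LaurentSeries k)]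
    (hR : ∀ r : R₁, r ≠ 0 → (algebraMap R₁ (LaurentSeries k) r).order ≤ 0)
    (G : IntermediateField K₁ (LaurentSeries k)) [Algebra.IsAlgebraic K₁ G]
    (ν : G) (hint : IsIntegral R₁ (ν : LaurentSeries k))
    (hσ : ∀ σ : G →ₐ[K₁] AlgebraicClosure (LaurentSeries k),
      ∃ y : LaurentSeries k, σ ν = algebraMap (LaurentSeries k) _ y ∧ PosOrd y) :
    ν = 0 := by
  classical
  set L := LaurentSeries k
  set Ω := AlgebraicClosure L
  have hνint : IsIntegral K₁ ν := Algebra.IsIntegral.isIntegral ν
  set P := minpoly K₁ ν with hP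
  have hPmonic : P.Monic := minpoly.monic hνint
  -- P has coefficients in R₁
  have hPeq : P = (minpoly R₁ (ν : L)).map (algebraMap R₁ K₁) := by
    rw [hP, IntermediateField.minpoly_eq]
    exact minpoly.isIntegrallyClosed_eq_field_fractions' K₁ hint
  -- P splits in Ω
  have hsplit : (P.map (algebraMap K₁ Ω)).Splits := IsAlgClosed.splits _
  have hPΩmonic : (P.map (algebraMap K₁ Ω)).Monic := hPmonic.map _
  have hcoeff := hsplit.coeff_zero_eq_prod_roots_of_monic hPΩmonic
  -- every root is a conjugate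
  have hroots : ∀ ρ ∈ (P.map (algebraMap K₁ Ω)).roots,
      ∃ y : L, ρ = algebraMap L Ω y ∧ PosOrd y := by
    intro ρ hρ
    have hρ' : ρ ∈ P.rootSet Ω := by
      rw [Polynomial.rootSet, Polynomial.aroots, Finset.mem_coe, Multiset.mem_toFinset]
      exact hρ
    have hrange := Algebra.IsAlgebraic.range_eval_eq_rootSet_minpoly_of_splits (F := K₁) (K := G) Ω
      (fun x => IsAlgClosed.splits _) ν
    rw [← hP] at hrange
    rw [← hrange] at hρ'
    obtain ⟨σ, hσρ⟩ := hρ'
    obtain ⟨y, hy, hypos⟩ := hσ σ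
    exact ⟨y, by rw [← hσρ]; exact hy, hypos⟩
  have hne : (P.map (algebraMap K₁ Ω)).roots ≠ 0 := by
    intro h0
    have hcard := hsplit.natDegree_eq_card_roots
    rw [h0, Multiset.card_zero, hPmonic.natDegree_map] at hcard
    exact (minpoly.natDegree_pos hνint).ne' hcard
  obtain ⟨Y, hY, hYpos⟩ := PosOrd.multiset_prod _ hroots hne
  -- the constant coefficient
  set c₀ : R₁ := (minpoly R₁ (ν : L)).coeff 0 with hc₀
  have hP0 : P.coeff 0 = algebraMap R₁ K₁ c₀ := by
    rw [hPeq, coeff_map]
  have h1 : algebraMap L Ω (algebraMap R₁ L c₀) =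
      algebraMap L Ω ((-1) ^ (P.map (algebraMap K₁ Ω)).natDegree * Y) := by
    rw [map_mul, map_pow, map_neg, map_one, ← hY, ← hcoeff, coeff_map, hP0,
      IsScalarTower.algebraMap_apply R₁ K₁ L, ← IsScalarTower.algebraMap_apply K₁ L Ω]
  have h2 : algebraMap R₁ L c₀ = (-1) ^ (P.map (algebraMap K₁ Ω)).natDegree * Y :=
    (algebraMap L Ω).injective h1
  have h3 : PosOrd (algebraMap R₁ L c₀) := by
    rw [h2]
    rcases neg_one_pow_eq_or L (P.map (algebraMap K₁ Ω)).natDegree with h | h
    · rw [h, one_mul]; exact hYpos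
    · rw [h, neg_one_mul]; exact hYpos.neg
  have hinj : Function.Injective (algebraMap R₁ L) := by
    rw [IsScalarTower.algebraMap_eq R₁ K₁ L]
    exact (algebraMap K₁ L).injective.comp (IsFractionRing.injective R₁ K₁)
  have hc0 : c₀ = 0 := by
    by_contra hc
    have hle := hR c₀ hc
    rcases h3 with h | h
    · exact hc (hinj (by rw [h, map_zero]))
    · exact absurd h (not_lt.mpr hle)
  have : P.coeff 0 = 0 := by rw [hP0, hc0, map_zero]
  exact (minpoly.coeff_zero_eq_zero hνint).mp this

end Fermat.Agent.S28lib
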