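import Mathlib
import Fermat.Agent.S28lib.Defs
import Fermat.Agent.S28lib.NormOrder

/-!
# S28, brick C2b (exclusion of the unramified case): basic lemmas

Substitutions `u ↦ ζ u^e` on `k((u))`, the total version `jT` of `jS`, transport of bivariate
polynomial relations along ring homomorphisms, and order computations for the modular unit.
Everything lives in the namespace `Fermat.Agent.S28lib.C2b`.
-/

set_option autoImplicit false

noncomputable section

namespace Fermat.Agent.S28lib.C2b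

open ModularCurve HahnSeries Polynomial

section Twist

variable {k : Type*} [Field k]

theorem twist_one_apply (f : LaurentSeries k) : twist (1 : kˣ) f = f := by
  ext n; simp

theorem twist_twist (ζ ξ : kˣ) (f : LaurentSeries k) :
    twist ζ (twist ξ f) = twist (ζ * ξ) f := by
  ext n
  simp only [twist_coeff, mul_zpow, Units.val_mul]
  ring

theorem twist_injective (ζ : kˣ) : Function.Injective (twist ζ : LaurentSeries k → _) := by
  intro f g h
  have := congrArg (twist ζ⁻¹) h
  rwa [twist_twist, twist_twist, inv_mul_cancel, twist_one_apply, twist_one_apply] at this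

theorem twist_qExpand (ζ : kˣ) (N : ℕ) [NeZero N] (f : LaurentSeries k) :
    twist ζ (qExpand k N f) = qExpand k N (twist (ζ ^ N) f) := by
  ext n
  by_cases hn : (N : ℤ) ∣ n
  · obtain ⟨m, rfl⟩ := hn
    rw [twist_coeff, qExpand_coeff_mul, qExpand_coeff_mul, twist_coeff, zpow_mul, zpow_natCast]
  · rw [twist_coeff, qExpand_coeff_of_not_dvd N f hn, qExpand_coeff_of_not_dvd N _ hn, mul_zero]

theorem twist_algebraMap (ζ : kˣ) (c : k) :
    twist ζ (algebraMap k (LaurentSeries k) c) = algebraMap k (LaurentSeries k) c := by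
  rw [algebraMap_laurentSeries_eq_single]
  ext n
  rcases eq_or_ne n 0 with rfl | hn
  · simp
  · simp [HahnSeries.coeff_single_of_ne hn]

theorem qExpand_algebraMap (e : ℕ) [NeZero e] (c : k) :
    qExpand k e (algebraMap k (LaurentSeries k) c) = algebraMap k (LaurentSeries k) c := by
  rw [algebraMap_laurentSeries_eq_single, qExpand_single, mul_zero]

/-- The substitution `u ↦ ζ u^e`. -/
def sub (ζ : kˣ) (e : ℕ) [NeZero e] : LaurentSeries k →+* LaurentSeries k :=
  (qExpand k e).comp (twist ζ)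

theorem sub_apply (ζ : kˣ) (e : ℕ) [NeZero e] (f : LaurentSeries k) :
    sub ζ e f = qExpand k e (twist ζ f) := rfl

theorem sub_algebraMap (ζ : kˣ) (e : ℕ) [NeZero e] (c : k) :
    sub ζ e (algebraMap k (LaurentSeries k) c) = algebraMap k (LaurentSeries k) c := by
  rw [sub_apply, twist_algebraMap, qExpand_algebraMap]

theorem sub_injective (ζ : kˣ) (e : ℕ) [NeZero e] :
    Function.Injective (sub ζ e : LaurentSeries k → _) :=
  (qExpand_injective e).comp (twist_injective ζ)

theorem sub_jq (ζ : kˣ) (e : ℕ) [NeZero e] : sub ζ e (jqModC k) = jS k ζ e := rfl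

theorem sub_qExpand (ζ : kˣ) (e p : ℕ) [NeZero e] [NeZero p] [NeZero (e * p)]
    (f : LaurentSeries k) : sub ζ e (qExpand k p f) = sub (ζ ^ p) (e * p) f := by
  rw [sub_apply, twist_qExpand, qExpand_qExpand, sub_apply]

theorem sub_twist (ζ ξ : kˣ) (e : ℕ) [NeZero e] (f : LaurentSeries k) :
    sub ζ e (twist ξ f) = sub (ζ * ξ) e f := by
  rw [sub_apply, twist_twist, sub_apply]

/-- A ring endomorphism of `k((u))` fixing the constants commutes with `evalJ`. -/
theorem comp_evalJ {A : Type*} [CommRing A] (s : LaurentSeries k →+* A)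
    (y : LaurentSeries k) (P : Polynomial k) :
    s (evalJ k y P) = P.eval₂ (s.comp (algebraMap k (LaurentSeries k))) (s y) := by
  rw [evalJ, AlgHom.toRingHom_eq_coe, RingHom.coe_coe, Polynomial.aeval_def,
    Polynomial.hom_eval₂]

theorem sub_comp_evalJ (ζ : kˣ) (e : ℕ) [NeZero e] (y : LaurentSeries k) :
    (sub ζ e).comp (evalJ k y) = evalJ k (sub ζ e y) := by
  refine Polynomial.ringHom_ext (fun c => ?_) ?_
  · simp only [RingHom.comp_apply, evalJ, AlgHom.toRingHom_eq_coe, RingHom.coe_coe,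
      Polynomial.aeval_C, sub_algebraMap]
  · simp only [RingHom.comp_apply, evalJ_X]

end Twist

section JT

variable (k : Type*) [Field k]

/-- Total version of `jS`: `j(ζ u^e)`, junk value `0` for `e = 0`. -/
def jT (ζ : kˣ) (e : ℕ) : LaurentSeries k :=
  if h : e = 0 then 0 else @jS k _ ζ e ⟨h⟩

theorem jT_eq (ζ : kˣ) (e : ℕ) [he : NeZero e] : jT k ζ e = jS k ζ e := by
  rw [jT, dif_neg he.out]

theorem jT_eq_sub (ζ : kˣ) (e : ℕ) [NeZero e] : jT k ζ e = sub ζ e (jqModC k) := by
  rw [jT_eq, sub_jq]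

theorem jT_one (e : ℕ) : jT k 1 e = jAt k e := by
  by_cases h : e = 0
  · rw [jT, dif_pos h, jAt, dif_pos h]
  · rw [jT, dif_neg h, jAt, dif_neg h, jS, twist_one_apply]

theorem jT_coeff_neg (ζ : kˣ) (e : ℕ) (he : e ≠ 0) :
    (jT k ζ e).coeff (-(e : ℤ)) = ((ζ⁻¹ : kˣ) : k) := by
  have : NeZero e := ⟨he⟩
  rw [jT_eq, jS, show (-(e : ℤ)) = (e : ℤ) * (-1) by ring, qExpand_coeff_mul, twist_coeff,
    coeff_jqModC_neg_one, mul_one, zpow_neg_one]

theorem jT_ne_zero (ζ : kˣ) (e : ℕ) (he : e ≠ 0) : jT k ζ e ≠ 0 := by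
  intro h
  have := jT_coeff_neg k ζ e he
  rw [h, HahnSeries.coeff_zero] at this
  exact (Units.ne_zero _) this.symm

theorem jT_mem_range_qExpand (ζ : kˣ) (m e : ℕ) [NeZero m] (he : e ≠ 0) (h : m ∣ e) :
    jT k ζ e ∈ Set.range (qExpand k m) := by
  obtain ⟨c, rfl⟩ := h
  have hc : c ≠ 0 := fun h0 => he (by rw [h0, mul_zero])
  have : NeZero c := ⟨hc⟩
  have : NeZero (m * c) := ⟨he⟩
  refine ⟨qExpand k c (twist ζ (jqModC k)), ?_⟩
  rw [qExpand_qExpand, jT_eq, jS]

theorem dvd_of_jT_mem_range_qExpand (ζ : kˣ) (m e : ℕ) [NeZero m] (he : e ≠ 0)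
    (h : jT k ζ e ∈ Set.range (qExpand k m)) : m ∣ e := by
  by_contra hnd
  obtain ⟨g, hg⟩ := h
  have h1 := jT_coeff_neg k ζ e he
  rw [← hg, qExpand_coeff_of_not_dvd m g] at h1
  · exact (Units.ne_zero _) h1.symm
  · rw [Int.dvd_neg]
    exact fun h' => hnd (Int.natCast_dvd_natCast.mp h')

/-- `sub ζ e` of `j(q^p)`. -/
theorem sub_qExpand_jq (ζ : kˣ) (e p : ℕ) [NeZero e] [NeZero p] :
    sub ζ e (qExpand k p (jqModC k)) = jT k (ζ ^ p) (e * p) := by
  have : NeZero (e * p) := ⟨Nat.mul_ne_zero (NeZero.ne e) (NeZero.ne p)⟩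
  rw [sub_qExpand, jT_eq_sub]

end JT

section K1

variable {k : Type*} [Field k]

/-- The prime-level modular equation transported along `t ↦ ζ' u^e'`:
`Φ(X, j(ζ'^p u^{e' p})) = (X - j(ζ'^{p²} u^{e' p²})) ∏_i (X - j(ζ' ζ_p^i u^{e'}))`. -/
theorem factor_sub {p : ℕ} [NeZero p] (D : ModPolyData k p) (ζ' : kˣ) (e' : ℕ) (he' : e' ≠ 0) :
    D.Φ.map (evalJ k (jT k (ζ' ^ p) (e' * p))) =
      (X - Polynomial.C (jT k (ζ' ^ (p * p)) (e' * p * p))) *
        ∏ i ∈ Finset.range p, (X - Polynomial.C (jT k (ζ' * D.ζ ^ i) e')) := by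
  have : NeZero e' := ⟨he'⟩
  have hpp : NeZero (p * p) := ⟨Nat.mul_ne_zero (NeZero.ne p) (NeZero.ne p)⟩
  have h := congrArg (Polynomial.map (sub ζ' e')) D.factor
  rw [Polynomial.map_map, sub_comp_evalJ, sub_qExpand_jq, Polynomial.map_mul,
    Polynomial.map_sub, Polynomial.map_X, Polynomial.map_C, Polynomial.map_prod,
    qExpand_qExpand, sub_qExpand_jq, ← mul_assoc] at h
  rw [h]
  congr 1
  refine Finset.prod_congr rfl fun i _ => ?_
  rw [Polynomial.map_sub, Polynomial.map_X, Polynomial.map_C, sub_twist, jT_eq_sub]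

end K1

section Ev2

variable {k : Type*} [Field k]

/-- Evaluate `Φ(X, Y) ∈ k[Y][X]` at `Y = y`, `X = x` in a ring receiving `k` via `c`. -/
def ev2 {A : Type*} [CommRing A] (c : k →+* A) (Φ : Polynomial (Polynomial k)) (y x : A) : A :=
  Φ.eval₂ (Polynomial.eval₂RingHom c y) x

theorem ev2_hom {A B : Type*} [CommRing A] [CommRing B] (c : k →+* A) (f : A →+* B)
    (Φ : Polynomial (Polynomial k)) (y x : A) :
    f (ev2 c Φ y x) = ev2 (f.comp c) Φ (f y) (f x) := by
  rw [ev2, ev2, Polynomial.hom_eval₂]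
  congr 1
  refine Polynomial.ringHom_ext (fun a => ?_) ?_
  · simp
  · simp

theorem ev2_hom' {A B : Type*} [CommRing A] [CommRing B] (c : k →+* A) (c' : k →+* B)
    (f : A →+* B) (hf : ∀ a, f (c a) = c' a)
    (Φ : Polynomial (Polynomial k)) (y x : A) :
    f (ev2 c Φ y x) = ev2 c' Φ (f y) (f x) := by
  rw [ev2_hom]
  congr 1
  exact RingHom.ext hf

theorem evalJ_eq (y : LaurentSeries k) :
    evalJ k y = Polynomial.eval₂RingHom (algebraMap k (LaurentSeries k)) y := by
  refine Polynomial.ringHom_ext (fun a => ?_) ?_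
  · simp [evalJ]
  · simp [evalJ]

theorem ev2_L (Φ : Polynomial (Polynomial k)) (y x : LaurentSeries k) :
    ev2 (algebraMap k (LaurentSeries k)) Φ y x = Φ.eval₂ (evalJ k y) x := by
  rw [ev2, evalJ_eq]

theorem ev2_eq_eval_map (Φ : Polynomial (Polynomial k)) (y x : LaurentSeries k) :
    ev2 (algebraMap k (LaurentSeries k)) Φ y x = (Φ.map (evalJ k y)).eval x := by
  rw [ev2_L, Polynomial.eval_map]

end Ev2

section Order

variable {k : Type*} [Field k]

theorem coeff_order_ne_zero' {x : LaurentSeries k} (hx : x ≠ 0) : x.coeff x.order ≠ 0 :=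
  fun h => hx (HahnSeries.coeff_order_eq_zero.mp h)

theorem order_qExpand (e : ℕ) [NeZero e] {x : LaurentSeries k} (hx : x ≠ 0) :
    (qExpand k e x).order = (e : ℤ) * x.order := by
  have he : (0 : ℤ) < (e : ℤ) := by exact_mod_cast Nat.pos_of_ne_zero (NeZero.ne e)
  have hcoeff : (qExpand k e x).coeff ((e : ℤ) * x.order) ≠ 0 := by
    rw [qExpand_coeff_mul]; exact coeff_order_ne_zero' hx
  have hne : qExpand k e x ≠ 0 := HahnSeries.ne_zero_of_coeff_ne_zero hcoeff
  refine le_antisymm (HahnSeries.order_le_of_coeff_ne_zero hcoeff) ?_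
  by_contra hlt
  rw [not_le] at hlt
  apply coeff_order_ne_zero' hne
  by_cases hdvd : (e : ℤ) ∣ (qExpand k e x).order
  · obtain ⟨m, hm⟩ := hdvd
    rw [hm, qExpand_coeff_mul]
    refine HahnSeries.coeff_eq_zero_of_lt_order ?_
    rw [hm] at hlt
    exact lt_of_mul_lt_mul_left hlt he.le
  · exact qExpand_coeff_of_not_dvd e x hdvd

theorem order_twist (ζ : kˣ) (x : LaurentSeries k) : (twist ζ x).order = x.order := by
  by_cases hx : x = 0
  · rw [hx, map_zero]
  have hne : twist ζ x ≠ 0 := fun h => hx (twist_injective ζ (by rw [h, map_zero]))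
  refine le_antisymm ?_ ?_
  · refine HahnSeries.order_le_of_coeff_ne_zero ?_
    rw [twist_coeff]
    exact mul_ne_zero (Units.ne_zero _) (coeff_order_ne_zero' hx)
  · refine HahnSeries.order_le_of_coeff_ne_zero ?_
    have h := coeff_order_ne_zero' hne
    rw [twist_coeff] at h
    exact right_ne_zero_of_mul h

theorem order_sub (ζ : kˣ) (e : ℕ) [NeZero e] {x : LaurentSeries k} (hx : x ≠ 0) :
    (sub ζ e x).order = (e : ℤ) * x.order := by
  have hne : twist ζ x ≠ 0 := fun h => hx (twist_injective ζ (by rw [h, map_zero]))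
  rw [sub_apply, order_qExpand e hne, order_twist]

theorem posOrd_sub (ζ : kˣ) (e : ℕ) [NeZero e] {x : LaurentSeries k} (hx : PosOrd x) :
    PosOrd (sub ζ e x) := by
  rcases hx with hx | hx
  · left; rw [hx, map_zero]
  · right
    have hx0 : x ≠ 0 := by
      rintro rfl
      simp at hx
    rw [order_sub ζ e hx0]
    have he : (0 : ℤ) < (e : ℤ) := by exact_mod_cast Nat.pos_of_ne_zero (NeZero.ne e)
    positivity

variable (k)

theorem order_DeltaQ : (DeltaQ k).order = 1 ∧ DeltaQ k ≠ 0 := by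
  set U : PowerSeries k := dedekindEtaUnit.map (Int.castRingHom k) with hU
  have hUc : PowerSeries.constantCoeff U = 1 := by
    rw [hU, ← PowerSeries.coeff_zero_eq_constantCoeff, PowerSeries.coeff_map,
      PowerSeries.coeff_zero_eq_constantCoeff, constantCoeff_dedekindEtaUnit]
    simp
  have hcoeff0 : (HahnSeries.ofPowerSeries ℤ k U).coeff (0 : ℤ) = 1 := by
    rw [show (0 : ℤ) = ((0 : ℕ) : ℤ) from rfl, HahnSeries.ofPowerSeries_apply_coeff,
      PowerSeries.coeff_zero_eq_constantCoeff, hUc]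
  have hne0 : (HahnSeries.ofPowerSeries ℤ k U).coeff (0 : ℤ) ≠ 0 := by
    rw [hcoeff0]; exact one_ne_zero
  have hne : HahnSeries.ofPowerSeries ℤ k U ≠ 0 := HahnSeries.ne_zero_of_coeff_ne_zero hne0
  have horder : (HahnSeries.ofPowerSeries ℤ k U).order = 0 := by
    refine le_antisymm (HahnSeries.order_le_of_coeff_ne_zero hne0) ?_
    by_contra hlt
    rw [not_le] at hlt
    exact hne (HahnSeries.coeff_order_eq_zero.mp (ofPowerSeries_coeff_of_neg U hlt))
  have hs : (HahnSeries.single (1 : ℤ) (1 : k)) ≠ 0 := by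
    rw [Ne, HahnSeries.single_eq_zero_iff]; exact one_ne_zero
  constructor
  · rw [DeltaQ, HahnSeries.order_mul hs hne, horder, HahnSeries.order_single one_ne_zero, add_zero]
  · exact mul_ne_zero hs hne

theorem nuQ_ne_zero (p : ℕ) [NeZero p] : nuQ k p ≠ 0 := by
  rw [nuQ]
  refine mul_ne_zero ?_ (inv_ne_zero (order_DeltaQ k).2)
  exact fun h => (order_DeltaQ k).2 (qExpand_injective p (by rw [h, map_zero]))

theorem order_nuQ (p : ℕ) [NeZero p] : (nuQ k p).order = (p : ℤ) - 1 := by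
  have hD := order_DeltaQ k
  have h1 : nuQ k p * DeltaQ k = qExpand k p (DeltaQ k) := by
    rw [nuQ, mul_assoc, inv_mul_cancel₀ hD.2, mul_one]
  have h2 := congrArg HahnSeries.order h1
  rw [HahnSeries.order_mul (nuQ_ne_zero k p) hD.2, order_qExpand p hD.2, hD.1] at h2
  omega

theorem posOrd_nuQ (p : ℕ) [NeZero p] (hp : 2 ≤ p) : PosOrd (nuQ k p) := by
  right
  rw [order_nuQ]
  have : (2 : ℤ) ≤ (p : ℤ) := by exact_mod_cast hp
  omega

end Order

section K4

variable (k : Type*) [Field k]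

theorem coeff_algebraMap_mul (c : k) (y : LaurentSeries k) (n : ℤ) :
    (algebraMap k (LaurentSeries k) c * y).coeff n = c * y.coeff n := by
  rw [algebraMap_laurentSeries_eq_single]
  have := HahnSeries.coeff_single_mul_add (r := c) (x := y) (a := n) (b := (0 : ℤ))
  rwa [add_zero] at this

/-- The coefficient of `P(j)` at `q^{-deg P}` is the leading coefficient of `P`. -/
theorem coeff_evalJ_jq (P : Polynomial k) :
    (evalJ k (jqModC k) P).coeff (-(P.natDegree : ℤ)) = P.leadingCoeff := by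
  rw [evalJ, AlgHom.toRingHom_eq_coe, RingHom.coe_coe, Polynomial.aeval_eq_sum_range,
    HahnSeries.coeff_sum]
  simp only [Algebra.smul_def, coeff_algebraMap_mul]
  rw [Finset.sum_eq_single P.natDegree]
  · rw [coeff_jqModC_pow_self, mul_one, Polynomial.leadingCoeff]
  · intro i hi hne
    rw [coeff_jqModC_pow_of_lt, mul_zero]
    have : i < P.natDegree := lt_of_le_of_ne (Nat.lt_succ_iff.mp (Finset.mem_range.mp hi)) hne
    omega
  · intro h
    exact absurd (Finset.mem_range.mpr (Nat.lt_succ_self _)) h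

/-- K4: a nonzero polynomial in `j(q)` is a nonzero series of order `≤ 0`. -/
theorem evalJ_jq_ne_zero_order_le {P : Polynomial k} (hP : P ≠ 0) :
    evalJ k (jqModC k) P ≠ 0 ∧ (evalJ k (jqModC k) P).order ≤ 0 := by
  have h : (evalJ k (jqModC k) P).coeff (-(P.natDegree : ℤ)) ≠ 0 := by
    rw [coeff_evalJ_jq]; exact Polynomial.leadingCoeff_ne_zero.mpr hP
  refine ⟨HahnSeries.ne_zero_of_coeff_ne_zero h, ?_⟩
  refine (HahnSeries.order_le_of_coeff_ne_zero h).trans ?_
  omega

theorem qExpand_comp_evalJ (e : ℕ) [NeZero e] (y : LaurentSeries k) :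
    (qExpand k e).comp (evalJ k y) = evalJ k (qExpand k e y) := by
  refine Polynomial.ringHom_ext (fun c => ?_) ?_
  · simp only [RingHom.comp_apply, evalJ, AlgHom.toRingHom_eq_coe, RingHom.coe_coe,
      Polynomial.aeval_C, qExpand_algebraMap]
  · simp only [RingHom.comp_apply, evalJ_X]

/-- K4 for `j(q^e)`. -/
theorem evalJ_jAt_ne_zero_order_le (e : ℕ) (he : e ≠ 0) {P : Polynomial k} (hP : P ≠ 0) :
    evalJ k (jAt k e) P ≠ 0 ∧ (evalJ k (jAt k e) P).order ≤ 0 := by
  have : NeZero e := ⟨he⟩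
  obtain ⟨h1, h2⟩ := evalJ_jq_ne_zero_order_le k hP
  have heq : evalJ k (jAt k e) P = qExpand k e (evalJ k (jqModC k) P) := by
    rw [jAt_of_neZero, ← qExpand_comp_evalJ, RingHom.comp_apply]
  rw [heq]
  refine ⟨fun h => h1 (qExpand_injective e (by rw [h, map_zero])), ?_⟩
  rw [order_qExpand e h1]
  have he' : (0 : ℤ) < (e : ℤ) := by exact_mod_cast Nat.pos_of_ne_zero he
  exact mul_nonpos_of_nonneg_of_nonpos he'.le h2

end K4

end Fermat.Agent.S28lib.C2b
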