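import Mathlib
import Fermat.Agent.S28lib.Defs
import Fermat.Agent.S28lib.NormOrder
import Fermat.Agent.S28lib.ExclBasic

/-!
# S28, brick C2b: cusp types of the conjugates and the unswapped lemma

Abstract setting: `K₁` is a field with an algebra structure on `L = k((u))` whose image contains
the constants; `G` is an intermediate field of `L/K₁`, `σ : G →ₐ[K₁] Ω` an embedding into the
algebraic closure of `L`.
-/

set_option autoImplicit false

noncomputable section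

namespace Fermat.Agent.S28lib.C2b

open ModularCurve Polynomial

section Transport

variable {k : Type*} [Field k]
variable {K₁ : Type*} [Field K₁] [Algebra K₁ (LaurentSeries k)]
variable (cK : k →+* K₁)
  (hcK : ∀ c, algebraMap K₁ (LaurentSeries k) (cK c) = algebraMap k (LaurentSeries k) c)
variable (G : IntermediateField K₁ (LaurentSeries k))

/-- The structure map `k → G`. -/
def cG : k →+* G := (algebraMap K₁ G).comp cK

/-- The structure map `k → Ω`. -/
def cΩ (k : Type*) [Field k] : k →+* AlgebraicClosure (LaurentSeries k) :=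
  (algebraMap (LaurentSeries k) (AlgebraicClosure (LaurentSeries k))).comp
    (algebraMap k (LaurentSeries k))

include hcK in
theorem coe_ev2_G (Φ : Polynomial (Polynomial k)) (y x : G) :
    ((ev2 (cG cK G) Φ y x : G) : LaurentSeries k) =
      ev2 (algebraMap k (LaurentSeries k)) Φ (y : LaurentSeries k) (x : LaurentSeries k) := by
  have := ev2_hom' (cG cK G) (algebraMap k (LaurentSeries k))
    (algebraMap G (LaurentSeries k)) (fun c => by
      rw [cG, RingHom.comp_apply, ← IsScalarTower.algebraMap_apply K₁ G (LaurentSeries k), hcK])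
    Φ y x
  exact this

include hcK in
theorem sigma_ev2 (σ : G →ₐ[K₁] AlgebraicClosure (LaurentSeries k))
    (Φ : Polynomial (Polynomial k)) (y x : G) :
    σ (ev2 (cG cK G) Φ y x) = ev2 (cΩ k) Φ (σ y) (σ x) := by
  have := ev2_hom' (cG cK G) (cΩ k) (σ : G →+* AlgebraicClosure (LaurentSeries k)) (fun c => by
      rw [cG, RingHom.comp_apply, RingHom.coe_coe, σ.commutes,
        IsScalarTower.algebraMap_apply K₁ (LaurentSeries k) (AlgebraicClosure (LaurentSeries k)),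
        hcK, cΩ, RingHom.comp_apply])
    Φ y x
  exact this

theorem iota_ev2 (Φ : Polynomial (Polynomial k)) (y x : LaurentSeries k) :
    algebraMap (LaurentSeries k) (AlgebraicClosure (LaurentSeries k))
        (ev2 (algebraMap k (LaurentSeries k)) Φ y x) =
      ev2 (cΩ k) Φ (algebraMap _ _ y) (algebraMap _ _ x) :=
  ev2_hom _ _ Φ y x

theorem ev2_cΩ_eq_eval (Φ : Polynomial (Polynomial k)) (y : LaurentSeries k)
    (w : AlgebraicClosure (LaurentSeries k)) :
    ev2 (cΩ k) Φ (algebraMap _ _ y) w =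
      ((Φ.map (evalJ k y)).map
        (algebraMap (LaurentSeries k) (AlgebraicClosure (LaurentSeries k)))).eval w := by
  rw [Polynomial.map_map, Polynomial.eval_map, ev2]
  congr 1
  refine Polynomial.ringHom_ext (fun a => ?_) ?_
  · simp [cΩ, evalJ]
  · simp [evalJ]

end Transport

section Roots

variable {k : Type*} [Field k]

/-- The roots in `Ω` of `Φ_p(X, j(ζ'^p u^{e' p}))`. -/
theorem root_dichotomy {p : ℕ} [NeZero p] (D : ModPolyData k p) (ζ' : kˣ) (e' : ℕ) (he' : e' ≠ 0)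
    (w : AlgebraicClosure (LaurentSeries k))
    (hw : ev2 (cΩ k) D.Φ (algebraMap _ _ (jT k (ζ' ^ p) (e' * p))) w = 0) :
    w = algebraMap _ _ (jT k (ζ' ^ (p * p)) (e' * p * p)) ∨
      ∃ i < p, w = algebraMap _ _ (jT k (ζ' * D.ζ ^ i) e') := by
  rw [ev2_cΩ_eq_eval, factor_sub D ζ' e' he', Polynomial.map_mul, Polynomial.map_sub,
    Polynomial.map_X, Polynomial.map_C, Polynomial.map_prod, Polynomial.eval_mul,
    Polynomial.eval_sub, Polynomial.eval_X, Polynomial.eval_C, Polynomial.eval_prod,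
    mul_eq_zero, Finset.prod_eq_zero_iff] at hw
  rcases hw with hw | ⟨i, hi, hw⟩
  · left; exact sub_eq_zero.mp hw
  · right
    refine ⟨i, Finset.mem_range.mp hi, ?_⟩
    rw [Polynomial.map_sub, Polynomial.map_X, Polynomial.map_C, Polynomial.eval_sub,
      Polynomial.eval_X, Polynomial.eval_C] at hw
    exact sub_eq_zero.mp hw

/-- The modular relation `Φ_p(j(q^{d p}), j(q^d)) = 0` with `q = u^{n₀}`, `d p ∣ n₀`. -/
theorem modular_relation {p : ℕ} [NeZero p] (D : ModPolyData k p) (n₀ d : ℕ) (hn₀ : n₀ ≠ 0)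
    (hdvd : d * p ∣ n₀) :
    ev2 (algebraMap k (LaurentSeries k)) D.Φ (jAt k (n₀ * d)) (jAt k (n₀ * (d * p))) = 0 := by
  obtain ⟨c, hc⟩ := hdvd
  have hd : d ≠ 0 := by
    rintro rfl
    exact hn₀ (by rw [hc]; ring)
  have hc0 : c ≠ 0 := by
    rintro rfl
    exact hn₀ (by rw [hc]; ring)
  have he' : d * c * d ≠ 0 := Nat.mul_ne_zero (Nat.mul_ne_zero hd hc0) hd
  have h := factor_sub D (1 : kˣ) (d * c * d) he'
  rw [ev2_eq_eval_map]
  have e1 : n₀ * d = d * c * d * p := by rw [hc]; ring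
  have e2 : n₀ * (d * p) = d * c * d * p * p := by rw [hc]; ring
  rw [← jT_one, ← jT_one, e1, e2]
  have h1 : ((1 : kˣ) ^ p) = 1 := one_pow _
  have h2 : ((1 : kˣ) ^ (p * p)) = 1 := one_pow _
  rw [h1, h2] at h
  rw [h, Polynomial.eval_mul, Polynomial.eval_sub, Polynomial.eval_X, Polynomial.eval_C, sub_self,
    zero_mul]

end Roots

section Step

variable {k : Type*} [Field k] [IsAlgClosed k]
variable {K₁ : Type*} [Field K₁] [Algebra K₁ (LaurentSeries k)]
variable (cK : k →+* K₁)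
  (hcK : ∀ c, algebraMap K₁ (LaurentSeries k) (cK c) = algebraMap k (LaurentSeries k) c)
variable (G : IntermediateField K₁ (LaurentSeries k))

theorem exists_unit_pow_eq (ζ : kˣ) {n : ℕ} (hn : n ≠ 0) : ∃ ζ' : kˣ, ζ' ^ n = ζ := by
  obtain ⟨z, hz⟩ := IsAlgClosed.exists_pow_nat_eq (ζ : k) (Nat.pos_of_ne_zero hn)
  have hz0 : z ≠ 0 := by
    rintro rfl
    rw [zero_pow hn] at hz
    exact (Units.ne_zero ζ) hz.symm
  exact ⟨Units.mk0 z hz0, Units.ext (by rw [Units.val_pow_eq_pow_val, Units.val_mk0, hz])⟩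

include hcK in
/-- One step of the cusp-type analysis along a prime `p`. -/
theorem cusp_step (σ : G →ₐ[K₁] AlgebraicClosure (LaurentSeries k))
    {p : ℕ} [NeZero p] (D : ModPolyData k p) (n₀ d : ℕ) (hn₀ : n₀ ≠ 0) (hdvd : d * p ∣ n₀)
    (y x : G) (hy : (y : LaurentSeries k) = jAt k (n₀ * d))
    (hx : (x : LaurentSeries k) = jAt k (n₀ * (d * p)))
    (ζ : kˣ) (e a b : ℕ) (hab : a * b = d) (heb : e * b = n₀ * a)
    (hσy : σ y = algebraMap _ _ (jT k ζ e)) :
    σ x = algebraMap _ _ (jT k (ζ ^ p) (e * p)) ∨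
      ∃ (ζ₁ : kˣ) (e' : ℕ), e' ≠ 0 ∧ e = e' * p ∧ σ x = algebraMap _ _ (jT k ζ₁ e') := by
  -- the relation in `G`
  have hrel : ev2 (cG cK G) D.Φ y x = 0 := by
    apply Subtype.ext
    rw [coe_ev2_G cK hcK, hy, hx, modular_relation D n₀ d hn₀ hdvd]
    rfl
  have hrelΩ := congrArg σ hrel
  rw [sigma_ev2 cK hcK, map_zero, hσy] at hrelΩ
  -- arithmetic: `p ∣ e`
  obtain ⟨c, hc⟩ := hdvd
  have hd : d ≠ 0 := by
    rintro rfl
    exact hn₀ (by rw [hc]; ring)
  have hc0 : c ≠ 0 := by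
    rintro rfl
    exact hn₀ (by rw [hc]; ring)
  have hb : b ≠ 0 := by
    rintro rfl
    exact hd (by rw [← hab]; ring)
  have ha : a ≠ 0 := by
    rintro rfl
    exact hd (by rw [← hab]; ring)
  have he : e = a * c * a * p := by
    have h1 : e * b = (a * c * a * p) * b := by
      rw [heb, hc, ← hab]; ring
    exact Nat.eq_of_mul_eq_mul_right (Nat.pos_of_ne_zero hb) h1
  have he' : a * c * a ≠ 0 := Nat.mul_ne_zero (Nat.mul_ne_zero ha hc0) ha
  obtain ⟨ζ', hζ'⟩ := exists_unit_pow_eq ζ (NeZero.ne p)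
  rw [he, ← hζ'] at hrelΩ
  rcases root_dichotomy D ζ' (a * c * a) he' (σ x) hrelΩ with h | ⟨i, _, h⟩
  · left
    rw [h, he, ← hζ', ← pow_mul]
  · right
    exact ⟨ζ' * D.ζ ^ i, a * c * a, he', he, h⟩

end Step

section CuspType

variable {k : Type*} [Field k] [IsAlgClosed k]
variable {K₁ : Type*} [Field K₁] [Algebra K₁ (LaurentSeries k)]
variable (cK : k →+* K₁)
  (hcK : ∀ c, algebraMap K₁ (LaurentSeries k) (cK c) = algebraMap k (LaurentSeries k) c)
variable (G : IntermediateField K₁ (LaurentSeries k))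
variable (n₀ M : ℕ) (hn₀ : n₀ ≠ 0) (hM : M ∣ n₀)
  (hΦ : ∀ (p : ℕ) [NeZero p], p.Prime → p ∣ M → Nonempty (ModPolyData k p))
  (hG : ∀ d, d ∣ M → jAt k (n₀ * d) ∈ G)
  (hJ1 : ∃ c : K₁, algebraMap K₁ (LaurentSeries k) c = jAt k n₀)

include hcK hn₀ hM hΦ hJ1 in
/-- Every conjugate of `j(q^d)`, `d ∣ M`, is of the form `j(ζ u^e)` with `e = n₀ a / b`,
`a b = d`. -/
theorem cusp_type (σ : G →ₐ[K₁] AlgebraicClosure (LaurentSeries k)) :
    ∀ (d : ℕ) (hd : d ∣ M), ∃ (ζ : kˣ) (e a b : ℕ), a * b = d ∧ e * b = n₀ * a ∧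
      σ ⟨jAt k (n₀ * d), hG d hd⟩ = algebraMap _ _ (jT k ζ e) := by
  intro d
  induction d using induction_on_primes with
  | zero =>
    intro hd
    exfalso
    have hM0 : M = 0 := zero_dvd_iff.mp hd
    rw [hM0] at hM
    exact hn₀ (zero_dvd_iff.mp hM)
  | one =>
    intro hd
    obtain ⟨c, hc⟩ := hJ1
    refine ⟨1, n₀, 1, 1, rfl, rfl, ?_⟩
    have h1 : (⟨jAt k (n₀ * 1), hG 1 hd⟩ : G) = algebraMap K₁ G c := by
      apply Subtype.ext
      show jAt k (n₀ * 1) = algebraMap K₁ (LaurentSeries k) c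
      rw [hc, mul_one]
    rw [h1, σ.commutes,
      IsScalarTower.algebraMap_apply K₁ (LaurentSeries k) (AlgebraicClosure (LaurentSeries k)),
      hc, jT_one]
  | prime_mul p a' hp ih =>
    intro hd
    have ha'M : a' ∣ M := (dvd_mul_left a' p).trans hd
    obtain ⟨ζ, e, a, b, hab, heb, hσ⟩ := ih ha'M
    have : NeZero p := ⟨hp.ne_zero⟩
    obtain ⟨D⟩ := hΦ p hp ((dvd_mul_right p a').trans hd)
    have hdvd : a' * p ∣ n₀ := by
      rw [mul_comm]; exact hd.trans hM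
    rcases cusp_step cK hcK G σ D n₀ a' hn₀ hdvd ⟨jAt k (n₀ * a'), hG a' ha'M⟩
        ⟨jAt k (n₀ * (p * a')), hG (p * a') hd⟩ rfl (by rw [mul_comm a' p]) ζ e a b hab heb hσ
      with h | ⟨ζ₁, e', _, he, h⟩
    · refine ⟨ζ ^ p, e * p, a * p, b, ?_, ?_, h⟩
      · rw [← hab]; ring
      · rw [mul_right_comm, heb]; ring
    · refine ⟨ζ₁, e', a, b * p, ?_, ?_, h⟩
      · rw [← hab]; ring
      · rw [← heb, he]; ring

end CuspType

section Range

variable {k : Type*} [Field k] [IsAlgClosed k]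
variable {K₁ : Type*} [Field K₁] [Algebra K₁ (LaurentSeries k)]
variable (cK : k →+* K₁)
  (hcK : ∀ c, algebraMap K₁ (LaurentSeries k) (cK c) = algebraMap k (LaurentSeries k) c)

/-- The generators `j(q^d)`, `d ∣ M`, `q = u^{n₀}`. -/
def genSet (k : Type*) [Field k] (n₀ M : ℕ) : Set (LaurentSeries k) :=
  {y | ∃ d, d ∣ M ∧ y = jAt k (n₀ * d)}

omit [IsAlgClosed k] in
theorem jAt_mem_genSet (n₀ M d : ℕ) (hd : d ∣ M) : jAt k (n₀ * d) ∈ genSet k n₀ M :=
  ⟨d, hd, rfl⟩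

variable (n₀ M m : ℕ) [NeZero m] (hn₀ : n₀ ≠ 0) (hm : n₀ = M * m)
  (hΦ : ∀ (p : ℕ) [NeZero p], p.Prime → p ∣ M → Nonempty (ModPolyData k p))
  (hJ1 : ∃ c : K₁, algebraMap K₁ (LaurentSeries k) c = jAt k n₀)
  (hK₁ : ∀ c : K₁, ∃ z, algebraMap K₁ (LaurentSeries k) c = qExpand k m z)

omit [IsAlgClosed k] [NeZero m] in
include hn₀ hm in
theorem dvd_of_cusp_type {d e a b : ℕ} (hd : d ∣ M) (hab : a * b = d) (heb : e * b = n₀ * a) :
    e ≠ 0 ∧ m ∣ e := by
  obtain ⟨c, hc⟩ := hd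
  have hM0 : M ≠ 0 := by
    rintro rfl
    exact hn₀ (by rw [hm]; ring)
  have hm0 : m ≠ 0 := by
    rintro rfl
    exact hn₀ (by rw [hm]; ring)
  have hd0 : d ≠ 0 := by
    rintro rfl
    exact hM0 (by rw [hc]; ring)
  have hc0 : c ≠ 0 := by
    rintro rfl
    exact hM0 (by rw [hc]; ring)
  have hb : b ≠ 0 := by
    rintro rfl
    exact hd0 (by rw [← hab]; ring)
  have ha : a ≠ 0 := by
    rintro rfl
    exact hd0 (by rw [← hab]; ring)
  have he : e = m * (a * c * a) := by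
    have h1 : e * b = (m * (a * c * a)) * b := by
      rw [heb, hm, hc, ← hab]; ring
    exact Nat.eq_of_mul_eq_mul_right (Nat.pos_of_ne_zero hb) h1
  refine ⟨?_, ⟨a * c * a, he⟩⟩
  rw [he]
  exact Nat.mul_ne_zero hm0 (Nat.mul_ne_zero (Nat.mul_ne_zero ha hc0) ha)

include hcK hn₀ hm hΦ hJ1 hK₁ in
/-- Every embedding of `G = K₁(j(q^d) : d ∣ M)` lands in `ι(k((u^m)))`, `m = n₀ / M`. -/
theorem sigma_range
    (σ : IntermediateField.adjoin K₁ (genSet k n₀ M) →ₐ[K₁] AlgebraicClosure (LaurentSeries k))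
    (x : IntermediateField.adjoin K₁ (genSet k n₀ M)) :
    ∃ z : LaurentSeries k, σ x = algebraMap _ _ (qExpand k m z) := by
  have hM : M ∣ n₀ := ⟨m, hm⟩
  have hG : ∀ d, d ∣ M → jAt k (n₀ * d) ∈ IntermediateField.adjoin K₁ (genSet k n₀ M) :=
    fun d hd => IntermediateField.subset_adjoin _ _ (jAt_mem_genSet n₀ M d hd)
  have key : ∀ (x : LaurentSeries k) (hx : x ∈ IntermediateField.adjoin K₁ (genSet k n₀ M)),
      ∃ z : LaurentSeries k, σ ⟨x, hx⟩ = algebraMap _ _ (qExpand k m z) := by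
    intro x hx
    induction hx using IntermediateField.adjoin_induction with
    | mem x hx =>
      obtain ⟨d, hd, rfl⟩ := hx
      obtain ⟨ζ, e, a, b, hab, heb, hσ⟩ :=
        cusp_type cK hcK _ n₀ M hn₀ hM hΦ hG hJ1 σ d hd
      obtain ⟨he0, hme⟩ := dvd_of_cusp_type n₀ M m hn₀ hm hd hab heb
      obtain ⟨z, hz⟩ := jT_mem_range_qExpand k ζ m e he0 hme
      exact ⟨z, by rw [hz]; exact hσ⟩
    | algebraMap c =>
      obtain ⟨z, hz⟩ := hK₁ c
      refine ⟨z, ?_⟩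
      rw [← hz, ← IsScalarTower.algebraMap_apply K₁ (LaurentSeries k)
        (AlgebraicClosure (LaurentSeries k)), ← σ.commutes]
      rfl
    | add x y hx hy ihx ihy =>
      obtain ⟨z₁, h₁⟩ := ihx
      obtain ⟨z₂, h₂⟩ := ihy
      refine ⟨z₁ + z₂, ?_⟩
      rw [map_add, map_add, ← h₁, ← h₂, ← map_add]
      rfl
    | inv x hx ih =>
      obtain ⟨z, h⟩ := ih
      refine ⟨z⁻¹, ?_⟩
      rw [map_inv₀, map_inv₀, ← h, ← map_inv₀]
      rfl
    | mul x y hx hy ihx ihy =>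
      obtain ⟨z₁, h₁⟩ := ihx
      obtain ⟨z₂, h₂⟩ := ihy
      refine ⟨z₁ * z₂, ?_⟩
      rw [map_mul, map_mul, ← h₁, ← h₂, ← map_mul]
      rfl
  exact key x.1 x.2

end Range

section Unswapped

variable {k : Type*} [Field k] [IsAlgClosed k]
variable {K₁ : Type*} [Field K₁] [Algebra K₁ (LaurentSeries k)]
variable (cK : k →+* K₁)
  (hcK : ∀ c, algebraMap K₁ (LaurentSeries k) (cK c) = algebraMap k (LaurentSeries k) c)
variable (n₀ M p t : ℕ) [NeZero p] [NeZero (p * t)] (hn₀ : n₀ ≠ 0) (hn : n₀ = M * (p * t))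
  (hp : p.Prime) (hpM : ¬ p ∣ M)
  (hΦ : ∀ (p : ℕ) [NeZero p], p.Prime → p ∣ M → Nonempty (ModPolyData k p))
  (D : ModPolyData k p)
  (hJ1 : ∃ c : K₁, algebraMap K₁ (LaurentSeries k) c = jAt k n₀)
  (hK₁ : ∀ c : K₁, ∃ z, algebraMap K₁ (LaurentSeries k) c = qExpand k (p * t) z)

include hcK hn₀ hn hp hpM hΦ hJ1 hK₁ D in
/-- The unswapped lemma: if `j(q^{Mp})` lies in `G = K₁(j(q^d) : d ∣ M)` (with `p ∤ M`), then every
embedding `σ` of `G` with `σ j(q^M) = j(ζ u^e)` has `σ j(q^{Mp}) = j(ζ^p u^{e p})`. -/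
theorem unswapped
    (σ : IntermediateField.adjoin K₁ (genSet k n₀ M) →ₐ[K₁] AlgebraicClosure (LaurentSeries k))
    (hmem : jAt k (n₀ * (M * p)) ∈ IntermediateField.adjoin K₁ (genSet k n₀ M))
    (hmemM : jAt k (n₀ * M) ∈ IntermediateField.adjoin K₁ (genSet k n₀ M))
    (ζ : kˣ) (e a b : ℕ) (hab : a * b = M) (heb : e * b = n₀ * a)
    (hσ : σ ⟨jAt k (n₀ * M), hmemM⟩ = algebraMap _ _ (jT k ζ e)) :
    σ ⟨jAt k (n₀ * (M * p)), hmem⟩ = algebraMap _ _ (jT k (ζ ^ p) (e * p)) := by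
  have hdvd : M * p ∣ n₀ := ⟨t, by rw [hn]; ring⟩
  rcases cusp_step cK hcK _ σ D n₀ M hn₀ hdvd ⟨jAt k (n₀ * M), hmemM⟩
      ⟨jAt k (n₀ * (M * p)), hmem⟩ rfl rfl ζ e a b hab heb hσ with h | ⟨ζ₁, e', he'0, he, h⟩
  · exact h
  · exfalso
    obtain ⟨z, hz⟩ := sigma_range cK hcK n₀ M (p * t) hn₀ hn hΦ hJ1 hK₁ σ
      ⟨jAt k (n₀ * (M * p)), hmem⟩
    rw [h] at hz
    have hz' : jT k ζ₁ e' = qExpand k (p * t) z :=
      (algebraMap (LaurentSeries k) (AlgebraicClosure (LaurentSeries k))).injective hz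
    have hdiv : p * t ∣ e' := dvd_of_jT_mem_range_qExpand k ζ₁ (p * t) e' he'0 ⟨z, hz'.symm⟩
    -- arithmetic
    have hM0 : M ≠ 0 := by
      rintro rfl
      exact hn₀ (by rw [hn]; ring)
    have hb : b ≠ 0 := by
      rintro rfl
      exact hM0 (by rw [← hab]; ring)
    have ht : t ≠ 0 := by
      rintro rfl
      exact hn₀ (by rw [hn]; ring)
    have he1 : e = a * t * a * p := by
      have h1 : e * b = (a * t * a * p) * b := by
        rw [heb, hn, ← hab]; ring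
      exact Nat.eq_of_mul_eq_mul_right (Nat.pos_of_ne_zero hb) h1
    have he2 : e' = a * t * a := by
      have h1 : e' * p = (a * t * a) * p := by rw [← he, he1]
      exact Nat.eq_of_mul_eq_mul_right hp.pos h1
    rw [he2] at hdiv
    have h3 : p * t ∣ (a * a) * t := by
      convert hdiv using 1; ring
    have h4 : p ∣ a * a := Nat.dvd_of_mul_dvd_mul_right (Nat.pos_of_ne_zero ht) h3
    have h5 : p ∣ a := (hp.dvd_mul.mp h4).elim id id
    exact hpM (by rw [← hab]; exact h5.mul_right b)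

end Unswapped

end Fermat.Agent.S28lib.C2b
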