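import Mathlib
import Fermat.Agent.S28lib.Defs
import Fermat.Agent.S28lib.NormOrder
import Fermat.Agent.S28lib.ExclBasic
import Fermat.Agent.S28lib.ExclCusp

/-!
# S28, brick C2b: integrality and the modular unit

Integrality of the `j(q^d)` and of the unit `ν = Δ(q^{Mp})/Δ(q^M)` over `R₁ = k[j(q)]`
(`q = u^{n₀}`), and the conjugates of `ν`.
-/

set_option autoImplicit false

noncomputable section

namespace Fermat.Agent.S28lib.C2b

open ModularCurve Polynomial

section Integral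

variable {k : Type*} [Field k]
variable {R₁ : Type*} [CommRing R₁] [Algebra R₁ (LaurentSeries k)]
variable (cR : k →+* R₁)
  (hcR : ∀ c, algebraMap R₁ (LaurentSeries k) (cR c) = algebraMap k (LaurentSeries k) c)

include hcR in
/-- A root of a polynomial `Φ(X, y)`, monic in `X`, with `y` integral, is integral. -/
theorem isIntegral_of_ev2 (Φ : Polynomial (Polynomial k)) (hΦ : Φ.Monic) (y x : LaurentSeries k)
    (hy : IsIntegral R₁ y) (h : ev2 (algebraMap k (LaurentSeries k)) Φ y x = 0) :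
    IsIntegral R₁ x := by
  set C := integralClosure R₁ (LaurentSeries k) with hC
  let cC : k →+* C := (algebraMap R₁ C).comp cR
  let y' : C := ⟨y, hy⟩
  let Q : Polynomial C := Φ.map (Polynomial.eval₂RingHom cC y')
  have hQ : Q.Monic := hΦ.map _
  have hev : Polynomial.eval₂ (algebraMap C (LaurentSeries k)) x Q = 0 := by
    rw [Polynomial.eval₂_map, ← h, ev2]
    congr 1
    refine Polynomial.ringHom_ext (fun a => ?_) ?_
    · simp only [RingHom.comp_apply, Polynomial.coe_eval₂RingHom, Polynomial.eval₂_C]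
      rw [← hcR a]
      rfl
    · simp only [RingHom.comp_apply, Polynomial.coe_eval₂RingHom, Polynomial.eval₂_X]
      rfl
  have hxC : IsIntegral C x := ⟨Q, hQ, hev⟩
  exact isIntegral_trans x hxC

variable (n₀ M : ℕ) (hn₀ : n₀ ≠ 0) (hM : M ∣ n₀)
  (hΦ : ∀ (p : ℕ) [NeZero p], p.Prime → p ∣ M → Nonempty (ModPolyData k p))
  (hJ1R : ∃ r : R₁, algebraMap R₁ (LaurentSeries k) r = jAt k n₀)

include hcR hn₀ hM hΦ hJ1R in
/-- `j(q^d)` is integral over `R₁ = k[j(q)]` for `d ∣ M`. -/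
theorem isIntegral_jAt : ∀ d, d ∣ M → IsIntegral R₁ (jAt k (n₀ * d)) := by
  intro d
  induction d using induction_on_primes with
  | zero =>
    intro hd
    exfalso
    have hM0 : M = 0 := zero_dvd_iff.mp hd
    rw [hM0] at hM
    exact hn₀ (zero_dvd_iff.mp hM)
  | one =>
    intro _
    obtain ⟨r, hr⟩ := hJ1R
    rw [mul_one, ← hr]
    exact isIntegral_algebraMap
  | prime_mul p a' hp ih =>
    intro hd
    have ha'M : a' ∣ M := (dvd_mul_left a' p).trans hd
    have : NeZero p := ⟨hp.ne_zero⟩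
    obtain ⟨D⟩ := hΦ p hp ((dvd_mul_right p a').trans hd)
    have hdvd : a' * p ∣ n₀ := by
      rw [mul_comm]; exact hd.trans hM
    have hrel := modular_relation D n₀ a' hn₀ hdvd
    rw [mul_comm a' p] at hrel
    exact isIntegral_of_ev2 cR hcR D.Φ D.monic _ _ (ih ha'M) hrel

end Integral

section QExpandJAt

variable {k : Type*} [Field k]

theorem qExpand_jAt (e d : ℕ) [NeZero e] (hd : d ≠ 0) :
    qExpand k e (jAt k d) = jAt k (e * d) := by
  have : NeZero d := ⟨hd⟩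
  have : NeZero (e * d) := ⟨Nat.mul_ne_zero (NeZero.ne e) hd⟩
  rw [jAt_of_neZero, jAt_of_neZero, qExpand_qExpand]

theorem qExpand_jq (e : ℕ) [NeZero e] : qExpand k e (jqModC k) = jAt k e :=
  (jAt_of_neZero k e).symm

/-- Apply `q ↦ q^e` to a bivariate relation. -/
theorem qExpand_ev2 (e : ℕ) [NeZero e] (Φ : Polynomial (Polynomial k)) (y x : LaurentSeries k) :
    qExpand k e (ev2 (algebraMap k (LaurentSeries k)) Φ y x) =
      ev2 (algebraMap k (LaurentSeries k)) Φ (qExpand k e y) (qExpand k e x) :=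
  ev2_hom' _ _ (qExpand k e) (fun a => qExpand_algebraMap e a) Φ y x

/-- Apply `u ↦ ζ u^e` to a bivariate relation. -/
theorem sub_ev2 (ζ : kˣ) (e : ℕ) [NeZero e] (Φ : Polynomial (Polynomial k))
    (y x : LaurentSeries k) :
    sub ζ e (ev2 (algebraMap k (LaurentSeries k)) Φ y x) =
      ev2 (algebraMap k (LaurentSeries k)) Φ (sub ζ e y) (sub ζ e x) :=
  ev2_hom' _ _ (sub ζ e) (fun a => sub_algebraMap ζ e a) Φ y x

end QExpandJAt

section UnitRel

variable {k : Type*} [Field k]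
variable (n₀ M p : ℕ) [NeZero p] [NeZero (n₀ * M)] (U : UnitData k p)

theorem qExpand_jAt_p :
    qExpand k (n₀ * M) (qExpand k p (jqModC k)) = jAt k (n₀ * (M * p)) := by
  rw [qExpand_jq, qExpand_jAt (n₀ * M) p (NeZero.ne p), mul_assoc]

/-- `ν B(J_{Mp}, J_M) = A(J_{Mp}, J_M)`. -/
theorem nu_relation :
    qExpand k (n₀ * M) (nuQ k p) *
        ev2 (algebraMap k (LaurentSeries k)) U.B (jAt k (n₀ * M)) (jAt k (n₀ * (M * p))) =
      ev2 (algebraMap k (LaurentSeries k)) U.A (jAt k (n₀ * M)) (jAt k (n₀ * (M * p))) := by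
  have h := congrArg (qExpand k (n₀ * M)) U.expr
  rw [← ev2_L, ← ev2_L, map_mul, qExpand_ev2, qExpand_ev2, qExpand_jq, qExpand_jAt_p] at h
  exact h

theorem nu_den_ne :
    ev2 (algebraMap k (LaurentSeries k)) U.B (jAt k (n₀ * M)) (jAt k (n₀ * (M * p))) ≠ 0 := by
  have h := U.den_ne
  rw [← ev2_L] at h
  intro h0
  apply h
  apply qExpand_injective (n₀ * M)
  rw [qExpand_ev2, qExpand_jq, qExpand_jAt_p, h0, map_zero]

theorem nu_root :
    ev2 (algebraMap k (LaurentSeries k)) U.Ψ (jAt k (n₀ * M)) (qExpand k (n₀ * M) (nuQ k p)) =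
      0 := by
  have h := congrArg (qExpand k (n₀ * M)) U.root
  rw [← ev2_L, qExpand_ev2, qExpand_jq, map_zero] at h
  exact h

theorem nu_ne_zero : qExpand k (n₀ * M) (nuQ k p) ≠ 0 := fun h =>
  nuQ_ne_zero k p (qExpand_injective (n₀ * M) (by rw [h, map_zero]))

end UnitRel

section UnitConj

variable {k : Type*} [Field k] [IsAlgClosed k]
variable {K₁ : Type*} [Field K₁] [Algebra K₁ (LaurentSeries k)]
variable (cK : k →+* K₁)
  (hcK : ∀ c, algebraMap K₁ (LaurentSeries k) (cK c) = algebraMap k (LaurentSeries k) c)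
variable (n₀ M p t : ℕ) [NeZero p] [NeZero (p * t)] [NeZero (n₀ * M)]
  (hn₀ : n₀ ≠ 0) (hn : n₀ = M * (p * t))
  (hp : p.Prime) (hpM : ¬ p ∣ M)
  (hΦ : ∀ (p : ℕ) [NeZero p], p.Prime → p ∣ M → Nonempty (ModPolyData k p))
  (D : ModPolyData k p) (U : UnitData k p)
  (hJ1 : ∃ c : K₁, algebraMap K₁ (LaurentSeries k) c = jAt k n₀)
  (hK₁ : ∀ c : K₁, ∃ z, algebraMap K₁ (LaurentSeries k) c = qExpand k (p * t) z)

omit [IsAlgClosed k] [NeZero (p * t)] in
include hcK U in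
/-- If `j(q^{Mp}) ∈ G` then the unit `ν` lies in `G`. -/
theorem nu_mem (hmem : jAt k (n₀ * (M * p)) ∈ IntermediateField.adjoin K₁ (genSet k n₀ M)) :
    qExpand k (n₀ * M) (nuQ k p) ∈ IntermediateField.adjoin K₁ (genSet k n₀ M) := by
  have hmemM : jAt k (n₀ * M) ∈ IntermediateField.adjoin K₁ (genSet k n₀ M) :=
    IntermediateField.subset_adjoin _ _ (jAt_mem_genSet n₀ M M dvd_rfl)
  have hA := (ev2 (cG cK _) U.A ⟨jAt k (n₀ * M), hmemM⟩ ⟨jAt k (n₀ * (M * p)), hmem⟩).2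
  have hB := (ev2 (cG cK _) U.B ⟨jAt k (n₀ * M), hmemM⟩ ⟨jAt k (n₀ * (M * p)), hmem⟩).2
  rw [coe_ev2_G cK hcK] at hA hB
  have h := nu_relation n₀ M p U
  have hden := nu_den_ne n₀ M p U
  rw [eq_div_of_mul_eq hden h]
  exact div_mem hA hB

include hcK hn₀ hn hp hpM hΦ hJ1 hK₁ D U in
/-- Every conjugate of `ν` is a Laurent series of positive order. -/
theorem sigma_nu
    (σ : IntermediateField.adjoin K₁ (genSet k n₀ M) →ₐ[K₁] AlgebraicClosure (LaurentSeries k))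
    (hmem : jAt k (n₀ * (M * p)) ∈ IntermediateField.adjoin K₁ (genSet k n₀ M))
    (hν : qExpand k (n₀ * M) (nuQ k p) ∈ IntermediateField.adjoin K₁ (genSet k n₀ M)) :
    ∃ y : LaurentSeries k, σ ⟨qExpand k (n₀ * M) (nuQ k p), hν⟩ = algebraMap _ _ y ∧ PosOrd y := by
  have hM : M ∣ n₀ := ⟨p * t, hn⟩
  have hG : ∀ d, d ∣ M → jAt k (n₀ * d) ∈ IntermediateField.adjoin K₁ (genSet k n₀ M) :=
    fun d hd => IntermediateField.subset_adjoin _ _ (jAt_mem_genSet n₀ M d hd)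
  have hmemM := hG M dvd_rfl
  obtain ⟨ζ, e, a, b, hab, heb, hσM⟩ :=
    cusp_type cK hcK _ n₀ M hn₀ hM hΦ hG hJ1 σ M dvd_rfl
  have hσMp := unswapped cK hcK n₀ M p t hn₀ hn hp hpM hΦ D hJ1 hK₁ σ hmem hmemM ζ e a b hab heb hσM
  obtain ⟨he0, _⟩ := dvd_of_cusp_type n₀ M (p * t) hn₀ hn dvd_rfl hab heb
  have : NeZero e := ⟨he0⟩
  refine ⟨sub ζ e (nuQ k p), ?_, posOrd_sub ζ e (posOrd_nuQ k p hp.two_le)⟩
  -- the relation in `G`
  set gM : IntermediateField.adjoin K₁ (genSet k n₀ M) := ⟨jAt k (n₀ * M), hmemM⟩ with hgM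
  set gMp : IntermediateField.adjoin K₁ (genSet k n₀ M) := ⟨jAt k (n₀ * (M * p)), hmem⟩ with hgMp
  set gν : IntermediateField.adjoin K₁ (genSet k n₀ M) := ⟨qExpand k (n₀ * M) (nuQ k p), hν⟩
    with hgν
  have hrel : gν * ev2 (cG cK _) U.B gM gMp = ev2 (cG cK _) U.A gM gMp := by
    apply Subtype.ext
    rw [MulMemClass.coe_mul, coe_ev2_G cK hcK, coe_ev2_G cK hcK]
    exact nu_relation n₀ M p U
  have hrelΩ := congrArg σ hrel
  -- images of the two evaluations
  have himg : ∀ Φ : Polynomial (Polynomial k), σ (ev2 (cG cK _) Φ gM gMp) =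
      algebraMap _ _ (sub ζ e
        (ev2 (algebraMap k (LaurentSeries k)) Φ (jqModC k) (qExpand k p (jqModC k)))) := by
    intro Φ
    rw [sigma_ev2 cK hcK, hσM, hσMp, ← iota_ev2, sub_ev2, ← jT_eq_sub, sub_qExpand_jq]
  rw [map_mul, himg, himg] at hrelΩ
  have hexpr := U.expr
  rw [← ev2_L, ← ev2_L] at hexpr
  rw [← hexpr, map_mul, map_mul] at hrelΩ
  have hden := U.den_ne
  rw [← ev2_L] at hden
  have hden' : algebraMap (LaurentSeries k) (AlgebraicClosure (LaurentSeries k)) (sub ζ e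
      (ev2 (algebraMap k (LaurentSeries k)) U.B (jqModC k) (qExpand k p (jqModC k)))) ≠ 0 := by
    intro h0
    apply hden
    apply sub_injective ζ e
    rw [map_zero]
    exact (algebraMap (LaurentSeries k) (AlgebraicClosure (LaurentSeries k))).injective
      (by rw [h0, map_zero])
  exact mul_right_cancel₀ hden' hrelΩ

end UnitConj

section AbstractFinal

variable {k : Type*} [Field k] [IsAlgClosed k]
variable {K₁ : Type*} [Field K₁] [Algebra K₁ (LaurentSeries k)]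
variable {R₁ : Type*} [CommRing R₁] [IsDomain R₁] [IsIntegrallyClosed R₁] [Algebra R₁ K₁]
  [IsFractionRing R₁ K₁] [Algebra R₁ (LaurentSeries k)] [IsScalarTower R₁ K₁ (LaurentSeries k)]
variable (cK : k →+* K₁)
  (hcK : ∀ c, algebraMap K₁ (LaurentSeries k) (cK c) = algebraMap k (LaurentSeries k) c)
variable (cR : k →+* R₁)
  (hcR : ∀ c, algebraMap R₁ (LaurentSeries k) (cR c) = algebraMap k (LaurentSeries k) c)
variable (n₀ M p t : ℕ) [NeZero p] [NeZero (p * t)] [NeZero (n₀ * M)]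
  (hn₀ : n₀ ≠ 0) (hn : n₀ = M * (p * t))
  (hp : p.Prime) (hpM : ¬ p ∣ M)
  (hΦ : ∀ (p : ℕ) [NeZero p], p.Prime → p ∣ M → Nonempty (ModPolyData k p))
  (D : ModPolyData k p) (U : UnitData k p)
  (hJ1R : ∃ r : R₁, algebraMap R₁ (LaurentSeries k) r = jAt k n₀)
  (hK₁ : ∀ c : K₁, ∃ z, algebraMap K₁ (LaurentSeries k) c = qExpand k (p * t) z)
  (hR : ∀ r : R₁, r ≠ 0 → (algebraMap R₁ (LaurentSeries k) r).order ≤ 0)

include hcK hcR hn₀ hn hp hpM hΦ D U hJ1R hK₁ hR in
/-- The exclusion, over an abstract base `K₁ = Frac R₁ ⊇ k(j(q))`. -/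
theorem not_mem_adjoin_abstract :
    jAt k (n₀ * (M * p)) ∉ IntermediateField.adjoin K₁ (genSet k n₀ M) := by
  intro hmem
  have hM : M ∣ n₀ := ⟨p * t, hn⟩
  have hJ1 : ∃ c : K₁, algebraMap K₁ (LaurentSeries k) c = jAt k n₀ := by
    obtain ⟨r, hr⟩ := hJ1R
    exact ⟨algebraMap R₁ K₁ r, by rw [← IsScalarTower.algebraMap_apply, hr]⟩
  have hν := nu_mem cK hcK n₀ M p U hmem
  have hintJ := isIntegral_jAt cR hcR n₀ M hn₀ hM hΦ hJ1R
  have : Algebra.IsAlgebraic K₁ (IntermediateField.adjoin K₁ (genSet k n₀ M)) :=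
    IntermediateField.isAlgebraic_adjoin (fun x hx => by
      obtain ⟨d, hd, rfl⟩ := hx
      exact (hintJ d hd).tower_top)
  have hint : IsIntegral R₁ (qExpand k (n₀ * M) (nuQ k p)) :=
    isIntegral_of_ev2 cR hcR U.Ψ U.monic _ _ (hintJ M dvd_rfl) (nu_root n₀ M p U)
  have h0 := eq_zero_of_forall_algHom_posOrd hR (IntermediateField.adjoin K₁ (genSet k n₀ M))
    ⟨qExpand k (n₀ * M) (nuQ k p), hν⟩ hint
    (fun σ => sigma_nu cK hcK n₀ M p t hn₀ hn hp hpM hΦ D U hJ1 hK₁ σ hmem hν)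
  exact nu_ne_zero n₀ M p (congrArg Subtype.val h0)

end AbstractFinal

end Fermat.Agent.S28lib.C2b
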