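import Mathlib
import Fermat.Agent.S28lib.Defs
import Fermat.Agent.S28lib.NormOrder
import Fermat.Agent.S28lib.ExclBasic
import Fermat.Agent.S28lib.ExclCusp
import Fermat.Agent.S28lib.ExclUnit

/-!
# S28, brick C2b: the exclusion theorem

For `p ∤ M`, `M p ∣ n₀`, `q = u^{n₀}`: `j(q^{Mp}) ∉ k(j(q^d) : d ∣ M)` inside `k((u))`,
given the prime-level modular equations and the modular unit data.
-/

set_option autoImplicit false

noncomputable section

namespace Fermat.Agent.S28lib

open ModularCurve Polynomial C2b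

open scoped IntermediateField.algebraAdjoinAdjoin

section Instantiate

variable (k : Type*) [Field k]

theorem C2b.transcendental_jAt (e : ℕ) (he : e ≠ 0) : Transcendental k (jAt k e) := by
  rw [transcendental_iff_injective, injective_iff_map_eq_zero]
  intro P hP
  by_contra hne
  exact (evalJ_jAt_ne_zero_order_le k e he hne).1 hP

theorem C2b.isIntegrallyClosed_adjoin_jAt (e : ℕ) (he : e ≠ 0) :
    IsIntegrallyClosed ↥(Algebra.adjoin k {jAt k e}) :=
  IsIntegrallyClosed.of_equiv
    (Polynomial.algEquivOfTranscendental k (jAt k e) (C2b.transcendental_jAt k e he)).toRingEquiv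

theorem C2b.order_le_of_mem_adjoin_jAt (e : ℕ) (he : e ≠ 0)
    (r : ↥(Algebra.adjoin k {jAt k e})) (hr : r ≠ 0) :
    (algebraMap ↥(Algebra.adjoin k {jAt k e}) (LaurentSeries k) r).order ≤ 0 := by
  have hr2 : (r : LaurentSeries k) ∈ (Polynomial.aeval (jAt k e) : k[X] →ₐ[k] _).range := by
    rw [← Algebra.adjoin_singleton_eq_range_aeval]
    exact r.2
  obtain ⟨P, hP⟩ := hr2
  have hP0 : P ≠ 0 := by
    rintro rfl
    apply hr
    apply Subtype.ext
    rw [← hP, map_zero]
    rfl
  have := (evalJ_jAt_ne_zero_order_le k e he hP0).2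
  have h2 : algebraMap ↥(Algebra.adjoin k {jAt k e}) (LaurentSeries k) r = evalJ k (jAt k e) P := by
    rw [evalJ]
    exact hP.symm
  rw [h2]
  exact this

end Instantiate

section Final

variable (k : Type*) [Field k] [IsAlgClosed k]

/-- **Exclusion (brick C2b).** For a prime `p ∤ M` with `M p ∣ n₀` and `q = u^{n₀}`, the series
`j(q^{Mp})` does not lie in the field `k(j(q^d) : d ∣ M) ⊆ k((u))`. -/
theorem jAt_not_mem_adjoin_divisors (n₀ M p : ℕ) [NeZero p]
    (hp : p.Prime) (hpM : ¬ p ∣ M) (hdvd : M * p ∣ n₀) (hn₀ : n₀ ≠ 0)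
    (hΦ : ∀ (p' : ℕ) [NeZero p'], p'.Prime → p' ∣ M * p → Nonempty (ModPolyData k p'))
    (hU : UnitData k p) :
    jAt k (n₀ * (M * p)) ∉
      IntermediateField.adjoin k {y : LaurentSeries k | ∃ d, d ∣ M ∧ y = jAt k (n₀ * d)} := by
  intro hmem
  obtain ⟨t, ht⟩ := hdvd
  have hn : n₀ = M * (p * t) := by rw [ht]; ring
  have ht0 : t ≠ 0 := by
    rintro rfl
    exact hn₀ (by rw [hn]; ring)
  have hM0 : M ≠ 0 := by
    rintro rfl
    exact hn₀ (by rw [hn]; ring)
  have : NeZero (p * t) := ⟨Nat.mul_ne_zero hp.ne_zero ht0⟩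
  have : NeZero (n₀ * M) := ⟨Nat.mul_ne_zero hn₀ hM0⟩
  have : NeZero M := ⟨hM0⟩
  obtain ⟨D⟩ := hΦ p hp (dvd_mul_left p M)
  have : IsIntegrallyClosed ↥(Algebra.adjoin k {jAt k n₀}) :=
    C2b.isIntegrallyClosed_adjoin_jAt k n₀ hn₀
  -- the abstract theorem with `K₁ = k(j(q))`, `R₁ = k[j(q)]`
  refine not_mem_adjoin_abstract
    (K₁ := ↥(IntermediateField.adjoin k {jAt k n₀})) (R₁ := ↥(Algebra.adjoin k {jAt k n₀}))
    (algebraMap k _) (fun c => rfl) (algebraMap k _) (fun c => rfl)
    n₀ M p t hn₀ hn hp hpM (fun p' _ hp' hd => hΦ p' hp' (hd.mul_right p)) D hU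
    ⟨⟨jAt k n₀, Algebra.self_mem_adjoin_singleton k _⟩, rfl⟩ ?_
    (C2b.order_le_of_mem_adjoin_jAt k n₀ hn₀) ?_
  · -- the image of `K₁` consists of series in `u^{p t}`
    intro c
    have hle : IntermediateField.adjoin k {jAt k n₀} ≤ (qExpandAlgHomC k (p * t)).fieldRange := by
      rw [IntermediateField.adjoin_le_iff]
      rintro x rfl
      refine ⟨jAt k M, ?_⟩
      show qExpand k (p * t) (jAt k M) = jAt k n₀
      rw [qExpand_jAt (p * t) M hM0, hn, mul_comm]
    obtain ⟨z, hz⟩ := hle c.2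
    exact ⟨z, hz.symm⟩
  · -- membership over `K₁`
    have hle : IntermediateField.adjoin k (genSet k n₀ M) ≤
        (IntermediateField.adjoin ↥(IntermediateField.adjoin k {jAt k n₀})
          (genSet k n₀ M)).restrictScalars k := by
      rw [IntermediateField.adjoin_le_iff]
      intro x hx
      have := IntermediateField.subset_adjoin ↥(IntermediateField.adjoin k {jAt k n₀})
        (genSet k n₀ M) hx
      exact this
    have h2 := hle hmem
    exact (IntermediateField.mem_restrictScalars k).mp h2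

end Final

end Fermat.Agent.S28lib
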