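/-
S28 (Igusa), brick C (helper3 C2a + helper2 C2b): `ψ(N)` monomials in the `j(q^d)`, `d ∣ N`,
linearly independent over `k[j]` for an algebraically closed field `k` carrying the modular
polynomial and modular unit data for the primes dividing `N`.  This is `brickChain` of
`Assembly.isIntegral_of_bricks` verbatim.
-/
import Mathlib
import Fermat.Agent.S28lib.ChainStep
import Fermat.Agent.S28lib.Exclusion

set_option autoImplicit false

namespace Fermat.Agent.S28lib

open ModularCurve

theorem exists_independent_monomials (k : Type) [Field k] [IsAlgClosed k] (N : ℕ) [NeZero N]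
    (_hN : (N : k) ≠ 0)
    (hΦ : ∀ (p : ℕ) [NeZero p], p.Prime → p ∣ N → ModPolyData k p)
    (hU : ∀ (p : ℕ) [NeZero p], p.Prime → p ∣ N → UnitData k p) :
    ∃ x : Fin (dedekindPsi N) → MvPolynomial ℕ ℤ, (∀ i, ∀ d ∈ (x i).vars, d ∣ N) ∧
      ∀ P : Fin (dedekindPsi N) → Polynomial k,
        ∑ i, evalJ k (jqModC k) (P i) * evalDiv k (x i) = 0 → ∀ i, P i = 0 :=
  Chain.exists_independent_monomials_of_excl hΦ (fun M p hp hpM hdvd => by
    have : NeZero p := ⟨hp.ne_zero⟩
    exact jAt_not_mem_adjoin_divisors k N M p hp hpM hdvd (NeZero.ne N)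
      (fun p' _ hp' hd => ⟨hΦ p' hp' (hd.trans hdvd)⟩)
      (hU p hp ((dvd_mul_left p M).trans hdvd)))

end Fermat.Agent.S28lib
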