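/-
S28 library, brick (A), part 1 (helper8): the `p + 1` Hecke translates of a point of the upper
half plane, as a multiset of values of `j`, are permuted by `SL(2, ℤ)`.

This is extracted from the prelude theorem `ModularForm.heckeT_slash_eq_self_of_mem_Gamma0`
(level `1`, weight `0`) applied to indicator functions composed with `j`.
-/
import Mathlib
import Fermat.Prelude.Thm_ModularForm_heckeT_slash_eq_self_of_mem_Gamma0
import Fermat.Agent.ProgramR.LevelOne.JPoly

set_option autoImplicit false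

noncomputable section

namespace Fermat.Agent.S28lib

open UpperHalfPlane ModularForm Fermat.Agent.ProgramR.LevelOne
open scoped MatrixGroups ModularForm

/-- the multiset of the `p + 1` values `j(p z)`, `j((z + b)/p)`. -/
def heckeJ (p : ℕ) (z : ℍ) : Multiset ℂ :=
  (Multiset.range p).map (fun b => jInv (heckeMatrix p b • z)) + {jInv (heckeDiagMatrix p • z)}

lemma card_heckeJ (p : ℕ) (z : ℍ) : Multiset.card (heckeJ p z) = p + 1 := by
  simp [heckeJ]

/-- weight `0` slash by an element of `SL(2, ℤ)` is composition. -/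
lemma slash_zero_SL (f : ℍ → ℂ) (γ : SL(2, ℤ)) (z : ℍ) : (f ∣[(0 : ℤ)] γ) z = f (γ • z) := by
  rw [ModularForm.SL_slash_apply]
  simp

/-- the Hecke operator of weight `0` as a sum over `heckeJ`. -/
lemma heckeT_zero_comp_jInv {p : ℕ} (hp : p ≠ 0) (G : ℂ → ℂ) (z : ℍ) :
    heckeT 0 p (G ∘ jInv) z = (p : ℂ)⁻¹ * ((heckeJ p z).map G).sum := by
  rw [heckeT_def, Pi.add_apply, Finset.sum_apply]
  simp only [slash_heckeMatrix_apply 0 hp, slash_heckeDiagMatrix_apply 0 hp, Function.comp_apply]
  rw [heckeJ, Multiset.map_add, Multiset.sum_add, Multiset.map_map, Multiset.map_singleton,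
    Multiset.sum_singleton, mul_add, ← Finset.mul_sum]
  congr 1
  rw [zero_sub, zpow_neg_one]

/-- invariance of all sums over `heckeJ`. -/
lemma sum_heckeJ_smul {p : ℕ} (hp : p.Prime) (G : ℂ → ℂ) (γ : SL(2, ℤ)) (z : ℍ) :
    ((heckeJ p (γ • z)).map G).sum = ((heckeJ p z).map G).sum := by
  have hp0 : p ≠ 0 := hp.ne_zero
  have hpc : (p : ℂ) ≠ 0 := by exact_mod_cast hp0
  have hinv : ∀ g ∈ Subgroup.map (Matrix.SpecialLinearGroup.mapGL ℝ) (CongruenceSubgroup.Gamma0 1),
      (G ∘ jInv) ∣[(0 : ℤ)] g = G ∘ jInv := by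
    rintro g ⟨σ, -, rfl⟩
    funext w
    have h1 := slash_zero_SL (G ∘ jInv) σ w
    rw [ModularForm.SL_slash] at h1
    rw [show (Matrix.SpecialLinearGroup.mapGL ℝ) σ =
      Matrix.SpecialLinearGroup.toGL ((Matrix.SpecialLinearGroup.map (Int.castRingHom ℝ)) σ)
      from rfl, h1, Function.comp_apply, Function.comp_apply, jInv_smul]
  have hmem : (Matrix.SpecialLinearGroup.mapGL ℝ) γ ∈
      Subgroup.map (Matrix.SpecialLinearGroup.mapGL ℝ) (CongruenceSubgroup.Gamma0 1) :=
    ⟨γ, by rw [SetLike.mem_coe, CongruenceSubgroup.Gamma0_mem]; exact Subsingleton.elim _ _, rfl⟩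
  have key := heckeT_slash_eq_self_of_mem_Gamma0 (N := 1) 0 hp (by
    intro h; exact hp.one_lt.ne' (Nat.dvd_one.mp h)) hinv _ hmem
  have h2 := congrFun key z
  have h3 := slash_zero_SL (heckeT 0 p (G ∘ jInv)) γ z
  rw [ModularForm.SL_slash] at h3
  rw [show (Matrix.SpecialLinearGroup.mapGL ℝ) γ =
      Matrix.SpecialLinearGroup.toGL ((Matrix.SpecialLinearGroup.map (Int.castRingHom ℝ)) γ)
      from rfl, h3, heckeT_zero_comp_jInv hp0, heckeT_zero_comp_jInv hp0] at h2
  exact mul_left_cancel₀ (inv_ne_zero hpc) h2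

/-- **`SL(2, ℤ)` permutes the Hecke translates.** -/
theorem heckeJ_smul {p : ℕ} (hp : p.Prime) (γ : SL(2, ℤ)) (z : ℍ) :
    heckeJ p (γ • z) = heckeJ p z := by
  classical
  ext w
  have h := sum_heckeJ_smul hp (fun x => if x = w then (1 : ℂ) else 0) γ z
  have hcount : ∀ M : Multiset ℂ,
      (M.map (fun x => if x = w then (1 : ℂ) else 0)).sum = (M.count w : ℂ) := by
    intro M
    induction M using Multiset.induction_on with
    | empty => simp
    | cons a M ih =>
      rw [Multiset.map_cons, Multiset.sum_cons, ih, Multiset.count_cons]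
      by_cases ha : a = w
      · subst ha; simp; ring
      · have : ¬ w = a := fun h => ha h.symm
        simp [ha, this]
  rw [hcount, hcount] at h
  exact_mod_cast h

end Fermat.Agent.S28lib
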