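/-
S28 library, brick (A), part 2 (helper8): the modular polynomial `Φ_p` over `ℂ`, analytically.

For `z ∈ ℍ` let `Ψ_z(X) = (X - j(pz)) ∏_{b<p} (X - j((z+b)/p))`.  Its coefficients are holomorphic,
`SL(2, ℤ)`-invariant and of moderate growth, hence polynomials in `j`.
-/
import Mathlib
import Fermat.Agent.S28lib.HeckeOrbit
import Fermat.Agent.ProgramR.QExp.Affine

set_option autoImplicit false

noncomputable section

namespace Fermat.Agent.S28lib

open UpperHalfPlane ModularForm Fermat.Agent.ProgramR.LevelOne Polynomial Filter Topology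
open scoped MatrixGroups ModularForm Manifold

local notation "𝕢" => Function.Periodic.qParam

/-- holomorphic with a pole of order at most `m` at `i∞` (no periodicity required). -/
structure HolBdd (m : ℕ) (f : ℍ → ℂ) : Prop where
  holo : MDiff f
  bdd : IsBoundedAtImInfty (fun z => f z * 𝕢 1 z ^ m)

namespace HolBdd

variable {m n : ℕ} {f g : ℍ → ℂ}

lemma norm_qParam_le_one (z : ℍ) : ‖𝕢 1 (z : ℂ)‖ ≤ 1 := by
  rw [Function.Periodic.norm_qParam, Real.exp_le_one_iff]
  have h : 0 < (z : ℂ).im := z.im_pos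
  have := mul_pos Real.pi_pos h
  simp only [div_one]
  linarith

lemma isBoundedAtImInfty_qParam_pow (k : ℕ) :
    IsBoundedAtImInfty (fun z : ℍ => 𝕢 1 (z : ℂ) ^ k) := by
  rw [isBoundedAtImInfty_iff]
  refine ⟨1, 0, fun z _ => ?_⟩
  rw [norm_pow]
  exact pow_le_one₀ (norm_nonneg _) (norm_qParam_le_one z)

lemma mono (hf : HolBdd m f) (hmn : m ≤ n) : HolBdd n f where
  holo := hf.holo
  bdd := by
    obtain ⟨k, rfl⟩ := Nat.exists_eq_add_of_le hmn
    have : (fun z : ℍ => f z * 𝕢 1 z ^ (m + k)) =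
        (fun z : ℍ => f z * 𝕢 1 z ^ m) * (fun z : ℍ => 𝕢 1 (z : ℂ) ^ k) := by
      funext z
      simp only [Pi.mul_apply, pow_add]
      ring
    rw [this]
    exact hf.bdd.mul (isBoundedAtImInfty_qParam_pow k)

lemma add (hf : HolBdd m f) (hg : HolBdd m g) : HolBdd m (fun z => f z + g z) where
  holo := hf.holo.add hg.holo
  bdd := by
    have : (fun z : ℍ => (f z + g z) * 𝕢 1 z ^ m) =
        (fun z : ℍ => f z * 𝕢 1 z ^ m) + (fun z : ℍ => g z * 𝕢 1 z ^ m) := by
      funext z
      simp only [Pi.add_apply]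
      ring
    rw [this]
    exact hf.bdd.add hg.bdd

lemma mul (hf : HolBdd m f) (hg : HolBdd n g) : HolBdd (m + n) (fun z => f z * g z) where
  holo := hf.holo.mul hg.holo
  bdd := by
    have : (fun z : ℍ => (f z * g z) * 𝕢 1 z ^ (m + n)) =
        (fun z : ℍ => f z * 𝕢 1 z ^ m) * (fun z : ℍ => g z * 𝕢 1 z ^ n) := by
      funext z
      simp only [Pi.mul_apply, pow_add]
      ring
    rw [this]
    exact hf.bdd.mul hg.bdd

lemma neg (hf : HolBdd m f) : HolBdd m (fun z => -f z) where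
  holo := hf.holo.neg
  bdd := by
    have : (fun z : ℍ => (-f z) * 𝕢 1 z ^ m) = -(fun z : ℍ => f z * 𝕢 1 z ^ m) := by
      funext z
      simp only [Pi.neg_apply]
      ring
    rw [this]
    exact Filter.BoundedAtFilter.neg hf.bdd

lemma const (c : ℂ) : HolBdd 0 (fun _ : ℍ => c) where
  holo := mdifferentiable_const
  bdd := by
    simp only [pow_zero, mul_one]
    exact Filter.const_boundedAtFilter _ c

lemma zero (m : ℕ) : HolBdd m (fun _ : ℍ => (0 : ℂ)) := (const 0).mono (Nat.zero_le m)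

lemma sum {ι : Type*} (s : Finset ι) {F : ι → ℍ → ℂ} (hF : ∀ i ∈ s, HolBdd m (F i)) :
    HolBdd m (fun z => ∑ i ∈ s, F i z) := by
  classical
  induction s using Finset.induction_on with
  | empty => simpa using zero m
  | insert a s ha ih =>
    have h1 := hF a (Finset.mem_insert_self a s)
    have h2 := ih (fun i hi => hF i (Finset.mem_insert_of_mem hi))
    have := h1.add h2
    refine ⟨?_, ?_⟩
    · convert this.holo using 2 with z
      rw [Finset.sum_insert ha]
    · convert this.bdd using 2 with z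
      rw [Finset.sum_insert ha]

end HolBdd

/-- coefficientwise version for polynomial-valued functions: `k` linear factors of class `m`. -/
def PolyBdd (m k : ℕ) (F : ℍ → ℂ[X]) : Prop := ∀ n, HolBdd (k * m) (fun z => (F z).coeff n)

lemma polyBdd_X_sub_C {m : ℕ} {f : ℍ → ℂ} (hf : HolBdd m f) :
    PolyBdd m 1 (fun z => X - C (f z)) := by
  intro n
  rw [one_mul]
  rcases n with _ | _ | n
  · have : (fun z : ℍ => (X - C (f z) : ℂ[X]).coeff 0) = fun z => -f z := by
      funext z; simp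
    rw [this]; exact hf.neg
  · have : (fun z : ℍ => (X - C (f z) : ℂ[X]).coeff (0 + 1)) = fun _ => (1 : ℂ) := by
      funext z; simp
    rw [this]; exact (HolBdd.const 1).mono (Nat.zero_le m)
  · have : (fun z : ℍ => (X - C (f z) : ℂ[X]).coeff (n + 1 + 1)) = fun _ => (0 : ℂ) := by
      funext z
      rw [coeff_sub, coeff_X, coeff_C]
      simp
    rw [this]; exact HolBdd.zero m

lemma PolyBdd.mul {m k k' : ℕ} {F G : ℍ → ℂ[X]} (hF : PolyBdd m k F) (hG : PolyBdd m k' G) :
    PolyBdd m (k + k') (fun z => F z * G z) := by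
  intro n
  have : (fun z : ℍ => (F z * G z).coeff n) =
      fun z => ∑ x ∈ Finset.HasAntidiagonal.antidiagonal n, (F z).coeff x.1 * (G z).coeff x.2 := by
    funext z; rw [coeff_mul]
  rw [this, add_mul]
  exact HolBdd.sum _ (fun x _ => (hF x.1).mul (hG x.2))

lemma polyBdd_one (m : ℕ) : PolyBdd m 0 (fun _ => (1 : ℂ[X])) := by
  intro n
  rw [zero_mul]
  have : (fun _ : ℍ => (1 : ℂ[X]).coeff n) = fun _ => (if n = 0 then (1 : ℂ) else 0) := by
    funext z; rw [coeff_one]
  rw [this]; exact HolBdd.const _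

lemma PolyBdd.prod {m : ℕ} {ι : Type*} (s : Finset ι) {F : ι → ℍ → ℂ[X]}
    (hF : ∀ i ∈ s, PolyBdd m 1 (F i)) : PolyBdd m s.card (fun z => ∏ i ∈ s, F i z) := by
  classical
  induction s using Finset.induction_on with
  | empty => simpa using polyBdd_one m
  | insert a s ha ih =>
    have h1 := hF a (Finset.mem_insert_self a s)
    have h2 := ih (fun i hi => hF i (Finset.mem_insert_of_mem hi))
    have h3 := h1.mul h2
    rw [Finset.card_insert_of_notMem ha, add_comm]
    intro n
    have := h3 n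
    convert this using 3 with z
    show ∏ i ∈ insert a s, F i z = F a z * ∏ i ∈ s, F i z
    exact Finset.prod_insert ha

end Fermat.Agent.S28lib

namespace Fermat.Agent.S28lib

open UpperHalfPlane ModularForm Fermat.Agent.ProgramR.LevelOne Polynomial Filter Topology
open scoped MatrixGroups ModularForm Manifold

local notation "𝕢" => Function.Periodic.qParam

/-- `j · q` is bounded at `i∞`, explicitly. -/
lemma exists_bound_jInv_mul_q :
    ∃ M A : ℝ, 0 ≤ A ∧ ∀ w : ℍ, A ≤ w.im → ‖jInv w * 𝕢 1 w‖ ≤ M := by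
  have h : IsBoundedAtImInfty (fun z : ℍ => jInv z * 𝕢 1 z) :=
    tendsto_jInv_mul_q.isBigO_one ℝ
  obtain ⟨M, A, hMA⟩ := isBoundedAtImInfty_iff.mp h
  exact ⟨M, max A 0, le_max_right _ _, fun w hw => hMA w ((le_max_left _ _).trans hw)⟩

lemma im_heckeMatrix_smul {p : ℕ} (hp : p ≠ 0) (b : ℕ) (z : ℍ) :
    (heckeMatrix p b • z).im = z.im / p := by
  have h := congrArg Complex.im (coe_heckeMatrix_smul hp b z)
  rw [UpperHalfPlane.coe_im] at h
  rw [h]
  have : (((z : ℂ) + (b : ℂ)) / (p : ℂ)) = ((z : ℂ) + (b : ℂ)) * (((p : ℝ)⁻¹ : ℝ) : ℂ) := by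
    push_cast; rw [div_eq_mul_inv]
  rw [this, Complex.mul_im]
  simp only [Complex.add_im, Complex.natCast_im, add_zero, Complex.ofReal_re, Complex.ofReal_im,
    mul_zero, UpperHalfPlane.coe_im]
  rw [div_eq_mul_inv]
  ring

lemma im_heckeDiagMatrix_smul {p : ℕ} (hp : p ≠ 0) (z : ℍ) :
    (heckeDiagMatrix p • z).im = p * z.im := by
  have h := congrArg Complex.im (coe_heckeDiagMatrix_smul hp z)
  rw [UpperHalfPlane.coe_im] at h
  rw [h, Complex.mul_im]
  simp

/-- `j((z+b)/p)` has a pole of order at most `p` (in `q`) at `i∞`. -/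
lemma holBdd_jInv_heckeMatrix {p : ℕ} (hp : p ≠ 0) (b : ℕ) :
    HolBdd p (fun z => jInv (heckeMatrix p b • z)) where
  holo := mdifferentiable_jInv.comp (mdifferentiable_smul (det_heckeMatrix_pos p b))
  bdd := by
    obtain ⟨M, A, hA0, hMA⟩ := exists_bound_jInv_mul_q
    have hp1 : (1 : ℝ) ≤ p := by exact_mod_cast Nat.one_le_iff_ne_zero.mpr hp
    have hp0 : (0 : ℝ) < p := lt_of_lt_of_le one_pos hp1
    rw [isBoundedAtImInfty_iff]
    refine ⟨M, p * A, fun z hz => ?_⟩
    set w := heckeMatrix p b • z with hw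
    have him : w.im = z.im / p := im_heckeMatrix_smul hp b z
    have hwA : A ≤ w.im := by
      rw [him, le_div_iff₀ hp0]
      linarith
    have h1 := hMA w hwA
    have hqw : 𝕢 1 (w : ℂ) ≠ 0 := by simp [Function.Periodic.qParam]
    have key : jInv w * 𝕢 1 (z : ℂ) ^ p = (jInv w * 𝕢 1 w) * (𝕢 1 (z : ℂ) ^ p / 𝕢 1 w) := by
      field_simp
    rw [key, norm_mul]
    have h2 : ‖𝕢 1 (z : ℂ) ^ p / 𝕢 1 (w : ℂ)‖ ≤ 1 := by
      rw [norm_div, norm_pow, Function.Periodic.norm_qParam, Function.Periodic.norm_qParam,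
        ← Real.exp_nat_mul, ← Real.exp_sub, Real.exp_le_one_iff]
      have hwim : (w : ℂ).im = (z : ℂ).im / p := him
      rw [hwim]
      have hz0 : 0 < (z : ℂ).im := z.im_pos
      have hpi := Real.pi_pos
      simp only [div_one]
      have e : (p : ℝ) * (-2 * Real.pi * (z : ℂ).im) - -2 * Real.pi * ((z : ℂ).im / p) =
          -2 * Real.pi * (z : ℂ).im * (p - 1 / p) := by
        field_simp
        ring
      rw [e]
      have h3 : (0 : ℝ) ≤ p - 1 / p := by
        rw [sub_nonneg, div_le_iff₀ hp0]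
        nlinarith
      have h4 : 0 < Real.pi * (z : ℂ).im := mul_pos hpi hz0
      nlinarith
    have hM : 0 ≤ M := (norm_nonneg _).trans h1
    calc ‖jInv w * 𝕢 1 (w : ℂ)‖ * ‖𝕢 1 (z : ℂ) ^ p / 𝕢 1 (w : ℂ)‖ ≤ M * 1 :=
          mul_le_mul h1 h2 (norm_nonneg _) hM
      _ = M := mul_one M

/-- `j(pz)` has a pole of order at most `p` at `i∞`. -/
lemma holBdd_jInv_heckeDiagMatrix {p : ℕ} (hp : p ≠ 0) :
    HolBdd p (fun z => jInv (heckeDiagMatrix p • z)) where
  holo := mdifferentiable_jInv.comp (mdifferentiable_smul (det_heckeDiagMatrix_pos p))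
  bdd := by
    obtain ⟨M, A, hA0, hMA⟩ := exists_bound_jInv_mul_q
    have hp1 : (1 : ℝ) ≤ p := by exact_mod_cast Nat.one_le_iff_ne_zero.mpr hp
    rw [isBoundedAtImInfty_iff]
    refine ⟨M, A, fun z hz => ?_⟩
    set w := heckeDiagMatrix p • z with hw
    have him : w.im = p * z.im := im_heckeDiagMatrix_smul hp z
    have hwA : A ≤ w.im := by
      rw [him]
      have := z.im_pos
      nlinarith
    have h1 := hMA w hwA
    have hq : 𝕢 1 (w : ℂ) = 𝕢 1 (z : ℂ) ^ p := by
      rw [hw, coe_heckeDiagMatrix_smul hp]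
      exact Fermat.Agent.ProgramR.QExp.qParam_nat_mul 1 p z
    rw [← hq]
    exact h1

/-- the polynomial `(X - j(pz)) ∏_b (X - j((z+b)/p))`. -/
def psiPoly (p : ℕ) (z : ℍ) : ℂ[X] :=
  (∏ b ∈ Finset.range p, (X - C (jInv (heckeMatrix p b • z)))) *
    (X - C (jInv (heckeDiagMatrix p • z)))

lemma psiPoly_eq_multiset (p : ℕ) (z : ℍ) :
    psiPoly p z = ((heckeJ p z).map (fun w => X - C w)).prod := by
  rw [psiPoly, heckeJ, Multiset.map_add, Multiset.prod_add, Multiset.map_map,
    Multiset.map_singleton, Multiset.prod_singleton, Finset.prod_eq_multiset_prod]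
  rfl

lemma psiPoly_smul {p : ℕ} (hp : p.Prime) (γ : SL(2, ℤ)) (z : ℍ) :
    psiPoly p (γ • z) = psiPoly p z := by
  rw [psiPoly_eq_multiset, psiPoly_eq_multiset, heckeJ_smul hp]

lemma psiPoly_monic (p : ℕ) (z : ℍ) : (psiPoly p z).Monic :=
  (monic_prod_of_monic _ _ (fun _ _ => monic_X_sub_C _)).mul (monic_X_sub_C _)

lemma psiPoly_natDegree (p : ℕ) (z : ℍ) : (psiPoly p z).natDegree = p + 1 := by
  rw [psiPoly, Monic.natDegree_mul (monic_prod_of_monic _ _ (fun b _ => monic_X_sub_C _))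
    (monic_X_sub_C _), natDegree_prod_of_monic _ _ (fun b _ => monic_X_sub_C _)]
  simp

lemma polyBdd_psiPoly {p : ℕ} (hp : p ≠ 0) : PolyBdd p (p + 1) (psiPoly p) := by
  have h1 : PolyBdd p (Finset.range p).card
      (fun z => ∏ b ∈ Finset.range p, (X - C (jInv (heckeMatrix p b • z)))) :=
    PolyBdd.prod _ (fun b _ => polyBdd_X_sub_C (holBdd_jInv_heckeMatrix hp b))
  rw [Finset.card_range] at h1
  exact h1.mul (polyBdd_X_sub_C (holBdd_jInv_heckeDiagMatrix hp))

/-- **the coefficients of `Ψ_z` are polynomials in `j(z)`.** -/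
theorem exists_coeff_polynomial {p : ℕ} (hp : p.Prime) (n : ℕ) :
    ∃ Q : ℂ[X], Q.natDegree ≤ (p + 1) * p ∧ ∀ z : ℍ, (psiPoly p z).coeff n = Q.eval (jInv z) := by
  have h := polyBdd_psiPoly hp.ne_zero n
  refine exists_polynomial_of_invariant ((p + 1) * p) (fun z => (psiPoly p z).coeff n) h.holo
    (fun γ z => by rw [psiPoly_smul hp]) ?_
  rw [isBoundedAtImInfty_mul_discriminant_pow_iff]
  exact h.bdd

end Fermat.Agent.S28lib

namespace Fermat.Agent.S28lib

open UpperHalfPlane ModularForm Fermat.Agent.ProgramR.LevelOne Polynomial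
open scoped MatrixGroups ModularForm

/-- the `n`-th coefficient of the modular polynomial, as a polynomial in `Y = j(z)`. -/
def phiCoeff (p n : ℕ) : ℂ[X] :=
  if h : p.Prime then (if n = p + 1 then 1 else (exists_coeff_polynomial h n).choose) else 0

lemma phiCoeff_eval {p : ℕ} (hp : p.Prime) (n : ℕ) (z : ℍ) :
    (phiCoeff p n).eval (jInv z) = (psiPoly p z).coeff n := by
  rw [phiCoeff, dif_pos hp]
  split_ifs with hn
  · rw [eval_one, hn]
    have := (psiPoly_monic p z).coeff_natDegree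
    rw [psiPoly_natDegree] at this
    exact this.symm
  · exact ((exists_coeff_polynomial hp n).choose_spec.2 z).symm

lemma phiCoeff_natDegree_le {p : ℕ} (hp : p.Prime) (n : ℕ) :
    (phiCoeff p n).natDegree ≤ (p + 1) * p := by
  rw [phiCoeff, dif_pos hp]
  split_ifs with hn
  · simp
  · exact (exists_coeff_polynomial hp n).choose_spec.1

/-- **the modular polynomial `Φ_p(X, Y)` over `ℂ`**, as a polynomial in `X` over `ℂ[Y]`. -/
def phiC (p : ℕ) : (ℂ[X])[X] :=
  ∑ n ∈ Finset.range (p + 2), C (phiCoeff p n) * X ^ n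

lemma phiC_coeff (p n : ℕ) :
    (phiC p).coeff n = if n < p + 2 then phiCoeff p n else 0 := by
  rw [phiC, finsetSum_coeff]
  simp only [coeff_C_mul, coeff_X_pow, mul_ite, mul_one, mul_zero]
  rw [Finset.sum_ite_eq]
  simp

lemma phiC_coeff_top {p : ℕ} (hp : p.Prime) : (phiC p).coeff (p + 1) = 1 := by
  rw [phiC_coeff, if_pos (by omega), phiCoeff, dif_pos hp, if_pos rfl]

lemma phiC_natDegree_le (p : ℕ) : (phiC p).natDegree ≤ p + 1 := by
  rw [natDegree_le_iff_coeff_eq_zero]
  intro n hn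
  rw [phiC_coeff, if_neg (by omega)]

lemma phiC_natDegree {p : ℕ} (hp : p.Prime) : (phiC p).natDegree = p + 1 := by
  refine le_antisymm (phiC_natDegree_le p) (le_natDegree_of_ne_zero ?_)
  rw [phiC_coeff_top hp]
  exact one_ne_zero

lemma phiC_monic {p : ℕ} (hp : p.Prime) : (phiC p).Monic := by
  rw [Monic, leadingCoeff, phiC_natDegree hp, phiC_coeff_top hp]

/-- evaluating `Y = j(z)` in `Φ_p` gives `Ψ_z`. -/
theorem phiC_map_eval {p : ℕ} (hp : p.Prime) (z : ℍ) :
    (phiC p).map (evalRingHom (jInv z)) = psiPoly p z := by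
  ext n
  rw [coeff_map, phiC_coeff, coe_evalRingHom]
  split_ifs with hn
  · exact phiCoeff_eval hp n z
  · rw [eval_zero]
    symm
    apply coeff_eq_zero_of_natDegree_lt
    rw [psiPoly_natDegree]
    omega

end Fermat.Agent.S28lib
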