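/-
S28 library, brick (A), part 3 (helper8): the factorisation of `Φ_p(X, j(q^p))` over `ℂ((q))`:
`Φ_p(X, j(q^p)) = (X - j(q^{p²})) ∏_{b<p} (X - j(ζ^b q))`, `ζ = exp(2πi/p)`.
-/
import Mathlib
import Fermat.Agent.S28lib.PhiAnalytic
import Fermat.Agent.S28lib.Defs
import Fermat.Agent.ProgramR.CuspLocal.Twist
import Fermat.Agent.ProgramR.QExp.JExp

set_option autoImplicit false

noncomputable section

namespace Fermat.Agent.S28lib

open UpperHalfPlane ModularForm Fermat.Agent.ProgramR Fermat.Agent.ProgramR.LevelOne Polynomial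
  ModularCurve
open scoped MatrixGroups ModularForm Manifold

/-- the ring of holomorphic `1`-periodic functions on `ℍ`, meromorphic at `i∞`. -/
abbrev MerR : Subring (ℍ → ℂ) := QExp.merRing 1 one_pos

/-- evaluation at a point of `ℍ`. -/
def evPt (z : ℍ) : MerR →+* ℂ := (Pi.evalRingHom (fun _ : ℍ => ℂ) z).comp MerR.subtype

lemma evPt_apply (z : ℍ) (f : MerR) : evPt z f = (f : ℍ → ℂ) z := rfl

lemma polynomial_ext_evPt {P Q : MerR[X]} (h : ∀ z, P.map (evPt z) = Q.map (evPt z)) : P = Q := by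
  ext n : 1
  apply Subtype.ext
  funext z
  have := congrArg (fun R => R.coeff n) (h z)
  simpa [coeff_map, evPt_apply] using this

/-- constants. -/
def constM : ℂ →+* MerR where
  toFun c := ⟨fun _ => c, 0, QExp.IsMeroAtInfty.of_isHolPerBdd (QExp.IsHolPerBdd.const 1 c)⟩
  map_one' := rfl
  map_mul' _ _ := rfl
  map_zero' := rfl
  map_add' _ _ := rfl

lemma evPt_constM (z : ℍ) (c : ℂ) : evPt z (constM c) = c := rfl

/-- `z ↦ p z` on `ℍ`. -/
def scaleH (p : ℕ) (z : ℍ) : ℍ := heckeDiagMatrix p • z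

lemma coe_scaleH {p : ℕ} (hp : p ≠ 0) (z : ℍ) : ((scaleH p z : ℍ) : ℂ) = (p : ℂ) * z :=
  coe_heckeDiagMatrix_smul hp z

/-- `j(p z)` as an element of `MerR`. -/
def jScale (p : ℕ) (hp : p ≠ 0) : MerR :=
  ⟨jInv ∘ scaleH p, p * 1,
    QExp.isMeroAtInfty_scale (Nat.pos_of_ne_zero hp) QExp.isMeroAtInfty_jInv (scaleH p)
      (coe_scaleH hp)⟩

/-- `j(p² z)` as an element of `MerR`. -/
def jScale2 (p : ℕ) (hp : p ≠ 0) : MerR :=
  ⟨(jInv ∘ scaleH p) ∘ scaleH p, p * (p * 1),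
    QExp.isMeroAtInfty_scale (Nat.pos_of_ne_zero hp)
      (QExp.isMeroAtInfty_scale (Nat.pos_of_ne_zero hp) QExp.isMeroAtInfty_jInv (scaleH p)
        (coe_scaleH hp)) (scaleH p) (coe_scaleH hp)⟩

lemma mdiff_jInv_vadd (c : ℝ) : MDiff (fun z : ℍ => jInv (c +ᵥ z)) := by
  rw [UpperHalfPlane.mdifferentiable_iff]
  have h1 := UpperHalfPlane.mdifferentiable_iff.mp mdifferentiable_jInv
  have h2 : DifferentiableOn ℂ ((jInv ∘ ofComplex) ∘ fun z : ℂ => (c : ℂ) + z) {z | 0 < z.im} := by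
    refine h1.comp (by fun_prop) ?_
    intro z hz
    simpa using hz
  refine h2.congr fun z hz => ?_
  have hz' : 0 < ((c : ℂ) + z).im := by simpa using hz
  simp only [Function.comp_apply, ofComplex_apply_of_im_pos hz, ofComplex_apply_of_im_pos hz']
  congr 1

/-- `j(z + c)`, `c` real, as an element of `MerR`. -/
def jShift (c : ℝ) : MerR :=
  ⟨fun z : ℍ => jInv (c +ᵥ z), 1,
    (CuspLocal.laurentExp_coeff_of_vadd one_pos QExp.isMeroAtInfty_jInv (mdiff_jInv_vadd c) c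
      (fun _ => rfl)).1⟩

lemma evPt_jScale {p : ℕ} (hp : p ≠ 0) (z : ℍ) : evPt z (jScale p hp) = jInv (scaleH p z) := rfl

lemma evPt_jScale2 {p : ℕ} (hp : p ≠ 0) (z : ℍ) :
    evPt z (jScale2 p hp) = jInv (scaleH p (scaleH p z)) := rfl

lemma evPt_jShift (c : ℝ) (z : ℍ) : evPt z (jShift c) = jInv (c +ᵥ z) := rfl

/-- evaluation of a polynomial in `Y` at `Y = j(p z)`. -/
def evalScale (p : ℕ) (hp : p ≠ 0) : ℂ[X] →+* MerR := eval₂RingHom constM (jScale p hp)

lemma evPt_comp_evalScale {p : ℕ} (hp : p ≠ 0) (z : ℍ) :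
    (evPt z).comp (evalScale p hp) = evalRingHom (jInv (scaleH p z)) := by
  apply Polynomial.ringHom_ext
  · intro c
    simp [evalScale, evPt_constM]
  · simp [evalScale, evPt_jScale]

lemma heckeMatrix_smul_scaleH {p : ℕ} (hp : p ≠ 0) (b : ℕ) (z : ℍ) :
    heckeMatrix p b • scaleH p z = ((b : ℝ) / p : ℝ) +ᵥ z := by
  ext
  rw [coe_heckeMatrix_smul hp, coe_scaleH hp, UpperHalfPlane.coe_vadd]
  have hp' : (p : ℂ) ≠ 0 := by exact_mod_cast hp
  push_cast
  field_simp
  ring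

/-- **the modular equation, functional form.** -/
theorem phiC_map_evalScale {p : ℕ} (hp : p.Prime) :
    (phiC p).map (evalScale p hp.ne_zero) =
      (∏ b ∈ Finset.range p, (X - C (jShift ((b : ℝ) / p)))) * (X - C (jScale2 p hp.ne_zero)) := by
  apply polynomial_ext_evPt
  intro z
  rw [Polynomial.map_map, evPt_comp_evalScale, phiC_map_eval hp, psiPoly, Polynomial.map_mul,
    Polynomial.map_prod]
  simp only [Polynomial.map_sub, Polynomial.map_X, Polynomial.map_C, evPt_jShift, evPt_jScale2,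
    heckeMatrix_smul_scaleH hp.ne_zero]
  rfl

/-- the root of unity `exp(2πi/p)` as a unit of `ℂ`. -/
def zetaC (p : ℕ) : ℂˣ :=
  Units.mk0 (Complex.exp (2 * Real.pi * Complex.I / p)) (Complex.exp_ne_zero _)

lemma zetaC_prim {p : ℕ} (hp : p ≠ 0) : IsPrimitiveRoot (zetaC p) p := by
  rw [← IsPrimitiveRoot.coe_units_iff]
  exact Complex.isPrimitiveRoot_exp p hp

/-- the Laurent expansion at `i∞`. -/
abbrev LExp : MerR →+* LaurentSeries ℂ := QExp.laurentExpHom 1 one_pos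

lemma LExp_jScale (p : ℕ) [NeZero p] :
    LExp (jScale p (NeZero.ne p)) = qExpand ℂ p (jqModC ℂ) := by
  rw [QExp.laurentExpHom_apply]
  show QExp.laurentExp 1 (jInv ∘ scaleH p) = _
  rw [QExp.laurentExp_scale QExp.isMeroAtInfty_jInv (scaleH p) (coe_scaleH (NeZero.ne p)),
    QExp.laurentExp_jInv]

lemma LExp_jScale2 (p : ℕ) [NeZero p] :
    LExp (jScale2 p (NeZero.ne p)) = qExpand ℂ p (qExpand ℂ p (jqModC ℂ)) := by
  rw [QExp.laurentExpHom_apply]
  show QExp.laurentExp 1 ((jInv ∘ scaleH p) ∘ scaleH p) = _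
  rw [QExp.laurentExp_scale (QExp.isMeroAtInfty_scale (Nat.pos_of_ne_zero (NeZero.ne p))
      QExp.isMeroAtInfty_jInv (scaleH p) (coe_scaleH (NeZero.ne p))) (scaleH p)
      (coe_scaleH (NeZero.ne p)),
    QExp.laurentExp_scale QExp.isMeroAtInfty_jInv (scaleH p) (coe_scaleH (NeZero.ne p)),
    QExp.laurentExp_jInv]

lemma twistFactor_eq (p b : ℕ) :
    CuspLocal.twistFactor 1 ((b : ℝ) / p) = ((zetaC p ^ b : ℂˣ) : ℂ) := by
  rw [CuspLocal.twistFactor, Units.val_pow_eq_pow_val, zetaC, Units.val_mk0, ← Complex.exp_nat_mul]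
  congr 1
  push_cast
  ring

lemma LExp_jShift (p b : ℕ) :
    LExp (jShift ((b : ℝ) / p)) = twist (zetaC p ^ b) (jqModC ℂ) := by
  rw [QExp.laurentExpHom_apply]
  ext n
  have h := (CuspLocal.laurentExp_coeff_of_vadd one_pos QExp.isMeroAtInfty_jInv
    (mdiff_jInv_vadd ((b : ℝ) / p)) ((b : ℝ) / p) (fun _ => rfl)).2 n
  rw [twist_coeff, Units.val_zpow_eq_zpow_val, ← twistFactor_eq, ← QExp.laurentExp_jInv]
  exact h

lemma LExp_constM (c : ℂ) : LExp (constM c) = HahnSeries.C c :=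
  QExp.laurentExp_const one_pos c

lemma LExp_comp_evalScale (p : ℕ) [NeZero p] :
    LExp.comp (evalScale p (NeZero.ne p)) = evalJ ℂ (qExpand ℂ p (jqModC ℂ)) := by
  apply Polynomial.ringHom_ext
  · intro c
    simp only [RingHom.comp_apply, evalScale, coe_eval₂RingHom, eval₂_C, LExp_constM, evalJ,
      AlgHom.toRingHom_eq_coe, RingHom.coe_coe, aeval_C]
    show HahnSeries.C c = HahnSeries.ofPowerSeries ℤ ℂ (algebraMap ℂ (PowerSeries ℂ) c)
    rw [← HahnSeries.ofPowerSeries_C]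
    rfl
  · simp only [RingHom.comp_apply, evalScale, coe_eval₂RingHom, eval₂_X, LExp_jScale, evalJ_X]

/-- **the modular equation over `ℂ((q))`, completely factored.** -/
theorem phiC_factor (p : ℕ) [Fact p.Prime] :
    (phiC p).map (evalJ ℂ (qExpand ℂ p (jqModC ℂ))) =
      (X - C (qExpand ℂ p (qExpand ℂ p (jqModC ℂ)))) *
        ∏ i ∈ Finset.range p, (X - C (twist (zetaC p ^ i) (jqModC ℂ))) := by
  have hp : p.Prime := Fact.out
  have h := congrArg (Polynomial.map LExp) (phiC_map_evalScale hp)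
  rw [Polynomial.map_map, LExp_comp_evalScale, Polynomial.map_mul, Polynomial.map_prod] at h
  simp only [Polynomial.map_sub, Polynomial.map_X, Polynomial.map_C, LExp_jShift, LExp_jScale2]
    at h
  rw [h, mul_comm]

end Fermat.Agent.S28lib
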