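/-
S28 library, brick (A), part 4a (helper8): integrality descends along P ↦ P(j).

* `coeff_mem_of_evalJ_jqModC_coeff_mem`: a polynomial `P` over a commutative ring `B` such that
  all Laurent coefficients of `P(j)` lie in a subring `S` has all its coefficients in `S`.
-/
import Mathlib
import Fermat.Agent.S28lib.Defs

set_option autoImplicit false

noncomputable section

namespace Fermat.Agent.S28lib

open ModularCurve Polynomial

section Generic

variable {B : Type*} [CommRing B]

lemma evalJ_C_eq (y : LaurentSeries B) (c : B) : evalJ B y (C c) = HahnSeries.C c := by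
  rw [evalJ, AlgHom.toRingHom_eq_coe, RingHom.coe_coe, aeval_C]
  show HahnSeries.ofPowerSeries ℤ B (algebraMap B (PowerSeries B) c) = HahnSeries.C c
  rw [← HahnSeries.ofPowerSeries_C]
  rfl

lemma coeff_C_mul_laurent (c : B) (x : LaurentSeries B) (n : ℤ) :
    (HahnSeries.C c * x).coeff n = c * x.coeff n := by
  rw [HahnSeries.C_mul_eq_smul, HahnSeries.coeff_smul, smul_eq_mul]

lemma evalJ_eq_sum_range (y : LaurentSeries B) {P : B[X]} {n : ℕ} (hn : P.natDegree < n) :
    evalJ B y P = ∑ i ∈ Finset.range n, HahnSeries.C (P.coeff i) * y ^ i := by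
  conv_lhs => rw [P.as_sum_range' n hn]
  rw [map_sum]
  refine Finset.sum_congr rfl fun i _ => ?_
  rw [← C_mul_X_pow_eq_monomial, map_mul, map_pow, evalJ_C_eq, evalJ_X]

/-- the coefficient of `q^{-d}` of `P(j)` is the `d`-th coefficient of `P`, if `deg P ≤ d`. -/
theorem coeff_evalJ_jqModC_neg_of_le {P : B[X]} {d : ℕ} (hd : P.natDegree ≤ d) :
    (evalJ B (jqModC B) P).coeff (-(d : ℤ)) = P.coeff d := by
  rw [evalJ_eq_sum_range _ (Nat.lt_succ_of_le hd), HahnSeries.coeff_sum, Finset.sum_range_succ,
    Finset.sum_eq_zero, zero_add, coeff_C_mul_laurent, coeff_jqModC_pow_self, mul_one]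
  intro i hi
  rw [coeff_C_mul_laurent, coeff_jqModC_pow_of_lt B (by
    have := Finset.mem_range.mp hi
    omega), mul_zero]

/-- the Laurent coefficients of powers of `j` are integers. -/
lemma coeff_jqModC_pow_mem (S : Subring B) (n : ℕ) (m : ℤ) : ((jqModC B) ^ n).coeff m ∈ S := by
  rw [← coeffMap_jqModC (Int.castRingHom B), ← map_pow, coeffMap_coeff]
  exact intCast_mem S _

/-- **integrality descends along `P ↦ P(j)`**: if all Laurent coefficients of `P(j)` lie in the
subring `S`, so do all coefficients of `P`. -/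
theorem coeff_mem_of_evalJ_jqModC_coeff_mem (S : Subring B) (P : B[X])
    (h : ∀ n : ℤ, (evalJ B (jqModC B) P).coeff n ∈ S) : ∀ i, P.coeff i ∈ S := by
  suffices H : ∀ (d : ℕ) (P : B[X]), (∀ m, d ≤ m → P.coeff m = 0) →
      (∀ n : ℤ, (evalJ B (jqModC B) P).coeff n ∈ S) → ∀ i, P.coeff i ∈ S by
    refine H (P.natDegree + 1) P (fun m hm => coeff_eq_zero_of_natDegree_lt (by omega)) h
  intro d
  induction d with
  | zero =>
    intro P hP _ i
    rw [hP i (Nat.zero_le i)]
    exact S.zero_mem
  | succ d ih =>
    intro P hP h i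
    have hdeg : P.natDegree ≤ d := by
      rw [natDegree_le_iff_coeff_eq_zero]
      intro N hN
      exact hP N hN
    have hc : P.coeff d ∈ S := by
      rw [← coeff_evalJ_jqModC_neg_of_le hdeg]
      exact h _
    have key := ih (P - C (P.coeff d) * X ^ d) (fun m hm => by
      rw [coeff_sub, coeff_C_mul, coeff_X_pow]
      rcases hm.eq_or_lt with rfl | hm'
      · simp
      · rw [if_neg (by omega), mul_zero, sub_zero]
        exact hP m hm') (fun n => by
      rw [map_sub, map_mul, map_pow, evalJ_C_eq, evalJ_X, HahnSeries.coeff_sub,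
        coeff_C_mul_laurent]
      exact S.sub_mem (h n) (S.mul_mem hc (coeff_jqModC_pow_mem S d n))) i
    rw [coeff_sub, coeff_C_mul, coeff_X_pow] at key
    by_cases hi : i = d
    · rw [hi]; exact hc
    · rw [if_neg hi, mul_zero, sub_zero] at key
      exact key

end Generic

end Fermat.Agent.S28lib
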