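/-
S28 library, brick (A), part 4b (helper8): the modular polynomial has coefficients in the ring
`ℤ̄ = integralClosure ℤ ℂ` of algebraic integers, and the factored modular equation holds over
`ℤ̄((q))`; hence it can be pushed along any ring homomorphism `ℤ̄ →+* k`.
-/
import Mathlib
import Fermat.Agent.S28lib.Series
import Fermat.Agent.S28lib.PolyInJ
import Fermat.Agent.S28lib.PhiLaurent

set_option autoImplicit false

noncomputable section

namespace Fermat.Agent.S28lib

open ModularCurve Polynomial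

section FactorId

variable {A A' : Type*} [CommRing A] [CommRing A']

/-- left side of the factored modular equation: `Φ(X, j(q^p))`. -/
def modLHS (A : Type*) [CommRing A] (p : ℕ) [NeZero p] (Φ : A[X][X]) : (LaurentSeries A)[X] :=
  Φ.map (evalJ A (qExpand A p (jqModC A)))

/-- right side of the factored modular equation: `(X - j(q^{p²})) ∏_{i<p} (X - j(ζ^i q))`. -/
def modRHS (A : Type*) [CommRing A] (p : ℕ) [NeZero p] (ζ : Aˣ) : (LaurentSeries A)[X] :=
  (X - C (qExpand A p (qExpand A p (jqModC A)))) *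
    ∏ i ∈ Finset.range p, (X - C (twist (ζ ^ i) (jqModC A)))

lemma modLHS_map (f : A →+* A') (p : ℕ) [NeZero p] (Φ : A[X][X]) :
    (modLHS A p Φ).map (coeffMap f) = modLHS A' p (Φ.map (mapRingHom f)) := by
  rw [modLHS, modLHS, Polynomial.map_map, Polynomial.map_map]
  congr 1
  refine RingHom.ext fun P => ?_
  simp only [RingHom.comp_apply, coeffMap_evalJ, coeffMap_qExpand, coeffMap_jqModC,
    coe_mapRingHom]

lemma modRHS_map (f : A →+* A') (p : ℕ) [NeZero p] (ζ : Aˣ) :
    (modRHS A p ζ).map (coeffMap f) = modRHS A' p (Units.map (f : A →* A') ζ) := by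
  rw [modRHS, modRHS, Polynomial.map_mul, Polynomial.map_prod]
  simp only [Polynomial.map_sub, Polynomial.map_X, Polynomial.map_C, coeffMap_qExpand,
    coeffMap_jqModC, coeffMap_twist, map_pow]

lemma coeffMap_injective {f : A →+* A'} (hf : Function.Injective f) :
    Function.Injective (coeffMap f) := by
  intro x y h
  ext n
  apply hf
  have := congrArg (fun z => z.coeff n) h
  simpa using this

lemma qExpand_evalJ_eq (N : ℕ) [NeZero N] (y : LaurentSeries A) (P : A[X]) :
    qExpand A N (evalJ A y P) = evalJ A (qExpand A N y) P := by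
  have h : (qExpand A N).comp (evalJ A y) = evalJ A (qExpand A N y) := by
    apply Polynomial.ringHom_ext
    · intro a
      simp only [RingHom.comp_apply, evalJ_C_eq, qExpand_C]
    · simp only [RingHom.comp_apply, evalJ_X]
  exact congrFun (congrArg DFunLike.coe h) P

end FactorId

section Zbar

/-- the ring of algebraic integers in `ℂ`, as a type. -/
abbrev Zb : Type := ↥(integralClosure ℤ ℂ)

/-- the inclusion of the algebraic integers into `ℂ`. -/
def zbIncl : Zb →+* ℂ := (integralClosure ℤ ℂ).toSubring.subtype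

lemma zbIncl_apply (x : Zb) : zbIncl x = (x : ℂ) := rfl

lemma zbIncl_injective : Function.Injective zbIncl := Subtype.val_injective

lemma zetaC_isIntegral {p : ℕ} (hp : p ≠ 0) : IsIntegral ℤ ((zetaC p : ℂˣ) : ℂ) := by
  refine ⟨X ^ p - 1, monic_X_pow_sub_C 1 hp, ?_⟩
  have h := (zetaC_prim hp).pow_eq_one
  have h' : ((zetaC p : ℂˣ) : ℂ) ^ p = 1 := by
    rw [← Units.val_pow_eq_pow_val, h, Units.val_one]
  simp [h']

/-- `exp(2πi/p)` as a unit of the ring of algebraic integers. -/
def zetaZ (p : ℕ) [NeZero p] : Zbˣ :=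
  Units.ofPowEqOne ⟨((zetaC p : ℂˣ) : ℂ), zetaC_isIntegral (NeZero.ne p)⟩ p (by
    apply Subtype.ext
    have h := (zetaC_prim (NeZero.ne p)).pow_eq_one
    show ((zetaC p : ℂˣ) : ℂ) ^ p = 1
    rw [← Units.val_pow_eq_pow_val, h, Units.val_one]) (NeZero.ne p)

lemma map_zetaZ (p : ℕ) [NeZero p] : Units.map (zbIncl : Zb →* ℂ) (zetaZ p) = zetaC p := by
  ext
  rfl

lemma zetaZ_pow (p : ℕ) [NeZero p] : zetaZ p ^ p = 1 := by
  apply Units.ext
  apply zbIncl_injective
  simp [zetaZ]

lemma phiC_factor' (p : ℕ) [Fact p.Prime] :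
    haveI : NeZero p := ⟨(Fact.out : p.Prime).ne_zero⟩
    modLHS ℂ p (phiC p) = modRHS ℂ p (zetaC p) := phiC_factor p

/-- **the coefficients of the modular polynomial are algebraic integers.** -/
theorem phiC_coeff_coeff_mem (p : ℕ) [Fact p.Prime] (n i : ℕ) :
    ((phiC p).coeff n).coeff i ∈ (integralClosure ℤ ℂ).toSubring := by
  haveI : NeZero p := ⟨(Fact.out : p.Prime).ne_zero⟩
  refine coeff_mem_of_evalJ_jqModC_coeff_mem _ _ (fun m => ?_) i
  have h1 : (evalJ ℂ (jqModC ℂ) ((phiC p).coeff n)).coeff m =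
      (qExpand ℂ p (evalJ ℂ (jqModC ℂ) ((phiC p).coeff n))).coeff ((p : ℤ) * m) :=
    (qExpand_coeff_mul p _ m).symm
  have h2 : qExpand ℂ p (evalJ ℂ (jqModC ℂ) ((phiC p).coeff n)) =
      (modLHS ℂ p (phiC p)).coeff n := by
    rw [qExpand_evalJ_eq, modLHS, coeff_map]
  rw [h1, h2, phiC_factor', ← map_zetaZ, ← modRHS_map, coeff_map, coeffMap_coeff]
  exact Subtype.property _

lemma phiC_coeff_mem_lifts (p : ℕ) [Fact p.Prime] (n : ℕ) :
    (phiC p).coeff n ∈ Polynomial.lifts zbIncl := by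
  rw [Polynomial.lifts_iff_coeff_lifts]
  intro i
  exact ⟨⟨_, phiC_coeff_coeff_mem p n i⟩, rfl⟩

theorem exists_phiZ (p : ℕ) [Fact p.Prime] :
    ∃ Φ : (Zb[X])[X], Φ.Monic ∧ Φ.natDegree = p + 1 ∧ Φ.map (mapRingHom zbIncl) = phiC p := by
  have hp : p.Prime := Fact.out
  have hl : phiC p ∈ Polynomial.lifts (mapRingHom zbIncl) := by
    rw [Polynomial.lifts_iff_coeff_lifts]
    intro n
    obtain ⟨Q, hQ⟩ := (Polynomial.mem_lifts _).mp (phiC_coeff_mem_lifts p n)
    exact ⟨Q, hQ⟩
  obtain ⟨Φ, h1, h2, h3⟩ := Polynomial.lifts_and_natDegree_eq_and_monic hl (phiC_monic hp)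
  exact ⟨Φ, h3, by rw [h2, phiC_natDegree hp], h1⟩

/-- the modular polynomial over the algebraic integers. -/
def phiZ (p : ℕ) : (Zb[X])[X] :=
  if h : p.Prime then (@exists_phiZ p ⟨h⟩).choose else 1

lemma phiZ_monic (p : ℕ) [Fact p.Prime] : (phiZ p).Monic := by
  have hp : p.Prime := Fact.out
  rw [phiZ, dif_pos hp]
  exact (@exists_phiZ p ⟨hp⟩).choose_spec.1

lemma phiZ_natDegree (p : ℕ) [Fact p.Prime] : (phiZ p).natDegree = p + 1 := by
  have hp : p.Prime := Fact.out
  rw [phiZ, dif_pos hp]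
  exact (@exists_phiZ p ⟨hp⟩).choose_spec.2.1

lemma phiZ_map (p : ℕ) [Fact p.Prime] : (phiZ p).map (mapRingHom zbIncl) = phiC p := by
  have hp : p.Prime := Fact.out
  rw [phiZ, dif_pos hp]
  exact (@exists_phiZ p ⟨hp⟩).choose_spec.2.2

/-- **the factored modular equation over `ℤ̄((q))`.** -/
theorem phiZ_factor (p : ℕ) [Fact p.Prime] :
    modLHS Zb p (phiZ p) = modRHS Zb p (zetaZ p) := by
  apply Polynomial.map_injective (coeffMap zbIncl) (coeffMap_injective zbIncl_injective)
  rw [modLHS_map, modRHS_map, phiZ_map, map_zetaZ]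
  exact phiC_factor p

end Zbar

end Fermat.Agent.S28lib
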