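/-
S28 library, brick (A), part 5 (helper8): the prime-level modular equation over any field `k`
receiving a ring homomorphism from the algebraic integers, with `p` invertible in `k`
(`modPolyData_of_ringHom`), and integrality of `j(q^{dp})` over `ℤ[j(q^d)]`
(`isIntegral_jAt_mul`).
-/
import Mathlib
import Fermat.Agent.S28lib.PhiIntegral

set_option autoImplicit false

noncomputable section

namespace Fermat.Agent.S28lib

open ModularCurve Polynomial

lemma zetaZ_geom_sum (p : ℕ) [Fact p.Prime] :
    ∑ i ∈ Finset.range p, ((zetaZ p : Zbˣ) : Zb) ^ i = 0 := by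
  have hp : p.Prime := Fact.out
  apply zbIncl_injective
  rw [map_sum, map_zero]
  simp only [map_pow]
  have h : IsPrimitiveRoot ((zetaC p : ℂˣ) : ℂ) p :=
    IsPrimitiveRoot.coe_units_iff.mpr (zetaC_prim hp.ne_zero)
  exact h.geom_sum_eq_zero hp.one_lt

lemma map_zetaZ_prim (p : ℕ) [Fact p.Prime] {k : Type*} [Field k] (ι : Zb →+* k)
    (hpk : (p : k) ≠ 0) : IsPrimitiveRoot (Units.map (ι : Zb →* k) (zetaZ p)) p := by
  have hp : p.Prime := Fact.out
  set ξ : kˣ := Units.map (ι : Zb →* k) (zetaZ p) with hξ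
  have h1 : ξ ^ p = 1 := by
    rw [hξ, ← map_pow, zetaZ_pow, map_one]
  have h2 : ξ ≠ 1 := by
    intro h
    have h3 := congrArg ι (zetaZ_geom_sum p)
    rw [map_sum, map_zero] at h3
    have h4 : ∀ i ∈ Finset.range p, ι (((zetaZ p : Zbˣ) : Zb) ^ i) = 1 := by
      intro i _
      have : ι ((zetaZ p : Zbˣ) : Zb) = ((ξ : kˣ) : k) := rfl
      rw [map_pow, this, h, Units.val_one, one_pow]
    rw [Finset.sum_congr rfl h4, Finset.sum_const, Finset.card_range, nsmul_eq_mul, mul_one] at h3
    exact hpk h3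
  have h5 : orderOf ξ = p := orderOf_eq_prime h1 h2
  rw [← h5]
  exact IsPrimitiveRoot.orderOf ξ

/-- **brick (A1)**: the prime-level modular equation over `k`. -/
def modPolyData_of_ringHom (p : ℕ) [Fact p.Prime] {k : Type*} [Field k]
    (ι : integralClosure ℤ ℂ →+* k) (hp : (p : k) ≠ 0) : ModPolyData k p where
  Φ := (phiZ p).map (mapRingHom ι)
  monic := (phiZ_monic p).map _
  natDegree_eq := by rw [(phiZ_monic p).natDegree_map, phiZ_natDegree]
  ζ := Units.map (ι : Zb →* k) (zetaZ p)
  prim := map_zetaZ_prim p ι hp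
  factor := by
    have h := congrArg (Polynomial.map (coeffMap ι)) (phiZ_factor p)
    rw [modLHS_map, modRHS_map] at h
    exact h

end Fermat.Agent.S28lib
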