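import Mathlib
import Fermat.Prelude.Def_ModularCurve_X0ModL

/-!
# S28, brick (T1): the Euler derivation `θ = q d/dq` on Laurent series

* `theta R : Derivation R (LaurentSeries R) (LaurentSeries R)` with
  `(theta R f).coeff n = (n : R) * f.coeff n`,
* `theta_qExpand : theta R (qExpand R m f) = (m : ℕ) • qExpand R m (theta R f)`,
* `coeffMap_theta : coeffMap φ (theta R f) = theta S (coeffMap φ f)`.
-/

set_option autoImplicit false

noncomputable section

open HahnSeries ModularCurve

namespace Fermat.Agent.S28lib

variable (R : Type*) [CommRing R]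

/-- The underlying function of `theta`. -/
def thetaFun (f : LaurentSeries R) : LaurentSeries R where
  coeff n := (n : R) * f.coeff n
  isPWO_support' := f.isPWO_support.mono (fun n hn => by
    simp only [Function.mem_support, ne_eq] at hn
    simp only [HahnSeries.mem_support, ne_eq]
    intro h
    exact hn (by rw [h, mul_zero]))

@[simp] theorem thetaFun_coeff (f : LaurentSeries R) (n : ℤ) :
    (thetaFun R f).coeff n = (n : R) * f.coeff n := rfl

theorem support_thetaFun_subset (f : LaurentSeries R) : (thetaFun R f).support ⊆ f.support := by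
  intro n hn
  simp only [HahnSeries.mem_support, ne_eq, thetaFun_coeff] at hn ⊢
  intro h
  exact hn (by rw [h, mul_zero])

theorem thetaFun_mul (f g : LaurentSeries R) :
    thetaFun R (f * g) = f * thetaFun R g + g * thetaFun R f := by
  ext n
  rw [thetaFun_coeff, HahnSeries.coeff_add, HahnSeries.coeff_mul,
    HahnSeries.coeff_mul_right' g.isPWO_support (support_thetaFun_subset R g),
    mul_comm g (thetaFun R f),
    HahnSeries.coeff_mul_left' f.isPWO_support (support_thetaFun_subset R f),
    Finset.mul_sum, ← Finset.sum_add_distrib]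
  refine Finset.sum_congr rfl fun ij hij => ?_
  have hn : n = ij.1 + ij.2 := ((Finset.mem_antidiagonal.mp hij).2.2).symm
  simp only [thetaFun_coeff]
  rw [hn]
  push_cast
  ring

theorem thetaFun_single (n : ℤ) (r : R) :
    thetaFun R (HahnSeries.single n r) = HahnSeries.single n ((n : R) * r) := by
  ext k
  rw [thetaFun_coeff]
  rcases eq_or_ne k n with rfl | hk
  · simp
  · simp [HahnSeries.coeff_single_of_ne hk]

theorem thetaFun_algebraMap (r : R) : thetaFun R (algebraMap R (LaurentSeries R) r) = 0 := by
  have h1 : algebraMap R (PowerSeries R) r = PowerSeries.C r := by simp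
  rw [HahnSeries.algebraMap_apply', h1, HahnSeries.ofPowerSeries_C, HahnSeries.C_apply,
    thetaFun_single]
  simp

/-- The Euler derivation `θ = q d/dq` on Laurent series. -/
def theta : Derivation R (LaurentSeries R) (LaurentSeries R) where
  toFun := thetaFun R
  map_add' f g := by
    ext n
    simp [mul_add]
  map_smul' r f := by
    have h1 : algebraMap R (PowerSeries R) r = PowerSeries.C r := by simp
    rw [RingHom.id_apply, Algebra.smul_def, thetaFun_mul, thetaFun_algebraMap, mul_zero, add_zero,
      HahnSeries.algebraMap_apply', h1, HahnSeries.ofPowerSeries_C]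
    exact HahnSeries.C_mul_eq_smul
  map_one_eq_zero' := by
    ext n
    simp only [LinearMap.coe_mk, AddHom.coe_mk, thetaFun_coeff, HahnSeries.coeff_one,
      HahnSeries.coeff_zero]
    split_ifs with h
    · subst h; simp
    · simp
  leibniz' f g := by
    simp only [LinearMap.coe_mk, AddHom.coe_mk, smul_eq_mul]
    exact thetaFun_mul R f g

@[simp] theorem theta_coeff (f : LaurentSeries R) (n : ℤ) :
    (theta R f).coeff n = (n : R) * f.coeff n := rfl

theorem theta_single (n : ℤ) (r : R) :
    theta R (HahnSeries.single n r) = HahnSeries.single n ((n : R) * r) := by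
  ext k
  rw [theta_coeff]
  rcases eq_or_ne k n with rfl | hk
  · simp
  · simp [HahnSeries.coeff_single_of_ne hk]

theorem theta_C (r : R) : theta R (HahnSeries.C r) = 0 := by
  rw [HahnSeries.C_apply, theta_single]
  simp

theorem theta_qExpand (m : ℕ) [NeZero m] (f : LaurentSeries R) :
    theta R (qExpand R m f) = (m : ℕ) • qExpand R m (theta R f) := by
  ext k
  rw [theta_coeff, HahnSeries.coeff_smul]
  by_cases hk : (m : ℤ) ∣ k
  · obtain ⟨j, rfl⟩ := hk
    rw [qExpand_coeff_mul, qExpand_coeff_mul, theta_coeff]
    push_cast
    simp only [nsmul_eq_mul]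
    ring
  · rw [qExpand_coeff_of_not_dvd m _ hk, qExpand_coeff_of_not_dvd m _ hk]
    simp

theorem coeffMap_theta {S : Type*} [CommRing S] (φ : R →+* S) (f : LaurentSeries R) :
    coeffMap φ (theta R f) = theta S (coeffMap φ f) := by
  ext n
  simp

end Fermat.Agent.S28lib
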