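import Mathlib
import Fermat.Agent.ProgramR.QExp.JExp
import Fermat.Agent.ProgramR.LevelOne.DJ
import Fermat.Agent.S28lib.ThetaDeriv

/-!
# S28, brick (T2a): `laurentExp 1 (D f) = θ (laurentExp 1 f)`

The normalised derivative `D = (2πi)⁻¹ d/dz` on functions on the upper half plane corresponds to
the Euler derivation `θ = q d/dq` on Laurent `q`-expansions.
-/

set_option autoImplicit false

noncomputable section

open Complex Filter Function Topology
open UpperHalfPlane hiding I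
open scoped Real Manifold MatrixGroups
open ModularForm EisensteinSeries Derivative
open Fermat.Agent.ProgramR.QExp Fermat.Agent.ProgramR.LevelOne

namespace Fermat.Agent.S28lib

local notation "𝕢" => Periodic.qParam

/-- Termwise differentiation of the `q`-expansion: `D f = ∑ n aₙ qⁿ`. -/
theorem hasSum_D_of_isHolPerBdd {f : ℍ → ℂ} (hf : IsHolPerBdd 1 f) (τ : ℍ) :
    HasSum (fun n : ℕ => ((n : ℂ) * (qExpansion 1 f).coeff n) • 𝕢 1 τ ^ n) (D f τ) := by
  set c : ℕ → ℂ := fun n => (qExpansion 1 f).coeff n with hc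
  have hps : HasFPowerSeriesOnBall (cuspFunction 1 f) (.ofScalars ℂ c) 0 1 :=
    hasFPowerSeriesOnBall_cuspFunction one_pos (hf.analyticAt one_pos)
      (fun τ => hasSum_qExpansion one_pos hf.periodic hf.holo hf.bdd τ)
  have hq : ‖𝕢 1 (τ : ℂ)‖ < 1 := Periodic.norm_qParam_lt_one one_pos τ.im_pos
  have hmem : 𝕢 1 (τ : ℂ) ∈ Metric.eball (0 : ℂ) 1 := by
    rw [← ENNReal.coe_one, Metric.eball_coe, NNReal.coe_one, mem_ball_zero_iff]
    exact hq
  have h1 := hps.fderiv.hasSum_sub hmem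
  have h2 := h1.mapL (ContinuousLinearMap.apply ℂ ℂ (𝕢 1 (τ : ℂ)))
  simp only [sub_zero, ContinuousLinearMap.apply_apply,
    FormalMultilinearSeries.derivSeries_apply_diag,
    FormalMultilinearSeries.ofScalars_apply_eq] at h2
  rw [fderiv_eq_smul_deriv,
    smul_eq_mul, ← D_eq_qParam_mul_deriv_cuspFunction hf.periodic hf.holo hf.bdd τ] at h2
  have h3 := (hasSum_nat_add_iff (f := fun n : ℕ => ((n : ℂ) * c n) • 𝕢 1 (τ : ℂ) ^ n) 1).mp
    (by
      convert h2 using 2 with n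
      simp only [smul_eq_mul, nsmul_eq_mul]
      push_cast
      ring)
  simpa using h3

/-- `D` preserves `1`-periodicity. -/
theorem periodic_D {f : ℍ → ℂ} (hper : Periodic (f ∘ ofComplex) 1) :
    Periodic (D f ∘ ofComplex) 1 := by
  have hper' : Periodic (f ∘ ofComplex) ((1 : ℝ) : ℂ) := by simpa using hper
  have key : Periodic (D f ∘ ofComplex) ((1 : ℝ) : ℂ) := by
    refine periodic_comp_ofComplex_of_vadd fun τ => ?_
    have h1 : (((1 : ℝ) +ᵥ τ : ℍ) : ℂ) = (τ : ℂ) + 1 := by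
      rw [UpperHalfPlane.coe_vadd]; push_cast; ring
    have h2 : (fun x : ℂ => (f ∘ ofComplex) (x + 1)) = f ∘ ofComplex := by
      funext x
      exact hper x
    rw [normalizedDerivOfComplex, normalizedDerivOfComplex, h1,
      ← deriv_comp_add_const (f ∘ ofComplex) 1 (τ : ℂ), h2]
  simpa using key

/-- `D` of a holomorphic periodic bounded function is again such. -/
theorem isHolPerBdd_D {f : ℍ → ℂ} (hf : IsHolPerBdd 1 f) : IsHolPerBdd 1 (D f) where
  holo := normalizedDerivOfComplex_mdifferentiable hf.holo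
  periodic := periodic_D hf.periodic
  bdd := isBoundedAtImInfty_of_hasSum_qExpansion one_pos (hasSum_D_of_isHolPerBdd hf)

/-- The `q`-expansion of `D f`. -/
theorem qExpansion_D {f : ℍ → ℂ} (hf : IsHolPerBdd 1 f) :
    qExpansion 1 (D f) = PowerSeries.mk fun n => (n : ℂ) * (qExpansion 1 f).coeff n :=
  qExpansion_eq_of_hasSum one_pos ((isHolPerBdd_D hf).analyticAt one_pos)
    (hasSum_D_of_isHolPerBdd hf)

/-- `D (q^m) = m q^m`. -/
theorem D_qPow (m : ℕ) : D (qPow 1 m) = fun τ => (m : ℂ) * qPow 1 m τ := by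
  funext z
  have heq : (qPow 1 m ∘ ofComplex) =ᶠ[𝓝 (z : ℂ)] fun w : ℂ => 𝕢 1 w ^ m := by
    filter_upwards [isOpen_upperHalfPlaneSet.mem_nhds z.im_pos] with w hw
    simp only [comp_apply, ofComplex_apply_of_im_pos hw, qPow_apply]
  have hd : HasDerivAt (fun w : ℂ => 𝕢 1 w ^ m)
      ((m : ℂ) * 𝕢 1 (z : ℂ) ^ (m - 1) * (2 * Real.pi * Complex.I * 𝕢 1 (z : ℂ))) (z : ℂ) :=
    (hasDerivAt_qParam_one (z : ℂ)).pow m
  have h2 : deriv (qPow 1 m ∘ ofComplex) z = _ := (hd.congr_of_eventuallyEq heq).deriv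
  have hpi : (2 * Real.pi * Complex.I : ℂ) ≠ 0 := Complex.two_pi_I_ne_zero
  rw [normalizedDerivOfComplex, h2, qPow_apply]
  rcases m with _ | m
  · simp
  · rw [Nat.add_sub_cancel, pow_succ]
    field_simp

/-- The key relation `q^m · D f = D (q^m f) - m · (q^m f)`. -/
theorem qPow_mul_D {m : ℕ} {f : ℍ → ℂ} (hf : MDiff f) (τ : ℍ) :
    qPow 1 m τ * D f τ = D (qPow 1 m * f) τ - (m : ℂ) * (qPow 1 m τ * f τ) := by
  rw [normalizedDerivOfComplex_mul _ _ (mdifferentiable_qPow 1 m) hf, D_qPow]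
  simp only [Pi.add_apply, Pi.mul_apply]
  ring

/-- Termwise differentiated expansion of `q^m · D f`. -/
theorem hasSum_qPow_mul_D {m : ℕ} {f : ℍ → ℂ} (hf : IsMeroAtInfty 1 m f) (τ : ℍ) :
    HasSum (fun n : ℕ => ((((n : ℂ) - m) * (qExpansion 1 (qPow 1 m * f)).coeff n)) • 𝕢 1 τ ^ n)
      (𝕢 1 τ ^ m * D f τ) := by
  have hg := hf.isHolPerBdd one_pos
  have h1 := hasSum_D_of_isHolPerBdd hg τ
  have h2 := (hasSum_qExpansion one_pos hg.periodic hg.holo hg.bdd τ).mul_left (m : ℂ)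
  have h3 := h1.sub h2
  have h4 := qPow_mul_D (m := m) hf.holo τ
  rw [qPow_apply] at h4
  have h5 : (fun n : ℕ =>
      ((((n : ℂ) - m) * (qExpansion 1 (qPow 1 m * f)).coeff n)) • 𝕢 1 (τ : ℂ) ^ n) =
      fun b : ℕ => ((b : ℂ) * (qExpansion 1 (qPow 1 m * f)).coeff b) • 𝕢 1 (τ : ℂ) ^ b -
        (m : ℂ) * (qExpansion 1 (qPow 1 m * f)).coeff b • 𝕢 1 (τ : ℂ) ^ b := by
    funext n
    simp only [smul_eq_mul]
    ring
  rw [h4, h5]
  exact h3

theorem isMeroAtInfty_D {m : ℕ} {f : ℍ → ℂ} (hf : IsMeroAtInfty 1 m f) :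
    IsMeroAtInfty 1 m (D f) where
  holo := normalizedDerivOfComplex_mdifferentiable hf.holo
  periodic := periodic_D hf.periodic
  bdd := isBoundedAtImInfty_of_hasSum_qExpansion one_pos (fun τ => by
    simpa only [Pi.mul_apply, qPow_apply] using hasSum_qPow_mul_D hf τ)

/-- **`D` corresponds to `θ = q d/dq` on Laurent `q`-expansions.** -/
theorem laurentExp_D {m : ℕ} {f : ℍ → ℂ} (hf : IsMeroAtInfty 1 m f) :
    laurentExp 1 (D f) = theta ℂ (laurentExp 1 f) := by
  rw [laurentExp_eq_of_hasSum one_pos (isMeroAtInfty_D hf) (hasSum_qPow_mul_D hf),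
    laurentExp_eq one_pos hf, laurentAux]
  ext n
  rw [theta_coeff, coeff_single_neg_mul_ofPowerSeries, coeff_single_neg_mul_ofPowerSeries]
  split_ifs with hn
  · rw [PowerSeries.coeff_mk]
    congr 1
    have : (((n + (m : ℤ)).toNat : ℤ) : ℂ) = (n : ℂ) + (m : ℂ) := by
      rw [Int.toNat_of_nonneg hn]; push_cast; ring
    have h' : (((n + (m : ℤ)).toNat : ℕ) : ℂ) = (n : ℂ) + (m : ℂ) := by
      rw [← this]; norm_cast
    rw [h']
    ring
  · simp

end Fermat.Agent.S28lib
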