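import Mathlib
import Fermat.Agent.S28lib.ThetaAnalytic
import Fermat.Agent.S28lib.Series

/-!
# S28, brick (T2): the formal identity `(θ j)^6 = j^4 (j - 1728)^3 Δ`

over `ℤ((q))`, hence over every commutative ring.
-/

set_option autoImplicit false

noncomputable section

open Complex Filter Function Topology
open UpperHalfPlane hiding I
open scoped Real Manifold MatrixGroups
open ModularForm EisensteinSeries Derivative ModularCurve
open Fermat.Agent.ProgramR.QExp Fermat.Agent.ProgramR.LevelOne

namespace Fermat.Agent.S28lib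

/-- Pointwise identity on the upper half plane. -/
theorem D_jInv_pow_six (z : ℍ) :
    D jInv z ^ 6 = jInv z ^ 4 * (jInv z - 1728) ^ 3 * ModularForm.discriminant z := by
  have hΔ := discriminant_ne_zero z
  rw [jInv_sub_1728, D_jInv, jInv]
  field_simp

theorem laurentExp_discriminant :
    laurentExp 1 (fun τ : ℍ => ModularForm.discriminant τ) = DeltaQ ℂ := by
  have hΔ : IsHolPerBdd 1 (fun τ : ℍ => ModularForm.discriminant τ) :=
    isHolPerBdd_of_modularForm (CuspForm.discriminant : CuspForm 𝒮ℒ 12)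
  rw [laurentExp_of_isHolPerBdd one_pos hΔ, qExpansion_discriminant, DeltaQ, map_mul,
    HahnSeries.ofPowerSeries_X, etaProdC, dedekindEtaUnit]
  simp only [map_pow]

/-- The identity over `ℂ((q))`. -/
theorem theta_jq_pow_six_complex :
    theta ℂ (jqModC ℂ) ^ 6 = jqModC ℂ ^ 4 * (jqModC ℂ - 1728) ^ 3 * DeltaQ ℂ := by
  have hΔ : IsHolPerBdd 1 (fun τ : ℍ => ModularForm.discriminant τ) :=
    isHolPerBdd_of_modularForm (CuspForm.discriminant : CuspForm 𝒮ℒ 12)
  let J : merRing 1 one_pos := ⟨jInv, 1, isMeroAtInfty_jInv⟩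
  let DJ : merRing 1 one_pos := ⟨D jInv, 1, isMeroAtInfty_D isMeroAtInfty_jInv⟩
  let Δ' : merRing 1 one_pos :=
    ⟨fun τ : ℍ => ModularForm.discriminant τ, 0, IsMeroAtInfty.of_isHolPerBdd hΔ⟩
  have hid : DJ ^ 6 = J ^ 4 * (J - 1728) ^ 3 * Δ' := by
    apply Subtype.ext
    funext z
    change D jInv z ^ 6 = jInv z ^ 4 * (jInv z - 1728) ^ 3 * ModularForm.discriminant z
    exact D_jInv_pow_six z
  have h := congrArg (laurentExpHom 1 one_pos) hid
  simp only [map_pow, map_mul, map_sub, map_ofNat] at h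
  have hJ : laurentExpHom 1 one_pos J = jqModC ℂ := laurentExp_jInv
  have hDJ : laurentExpHom 1 one_pos DJ = theta ℂ (jqModC ℂ) := by
    rw [← laurentExp_jInv]
    exact laurentExp_D isMeroAtInfty_jInv
  have hΔ' : laurentExpHom 1 one_pos Δ' = DeltaQ ℂ := laurentExp_discriminant
  rw [hJ, hDJ, hΔ'] at h
  exact h

theorem coeffMap_injective_of_injective {R S : Type*} [CommRing R] [CommRing S] (φ : R →+* S)
    (hφ : Function.Injective φ) : Function.Injective (coeffMap φ) := by
  intro x y h
  ext k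
  apply hφ
  have := congrArg (fun z => z.coeff k) h
  simpa using this

/-- The identity over `ℤ((q))`. -/
theorem theta_jq_pow_six_int :
    theta ℤ (jqModC ℤ) ^ 6 = jqModC ℤ ^ 4 * (jqModC ℤ - 1728) ^ 3 * DeltaQ ℤ := by
  apply coeffMap_injective_of_injective (Int.castRingHom ℂ) Int.cast_injective
  simp only [map_pow, map_mul, map_sub, map_ofNat, coeffMap_theta, coeffMap_jqModC,
    coeffMap_DeltaQ]
  exact theta_jq_pow_six_complex

/-- **(T2)** The identity `(θ j)^6 = j^4 (j - 1728)^3 Δ` over every commutative ring. -/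
theorem theta_jq_pow_six (R : Type*) [CommRing R] :
    theta R (jqModC R) ^ 6 = jqModC R ^ 4 * (jqModC R - 1728) ^ 3 * DeltaQ R := by
  have h := congrArg (coeffMap (Int.castRingHom R)) theta_jq_pow_six_int
  simpa only [map_pow, map_mul, map_sub, map_ofNat, coeffMap_theta, coeffMap_jqModC,
    coeffMap_DeltaQ] using h

end Fermat.Agent.S28lib
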