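import Mathlib
import Fermat.Agent.S28lib.ThetaJ
import Fermat.Agent.S28lib.Series

/-!
# S28, brick (T3): the modular unit `ν = Δ(q^p)/Δ(q)` is a rational function of `j(q^p), j(q)`

From the modular equation `Φ(j(q^p), j(q)) = 0` (with `j(q^p)` a simple root), the Euler derivation
`θ = q d/dq` gives `∂_XΦ · θ j(q^p) + ∂_YΦ · θ j(q) = 0`, and `(θ j)^6 = j^4 (j - 1728)^3 Δ` turns
the sixth power of this relation into an expression of `ν` as a quotient of polynomials in
`j(q^p), j(q)`.
-/

set_option autoImplicit false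

noncomputable section

open HahnSeries ModularCurve Polynomial

namespace Fermat.Agent.S28lib

section ChainRule

variable {R : Type*} [CommRing R]

/-- Coefficientwise derivative `∂/∂Y` of a polynomial in `(R[Y])[X]`. -/
def dY (P : Polynomial (Polynomial R)) : Polynomial (Polynomial R) :=
  P.sum fun i c => Polynomial.monomial i (Polynomial.derivative c)

theorem dY_add (P Q : Polynomial (Polynomial R)) : dY (P + Q) = dY P + dY Q := by
  unfold dY
  exact Polynomial.sum_add_index P Q _ (fun i => by simp) (fun i a b => by simp)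

theorem dY_monomial (n : ℕ) (c : Polynomial R) :
    dY (Polynomial.monomial n c) = Polynomial.monomial n (Polynomial.derivative c) := by
  unfold dY
  exact Polynomial.sum_monomial_index c _ (by simp)

/-- Two-variable chain rule for `θ`. -/
theorem theta_eval₂ (y x : LaurentSeries R) (P : Polynomial (Polynomial R)) :
    theta R (P.eval₂ (evalJ R y) x) =
      (dY P).eval₂ (evalJ R y) x * theta R y +
        (Polynomial.derivative P).eval₂ (evalJ R y) x * theta R x := by
  induction P using Polynomial.induction_on' with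
  | add P Q hP hQ =>
    rw [Polynomial.eval₂_add, map_add, hP, hQ, dY_add, map_add, Polynomial.eval₂_add,
      Polynomial.eval₂_add]
    ring
  | monomial n c =>
    rw [dY_monomial, Polynomial.derivative_monomial, Polynomial.eval₂_monomial,
      Polynomial.eval₂_monomial, Polynomial.eval₂_monomial, Derivation.leibniz,
      Derivation.leibniz_pow]
    have h1 : theta R (evalJ R y c) = evalJ R y (Polynomial.derivative c) * theta R y := by
      change theta R (Polynomial.aeval y c) = Polynomial.aeval y (Polynomial.derivative c) * _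
      rw [Derivation.map_aeval, smul_eq_mul]
    rw [h1, map_mul, map_natCast]
    simp only [smul_eq_mul, nsmul_eq_mul]
    ring

theorem qExpand_comp_evalJ (m : ℕ) [NeZero m] (y : LaurentSeries R) :
    (qExpand R m).comp (evalJ R y) = evalJ R (qExpand R m y) := by
  apply Polynomial.ringHom_ext
  · intro c
    simp only [RingHom.comp_apply]
    change qExpand R m (Polynomial.aeval y (Polynomial.C c)) =
      Polynomial.aeval (qExpand R m y) (Polynomial.C c)
    rw [Polynomial.aeval_C, Polynomial.aeval_C, algebraMap_laurent_eq_C, qExpand_C]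
  · simp only [RingHom.comp_apply, evalJ_X]

theorem qExpand_eval₂ (m : ℕ) [NeZero m] (y x : LaurentSeries R)
    (P : Polynomial (Polynomial R)) :
    qExpand R m (P.eval₂ (evalJ R y) x) = P.eval₂ (evalJ R (qExpand R m y)) (qExpand R m x) := by
  rw [Polynomial.hom_eval₂, qExpand_comp_evalJ]

theorem evalJ_C (y : LaurentSeries R) (c : R) :
    evalJ R y (Polynomial.C c) = HahnSeries.C c := by
  change Polynomial.aeval y (Polynomial.C c) = _
  rw [Polynomial.aeval_C, algebraMap_laurent_eq_C]

end ChainRule

section Main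

variable {k : Type*} [Field k]

/-- `j(q^p)` is a root of the modular equation `Φ(X, j(q))`. -/
theorem ModPolyData.eval₂_eq_zero {p : ℕ} [NeZero p] (D : ModPolyData k p) :
    D.Φ.eval₂ (evalJ k (jqModC k)) (qExpand k p (jqModC k)) = 0 := by
  apply qExpand_injective p
  rw [map_zero, qExpand_eval₂, Polynomial.eval₂_eq_eval_map, D.factor, Polynomial.eval_mul,
    Polynomial.eval_sub, Polynomial.eval_X, Polynomial.eval_C, sub_self, zero_mul]

/-- `j(q^p)` is a simple root of the modular equation `Φ(X, j(q))` (for `p ≥ 2`). -/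
theorem ModPolyData.derivative_eval₂_ne_zero {p : ℕ} [NeZero p] (hp : 2 ≤ p)
    (D : ModPolyData k p) :
    (Polynomial.derivative D.Φ).eval₂ (evalJ k (jqModC k)) (qExpand k p (jqModC k)) ≠ 0 := by
  intro h
  have h2 := congrArg (qExpand k p) h
  rw [map_zero, qExpand_eval₂, Polynomial.eval₂_eq_eval_map, ← Polynomial.derivative_map,
    D.factor, Polynomial.derivative_mul, Polynomial.derivative_sub, Polynomial.derivative_X,
    Polynomial.derivative_C, sub_zero, one_mul, Polynomial.eval_add, Polynomial.eval_mul,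
    Polynomial.eval_sub, Polynomial.eval_X, Polynomial.eval_C, sub_self, zero_mul, add_zero,
    Polynomial.eval_prod, Finset.prod_eq_zero_iff] at h2
  obtain ⟨i, -, hi⟩ := h2
  rw [Polynomial.eval_sub, Polynomial.eval_X, Polynomial.eval_C, sub_eq_zero] at hi
  have ho := congrArg HahnSeries.order hi
  rw [order_qExpand, order_qExpand, order_twist, order_jqModC] at ho
  have hp' : (2 : ℤ) ≤ (p : ℤ) := by exact_mod_cast hp
  nlinarith

theorem natCast_laurent_ne_zero {n : ℕ} (hn : (n : k) ≠ 0) : ((n : ℕ) : LaurentSeries k) ≠ 0 := by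
  intro h
  apply hn
  have h1 : HahnSeries.C (n : k) = ((n : ℕ) : LaurentSeries k) := map_natCast HahnSeries.C n
  exact HahnSeries.C_injective (by rw [h1, h, map_zero])

theorem qExpand_jqModC_sub_ne_zero (p : ℕ) [NeZero p] (c : k) :
    qExpand k p (jqModC k) - HahnSeries.C c ≠ 0 := by
  intro h
  have h1 := congrArg (fun f : LaurentSeries k => f.coeff ((p : ℤ) * (-1))) h
  simp only [HahnSeries.coeff_sub, qExpand_coeff_mul, coeff_jqModC_neg_one,
    HahnSeries.coeff_zero] at h1
  have hne : ((p : ℤ) * (-1)) ≠ 0 := by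
    have := NeZero.ne p
    simp only [mul_neg, mul_one, ne_eq, neg_eq_zero, Nat.cast_eq_zero]
    exact this
  rw [HahnSeries.C_apply, HahnSeries.coeff_single_of_ne hne, sub_zero] at h1
  exact one_ne_zero h1

theorem eval₂_denominator (y x : LaurentSeries k) (c d : k) (Q : Polynomial (Polynomial k)) :
    (Polynomial.C (Polynomial.C c) * Polynomial.X ^ 4 *
      (Polynomial.X - Polynomial.C (Polynomial.C d)) ^ 3 * Q ^ 6).eval₂ (evalJ k y) x =
      HahnSeries.C c * x ^ 4 * (x - HahnSeries.C d) ^ 3 * Q.eval₂ (evalJ k y) x ^ 6 := by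
  simp only [Polynomial.eval₂_mul, Polynomial.eval₂_pow, Polynomial.eval₂_sub,
    Polynomial.eval₂_X, Polynomial.eval₂_C, evalJ_C]

theorem eval₂_numerator (y x : LaurentSeries k) (d : k) (Q : Polynomial (Polynomial k)) :
    (Q ^ 6 * Polynomial.C (Polynomial.X ^ 4 * (Polynomial.X - Polynomial.C d) ^ 3)).eval₂
      (evalJ k y) x =
      Q.eval₂ (evalJ k y) x ^ 6 * (y ^ 4 * (y - HahnSeries.C d) ^ 3) := by
  rw [Polynomial.eval₂_mul, Polynomial.eval₂_pow, Polynomial.eval₂_C, map_mul, map_pow, map_pow,
    map_sub, evalJ_X, evalJ_C]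

/-- **(T3)** the modular unit `ν = Δ(q^p)/Δ(q)` is a rational function of `j(q^p)`, `j(q)`. -/
theorem nuQ_rational (p : ℕ) [NeZero p] {k : Type*} [Field k] (hp : (p : k) ≠ 0)
    (D : ModPolyData k p) :
    ∃ A B : Polynomial (Polynomial k),
      B.eval₂ (evalJ k (jqModC k)) (qExpand k p (jqModC k)) ≠ 0 ∧
      nuQ k p * B.eval₂ (evalJ k (jqModC k)) (qExpand k p (jqModC k)) =
        A.eval₂ (evalJ k (jqModC k)) (qExpand k p (jqModC k)) := by
  rcases Nat.lt_or_ge p 2 with h1 | h2
  · -- the degenerate case `p = 1`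
    have hp1 : p = 1 := by
      have := NeZero.ne p
      omega
    subst hp1
    refine ⟨1, 1, ?_, ?_⟩
    · rw [Polynomial.eval₂_one]
      exact one_ne_zero
    · rw [Polynomial.eval₂_one, mul_one, nuQ, qExpand_one_apply,
        mul_inv_cancel₀ (DeltaQ_ne_zero k)]
  · set J1 : LaurentSeries k := jqModC k with hJ1
    set Jp : LaurentSeries k := qExpand k p J1 with hJp
    set a : LaurentSeries k := (Polynomial.derivative D.Φ).eval₂ (evalJ k J1) Jp with ha
    set b : LaurentSeries k := (dY D.Φ).eval₂ (evalJ k J1) Jp with hb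
    have ha0 : a ≠ 0 := D.derivative_eval₂_ne_zero h2
    -- the differentiated modular equation
    have h0 : b * theta k J1 + a * theta k Jp = 0 := by
      rw [hb, ha, ← theta_eval₂, hJp, hJ1, D.eval₂_eq_zero, map_zero]
    have hθp : theta k Jp = (p : LaurentSeries k) * qExpand k p (theta k J1) := by
      rw [hJp, theta_qExpand, nsmul_eq_mul]
    -- sixth powers
    have h6 : a ^ 6 * (p : LaurentSeries k) ^ 6 * qExpand k p (theta k J1 ^ 6) =
        b ^ 6 * theta k J1 ^ 6 := by
      have h7 : a * ((p : LaurentSeries k) * qExpand k p (theta k J1)) = -(b * theta k J1) := by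
        rw [← hθp]
        exact eq_neg_of_add_eq_zero_right h0
      have h8 : (a * ((p : LaurentSeries k) * qExpand k p (theta k J1))) ^ 6 =
          (-(b * theta k J1)) ^ 6 := by rw [h7]
      rw [map_pow]
      calc a ^ 6 * (p : LaurentSeries k) ^ 6 * qExpand k p (theta k J1) ^ 6
          = (a * ((p : LaurentSeries k) * qExpand k p (theta k J1))) ^ 6 := by ring
        _ = (-(b * theta k J1)) ^ 6 := h8
        _ = b ^ 6 * theta k J1 ^ 6 := by ring
    have hT := theta_jq_pow_six k
    rw [← hJ1] at hT
    rw [hT] at h6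
    simp only [map_mul, map_pow, map_sub, map_ofNat] at h6
    rw [← hJp, ← nuQ_mul_DeltaQ k p] at h6
    -- cancel `Δ`
    have hΔ : DeltaQ k ≠ 0 := DeltaQ_ne_zero k
    have h9 : nuQ k p * ((p : LaurentSeries k) ^ 6 * Jp ^ 4 * (Jp - 1728) ^ 3 * a ^ 6) =
        b ^ 6 * (J1 ^ 4 * (J1 - 1728) ^ 3) := by
      apply mul_right_cancel₀ hΔ
      linear_combination h6
    have hC1 : HahnSeries.C ((p : k) ^ 6) = (p : LaurentSeries k) ^ 6 := by
      rw [map_pow, map_natCast]
    have hC2 : HahnSeries.C (1728 : k) = (1728 : LaurentSeries k) := map_ofNat HahnSeries.C 1728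
    refine ⟨dY D.Φ ^ 6 * Polynomial.C (Polynomial.X ^ 4 * (Polynomial.X - Polynomial.C 1728) ^ 3),
      Polynomial.C (Polynomial.C ((p : k) ^ 6)) * Polynomial.X ^ 4 *
        (Polynomial.X - Polynomial.C (Polynomial.C 1728)) ^ 3 * Polynomial.derivative D.Φ ^ 6,
      ?_, ?_⟩
    · rw [eval₂_denominator, hC1, hC2, ← ha]
      refine mul_ne_zero (mul_ne_zero (mul_ne_zero ?_ ?_) ?_) (pow_ne_zero _ ha0)
      · exact pow_ne_zero _ (natCast_laurent_ne_zero hp)
      · exact pow_ne_zero _ (qExpand_ne_zero p (jqModC_ne_zero k))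
      · refine pow_ne_zero _ ?_
        have := qExpand_jqModC_sub_ne_zero p (1728 : k)
        rwa [hC2] at this
    · rw [eval₂_denominator, eval₂_numerator, hC1, hC2, ← ha, ← hb]
      exact h9

end Main

end Fermat.Agent.S28lib
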