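/-
S28 (Igusa), brick B: the modular unit `ν = Δ(q^p)/Δ(q)` is integral over `k[j]`.

Route: the power sums of the `p+1` formal conjugates `p^12 Δ(u^{p²})/Δ(u^p)`, `Δ(ζ^b u)/Δ(u^p)`
of `p^12 ν` (in `ℂ((u))`, `u = q^{1/p}`) are `p T_p(Δ^m)/Δ^m`, which are polynomials in `j` by the
level-one analytic theory (`BrickB/Analytic.lean`); Newton's identities and coefficient descent
(`BrickB/Generic.lean`) give a monic equation with algebraic-integer coefficients
(`BrickB/Formal.lean`), which is then reduced along `ι : integralClosure ℤ ℂ →+* k`.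
-/
import Mathlib
import Fermat.Agent.S28lib.Defs
import Fermat.Agent.S28lib.BrickB.Formal

set_option autoImplicit false
noncomputable section

namespace Fermat.Agent.S28lib

open ModularCurve HahnSeries Fermat.Agent.S28lib Fermat.Agent.S28lib.BrickB

namespace BrickB

lemma coeffMap_injective {R S : Type*} [CommRing R] [CommRing S] (f : R →+* S)
    (hf : Function.Injective f) : Function.Injective (coeffMap f) := by
  intro x y h
  ext n
  apply hf
  rw [← coeffMap_coeff, ← coeffMap_coeff, h]

/-- **The modular equation of the unit over the ring of all algebraic integers.** -/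
theorem exists_esymm_polys_int (p : ℕ) [NeZero p] (hp : p.Prime) :
    ∃ E : ℕ → Polynomial (integralClosure ℤ ℂ), E 0 = 1 ∧
      ∑ j ∈ Finset.range (p + 2), (-1 : LaurentSeries (integralClosure ℤ ℂ)) ^ j *
        (Polynomial.aeval (jqModC (integralClosure ℤ ℂ)) (E j) *
          gInf (integralClosure ℤ ℂ) p ^ (p + 1 - j)) = 0 := by
  obtain ⟨E, hE0, hEint, hsum⟩ := exists_esymm_polys p hp
  set ιC : integralClosure ℤ ℂ →+* ℂ := algebraMap (integralClosure ℤ ℂ) ℂ with hιC
  have hinj : Function.Injective ιC := Subtype.val_injective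
  have hlift : ∀ j, ∃ E' : Polynomial (integralClosure ℤ ℂ), E'.map ιC = E j := by
    intro j
    have : E j ∈ Polynomial.lifts ιC := by
      rw [Polynomial.lifts_iff_coeff_lifts]
      intro n
      exact ⟨⟨(E j).coeff n, hEint j n⟩, rfl⟩
    exact (Polynomial.mem_lifts _).mp this
  choose E' hE' using hlift
  refine ⟨E', ?_, ?_⟩
  · apply Polynomial.map_injective ιC hinj
    rw [hE', hE0, Polynomial.map_one]
  · apply coeffMap_injective ιC hinj
    rw [map_zero, map_sum, ← hsum]
    refine Finset.sum_congr rfl fun j _ => ?_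
    rw [map_mul, map_mul, map_pow, map_pow, map_neg, map_one, coeffMap_aeval, coeffMap_jqModC,
      coeffMap_gInf, hE']


/-- The modular equation of the unit over any field receiving the algebraic integers. -/
theorem exists_esymm_polys_field (p : ℕ) [NeZero p] (hp : p.Prime) {k : Type*} [Field k]
    (ι : integralClosure ℤ ℂ →+* k) :
    ∃ E : ℕ → Polynomial k, E 0 = 1 ∧
      ∑ j ∈ Finset.range (p + 2), (-1 : LaurentSeries k) ^ j *
        (Polynomial.aeval (jqModC k) (E j) * gInf k p ^ (p + 1 - j)) = 0 := by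
  obtain ⟨E, hE0, hsum⟩ := exists_esymm_polys_int p hp
  refine ⟨fun j => (E j).map ι, by simp [hE0], ?_⟩
  have h := congrArg (coeffMap ι) hsum
  rw [map_zero, map_sum] at h
  rw [← h]
  refine Finset.sum_congr rfl fun j _ => ?_
  rw [map_mul, map_mul, map_pow, map_pow, map_neg, map_one, coeffMap_aeval, coeffMap_jqModC,
    coeffMap_gInf]

/-- A monic polynomial over `k[Y]` killing `p^12 ν`. -/
theorem exists_monic_gInf (p : ℕ) [NeZero p] (hp : p.Prime) {k : Type*} [Field k]
    (ι : integralClosure ℤ ℂ →+* k) :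
    ∃ Ψ : Polynomial (Polynomial k), Ψ.Monic ∧ Ψ.natDegree = p + 1 ∧
      Ψ.eval₂ (evalJ k (jqModC k)) (gInf k p) = 0 := by
  obtain ⟨E, hE0, hsum⟩ := exists_esymm_polys_field p hp ι
  set T : Polynomial (Polynomial k) := ∑ j ∈ Finset.range (p + 1),
    Polynomial.C ((-1 : Polynomial k) ^ (j + 1) * E (j + 1)) * Polynomial.X ^ (p - j) with hT
  have hTdeg : T.degree < ((p + 1 : ℕ) : WithBot ℕ) := by
    refine lt_of_le_of_lt (Polynomial.degree_sum_le _ _) ?_
    rw [Finset.sup_lt_iff (WithBot.bot_lt_coe _)]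
    intro j _
    refine lt_of_le_of_lt (Polynomial.degree_C_mul_X_pow_le _ _) ?_
    exact_mod_cast Nat.lt_succ_of_le (Nat.sub_le p j)
  refine ⟨Polynomial.X ^ (p + 1) + T, Polynomial.monic_X_pow_add hTdeg, ?_, ?_⟩
  · apply Polynomial.natDegree_eq_of_degree_eq_some
    rw [Polynomial.degree_add_eq_left_of_degree_lt (by rwa [Polynomial.degree_X_pow]),
      Polynomial.degree_X_pow]
  · rw [Finset.sum_range_succ'] at hsum
    rw [Polynomial.eval₂_add, Polynomial.eval₂_pow, Polynomial.eval₂_X, hT,
      Polynomial.eval₂_finsetSum, ← hsum, add_comm]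
    congr 1
    · refine Finset.sum_congr rfl fun j _ => ?_
      rw [Polynomial.eval₂_mul, Polynomial.eval₂_C, Polynomial.eval₂_pow, Polynomial.eval₂_X,
        map_mul, map_pow, map_neg, map_one]
      rw [show p + 1 - (j + 1) = p - j by omega, mul_assoc]
      rfl
    · rw [hE0, pow_zero, one_mul, map_one, one_mul, Nat.sub_zero]

end BrickB

/-- **Brick B of S28.** The modular unit `ν = Δ(q^p)/Δ(q)` is integral over `k[j]`, for every
field `k` receiving the ring of algebraic integers in which `p` is invertible. -/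
theorem nuQ_integral (p : ℕ) [Fact p.Prime] {k : Type*} [Field k]
    (ι : integralClosure ℤ ℂ →+* k) (hp : (p : k) ≠ 0) :
    ∃ Ψ : Polynomial (Polynomial k), Ψ.Monic ∧ Ψ.eval₂ (evalJ k (jqModC k)) (nuQ k p) = 0 := by
  obtain ⟨Ψ₀, hmonic, -, hroot⟩ := BrickB.exists_monic_gInf p (Fact.out : p.Prime) ι
  set c : k := (p : k) ^ 12 with hc
  have hc0 : c ≠ 0 := pow_ne_zero _ hp
  refine ⟨Polynomial.scaleRoots Ψ₀ (Polynomial.C c⁻¹), (Polynomial.monic_scaleRoots_iff _).mpr hmonic, ?_⟩
  have h := Polynomial.scaleRoots_eval₂_eq_zero (evalJ k (jqModC k)) (s := Polynomial.C c⁻¹) hroot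
  have h2 : evalJ k (jqModC k) (Polynomial.C c⁻¹) * gInf k p = nuQ k p := by
    rw [BrickB.gInf_eq_nuQ, ← mul_assoc]
    have : evalJ k (jqModC k) (Polynomial.C c⁻¹) = HahnSeries.C c⁻¹ := by
      show Polynomial.aeval (jqModC k) (Polynomial.C c⁻¹) = _
      rw [Polynomial.aeval_C, BrickB.algebraMap_eq_C]
    rw [this, ← map_mul, inv_mul_cancel₀ hc0, map_one, one_mul]
  rwa [h2] at h

end Fermat.Agent.S28lib
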