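/-
S28 (Igusa), brick D1: any `ψ(N) + 1` elements of `modularFunctionFieldFull N ⊂ ℚ((q))` satisfy a
nontrivial linear relation with coefficients in `ℚ[j]` (from the degree package
`ProgramR/BarField/Degree`, used with `L = ℚ`).
-/
import Mathlib
import Fermat.Agent.S28lib.Defs
import Fermat.Agent.ProgramR.BarField.Degree

set_option autoImplicit false

noncomputable section

namespace Fermat.Agent.S28lib

open ModularCurve HahnSeries Polynomial

theorem coeffEmb_rat_self (y : LaurentSeries ℚ) : coeffEmb ℚ y = y := by
  ext n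
  simp [coeffEmb_coeff]

theorem mem_laurentBaseChange_rat (N : ℕ) [NeZero N] {y : LaurentSeries ℚ}
    (hy : y ∈ modularFunctionFieldFull N) :
    y ∈ laurentBaseChange ℚ (modularFunctionFieldFull N) := by
  have h := coeffEmb_mem_laurentBaseChange ℚ hy
  rwa [coeffEmb_rat_self] at h

/-- **D1.** Any `ψ(N) + 1` elements of the full modular function field of level `N` are linearly
dependent over `ℚ[j]`. -/
theorem exists_poly_relation (N : ℕ) [NeZero N]
    (y : Fin (dedekindPsi N + 1) → LaurentSeries ℚ)
    (hy : ∀ i, y i ∈ modularFunctionFieldFull N) :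
    ∃ P : Fin (dedekindPsi N + 1) → Polynomial ℚ, P ≠ 0 ∧
      ∑ i, evalJ ℚ (jqModC ℚ) (P i) * y i = 0 := by
  by_contra hcon
  push Not at hcon
  have hle : dedekindPsi N + 1 ≤ dedekindPsi N := by
    refine Fermat.Agent.ProgramR.BarField.card_le_dedekindPsi N (algebraMap ℚ ℂ) y
      (fun i => mem_laurentBaseChange_rat N (hy i)) ?_
    intro p hp
    by_contra hne
    have hp0 : p ≠ 0 := by
      intro h0
      apply hne
      intro i
      rw [h0]
      rfl
    apply hcon p hp0
    rw [← hp]
    refine Finset.sum_congr rfl fun i _ => ?_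
    congr 1
  omega

end Fermat.Agent.S28lib
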