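/-
S28 (Igusa), residue field brick: for every prime `ℓ` there is an algebraically closed field `k`
of characteristic `ℓ` together with a ring homomorphism `integralClosure ℤ ℂ →+* k`
(`k` = an algebraic closure of the residue field of `ℤ̄` at a maximal ideal above `ℓ`).
-/
import Mathlib

set_option autoImplicit false

noncomputable section

namespace Fermat.Agent.S28lib

/-- A prime number is not a unit in the ring of algebraic integers. -/
theorem not_isUnit_prime_integralClosure (ℓ : ℕ) (hℓ : ℓ.Prime) :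
    ¬ IsUnit ((ℓ : ℕ) : integralClosure ℤ ℂ) := by
  intro hu
  obtain ⟨x, hx⟩ := hu.exists_right_inv
  -- `x = 1/ℓ` is integral over `ℤ`
  have hxint : IsIntegral ℤ (x : ℂ) := x.2
  have hxval : (x : ℂ) = algebraMap ℚ ℂ ((ℓ : ℚ)⁻¹) := by
    have h1 : ((ℓ : ℕ) : ℂ) * (x : ℂ) = 1 := by
      have := congrArg (fun y : integralClosure ℤ ℂ => (y : ℂ)) hx
      simpa using this
    have hℓ0 : ((ℓ : ℕ) : ℂ) ≠ 0 := by exact_mod_cast hℓ.ne_zero
    rw [map_inv₀, map_natCast]
    field_simp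
    linear_combination h1
  rw [hxval, isIntegral_algebraMap_iff (algebraMap ℚ ℂ).injective] at hxint
  obtain ⟨y, hy⟩ := IsIntegrallyClosed.isIntegral_iff.mp hxint
  have hℓ0 : ((ℓ : ℕ) : ℚ) ≠ 0 := by exact_mod_cast hℓ.ne_zero
  have h2 : ((ℓ : ℤ) * y : ℤ) = 1 := by
    have : ((ℓ : ℚ)) * (y : ℚ) = 1 := by
      have hy' : (y : ℚ) = (ℓ : ℚ)⁻¹ := by simpa using hy
      rw [hy']
      exact mul_inv_cancel₀ hℓ0
    exact_mod_cast this
  have h3 : IsUnit (ℓ : ℤ) := IsUnit.of_mul_eq_one y h2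
  have h4 : IsUnit ℓ := by
    rwa [Int.isUnit_iff_natAbs_eq, Int.natAbs_natCast, ← Nat.isUnit_iff] at h3
  exact hℓ.not_isUnit h4

/-- **Residue field.** An algebraically closed field of characteristic `ℓ` receiving a ring
homomorphism from the ring of all algebraic integers. -/
theorem exists_residue_field (ℓ : ℕ) [hℓ : Fact ℓ.Prime] :
    ∃ (k : Type) (_ : Field k) (_ : IsAlgClosed k) (_ : CharP k ℓ),
      Nonempty (integralClosure ℤ ℂ →+* k) := by
  classical
  have hne : Ideal.span {((ℓ : ℕ) : integralClosure ℤ ℂ)} ≠ ⊤ := by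
    rw [Ne, Ideal.span_singleton_eq_top]
    exact not_isUnit_prime_integralClosure ℓ hℓ.out
  obtain ⟨M, hM, hle⟩ := Ideal.exists_le_maximal _ hne
  let _ : Field (integralClosure ℤ ℂ ⧸ M) := Ideal.Quotient.field M
  let k := AlgebraicClosure (integralClosure ℤ ℂ ⧸ M)
  let ι : integralClosure ℤ ℂ →+* k :=
    (algebraMap (integralClosure ℤ ℂ ⧸ M) k).comp (Ideal.Quotient.mk M)
  have hzero : ((ℓ : ℕ) : k) = 0 := by
    have h1 : ((ℓ : ℕ) : integralClosure ℤ ℂ) ∈ M :=
      hle (Ideal.subset_span (Set.mem_singleton _))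
    have h2 : ι ((ℓ : ℕ) : integralClosure ℤ ℂ) = 0 := by
      show (algebraMap (integralClosure ℤ ℂ ⧸ M) k) (Ideal.Quotient.mk M _) = 0
      rw [Ideal.Quotient.eq_zero_iff_mem.mpr h1, map_zero]
    rwa [map_natCast] at h2
  have hchar : CharP k ℓ := by
    obtain ⟨p, hp⟩ := CharP.exists k
    have hdvd : p ∣ ℓ := (CharP.cast_eq_zero_iff k p ℓ).mp hzero
    rcases (Nat.dvd_prime hℓ.out).mp hdvd with h1 | h1
    · subst h1
      exact absurd (CharP.cast_eq_zero k 1) (by
        rw [Nat.cast_one]; exact one_ne_zero)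
    · subst h1; exact hp
  exact ⟨k, inferInstance, inferInstance, hchar, ⟨ι⟩⟩

end Fermat.Agent.S28lib
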