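/-
S28 (Igusa), brick S: scheme-theoretic wrapper.
If the base changes `chartAlgFin ⊗ K`, `chartAlgInf ⊗ K` are domains and `chartAlgMid ⊗ K` is
nontrivial, then the base change of the Igusa scheme to `K` is an integral scheme.
-/
import Mathlib
import Fermat.Prelude.Def_ModularCurve_IgusaScheme

set_option autoImplicit false
set_option linter.unusedSectionVars false

open AlgebraicGeometry CategoryTheory CategoryTheory.Limits ModularCurve ModularCurve.IgusaScheme
open scoped TensorProduct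

noncomputable section

namespace Fermat.Agent.S28lib

/-- A topological space covered by two irreducible open subsets with nonempty intersection is
irreducible. -/
theorem irreducibleSpace_of_two_opens {X : Type*} [TopologicalSpace X] (U V : Set X)
    (hU : IsOpen U) (hV : IsOpen V) (hUirr : IsIrreducible U) (hVirr : IsIrreducible V)
    (hUV : (U ∩ V).Nonempty) (hcov : U ∪ V = Set.univ) : IrreducibleSpace X := by
  have hW : IsIrreducible (U ∩ V) := by
    refine ⟨hUV, ?_⟩
    exact hUirr.isPreirreducible.open_subset (hU.inter hV) Set.inter_subset_left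
  have hWcl : IsIrreducible (closure (U ∩ V)) := hW.closure
  have hUsub : U ⊆ closure (U ∩ V) := by
    -- `U ∩ V` is a nonempty open subset of the irreducible `U`, hence dense in `U`
    intro x hx
    rw [mem_closure_iff]
    intro O hO hxO
    obtain ⟨y, hy⟩ := hUirr.isPreirreducible O V hO hV ⟨x, hx, hxO⟩
      (by obtain ⟨z, hz⟩ := hUV; exact ⟨z, hz.1, hz.2⟩)
    exact ⟨y, hy.2.1, hy.1, hy.2.2⟩
  have hVsub : V ⊆ closure (U ∩ V) := by
    intro x hx
    rw [mem_closure_iff]
    intro O hO hxO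
    obtain ⟨y, hy⟩ := hVirr.isPreirreducible O U hO hU ⟨x, hx, hxO⟩
      (by obtain ⟨z, hz⟩ := hUV; exact ⟨z, hz.2, hz.1⟩)
    exact ⟨y, hy.2.1, hy.2.2, hy.1⟩
  have huniv : closure (U ∩ V) = Set.univ := by
    apply Set.eq_univ_of_univ_subset
    rw [← hcov]
    exact Set.union_subset hUsub hVsub
  rw [huniv] at hWcl
  have h1 : PreirreducibleSpace X := ⟨hWcl.isPreirreducible⟩
  have h2 : Nonempty X := ⟨hWcl.nonempty.some⟩
  exact { toPreirreducibleSpace := h1, toNonempty := h2 }


variable (N : ℕ) [NeZero N] (ℓ : ℕ) [Fact ℓ.Prime]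

set_option quotPrecheck false in
local notation "ℤℓ" => ↥(GaloisRep.ratLocalizedAt ℓ)

/-- The two-chart open cover of the Igusa scheme. -/
def igusaTwoCover : (ModularCurve.IgusaScheme N ℓ).OpenCover :=
  Scheme.Cover.mkOfCovers Bool (fun b => if b then XFin N ℓ else XInf N ℓ)
    (fun b => match b with
      | true => ιFin N ℓ
      | false => ιInf N ℓ)
    (fun x => by
      rcases mem_range_ιFin_or_mem_range_ιInf N ℓ x with ⟨y, hy⟩ | ⟨y, hy⟩
      · exact ⟨true, y, hy⟩
      · exact ⟨false, y, hy⟩)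
    (fun b => by
      cases b
      · exact isOpenImmersion_ιInf N ℓ
      · exact isOpenImmersion_ιFin N ℓ)


/-- The structure morphism `Spec K ⟶ Spec ℤ_(ℓ)`. -/
abbrev baseK (K : Type) [Field K] [Algebra (GaloisRep.ratLocalizedAt ℓ) K] :
    Spec (CommRingCat.of K) ⟶ Spec (CommRingCat.of (GaloisRep.ratLocalizedAt ℓ)) :=
  Spec.map (CommRingCat.ofHom (algebraMap (GaloisRep.ratLocalizedAt ℓ) K))

/-- If `A ⊗ K` is a domain, the pullback of `Spec A → Spec ℤ_(ℓ) ← Spec K` is integral. -/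
theorem isIntegral_pullback_spec (K : Type) [Field K] [Algebra (GaloisRep.ratLocalizedAt ℓ) K]
    (A : Type) [CommRing A] [Algebra (GaloisRep.ratLocalizedAt ℓ) A]
    [IsDomain (A ⊗[GaloisRep.ratLocalizedAt ℓ] K)] :
    IsIntegral (pullback (Spec.map (CommRingCat.ofHom (algebraMap (GaloisRep.ratLocalizedAt ℓ) A)))
      (baseK ℓ K)) :=
  IsIntegral.of_isIso (pullbackSpecIso (GaloisRep.ratLocalizedAt ℓ) A K).inv

theorem nonempty_pullback_spec (K : Type) [Field K] [Algebra (GaloisRep.ratLocalizedAt ℓ) K]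
    (A : Type) [CommRing A] [Algebra (GaloisRep.ratLocalizedAt ℓ) A]
    [Nontrivial (A ⊗[GaloisRep.ratLocalizedAt ℓ] K)] :
    Nonempty ↑(pullback (Spec.map (CommRingCat.ofHom (algebraMap (GaloisRep.ratLocalizedAt ℓ) A)))
      (baseK ℓ K)) := by
  obtain ⟨x⟩ : Nonempty ↑(Spec (CommRingCat.of (A ⊗[GaloisRep.ratLocalizedAt ℓ] K))) :=
    inferInstance
  exact ⟨(pullbackSpecIso (GaloisRep.ratLocalizedAt ℓ) A K).inv.base x⟩


/-- **Brick S**: the base change of the Igusa scheme to `K` is integral as soon as the base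
changes of the two charts are domains and that of the middle chart is nontrivial. -/
theorem isIntegral_pullback_igusaTo_of_charts
    (K : Type) [Field K] [Algebra (GaloisRep.ratLocalizedAt ℓ) K]
    [IsDomain (↥(chartAlgFin N ℓ) ⊗[GaloisRep.ratLocalizedAt ℓ] K)]
    [IsDomain (↥(chartAlgInf N ℓ) ⊗[GaloisRep.ratLocalizedAt ℓ] K)]
    [Nontrivial (↥(chartAlgMid N ℓ) ⊗[GaloisRep.ratLocalizedAt ℓ] K)] :
    IsIntegral ↑(pullback (igusaTo N ℓ) (baseK ℓ K)) := by
  set g := baseK ℓ K with hg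
  let 𝒱 := Scheme.Pullback.openCoverOfLeft (igusaTwoCover N ℓ) (igusaTo N ℓ) g
  -- the two pieces are integral
  have hT : IsIntegral (pullback (ιFin N ℓ ≫ igusaTo N ℓ) g) := by
    rw [ιFin_igusaTo]
    exact isIntegral_pullback_spec ℓ K ↥(chartAlgFin N ℓ)
  have hF : IsIntegral (pullback (ιInf N ℓ ≫ igusaTo N ℓ) g) := by
    rw [ιInf_igusaTo]
    exact isIntegral_pullback_spec ℓ K ↥(chartAlgInf N ℓ)
  have hpiece : ∀ b : Bool, IsIntegral (𝒱.X b) := by
    intro b
    cases b
    · exact hF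
    · exact hT
  -- reducedness
  have hred : ∀ b : Bool, IsReduced (𝒱.X b) := fun b => by
    have := hpiece b
    infer_instance
  have hR : IsReduced (pullback (igusaTo N ℓ) g) := @IsReduced.of_openCover _ 𝒱 hred
  -- irreducibility
  have hirr : ∀ b : Bool, IsIrreducible (Set.range (𝒱.f b).base) := fun b => by
    have := hpiece b
    rw [← Set.image_univ]
    exact (IrreducibleSpace.isIrreducible_univ _).image _ (𝒱.f b).base.hom.continuous.continuousOn
  have hopen : ∀ b : Bool, IsOpen (Set.range (𝒱.f b).base) := fun b =>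
    (𝒱.map_prop b).base_open.isOpen_range
  have hcov : Set.range (𝒱.f true).base ∪ Set.range (𝒱.f false).base = Set.univ := by
    apply Set.eq_univ_of_forall
    intro x
    obtain ⟨b, y, hy⟩ := 𝒱.exists_eq x
    cases b
    · exact Or.inr ⟨y, hy⟩
    · exact Or.inl ⟨y, hy⟩
  -- the middle chart gives a point in the intersection
  have hmid : (fFin N ℓ ≫ ιFin N ℓ) ≫ igusaTo N ℓ =
      Spec.map (CommRingCat.ofHom (algebraMap (GaloisRep.ratLocalizedAt ℓ) ↥(chartAlgMid N ℓ))) := by
    rw [Category.assoc, ιFin_igusaTo, ← Spec.map_comp, ← CommRingCat.ofHom_comp]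
    congr 2
  have hne : Nonempty ↑(pullback ((fFin N ℓ ≫ ιFin N ℓ) ≫ igusaTo N ℓ) g) := by
    rw [hmid]
    exact nonempty_pullback_spec ℓ K ↥(chartAlgMid N ℓ)
  obtain ⟨x⟩ := hne
  let mT : pullback ((fFin N ℓ ≫ ιFin N ℓ) ≫ igusaTo N ℓ) g ⟶ pullback (ιFin N ℓ ≫ igusaTo N ℓ) g :=
    pullback.map _ _ _ _ (fFin N ℓ) (𝟙 _) (𝟙 _) (by simp) (by rw [Category.comp_id, Category.id_comp])
  let mF : pullback ((fFin N ℓ ≫ ιFin N ℓ) ≫ igusaTo N ℓ) g ⟶ pullback (ιInf N ℓ ≫ igusaTo N ℓ) g :=
    pullback.map _ _ _ _ (fInf N ℓ) (𝟙 _) (𝟙 _)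
      (by rw [Category.comp_id, ← Category.assoc, glue_condition]) (by simp)
  have e1 : 𝒱.f true = pullback.map (ιFin N ℓ ≫ igusaTo N ℓ) g (igusaTo N ℓ) g (ιFin N ℓ)
      (𝟙 _) (𝟙 _) (by simp) (by simp) := rfl
  have e2 : 𝒱.f false = pullback.map (ιInf N ℓ ≫ igusaTo N ℓ) g (igusaTo N ℓ) g (ιInf N ℓ)
      (𝟙 _) (𝟙 _) (by simp) (by simp) := rfl
  have hcomp : mT ≫ 𝒱.f true = mF ≫ 𝒱.f false := by
    rw [e1, e2]
    apply pullback.hom_ext
    · simp only [mT, mF, Category.assoc, pullback.lift_fst, pullback.lift_fst_assoc]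
      rw [glue_condition]
    · simp only [mT, mF, Category.assoc, pullback.lift_snd, pullback.lift_snd_assoc]
  have hx : (𝒱.f true).base (mT.base x) = (𝒱.f false).base (mF.base x) := by
    have h1 := Scheme.Hom.comp_apply mT (𝒱.f true) x
    have h2 := Scheme.Hom.comp_apply mF (𝒱.f false) x
    exact h1.symm.trans ((congrArg (fun φ => φ x) hcomp).trans h2)
  have hUV : (Set.range (𝒱.f true).base ∩ Set.range (𝒱.f false).base).Nonempty :=
    ⟨_, ⟨mT.base x, rfl⟩, ⟨mF.base x, hx.symm⟩⟩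
  have hI : IrreducibleSpace ↑(pullback (igusaTo N ℓ) g) :=
    irreducibleSpace_of_two_opens _ _ (hopen true) (hopen false) (hirr true) (hirr false) hUV hcov
  exact isIntegral_of_irreducibleSpace_of_isReduced _

end Fermat.Agent.S28lib
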