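import Mathlib
import Fermat.Prelude.Def_ModularCurve_LaurentCoeff
import Fermat.Prelude.Def_GaloisRep_Flat

/-!
# S28, brick V3: a ring hom `B →+* 𝔽_ℓ((q))` with kernel `(ℓ)` makes `B ⊗[ℤ_(ℓ)] K` a domain

Pure commutative algebra.  `GaloisRep.ratLocalizedAt ℓ` is the subring of `ℚ` of
fractions with denominator prime to `ℓ`.
-/

set_option autoImplicit false

noncomputable section

open TensorProduct HahnSeries ModularCurve

namespace Fermat.Agent.S28lib

section RatLoc

variable (ℓ : ℕ)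

/-- Ring homs out of `ℤ_(ℓ)` are unique. -/
theorem ratLocalizedAt_ringHom_ext {R : Type*} [Ring R]
    (f g : ↥(GaloisRep.ratLocalizedAt ℓ) →+* R) : f = g := by
  ext a
  -- `a = num / den`, with `den` invertible in `ℤ_(ℓ)`
  obtain ⟨q, hq⟩ := a
  have hden : (q.den : ℚ) ≠ 0 := by exact_mod_cast q.den_nz
  have hinvmem : ((q.den : ℚ))⁻¹ ∈ GaloisRep.ratLocalizedAt ℓ := by
    show (((q.den : ℚ))⁻¹).den.Coprime ℓ
    have h1 : ((q.den : ℚ))⁻¹.den = q.den := by
      have : ((q.den : ℚ))⁻¹ = Rat.divInt 1 (q.den : ℤ) := by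
        rw [Rat.divInt_eq_div]; simp
      rw [this, Rat.den_divInt]
      simp [q.den_nz]
    rw [h1]; exact hq
  set dinv : ↥(GaloisRep.ratLocalizedAt ℓ) := ⟨((q.den : ℚ))⁻¹, hinvmem⟩ with hdinv
  have hdd : (q.den : ↥(GaloisRep.ratLocalizedAt ℓ)) * dinv = 1 := by
    apply Subtype.ext
    simp [hdinv, hden]
  have hqa : (⟨q, hq⟩ : ↥(GaloisRep.ratLocalizedAt ℓ)) =
      (q.num : ↥(GaloisRep.ratLocalizedAt ℓ)) * dinv := by
    apply Subtype.ext
    simp only [hdinv, Subring.coe_mul, Subring.coe_intCast]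
    rw [← div_eq_mul_inv, Rat.num_div_den]
  -- both `f` and `g` send `dinv` to the inverse of `den`
  have key : ∀ h : ↥(GaloisRep.ratLocalizedAt ℓ) →+* R,
      h dinv * (q.den : R) = 1 ∧ (q.den : R) * h dinv = 1 := by
    intro h
    constructor
    · have := congrArg h hdd
      rw [map_mul, map_natCast, map_one] at this
      rw [← this]
      exact (Nat.cast_commute q.den (h dinv)).symm.eq
    · have := congrArg h hdd
      rwa [map_mul, map_natCast, map_one] at this
  have hfg : f dinv = g dinv := by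
    calc f dinv = f dinv * ((q.den : R) * g dinv) := by rw [(key g).2, mul_one]
      _ = (f dinv * (q.den : R)) * g dinv := by rw [mul_assoc]
      _ = g dinv := by rw [(key f).1, one_mul]
  rw [hqa, map_mul, map_mul, map_intCast, map_intCast, hfg]

end RatLoc

section Main

variable {ℓ : ℕ} [hℓ : Fact ℓ.Prime]


variable {B : Type} [CommRing B] [Algebra ↥(GaloisRep.ratLocalizedAt ℓ) B]
variable (K : Type) [Field K] [Algebra ↥(GaloisRep.ratLocalizedAt ℓ) K] [CharP K ℓ]

/-- the `ℤ_(ℓ)`-algebra structure on `K((q))` through the constants. -/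
@[reducible] def laurentAlgebra : Algebra ↥(GaloisRep.ratLocalizedAt ℓ) (LaurentSeries K) :=
  ((HahnSeries.C : K →+* LaurentSeries K).comp (algebraMap ↥(GaloisRep.ratLocalizedAt ℓ) K)).toAlgebra

/-- the canonical map `𝔽_ℓ → K`. -/
def zmodToField : ZMod ℓ →+* K := ZMod.castHom (dvd_refl ℓ) K

variable {K}

/-- The ring hom `B ⊗[ℤ_(ℓ)] K → K((q))` induced by `φ : B → 𝔽_ℓ((q))`. -/
def tensorToLaurent (φ : B →+* LaurentSeries (ZMod ℓ)) :
    B ⊗[↥(GaloisRep.ratLocalizedAt ℓ)] K →+* LaurentSeries K :=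
  letI := laurentAlgebra (ℓ := ℓ) K
  let f₁ : B →ₐ[↥(GaloisRep.ratLocalizedAt ℓ)] LaurentSeries K :=
    { ((coeffMap (zmodToField (ℓ := ℓ) K)).comp φ) with
      commutes' := fun a => by
        have h := ratLocalizedAt_ringHom_ext ℓ
          ((((coeffMap (zmodToField (ℓ := ℓ) K)).comp φ)).comp (algebraMap ↥(GaloisRep.ratLocalizedAt ℓ) B))
          ((HahnSeries.C : K →+* LaurentSeries K).comp (algebraMap ↥(GaloisRep.ratLocalizedAt ℓ) K))
        exact RingHom.congr_fun h a }
  let f₂ : K →ₐ[↥(GaloisRep.ratLocalizedAt ℓ)] LaurentSeries K :=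
    { (HahnSeries.C : K →+* LaurentSeries K) with
      commutes' := fun _ => rfl }
  (Algebra.TensorProduct.productMap f₁ f₂).toRingHom

theorem tensorToLaurent_tmul (φ : B →+* LaurentSeries (ZMod ℓ)) (b : B) (c : K) :
    tensorToLaurent (K := K) φ (b ⊗ₜ[↥(GaloisRep.ratLocalizedAt ℓ)] c) =
      coeffMap (zmodToField (ℓ := ℓ) K) (φ b) * HahnSeries.C c := by
  simp [tensorToLaurent, Algebra.TensorProduct.productMap_apply_tmul]

theorem tensorToLaurent_tmul_coeff (φ : B →+* LaurentSeries (ZMod ℓ)) (b : B) (c : K) (n : ℤ) :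
    (tensorToLaurent (K := K) φ (b ⊗ₜ[↥(GaloisRep.ratLocalizedAt ℓ)] c)).coeff n =
      zmodToField (ℓ := ℓ) K ((φ b).coeff n) * c := by
  rw [tensorToLaurent_tmul, HahnSeries.C_apply, HahnSeries.coeff_mul_single_zero, coeffMap_coeff]

/-- Any ring hom `B → 𝔽_ℓ((q))` shows `B ⊗ K ≠ 0`. -/
theorem nontrivial_tensor_of_ringHom (φ : B →+* LaurentSeries (ZMod ℓ)) :
    Nontrivial (B ⊗[↥(GaloisRep.ratLocalizedAt ℓ)] K) :=
  (tensorToLaurent (K := K) φ).domain_nontrivial

/-- `K` as an `𝔽_ℓ`-algebra (local instance). -/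
local instance zmodAlgebraField : Algebra (ZMod ℓ) K := ZMod.algebra K ℓ

theorem zmod_smul_eq_val_nsmul [NeZero ℓ] (a : ZMod ℓ) (c : K) : a • c = a.val • c := by
  conv_lhs => rw [← ZMod.natCast_zmod_val a]
  exact Nat.cast_smul_eq_nsmul (ZMod ℓ) a.val c

/-- every element of `B ⊗ K` is `∑ b_α ⊗ e_α` along a basis `e` of `K` over `𝔽_ℓ`. -/
theorem exists_finsupp_repr {ι : Type*} (e : Module.Basis ι (ZMod ℓ) K)
    (x : B ⊗[↥(GaloisRep.ratLocalizedAt ℓ)] K) :
    ∃ g : ι →₀ B, x = g.sum (fun α b => b ⊗ₜ[↥(GaloisRep.ratLocalizedAt ℓ)] e α) := by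
  classical
  have : NeZero ℓ := ⟨hℓ.out.ne_zero⟩
  induction x using TensorProduct.induction_on with
  | zero => exact ⟨0, by simp⟩
  | tmul b c =>
    refine ⟨(e.repr c).mapRange (fun a : ZMod ℓ => a.val • b) (by simp), ?_⟩
    rw [Finsupp.sum_mapRange_index (fun α => by simp)]
    have hc : c = (e.repr c).sum (fun α a => a.val • e α) := by
      conv_lhs => rw [← e.linearCombination_repr c, Finsupp.linearCombination_apply]
      refine Finsupp.sum_congr fun α _ => ?_
      exact zmod_smul_eq_val_nsmul _ _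
    conv_lhs => rw [hc]
    rw [Finsupp.sum, TensorProduct.tmul_sum, Finsupp.sum]
    refine Finset.sum_congr rfl fun α _ => ?_
    rw [← Nat.cast_smul_eq_nsmul (↥(GaloisRep.ratLocalizedAt ℓ)) _ (e α),
      ← Nat.cast_smul_eq_nsmul (↥(GaloisRep.ratLocalizedAt ℓ)) _ b, TensorProduct.smul_tmul]
  | add x y hx hy =>
    obtain ⟨g₁, rfl⟩ := hx
    obtain ⟨g₂, rfl⟩ := hy
    refine ⟨g₁ + g₂, ?_⟩
    rw [Finsupp.sum_add_index']
    · intro α; simp
    · intro α b₁ b₂; rw [TensorProduct.add_tmul]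

/-- **Injectivity**: if `ker φ = (ℓ)` then `B ⊗ K → K((q))` is injective. -/
theorem tensorToLaurent_injective (φ : B →+* LaurentSeries (ZMod ℓ))
    (hker : RingHom.ker φ = Ideal.span {((ℓ : ℕ) : B)}) :
    Function.Injective (tensorToLaurent (K := K) φ) := by
  classical
  rw [injective_iff_map_eq_zero]
  intro x hx
  set e := Module.Basis.ofVectorSpace (ZMod ℓ) K with he
  obtain ⟨g, rfl⟩ := exists_finsupp_repr e x
  -- each `φ (g α)` vanishes
  have hzero : ∀ α, φ (g α) = 0 := by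
    intro α
    ext n
    have hn := congrArg (fun y : LaurentSeries K => y.coeff n) hx
    simp only [Finsupp.sum, map_sum, HahnSeries.coeff_sum, HahnSeries.coeff_zero,
      tensorToLaurent_tmul_coeff] at hn
    -- linear independence of the basis
    have hli := e.linearIndependent
    rw [linearIndependent_iff'] at hli
    have h2 := hli g.support (fun β => (φ (g β)).coeff n) (by
      rw [← hn]
      refine Finset.sum_congr rfl fun β _ => ?_
      rw [Algebra.smul_def]; rfl)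
    by_cases hα : α ∈ g.support
    · simpa using h2 α hα
    · rw [Finsupp.notMem_support_iff] at hα
      simp [hα]
  -- hence every `g α` is a multiple of `ℓ` and every summand dies
  rw [Finsupp.sum]
  refine Finset.sum_eq_zero fun α _ => ?_
  have hmem : g α ∈ Ideal.span {((ℓ : ℕ) : B)} := by
    rw [← hker, RingHom.mem_ker]; exact hzero α
  obtain ⟨b', hb'⟩ := Ideal.mem_span_singleton'.mp hmem
  rw [← hb', mul_comm, ← nsmul_eq_mul,
    ← Nat.cast_smul_eq_nsmul (↥(GaloisRep.ratLocalizedAt ℓ)) ℓ b', TensorProduct.smul_tmul,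
    Nat.cast_smul_eq_nsmul, nsmul_eq_mul, CharP.cast_eq_zero K ℓ, zero_mul, TensorProduct.tmul_zero]

/-- **V3, main statement.** A ring hom `φ : B →+* 𝔽_ℓ((q))` with kernel `(ℓ)` makes
`B ⊗[ℤ_(ℓ)] K` a domain, for every field `K` of characteristic `ℓ`. -/
theorem isDomain_tensor_of_ringHom (φ : B →+* LaurentSeries (ZMod ℓ))
    (hker : RingHom.ker φ = Ideal.span {((ℓ : ℕ) : B)}) :
    IsDomain (B ⊗[↥(GaloisRep.ratLocalizedAt ℓ)] K) :=
  (tensorToLaurent_injective (K := K) φ hker).isDomain (tensorToLaurent (K := K) φ)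

end Main

end Fermat.Agent.S28lib
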