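/-
S28 (Igusa): the assembly.  `isIntegral_of_bricks` derives the statement of S28 from the bricks
A (modular polynomials, integrality of `j(q^d)`), B (integrality of the modular unit),
T (the modular unit is a rational function of `j(q), j(q^p)`), C (independent monomials over an
algebraically closed field of characteristic `ℓ`), V (reduction maps on the charts), each taken
as a hypothesis in the exact shape announced to its owner; D1 (`Degree0`), V3 (`TensorDomain`),
the residue field and the scheme wrapper S are used directly.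
-/
import Mathlib
import Fermat.Agent.S28lib.Defs
import Fermat.Agent.S28lib.Series
import Fermat.Agent.S28lib.SchemeWrap
import Fermat.Agent.S28lib.TensorDomain
import Fermat.Agent.S28lib.Degree0
import Fermat.Agent.S28lib.ResidueField

set_option autoImplicit false
open AlgebraicGeometry CategoryTheory CategoryTheory.Limits ModularCurve ModularCurve.IgusaScheme
noncomputable section
open Fermat.Agent.S28lib
open scoped TensorProduct

namespace Fermat.Agent.S28lib

/-- transfer of independence from a field `k` of characteristic `ℓ` to `ZMod ℓ` -/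
theorem indep_zmod_of_indep (ℓ : ℕ) [Fact ℓ.Prime] (k : Type) [Field k] [CharP k ℓ]
    {n : ℕ} (x : Fin n → MvPolynomial ℕ ℤ)
    (hind : ∀ P : Fin n → Polynomial k,
      ∑ i, evalJ k (jqModC k) (P i) * evalDiv k (x i) = 0 → ∀ i, P i = 0) :
    ∀ P : Fin n → Polynomial (ZMod ℓ),
      ∑ i, evalJ (ZMod ℓ) (jqModC (ZMod ℓ)) (P i) * evalDiv (ZMod ℓ) (x i) = 0 → ∀ i, P i = 0 := by
  intro P hP i
  have h1 := congrArg (coeffMap (ZMod.castHom (dvd_refl ℓ) k)) hP
  rw [map_sum, map_zero] at h1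
  have h2 : ∑ i, evalJ k (jqModC k) ((P i).map (ZMod.castHom (dvd_refl ℓ) k)) * evalDiv k (x i) = 0 := by
    rw [← h1]
    refine Finset.sum_congr rfl fun i _ => ?_
    rw [map_mul, coeffMap_evalDiv, coeffMap_evalJ, coeffMap_jqModC]
  have h3 := hind _ h2 i
  exact (Polynomial.map_eq_zero_iff (ZMod.castHom (dvd_refl ℓ) k).injective).mp h3

theorem natCast_ne_zero_of_not_dvd (ℓ : ℕ) (k : Type) [Field k] [CharP k ℓ] {n : ℕ}
    (h : ¬ ℓ ∣ n) : (n : k) ≠ 0 := by
  intro h0
  exact h ((CharP.cast_eq_zero_iff k ℓ n).mp h0)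

/-- The assembly of S28 from its bricks (all bricks as hypotheses). -/
theorem isIntegral_of_bricks
    (N : ℕ) [NeZero N] (ℓ : ℕ) [Fact ℓ.Prime] (hℓN : ¬ ℓ ∣ N)
    (K : Type) [Field K] [CharP K ℓ] [Algebra ↥(GaloisRep.ratLocalizedAt ℓ) K]
    -- brick A (helper8)
    (brickPhi : ∀ (p : ℕ) [Fact p.Prime] {k : Type} [Field k] (_ : integralClosure ℤ ℂ →+* k),
      (p : k) ≠ 0 → ModPolyData k p)
    (brickInt : ∀ d, d ∣ N → IsIntegral (Algebra.adjoin ℤ {jqModC ℚ}) (jAt ℚ d))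
    -- brick B (helper9)
    (brickPsi : ∀ (p : ℕ) [Fact p.Prime] {k : Type} [Field k] (_ : integralClosure ℤ ℂ →+* k),
      (p : k) ≠ 0 → ∃ Ψ : Polynomial (Polynomial k), Ψ.Monic ∧
        Ψ.eval₂ (evalJ k (jqModC k)) (nuQ k p) = 0)
    -- brick T (helper6)
    (brickTheta : ∀ (p : ℕ) [NeZero p] {k : Type} [Field k], (p : k) ≠ 0 → ModPolyData k p →
      ∃ A B : Polynomial (Polynomial k),
        B.eval₂ (evalJ k (jqModC k)) (qExpand k p (jqModC k)) ≠ 0 ∧
        nuQ k p * B.eval₂ (evalJ k (jqModC k)) (qExpand k p (jqModC k)) =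
          A.eval₂ (evalJ k (jqModC k)) (qExpand k p (jqModC k)))
    -- brick C (helper3 + helper2)
    (brickChain : ∀ (k : Type) [Field k] [IsAlgClosed k] (N : ℕ) [NeZero N], (N : k) ≠ 0 →
      (∀ (p : ℕ) [NeZero p], p.Prime → p ∣ N → ModPolyData k p) →
      (∀ (p : ℕ) [NeZero p], p.Prime → p ∣ N → UnitData k p) →
      ∃ x : Fin (dedekindPsi N) → MvPolynomial ℕ ℤ, (∀ i, ∀ d ∈ (x i).vars, d ∣ N) ∧
        ∀ P : Fin (dedekindPsi N) → Polynomial k,
          ∑ i, evalJ k (jqModC k) (P i) * evalDiv k (x i) = 0 → ∀ i, P i = 0)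
    -- brick V (helper5)
    (brickRed : ∀ (x : Fin (dedekindPsi N) → MvPolynomial ℕ ℤ), (∀ i, ∀ d ∈ (x i).vars, d ∣ N) →
      (∀ P : Fin (dedekindPsi N) → Polynomial (ZMod ℓ),
        ∑ i, evalJ (ZMod ℓ) (jqModC (ZMod ℓ)) (P i) * evalDiv (ZMod ℓ) (x i) = 0 → ∀ i, P i = 0) →
      (∀ y : Fin (dedekindPsi N + 1) → LaurentSeries ℚ, (∀ i, y i ∈ modularFunctionFieldFull N) →
        ∃ P : Fin (dedekindPsi N + 1) → Polynomial ℚ, P ≠ 0 ∧
          ∑ i, evalJ ℚ (jqModC ℚ) (P i) * y i = 0) →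
      (∀ d, d ∣ N → IsIntegral (Algebra.adjoin ℤ {jqModC ℚ}) (jAt ℚ d)) →
      ∀ (S : Set ↥(modularFunctionFieldFull N)), S ⊆ {jFull N, (jFull N)⁻¹} →
        ∃ φ : ↥(chartAlg N ℓ S) →+* LaurentSeries (ZMod ℓ),
          (S = {jFull N} ∨ S = {(jFull N)⁻¹}) →
            RingHom.ker φ = Ideal.span {((ℓ : ℕ) : ↥(chartAlg N ℓ S))}) :
    IsIntegral ↑(pullback (igusaTo N ℓ)
      (Spec.map (CommRingCat.ofHom (algebraMap ↥(GaloisRep.ratLocalizedAt ℓ) K)))) := by
  classical
  obtain ⟨k, hk1, hk2, hk3, ⟨ι⟩⟩ := exists_residue_field ℓ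
  have hNk : (N : k) ≠ 0 := natCast_ne_zero_of_not_dvd ℓ k hℓN
  have hpk : ∀ p : ℕ, p ∣ N → (p : k) ≠ 0 := fun p hp =>
    natCast_ne_zero_of_not_dvd ℓ k (fun h => hℓN (h.trans hp))
  -- modular polynomials
  have hΦ : ∀ (p : ℕ) [NeZero p], p.Prime → p ∣ N → ModPolyData k p := by
    intro p _ hp hpN
    haveI : Fact p.Prime := ⟨hp⟩
    exact brickPhi p ι (hpk p hpN)
  -- unit data
  have hU : ∀ (p : ℕ) [NeZero p], p.Prime → p ∣ N → UnitData k p := by
    intro p _ hp hpN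
    haveI : Fact p.Prime := ⟨hp⟩
    have h1 := brickPsi p ι (hpk p hpN)
    have h2 := brickTheta p (hpk p hpN) (hΦ p hp hpN)
    exact
      { Ψ := h1.choose
        monic := h1.choose_spec.1
        root := h1.choose_spec.2
        A := h2.choose
        B := h2.choose_spec.choose
        den_ne := h2.choose_spec.choose_spec.1
        expr := h2.choose_spec.choose_spec.2 }
  obtain ⟨x, hx, hind⟩ := brickChain k N hNk hΦ hU
  have hindℓ := indep_zmod_of_indep ℓ k x hind
  have hD := exists_poly_relation N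
  have key := brickRed x hx hindℓ hD brickInt
  -- the three charts
  obtain ⟨φFin, hFin⟩ := key {jFull N} (by intro y hy; left; exact hy)
  obtain ⟨φInf, hInf⟩ := key {(jFull N)⁻¹} (by intro y hy; right; exact hy)
  obtain ⟨φMid, -⟩ := key {jFull N, (jFull N)⁻¹} (le_refl _)
  have : IsDomain (↥(chartAlgFin N ℓ) ⊗[↥(GaloisRep.ratLocalizedAt ℓ)] K) :=
    isDomain_tensor_of_ringHom (K := K) φFin (hFin (Or.inl rfl))
  have : IsDomain (↥(chartAlgInf N ℓ) ⊗[↥(GaloisRep.ratLocalizedAt ℓ)] K) :=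
    isDomain_tensor_of_ringHom (K := K) φInf (hInf (Or.inr rfl))
  have : Nontrivial (↥(chartAlgMid N ℓ) ⊗[↥(GaloisRep.ratLocalizedAt ℓ)] K) :=
    nontrivial_tensor_of_ringHom (K := K) φMid
  exact isIntegral_pullback_igusaTo_of_charts N ℓ K

end Fermat.Agent.S28lib
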