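/-
S28 (Igusa), brick `brickInt`: `j(q^d)` is integral over `ℤ[j(q)]` inside `ℚ((q))`, for every `d`,
given (as a hypothesis, discharged by brick A) a monic modular polynomial of each prime level with
algebraic-integer coefficients over `ℂ`.
-/
import Mathlib
import Fermat.Agent.S28lib.Defs
import Fermat.Agent.S28lib.Series

set_option autoImplicit false

noncomputable section

namespace Fermat.Agent.S28lib

open ModularCurve HahnSeries Polynomial

section Generic

variable {L : Type*} [CommRing L] [Algebra ℤ L]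

omit [Algebra ℤ L] in
/-- A root of a monic polynomial whose coefficients are integral over `R` is integral over `R`. -/
theorem isIntegral_of_monic_of_coeff_isIntegral {R : Type*} [CommRing R] [Algebra R L]
    (P : Polynomial L) (hP : P.Monic) (hc : ∀ i, IsIntegral R (P.coeff i)) {x : L}
    (hx : P.eval x = 0) : IsIntegral R x := by
  have hsub : (↑P.coeffs : Set L) ⊆ (integralClosure R L).toSubring := by
    intro c hc'
    obtain ⟨i, -, rfl⟩ := Polynomial.mem_coeffs_iff.mp hc'
    exact hc i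
  have hint : IsIntegral (integralClosure R L) x := by
    refine ⟨P.toSubring (integralClosure R L).toSubring hsub, ?_, ?_⟩
    · exact (Polynomial.monic_toSubring _ _ _).mpr hP
    · have h := Polynomial.map_toSubring P (integralClosure R L).toSubring hsub
      rw [← Polynomial.eval_map]
      have h' : (P.toSubring (integralClosure R L).toSubring _).map
          (algebraMap (integralClosure R L) L) = P := h
      rw [h']
      exact hx
  exact isIntegral_trans (A := integralClosure R L) x hint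

/-- The ring homomorphism `ℤ[Y] → L`, `Y ↦ y` (stated without reference to any `ℤ`-algebra
structure on `L`). -/
def evalZ (y : L) : Polynomial ℤ →+* L := Polynomial.eval₂RingHom (Int.castRingHom L) y

omit [Algebra ℤ L] in
@[simp] theorem evalZ_X (y : L) : evalZ y Polynomial.X = y := by simp [evalZ]

omit [Algebra ℤ L] in
@[simp] theorem evalZ_C (y : L) (a : ℤ) : evalZ y (Polynomial.C a) = (a : L) := by simp [evalZ]

theorem evalZ_eq_aeval (y : L) (q : Polynomial ℤ) : evalZ y q = Polynomial.aeval y q := by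
  rw [Polynomial.aeval_def]
  have h : algebraMap ℤ L = Int.castRingHom L := RingHom.ext_int _ _
  rw [h]
  rfl

theorem evalZ_mem_adjoin (y : L) (q : Polynomial ℤ) : evalZ y q ∈ Algebra.adjoin ℤ {y} := by
  rw [evalZ_eq_aeval]
  exact Polynomial.aeval_mem_adjoin_singleton ℤ y

omit [Algebra ℤ L] in
theorem map_evalZ {L' : Type*} [CommRing L'] (g : L →+* L') (y : L) (q : Polynomial ℤ) :
    g (evalZ y q) = evalZ (g y) q := by
  have h : g.comp (evalZ y) = evalZ (g y) := by
    apply Polynomial.ringHom_ext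
    · intro a; simp
    · simp
  exact congrFun (congrArg DFunLike.coe h) q

/-- Explicit criterion for integrality over `ℤ[y]`. -/
theorem isIntegral_adjoin_singleton_of_poly (y x : L) (Ψ : Polynomial (Polynomial ℤ))
    (hΨ : Ψ.Monic) (h : Ψ.eval₂ (evalZ y) x = 0) :
    IsIntegral (Algebra.adjoin ℤ {y}) x := by
  refine isIntegral_of_monic_of_coeff_isIntegral (Ψ.map (evalZ y)) (hΨ.map _) ?_ ?_
  · intro i
    rw [Polynomial.coeff_map]
    exact isIntegral_algebraMap
      (x := (⟨evalZ y (Ψ.coeff i), evalZ_mem_adjoin y _⟩ : Algebra.adjoin ℤ {y}))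
  · rw [Polynomial.eval_map]; exact h

/-- Converse: integrality over `ℤ[y]` is witnessed by a monic polynomial over `ℤ[Y]`. -/
theorem exists_poly_of_isIntegral_adjoin_singleton (y x : L)
    (h : IsIntegral (Algebra.adjoin ℤ {y}) x) :
    ∃ Ψ : Polynomial (Polynomial ℤ), Ψ.Monic ∧ Ψ.eval₂ (evalZ y) x = 0 := by
  obtain ⟨p, hp, hpx⟩ := h
  let π : Polynomial ℤ →+* Algebra.adjoin ℤ {y} :=
    (evalZ y).codRestrict (Algebra.adjoin ℤ {y}).toSubring (fun q => evalZ_mem_adjoin y q)
  have hπ : Function.Surjective π := by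
    rintro ⟨c, hc⟩
    rw [Algebra.adjoin_singleton_eq_range_aeval] at hc
    obtain ⟨q, hq⟩ := hc
    exact ⟨q, Subtype.ext ((evalZ_eq_aeval y q).trans hq)⟩
  obtain ⟨q, hq⟩ := Polynomial.map_surjective π hπ p
  obtain ⟨Ψ, hΨ1, -, hΨ2⟩ :=
    Polynomial.lifts_and_natDegree_eq_and_monic ((Polynomial.mem_lifts p).mpr ⟨q, hq⟩) hp
  refine ⟨Ψ, hΨ2, ?_⟩
  have hcomp : (algebraMap (Algebra.adjoin ℤ {y}) L).comp π = evalZ y := by
    ext q <;> rfl
  rw [← hcomp, ← Polynomial.eval₂_map, hΨ1]
  exact hpx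

/-- Integrality over `ℤ[y]` is transported by ring homomorphisms. -/
theorem isIntegral_adjoin_singleton_map {L' : Type*} [CommRing L'] [Algebra ℤ L']
    (g : L →+* L') {y x : L}
    (h : IsIntegral (Algebra.adjoin ℤ {y}) x) : IsIntegral (Algebra.adjoin ℤ {g y}) (g x) := by
  obtain ⟨Ψ, hΨ, hx⟩ := exists_poly_of_isIntegral_adjoin_singleton y x h
  refine isIntegral_adjoin_singleton_of_poly (g y) (g x) Ψ hΨ ?_
  have h1 := congrArg g hx
  rw [Polynomial.hom_eval₂, map_zero] at h1
  have hcomp : g.comp (evalZ y) = evalZ (g y) := RingHom.ext fun q => map_evalZ g y q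
  rw [← hcomp]; exact h1

/-- Integrality over `ℤ[y]` descends along injective ring homomorphisms. -/
theorem isIntegral_adjoin_singleton_of_map {L' : Type*} [CommRing L'] [Algebra ℤ L']
    (g : L →+* L') (hg : Function.Injective g) {y x : L}
    (h : IsIntegral (Algebra.adjoin ℤ {g y}) (g x)) : IsIntegral (Algebra.adjoin ℤ {y}) x := by
  obtain ⟨Ψ, hΨ, hx⟩ := exists_poly_of_isIntegral_adjoin_singleton (g y) (g x) h
  refine isIntegral_adjoin_singleton_of_poly y x Ψ hΨ ?_
  apply hg
  have hcomp : g.comp (evalZ y) = evalZ (g y) := RingHom.ext fun q => map_evalZ g y q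
  rw [Polynomial.hom_eval₂, map_zero, hcomp]; exact hx

/-- Transitivity: `x` integral over `ℤ[y]`, `y` integral over `ℤ[z]` ⇒ `x` integral over `ℤ[z]`. -/
theorem isIntegral_adjoin_singleton_trans {x y z : L}
    (hx : IsIntegral (Algebra.adjoin ℤ {y}) x) (hy : IsIntegral (Algebra.adjoin ℤ {z}) y) :
    IsIntegral (Algebra.adjoin ℤ {z}) x := by
  obtain ⟨Ψ, hΨ, hx0⟩ := exists_poly_of_isIntegral_adjoin_singleton y x hx
  refine isIntegral_of_monic_of_coeff_isIntegral (Ψ.map (evalZ y)) (hΨ.map _) ?_ ?_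
  · intro i
    rw [Polynomial.coeff_map]
    -- a polynomial in `y` with integer coefficients is integral over `ℤ[z]`
    have hmem : ∀ q : Polynomial ℤ, evalZ y q ∈ (integralClosure (Algebra.adjoin ℤ {z}) L) := by
      intro q
      induction q using Polynomial.induction_on' with
      | add p q hp hq => rw [map_add]; exact add_mem hp hq
      | monomial n a =>
        rw [← Polynomial.C_mul_X_pow_eq_monomial, map_mul, map_pow, evalZ_X]
        refine mul_mem ?_ (pow_mem hy n)
        rw [evalZ_C]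
        exact intCast_mem _ a
    exact hmem _
  · rw [Polynomial.eval_map]; exact hx0

end Generic

section Main

theorem coeffMap_injective_jint {R S : Type*} [CommRing R] [CommRing S] (f : R →+* S)
    (hf : Function.Injective f) : Function.Injective (coeffMap f) := by
  intro x y hxy
  ext n
  apply hf
  have := congrArg (fun z => z.coeff n) hxy
  simpa [coeffMap_coeff] using this

/-- Over `ℂ`: a monic modular polynomial with algebraic-integer coefficients makes `j(q^p)`
integral over `ℤ[j(q)]`. -/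
theorem isIntegral_qExpand_jqModC_complex (p : ℕ) [NeZero p] (Φ : Polynomial (Polynomial ℂ))
    (hΦ : Φ.Monic) (hint : ∀ i n, IsIntegral ℤ ((Φ.coeff i).coeff n))
    (hroot : Φ.eval₂ (evalJ ℂ (jqModC ℂ)) (qExpand ℂ p (jqModC ℂ)) = 0) :
    IsIntegral (Algebra.adjoin ℤ {jqModC ℂ}) (qExpand ℂ p (jqModC ℂ)) := by
  refine isIntegral_of_monic_of_coeff_isIntegral (Φ.map (evalJ ℂ (jqModC ℂ))) (hΦ.map _) ?_ ?_
  · intro i
    rw [Polynomial.coeff_map]
    have hj : IsIntegral (Algebra.adjoin ℤ {jqModC ℂ}) (jqModC ℂ) :=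
      isIntegral_algebraMap
        (x := (⟨jqModC ℂ, Algebra.subset_adjoin rfl⟩ : Algebra.adjoin ℤ {jqModC ℂ}))
    have hsum : evalJ ℂ (jqModC ℂ) (Φ.coeff i) =
        ∑ n ∈ Finset.range ((Φ.coeff i).natDegree + 1),
          algebraMap ℂ (LaurentSeries ℂ) ((Φ.coeff i).coeff n) * (jqModC ℂ) ^ n := by
      simp only [evalJ, AlgHom.toRingHom_eq_coe, RingHom.coe_coe]
      rw [Polynomial.aeval_eq_sum_range]
      refine Finset.sum_congr rfl fun n _ => ?_
      rw [Algebra.smul_def]
    rw [hsum]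
    refine IsIntegral.sum _ fun n _ => ?_
    refine IsIntegral.mul ?_ (hj.pow n)
    have h1 : IsIntegral ℤ (algebraMap ℂ (LaurentSeries ℂ) ((Φ.coeff i).coeff n)) :=
      (hint i n).map_of_comp_eq (RingHom.id ℤ) (algebraMap ℂ (LaurentSeries ℂ))
        (RingHom.ext_int _ _)
    exact h1.tower_top
  · rw [Polynomial.eval_map]; exact hroot

variable (hΦ : ∀ (p : ℕ) [NeZero p], p.Prime → ∃ Φ : Polynomial (Polynomial ℂ), Φ.Monic ∧
    (∀ i n, IsIntegral ℤ ((Φ.coeff i).coeff n)) ∧
    Φ.eval₂ (evalJ ℂ (jqModC ℂ)) (qExpand ℂ p (jqModC ℂ)) = 0)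

include hΦ

theorem isIntegral_jAt_prime (p : ℕ) (hp : p.Prime) :
    IsIntegral (Algebra.adjoin ℤ {jqModC ℚ}) (jAt ℚ p) := by
  have : NeZero p := ⟨hp.ne_zero⟩
  obtain ⟨Φ, h1, h2, h3⟩ := hΦ p hp
  have hC := isIntegral_qExpand_jqModC_complex p Φ h1 h2 h3
  rw [jAt_of_neZero]
  refine isIntegral_adjoin_singleton_of_map (coeffMap (algebraMap ℚ ℂ))
    (coeffMap_injective_jint _ (algebraMap ℚ ℂ).injective) ?_
  rw [coeffMap_qExpand, coeffMap_jqModC]
  exact hC

/-- **brickInt.** `j(q^d)` is integral over `ℤ[j(q)]` in `ℚ((q))`, for every `d`. -/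
theorem isIntegral_jAt_all (d : ℕ) : IsIntegral (Algebra.adjoin ℤ {jqModC ℚ}) (jAt ℚ d) := by
  induction d using Nat.recOnMul with
  | zero => simp only [jAt, dif_pos]; exact isIntegral_zero
  | one =>
    rw [jAt_of_neZero, qExpand_one_apply]
    exact isIntegral_algebraMap
      (x := (⟨jqModC ℚ, Algebra.subset_adjoin rfl⟩ : Algebra.adjoin ℤ {jqModC ℚ}))
  | prime p hp => exact isIntegral_jAt_prime hΦ p hp
  | mul a b ha hb =>
    by_cases ha0 : a = 0
    · subst ha0; rw [Nat.zero_mul]; exact ha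
    by_cases hb0 : b = 0
    · subst hb0; rw [Nat.mul_zero]; exact hb
    have : NeZero a := ⟨ha0⟩
    have : NeZero b := ⟨hb0⟩
    have : NeZero (a * b) := ⟨Nat.mul_ne_zero ha0 hb0⟩
    have h1 : jAt ℚ (a * b) = qExpand ℚ a (jAt ℚ b) := by
      rw [jAt_of_neZero, jAt_of_neZero, qExpand_qExpand]
    have h2 : IsIntegral (Algebra.adjoin ℤ {qExpand ℚ a (jqModC ℚ)}) (qExpand ℚ a (jAt ℚ b)) :=
      isIntegral_adjoin_singleton_map (qExpand ℚ a) hb
    rw [h1]
    refine isIntegral_adjoin_singleton_trans h2 ?_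
    rw [← jAt_of_neZero]
    exact ha

/-- `brickInt` in the shape used by the assembly. -/
theorem isIntegral_jAt_of_modPoly (N : ℕ) :
    ∀ d, d ∣ N → IsIntegral (Algebra.adjoin ℤ {jqModC ℚ}) (jAt ℚ d) :=
  fun d _ => isIntegral_jAt_all hΦ d

end Main

end Fermat.Agent.S28lib
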