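/-
S28 library, brick (A), part 6 (helper8): `j(q^p)` is a root of the (integral, monic) modular
polynomial `Φ_p(X, j(q))` - the input `hΦ` of `JIntegral.isIntegral_jAt_of_modPoly`.
-/
import Mathlib
import Fermat.Agent.S28lib.PhiIntegral

set_option autoImplicit false

noncomputable section

namespace Fermat.Agent.S28lib

open ModularCurve Polynomial

/-- a root of the factored modular equation, generically: if
`Φ(X, j(q^p)) = (X - j(q^{p²})) ∏ …` then `Φ(j(q^p), j(q)) = 0`. -/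
theorem eval₂_eq_zero_of_modLHS_eq {A : Type*} [CommRing A] (p : ℕ) [NeZero p] (Φ : A[X][X])
    (ζ : Aˣ) (h : modLHS A p Φ = modRHS A p ζ) :
    Φ.eval₂ (evalJ A (jqModC A)) (qExpand A p (jqModC A)) = 0 := by
  apply qExpand_injective p
  have hc : (qExpand A p).comp (evalJ A (jqModC A)) = evalJ A (qExpand A p (jqModC A)) :=
    RingHom.ext fun P => qExpand_evalJ_eq p _ P
  rw [map_zero, Polynomial.hom_eval₂, hc, Polynomial.eval₂_eq_eval_map]
  have h' : Φ.map (evalJ A (qExpand A p (jqModC A))) = modRHS A p ζ := h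
  rw [h', modRHS, Polynomial.eval_mul, Polynomial.eval_sub, Polynomial.eval_X, Polynomial.eval_C,
    sub_self, zero_mul]

theorem phiC_eval₂_eq_zero (p : ℕ) [Fact p.Prime] :
    (phiC p).eval₂ (evalJ ℂ (jqModC ℂ)) (qExpand ℂ p (jqModC ℂ)) = 0 :=
  eval₂_eq_zero_of_modLHS_eq p (phiC p) (zetaC p) (phiC_factor p)

theorem phiZ_eval₂_eq_zero (p : ℕ) [Fact p.Prime] :
    (phiZ p).eval₂ (evalJ Zb (jqModC Zb)) (qExpand Zb p (jqModC Zb)) = 0 :=
  eval₂_eq_zero_of_modLHS_eq p (phiZ p) (zetaZ p) (phiZ_factor p)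

/-- **the input `hΦ` of `isIntegral_jAt_of_modPoly`.** -/
theorem exists_modPoly_root (p : ℕ) (hp : p.Prime) :
    haveI : NeZero p := ⟨hp.ne_zero⟩
    ∃ Φ : Polynomial (Polynomial ℂ), Φ.Monic ∧ (∀ i j, IsIntegral ℤ ((Φ.coeff i).coeff j)) ∧
      Φ.eval₂ (evalJ ℂ (jqModC ℂ)) (qExpand ℂ p (jqModC ℂ)) = 0 := by
  have : Fact p.Prime := ⟨hp⟩
  exact ⟨phiC p, phiC_monic hp, fun i j => phiC_coeff_coeff_mem p i j, phiC_eval₂_eq_zero p⟩

end Fermat.Agent.S28lib
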