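/-
S28 library, brick V1 (helper7): the reduction ring.

`Red.redRing ℓ ⊆ ℚ((q))` is the subring of those `g` for which some `b ∈ ℤ[Y]` with `b mod ℓ ≠ 0`
makes `b(j) · g` a series with INTEGER coefficients; `Red.redHom ℓ : redRing ℓ →+* 𝔽_ℓ((q))` sends
`g` to `red(b(j) g) / b̄(j̄)`, computed in the FIELD `𝔽_ℓ((q))`.  Its kernel is `ℓ · redRing`.
All integer polynomial expressions in the `j(q^d)` (`evalDiv ℚ P`) and all `ℤ_(ℓ)`-constants lie in
`redRing`, with the expected images.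
-/
import Mathlib
import Fermat.Prelude.Def_ModularCurve_X0ModL
import Fermat.Agent.S28lib.Defs
import Fermat.Agent.S28lib.Series

set_option autoImplicit false

noncomputable section

namespace Fermat.Agent.S28lib.Red

open ModularCurve HahnSeries Polynomial Fermat.Agent.S28lib

/-- `coeffMap` along an injective ring hom is injective (local copy). -/
theorem coeffMap_inj {R S : Type*} [CommRing R] [CommRing S] (φ : R →+* S)
    (hφ : Function.Injective φ) : Function.Injective (coeffMap φ) := by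
  intro x y h
  ext n
  apply hφ
  have := congrArg (fun z : LaurentSeries S => z.coeff n) h
  simpa using this

theorem coeffMap_castQ_injective : Function.Injective (coeffMap (Int.castRingHom ℚ)) :=
  coeffMap_inj _ Int.cast_injective

variable (ℓ : ℕ) [hℓ : Fact ℓ.Prime]

/-- `b(j)` over `ℤ`. -/
def bZ (b : ℤ[X]) : LaurentSeries ℤ := evalJ ℤ (jqModC ℤ) b

theorem coeffMap_bZ {S : Type*} [CommRing S] (b : ℤ[X]) :
    coeffMap (Int.castRingHom S) (bZ b) = evalJ S (jqModC S) (b.map (Int.castRingHom S)) := by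
  rw [bZ, coeffMap_evalJ, coeffMap_jqModC]

theorem bZ_mul (b b' : ℤ[X]) : bZ (b * b') = bZ b * bZ b' := map_mul _ _ _

theorem bZ_one : bZ 1 = 1 := map_one _

/-- `b̄(j̄)` is nonzero in `𝔽_ℓ((q))` when `b mod ℓ ≠ 0`. -/
theorem coeffMap_bZ_ne_zero {b : ℤ[X]} (hb : b.map (Int.castRingHom (ZMod ℓ)) ≠ 0) :
    coeffMap (Int.castRingHom (ZMod ℓ)) (bZ b) ≠ 0 := by
  rw [coeffMap_bZ]
  exact evalJ_jqModC_ne_zero hb

/-- `(b, a)` witnesses that `g` lies in the reduction ring. -/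
def IsWitness (g : LaurentSeries ℚ) (b : ℤ[X]) (a : LaurentSeries ℤ) : Prop :=
  b.map (Int.castRingHom (ZMod ℓ)) ≠ 0 ∧
    coeffMap (Int.castRingHom ℚ) (bZ b) * g = coeffMap (Int.castRingHom ℚ) a

variable {ℓ}

theorem IsWitness.add {g g' : LaurentSeries ℚ} {b b' : ℤ[X]} {a a' : LaurentSeries ℤ}
    (h : IsWitness ℓ g b a) (h' : IsWitness ℓ g' b' a') :
    IsWitness ℓ (g + g') (b * b') (a * bZ b' + a' * bZ b) := by
  refine ⟨?_, ?_⟩
  · rw [Polynomial.map_mul]; exact mul_ne_zero h.1 h'.1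
  · rw [bZ_mul, map_mul, map_add, map_mul, map_mul, ← h.2, ← h'.2]; ring

theorem IsWitness.mul {g g' : LaurentSeries ℚ} {b b' : ℤ[X]} {a a' : LaurentSeries ℤ}
    (h : IsWitness ℓ g b a) (h' : IsWitness ℓ g' b' a') :
    IsWitness ℓ (g * g') (b * b') (a * a') := by
  refine ⟨?_, ?_⟩
  · rw [Polynomial.map_mul]; exact mul_ne_zero h.1 h'.1
  · rw [bZ_mul, map_mul, map_mul, ← h.2, ← h'.2]; ring

theorem IsWitness.neg {g : LaurentSeries ℚ} {b : ℤ[X]} {a : LaurentSeries ℤ}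
    (h : IsWitness ℓ g b a) : IsWitness ℓ (-g) b (-a) := by
  refine ⟨h.1, ?_⟩
  rw [map_neg, ← h.2]; ring

theorem isWitness_int (a : LaurentSeries ℤ) :
    IsWitness ℓ (coeffMap (Int.castRingHom ℚ) a) 1 a := by
  refine ⟨?_, ?_⟩
  · rw [Polynomial.map_one]; exact one_ne_zero
  · rw [bZ_one, map_one, one_mul]

/-- two witnesses of the same element are proportional. -/
theorem IsWitness.cross {g : LaurentSeries ℚ} {b b' : ℤ[X]} {a a' : LaurentSeries ℤ}
    (h : IsWitness ℓ g b a) (h' : IsWitness ℓ g b' a') : bZ b' * a = bZ b * a' := by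
  apply coeffMap_castQ_injective
  rw [map_mul, map_mul, ← h.2, ← h'.2]; ring

variable (ℓ)

/-- The reduction ring: series `g ∈ ℚ((q))` such that `b(j) g` has integer coefficients for some
`b ∈ ℤ[Y]` with `b mod ℓ ≠ 0`. -/
def redRing : Subring (LaurentSeries ℚ) where
  carrier := {g | ∃ b a, IsWitness ℓ g b a}
  mul_mem' := by
    rintro g g' ⟨b, a, h⟩ ⟨b', a', h'⟩
    exact ⟨_, _, h.mul h'⟩
  one_mem' := ⟨1, 1, by simpa using isWitness_int (ℓ := ℓ) 1⟩
  add_mem' := by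
    rintro g g' ⟨b, a, h⟩ ⟨b', a', h'⟩
    exact ⟨_, _, h.add h'⟩
  zero_mem' := ⟨1, 0, by simpa using isWitness_int (ℓ := ℓ) 0⟩
  neg_mem' := by
    rintro g ⟨b, a, h⟩
    exact ⟨_, _, h.neg⟩

theorem mem_redRing_iff {g : LaurentSeries ℚ} :
    g ∈ redRing ℓ ↔ ∃ b a, IsWitness ℓ g b a := Iff.rfl

theorem coeffMap_mem_redRing (a : LaurentSeries ℤ) :
    coeffMap (Int.castRingHom ℚ) a ∈ redRing ℓ := ⟨1, a, isWitness_int a⟩

theorem evalDiv_mem_redRing (P : MvPolynomial ℕ ℤ) : evalDiv ℚ P ∈ redRing ℓ := by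
  rw [← coeffMap_evalDiv (Int.castRingHom ℚ) P]
  exact coeffMap_mem_redRing ℓ _

theorem jAt_mem_redRing (d : ℕ) : jAt ℚ d ∈ redRing ℓ := by
  rw [← coeffMap_jAt (Int.castRingHom ℚ) d]
  exact coeffMap_mem_redRing ℓ _

theorem jqModC_mem_redRing : jqModC ℚ ∈ redRing ℓ := by
  rw [← coeffMap_jqModC (Int.castRingHom ℚ)]
  exact coeffMap_mem_redRing ℓ _

/-- The underlying function of the reduction. -/
def redFun (g : redRing ℓ) : LaurentSeries (ZMod ℓ) :=
  coeffMap (Int.castRingHom (ZMod ℓ)) g.2.choose_spec.choose *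
    (coeffMap (Int.castRingHom (ZMod ℓ)) (bZ g.2.choose))⁻¹

/-- The characterising property of the reduction. -/
theorem redFun_spec (g : redRing ℓ) {b : ℤ[X]} {a : LaurentSeries ℤ}
    (h : IsWitness ℓ (g : LaurentSeries ℚ) b a) :
    redFun ℓ g * coeffMap (Int.castRingHom (ZMod ℓ)) (bZ b) =
      coeffMap (Int.castRingHom (ZMod ℓ)) a := by
  have h0 : IsWitness ℓ (g : LaurentSeries ℚ) g.2.choose g.2.choose_spec.choose :=
    g.2.choose_spec.choose_spec
  have hne := coeffMap_bZ_ne_zero ℓ h0.1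
  have hcross := congrArg (coeffMap (Int.castRingHom (ZMod ℓ))) (h0.cross h)
  rw [map_mul, map_mul] at hcross
  rw [redFun]
  field_simp
  rw [mul_comm, hcross, mul_comm]

/-- uniqueness: any `y` with `y * b̄(j̄) = ā` for a witness is the reduction. -/
theorem eq_redFun_of_spec (g : redRing ℓ) {b : ℤ[X]} {a : LaurentSeries ℤ}
    (h : IsWitness ℓ (g : LaurentSeries ℚ) b a) {y : LaurentSeries (ZMod ℓ)}
    (hy : y * coeffMap (Int.castRingHom (ZMod ℓ)) (bZ b) =
      coeffMap (Int.castRingHom (ZMod ℓ)) a) : y = redFun ℓ g := by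
  have hne := coeffMap_bZ_ne_zero ℓ h.1
  have := redFun_spec ℓ g h
  exact mul_right_cancel₀ hne (hy.trans this.symm)

/-- The reduction `redRing ℓ →+* 𝔽_ℓ((q))`. -/
def redHom : redRing ℓ →+* LaurentSeries (ZMod ℓ) where
  toFun := redFun ℓ
  map_one' := by
    symm
    refine eq_redFun_of_spec ℓ 1 (b := 1) (a := 1) ?_ ?_
    · simpa using isWitness_int (ℓ := ℓ) 1
    · simp [bZ_one]
  map_zero' := by
    symm
    refine eq_redFun_of_spec ℓ 0 (b := 1) (a := 0) ?_ ?_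
    · simpa using isWitness_int (ℓ := ℓ) 0
    · rw [map_zero, zero_mul]
  map_mul' := by
    intro g g'
    obtain ⟨b, a, h⟩ := g.2
    obtain ⟨b', a', h'⟩ := g'.2
    symm
    refine eq_redFun_of_spec ℓ (g * g') (h.mul h') ?_
    rw [bZ_mul, map_mul, map_mul, ← redFun_spec ℓ g h, ← redFun_spec ℓ g' h']
    ring
  map_add' := by
    intro g g'
    obtain ⟨b, a, h⟩ := g.2
    obtain ⟨b', a', h'⟩ := g'.2
    symm
    refine eq_redFun_of_spec ℓ (g + g') (h.add h') ?_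
    rw [bZ_mul, map_mul, map_add, map_mul, map_mul, ← redFun_spec ℓ g h, ← redFun_spec ℓ g' h']
    ring

theorem redHom_spec (g : redRing ℓ) {b : ℤ[X]} {a : LaurentSeries ℤ}
    (h : IsWitness ℓ (g : LaurentSeries ℚ) b a) :
    redHom ℓ g * coeffMap (Int.castRingHom (ZMod ℓ)) (bZ b) =
      coeffMap (Int.castRingHom (ZMod ℓ)) a := redFun_spec ℓ g h

theorem redHom_spec' (g : redRing ℓ) {b : ℤ[X]} {a : LaurentSeries ℤ}
    (h : IsWitness ℓ (g : LaurentSeries ℚ) b a) :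
    redHom ℓ g * evalJ (ZMod ℓ) (jqModC (ZMod ℓ)) (b.map (Int.castRingHom (ZMod ℓ))) =
      coeffMap (Int.castRingHom (ZMod ℓ)) a := by
  rw [← coeffMap_bZ]; exact redFun_spec ℓ g h

theorem redHom_coeffMap (a : LaurentSeries ℤ) :
    redHom ℓ ⟨coeffMap (Int.castRingHom ℚ) a, coeffMap_mem_redRing ℓ a⟩ =
      coeffMap (Int.castRingHom (ZMod ℓ)) a := by
  have := redHom_spec ℓ ⟨coeffMap (Int.castRingHom ℚ) a, coeffMap_mem_redRing ℓ a⟩
    (isWitness_int (ℓ := ℓ) a)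
  rwa [bZ_one, map_one, mul_one] at this

theorem redHom_evalDiv (P : MvPolynomial ℕ ℤ) :
    redHom ℓ ⟨evalDiv ℚ P, evalDiv_mem_redRing ℓ P⟩ = evalDiv (ZMod ℓ) P := by
  have h : (⟨evalDiv ℚ P, evalDiv_mem_redRing ℓ P⟩ : redRing ℓ) =
      ⟨coeffMap (Int.castRingHom ℚ) (evalDiv ℤ P), coeffMap_mem_redRing ℓ _⟩ :=
    Subtype.ext (coeffMap_evalDiv (Int.castRingHom ℚ) P).symm
  rw [h, redHom_coeffMap, coeffMap_evalDiv]

theorem redHom_jqModC :
    redHom ℓ ⟨jqModC ℚ, jqModC_mem_redRing ℓ⟩ = jqModC (ZMod ℓ) := by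
  have h : (⟨jqModC ℚ, jqModC_mem_redRing ℓ⟩ : redRing ℓ) =
      ⟨coeffMap (Int.castRingHom ℚ) (jqModC ℤ), coeffMap_mem_redRing ℓ _⟩ :=
    Subtype.ext (coeffMap_jqModC (Int.castRingHom ℚ)).symm
  rw [h, redHom_coeffMap, coeffMap_jqModC]

/-- membership from an explicit relation. -/
theorem mem_redRing_of_mul_eq {g : LaurentSeries ℚ} {b : ℤ[X]} {a : LaurentSeries ℤ}
    (hb : b.map (Int.castRingHom (ZMod ℓ)) ≠ 0)
    (h : evalJ ℚ (jqModC ℚ) (b.map (Int.castRingHom ℚ)) * g = coeffMap (Int.castRingHom ℚ) a) :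
    g ∈ redRing ℓ := ⟨b, a, hb, by rw [coeffMap_bZ]; exact h⟩

/-! ### `ℤ_(ℓ)`-constants -/

/-- rational constants with denominator prime to `ℓ` lie in the reduction ring. -/
theorem C_mem_redRing {r : ℚ} (hr : ¬ (ℓ : ℤ) ∣ (r.den : ℤ)) :
    (HahnSeries.C r : LaurentSeries ℚ) ∈ redRing ℓ := by
  refine ⟨Polynomial.C (r.den : ℤ), HahnSeries.C r.num, ?_, ?_⟩
  · rw [Polynomial.map_C]
    intro h
    rw [Polynomial.C_eq_zero] at h
    apply hr
    exact (ZMod.intCast_zmod_eq_zero_iff_dvd _ _).mp (by simpa using h)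
  · rw [bZ]
    simp only [evalJ, AlgHom.toRingHom_eq_coe, RingHom.coe_coe, Polynomial.aeval_C]
    rw [algebraMap_laurent_eq_C, coeffMap_C, coeffMap_C, ← map_mul]
    congr 1
    simp

/-! ### The kernel -/

/-- an integral series all of whose coefficients are divisible by `ℓ`. -/
theorem exists_eq_mul_of_coeffMap_eq_zero {a : LaurentSeries ℤ}
    (h : coeffMap (Int.castRingHom (ZMod ℓ)) a = 0) :
    ∃ a' : LaurentSeries ℤ, a = HahnSeries.C (ℓ : ℤ) * a' := by
  have hdiv : ∀ n, (ℓ : ℤ) ∣ a.coeff n := by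
    intro n
    have := congrArg (fun z : LaurentSeries (ZMod ℓ) => z.coeff n) h
    simp only [coeffMap_coeff, HahnSeries.coeff_zero] at this
    exact (ZMod.intCast_zmod_eq_zero_iff_dvd _ _).mp (by simpa using this)
  have hℓ0 : (ℓ : ℤ) ≠ 0 := by exact_mod_cast hℓ.out.ne_zero
  refine ⟨⟨fun n => a.coeff n / (ℓ : ℤ), a.isPWO_support.mono ?_⟩, ?_⟩
  · intro n hn
    simp only [Function.mem_support, ne_eq] at hn ⊢
    intro h0
    apply hn
    rw [h0]; simp
  · ext n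
    rw [HahnSeries.C_mul_eq_smul, HahnSeries.coeff_smul, smul_eq_mul]
    exact (Int.mul_ediv_cancel' (hdiv n)).symm

/-- the kernel of the reduction is `ℓ · redRing`. -/
theorem redHom_eq_zero_iff (g : redRing ℓ) :
    redHom ℓ g = 0 ↔ ∃ g' : redRing ℓ, g = (ℓ : redRing ℓ) * g' := by
  constructor
  · intro h0
    obtain ⟨b, a, h⟩ := g.2
    have hspec := redHom_spec ℓ g h
    rw [h0, zero_mul] at hspec
    obtain ⟨a', ha'⟩ := exists_eq_mul_of_coeffMap_eq_zero ℓ hspec.symm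
    have hne : coeffMap (Int.castRingHom ℚ) (bZ b) ≠ 0 := by
      intro hz
      have : bZ b = 0 := coeffMap_castQ_injective (by rw [hz, map_zero])
      exact coeffMap_bZ_ne_zero ℓ h.1 (by rw [this, map_zero])
    have hℓ0 : ((ℓ : ℚ)) ≠ 0 := by exact_mod_cast hℓ.out.ne_zero
    -- g' := a' / b(j)
    set g' : LaurentSeries ℚ := coeffMap (Int.castRingHom ℚ) a' *
      (coeffMap (Int.castRingHom ℚ) (bZ b))⁻¹ with hg'
    have hw : IsWitness ℓ g' b a' := by
      refine ⟨h.1, ?_⟩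
      rw [hg']; field_simp
    have hg : (g : LaurentSeries ℚ) = HahnSeries.C (ℓ : ℚ) * g' := by
      have h2 := h.2
      rw [ha', map_mul, coeffMap_C] at h2
      have : (g : LaurentSeries ℚ) = (coeffMap (Int.castRingHom ℚ) (bZ b))⁻¹ *
          (HahnSeries.C ((Int.castRingHom ℚ) (ℓ : ℤ)) * coeffMap (Int.castRingHom ℚ) a') := by
        rw [← h2]; field_simp
      rw [this, hg']
      simp only [eq_intCast, Int.cast_natCast]
      ring
    refine ⟨⟨g', b, a', hw⟩, Subtype.ext ?_⟩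
    rw [hg]
    simp only [Subring.coe_mul, Subring.coe_natCast]
    rw [← map_natCast (HahnSeries.C : ℚ →+* LaurentSeries ℚ)]
  · rintro ⟨g', rfl⟩
    rw [map_mul, map_natCast]
    have : ((ℓ : ℕ) : LaurentSeries (ZMod ℓ)) = 0 := by
      rw [← map_natCast (HahnSeries.C : ZMod ℓ →+* LaurentSeries (ZMod ℓ)), ZMod.natCast_self,
        map_zero]
    rw [this, zero_mul]

theorem ker_redHom : RingHom.ker (redHom ℓ) = Ideal.span {((ℓ : ℕ) : redRing ℓ)} := by
  ext g
  rw [RingHom.mem_ker, redHom_eq_zero_iff, Ideal.mem_span_singleton']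
  constructor
  · rintro ⟨g', rfl⟩; exact ⟨g', mul_comm _ _⟩
  · rintro ⟨g', rfl⟩; exact ⟨g', mul_comm _ _⟩

end Fermat.Agent.S28lib.Red
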