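import Mathlib

/-!
# S28, brick (V), generic step: primitive integral scaling of a family of rational polynomials

Given finitely many rational polynomials, not all zero, and a prime `ℓ`, a nonzero rational
multiple of the family consists of integer polynomials not all of which vanish mod `ℓ`.
-/

set_option autoImplicit false

noncomputable section

namespace Fermat.Agent.S28lib

open Polynomial

/-- An integer polynomial vanishes mod `ℓ` iff it is divisible by `ℓ`. -/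
theorem map_intCast_zmod_eq_zero_iff (ℓ : ℕ) (Q : ℤ[X]) :
    Q.map (Int.castRingHom (ZMod ℓ)) = 0 ↔ C (ℓ : ℤ) ∣ Q := by
  rw [Polynomial.C_dvd_iff_dvd_coeff, Polynomial.ext_iff]
  refine forall_congr' fun n => ?_
  rw [Polynomial.coeff_map, Polynomial.coeff_zero, eq_intCast,
    ZMod.intCast_zmod_eq_zero_iff_dvd]

/-- Division by the maximal power of `ℓ`. -/
theorem exists_pow_mul_primitive (ℓ : ℕ) [Fact ℓ.Prime] {m : ℕ} :
    ∀ (n : ℕ) (Q : Fin m → ℤ[X]) (i₀ : Fin m) (j₀ : ℕ), ((Q i₀).coeff j₀).natAbs = n → n ≠ 0 →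
      ∃ (e : ℕ) (Q' : Fin m → ℤ[X]), (∀ i, Q i = C ((ℓ : ℤ) ^ e) * Q' i) ∧
        ∃ i, (Q' i).map (Int.castRingHom (ZMod ℓ)) ≠ 0 := by
  intro n
  induction n using Nat.strong_induction_on with
  | _ n ih =>
    intro Q i₀ j₀ hn hn0
    by_cases hall : ∃ i, (Q i).map (Int.castRingHom (ZMod ℓ)) ≠ 0
    · exact ⟨0, Q, fun i => by simp, hall⟩
    · push Not at hall
      have hdvd : ∀ i, C (ℓ : ℤ) ∣ Q i := fun i => (map_intCast_zmod_eq_zero_iff ℓ (Q i)).mp (hall i)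
      choose Q₁ hQ₁ using hdvd
      have hℓ : (2 : ℤ) ≤ (ℓ : ℤ) := by exact_mod_cast (Fact.out : ℓ.Prime).two_le
      have hc : (Q i₀).coeff j₀ = (ℓ : ℤ) * (Q₁ i₀).coeff j₀ := by
        rw [hQ₁ i₀, Polynomial.coeff_C_mul]
      have hne : (Q₁ i₀).coeff j₀ ≠ 0 := by
        intro h0
        apply hn0
        rw [← hn, hc, h0, mul_zero, Int.natAbs_zero]
      have hlt : ((Q₁ i₀).coeff j₀).natAbs < n := by
        rw [← hn, hc, Int.natAbs_mul, Int.natAbs_natCast]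
        have h1 : 0 < ((Q₁ i₀).coeff j₀).natAbs := Int.natAbs_pos.mpr hne
        have h2 : 2 ≤ ℓ := (Fact.out : ℓ.Prime).two_le
        nlinarith
      obtain ⟨e, Q', hQ', hex⟩ := ih _ hlt Q₁ i₀ j₀ rfl (Int.natAbs_ne_zero.mpr hne)
      refine ⟨e + 1, Q', fun i => ?_, hex⟩
      rw [hQ₁ i, hQ' i, pow_succ, map_mul, map_pow]
      ring

/-- **Primitive integral scaling.** -/
theorem exists_primitive_int_scaling (ℓ : ℕ) [Fact ℓ.Prime] {m : ℕ} (P : Fin m → ℚ[X])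
    (hP : P ≠ 0) :
    ∃ (Q : Fin m → ℤ[X]) (c : ℚ), c ≠ 0 ∧
      (∀ i, (Q i).map (Int.castRingHom ℚ) = C c * P i) ∧
      ∃ i, (Q i).map (Int.castRingHom (ZMod ℓ)) ≠ 0 := by
  classical
  -- clear denominators
  have h1 : ∀ i, ∃ b : ℤ, b ≠ 0 ∧ ∃ Q : ℤ[X], Q.map (Int.castRingHom ℚ) = C (b : ℚ) * P i := by
    intro i
    obtain ⟨b, hbM, hb⟩ := IsLocalization.integerNormalization_spec (nonZeroDivisors ℤ) (P i)
    refine ⟨b, nonZeroDivisors.ne_zero hbM,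
      IsLocalization.integerNormalization (nonZeroDivisors ℤ) (P i), ?_⟩
    rw [show Int.castRingHom ℚ = algebraMap ℤ ℚ from rfl, hb, zsmul_eq_mul,
      ← map_intCast (C : ℚ →+* ℚ[X])]
  choose b hb Q₀ hQ₀ using h1
  set d : ℤ := ∏ i, b i with hd
  have hd0 : d ≠ 0 := Finset.prod_ne_zero_iff.mpr fun i _ => hb i
  set Q₁ : Fin m → ℤ[X] := fun i => C (∏ j ∈ Finset.univ.erase i, b j) * Q₀ i with hQ₁
  have hQ₁map : ∀ i, (Q₁ i).map (Int.castRingHom ℚ) = C (d : ℚ) * P i := by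
    intro i
    rw [hQ₁, Polynomial.map_mul, Polynomial.map_C, hQ₀ i, ← mul_assoc, ← map_mul, hd,
      ← Finset.mul_prod_erase Finset.univ b (Finset.mem_univ i)]
    congr 2
    simp only [eq_intCast]
    push_cast
    ring
  -- some `Q₁ i` is nonzero
  obtain ⟨i₀, hi₀⟩ : ∃ i, P i ≠ 0 := by
    by_contra h
    push Not at h
    exact hP (funext h)
  have hQ₁ne : Q₁ i₀ ≠ 0 := by
    intro h0
    have := hQ₁map i₀
    rw [h0, Polynomial.map_zero] at this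
    have hd' : (C (d : ℚ)) ≠ 0 := by
      rw [Ne, Polynomial.C_eq_zero]
      exact_mod_cast hd0
    exact (mul_ne_zero hd' hi₀) this.symm
  obtain ⟨j₀, hj₀⟩ : ∃ j, (Q₁ i₀).coeff j ≠ 0 := by
    by_contra h
    push Not at h
    exact hQ₁ne (Polynomial.ext fun j => by rw [h j, Polynomial.coeff_zero])
  obtain ⟨e, Q', hQ', hex⟩ := exists_pow_mul_primitive ℓ _ Q₁ i₀ j₀ rfl
    (Int.natAbs_ne_zero.mpr hj₀)
  have hℓ0 : ((ℓ : ℚ)) ≠ 0 := by exact_mod_cast (Fact.out : ℓ.Prime).ne_zero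
  refine ⟨Q', (d : ℚ) / (ℓ : ℚ) ^ e, div_ne_zero (by exact_mod_cast hd0) (pow_ne_zero _ hℓ0),
    fun i => ?_, hex⟩
  have h2 := hQ₁map i
  rw [hQ' i, Polynomial.map_mul, Polynomial.map_C] at h2
  have h3 : (C ((Int.castRingHom ℚ) ((ℓ : ℤ) ^ e)) : ℚ[X]) = C ((ℓ : ℚ) ^ e) := by
    congr 1
    simp
  rw [h3] at h2
  have h4 : (C ((ℓ : ℚ) ^ e) : ℚ[X]) * C (((ℓ : ℚ) ^ e)⁻¹) = 1 := by
    rw [← map_mul, mul_inv_cancel₀ (pow_ne_zero _ hℓ0), map_one]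
  calc (Q' i).map (Int.castRingHom ℚ)
      = (C ((ℓ : ℚ) ^ e) * C (((ℓ : ℚ) ^ e)⁻¹)) * (Q' i).map (Int.castRingHom ℚ) := by
        rw [h4, one_mul]
    _ = C (((ℓ : ℚ) ^ e)⁻¹) * (C ((ℓ : ℚ) ^ e) * (Q' i).map (Int.castRingHom ℚ)) := by ring
    _ = C (((ℓ : ℚ) ^ e)⁻¹) * (C (d : ℚ) * P i) := by rw [h2]
    _ = C ((d : ℚ) / (ℓ : ℚ) ^ e) * P i := by
        rw [← mul_assoc, ← map_mul, div_eq_inv_mul]

end Fermat.Agent.S28lib
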