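import Mathlib
import Fermat.Agent.S28lib.Series
import Fermat.Agent.S28lib.PrimitiveRel

/-!
# S28, brick (V), step V2a (representation)

Let `x_1, …, x_n` be integer polynomial expressions in the `j(q^d)` whose reductions mod `ℓ` are
linearly independent over `𝔽_ℓ[j]`. Then

* (P2) the `x_i` are linearly independent over `ℚ[j]`;
* (P3) every `g ∈ ℚ((q))` which is `ℚ[j]`-linearly dependent on the `x_i` admits a *primitive*
  integral relation `b(j) · g = ∑ a_i(j) · x_i` with `b ≠ 0` and `(b, a_1, …, a_n) ∈ ℤ[Y]^{n+1}`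
  not all `≡ 0 mod ℓ`.
-/

set_option autoImplicit false

noncomputable section

namespace Fermat.Agent.S28lib

open ModularCurve Polynomial

variable (ℓ : ℕ) [Fact ℓ.Prime] {n : ℕ} (x : Fin n → MvPolynomial ℕ ℤ)

/-- The integral linear combination `∑ Q_i(j) · x_i ∈ ℤ((q))`. -/
def intComb (Q : Fin n → ℤ[X]) : LaurentSeries ℤ :=
  ∑ i, evalJ ℤ (jqModC ℤ) (Q i) * evalDiv ℤ (x i)

theorem coeffMap_intComb {B : Type*} [CommRing B] (Q : Fin n → ℤ[X]) :
    coeffMap (Int.castRingHom B) (intComb x Q) =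
      ∑ i, evalJ B (jqModC B) ((Q i).map (Int.castRingHom B)) * evalDiv B (x i) := by
  rw [intComb, map_sum]
  refine Finset.sum_congr rfl fun i _ => ?_
  rw [map_mul, coeffMap_evalJ, coeffMap_evalDiv, coeffMap_jqModC]

theorem coeffMap_intCast_rat_injective :
    Function.Injective (coeffMap (Int.castRingHom ℚ)) := by
  intro y z h
  ext k
  have := congrArg (fun w => w.coeff k) h
  simpa using this

/-- **(P2)** independence over `ℚ[j]` from independence mod `ℓ`. -/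
theorem indep_rat_of_indep_zmod
    (hind : ∀ P : Fin n → Polynomial (ZMod ℓ),
      ∑ i, evalJ (ZMod ℓ) (jqModC (ZMod ℓ)) (P i) * evalDiv (ZMod ℓ) (x i) = 0 → ∀ i, P i = 0)
    (P : Fin n → ℚ[X])
    (hP : ∑ i, evalJ ℚ (jqModC ℚ) (P i) * evalDiv ℚ (x i) = 0) : ∀ i, P i = 0 := by
  by_contra hcon
  have hP0 : P ≠ 0 := by
    intro h0
    apply hcon
    intro i
    rw [h0]
    rfl
  obtain ⟨Q, c, hc, hQ, i₀, hi₀⟩ := exists_primitive_int_scaling ℓ P hP0
  have h1 : coeffMap (Int.castRingHom ℚ) (intComb x Q) = 0 := by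
    rw [coeffMap_intComb]
    have : ∀ i, evalJ ℚ (jqModC ℚ) ((Q i).map (Int.castRingHom ℚ)) * evalDiv ℚ (x i) =
        evalJ ℚ (jqModC ℚ) (C c) * (evalJ ℚ (jqModC ℚ) (P i) * evalDiv ℚ (x i)) := by
      intro i
      rw [hQ i, map_mul]
      ring
    rw [Finset.sum_congr rfl fun i _ => this i, ← Finset.mul_sum, hP, mul_zero]
  have h2 : intComb x Q = 0 := coeffMap_intCast_rat_injective (by rw [h1, map_zero])
  have h3 := congrArg (coeffMap (Int.castRingHom (ZMod ℓ))) h2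
  rw [coeffMap_intComb, map_zero] at h3
  exact hi₀ (hind _ h3 i₀)

/-- **(P3)** primitive integral relation. -/
theorem exists_int_relation
    (hind : ∀ P : Fin n → Polynomial (ZMod ℓ),
      ∑ i, evalJ (ZMod ℓ) (jqModC (ZMod ℓ)) (P i) * evalDiv (ZMod ℓ) (x i) = 0 → ∀ i, P i = 0)
    (g : LaurentSeries ℚ)
    (hrel : ∃ P : Fin (n + 1) → ℚ[X], P ≠ 0 ∧
      ∑ i, evalJ ℚ (jqModC ℚ) (P i) *
        (Fin.cons g (fun i => evalDiv ℚ (x i)) : Fin (n + 1) → LaurentSeries ℚ) i = 0) :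
    ∃ (b : ℤ[X]) (a : Fin n → ℤ[X]), b ≠ 0 ∧
      (b.map (Int.castRingHom (ZMod ℓ)) ≠ 0 ∨ ∃ i, (a i).map (Int.castRingHom (ZMod ℓ)) ≠ 0) ∧
      evalJ ℚ (jqModC ℚ) (b.map (Int.castRingHom ℚ)) * g =
        ∑ i, evalJ ℚ (jqModC ℚ) ((a i).map (Int.castRingHom ℚ)) * evalDiv ℚ (x i) := by
  obtain ⟨P, hP0, hP⟩ := hrel
  obtain ⟨Q, c, hc, hQ, i₀, hi₀⟩ := exists_primitive_int_scaling ℓ P hP0
  -- the scaled relation
  have hrelQ : evalJ ℚ (jqModC ℚ) ((Q 0).map (Int.castRingHom ℚ)) * g +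
      ∑ i : Fin n, evalJ ℚ (jqModC ℚ) ((Q i.succ).map (Int.castRingHom ℚ)) * evalDiv ℚ (x i) = 0 := by
    have h1 : ∑ i, evalJ ℚ (jqModC ℚ) ((Q i).map (Int.castRingHom ℚ)) *
        (Fin.cons g (fun i => evalDiv ℚ (x i)) : Fin (n + 1) → LaurentSeries ℚ) i = 0 := by
      have : ∀ i, evalJ ℚ (jqModC ℚ) ((Q i).map (Int.castRingHom ℚ)) *
          (Fin.cons g (fun i => evalDiv ℚ (x i)) : Fin (n + 1) → LaurentSeries ℚ) i =
          evalJ ℚ (jqModC ℚ) (C c) * (evalJ ℚ (jqModC ℚ) (P i) *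
            (Fin.cons g (fun i => evalDiv ℚ (x i)) : Fin (n + 1) → LaurentSeries ℚ) i) := by
        intro i
        rw [hQ i, map_mul]
        ring
      rw [Finset.sum_congr rfl fun i _ => this i, ← Finset.mul_sum, hP, mul_zero]
    rw [Fin.sum_univ_succ] at h1
    simpa only [Fin.cons_zero, Fin.cons_succ] using h1
  -- `Q 0 ≠ 0`
  have hQ0 : Q 0 ≠ 0 := by
    intro h0
    rw [h0, Polynomial.map_zero, map_zero, zero_mul, zero_add] at hrelQ
    have h2 := indep_rat_of_indep_zmod ℓ x hind _ hrelQ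
    have h3 : ∀ i : Fin n, Q i.succ = 0 := fun i =>
      Polynomial.map_injective _ Int.cast_injective (by rw [h2 i, Polynomial.map_zero])
    apply hi₀
    refine Fin.cases ?_ (fun i => ?_) i₀
    · rw [h0, Polynomial.map_zero]
    · rw [h3 i, Polynomial.map_zero]
  refine ⟨Q 0, fun i => -Q i.succ, hQ0, ?_, ?_⟩
  · revert hi₀
    refine Fin.cases ?_ (fun i => ?_) i₀
    · exact fun h => Or.inl h
    · intro h
      refine Or.inr ⟨i, ?_⟩
      rwa [Polynomial.map_neg, neg_ne_zero]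
  · rw [eq_comm, ← sub_eq_zero, ← neg_eq_zero, ← hrelQ]
    simp only [Polynomial.map_neg, map_neg, neg_mul, Finset.sum_neg_distrib]
    ring

section Full

variable (N : ℕ) [NeZero N]

theorem jAt_mem_full {d : ℕ} (hd : d ∣ N) : jAt ℚ d ∈ modularFunctionFieldFull N := by
  have hd0 : d ≠ 0 := fun h => NeZero.ne N (by rw [h] at hd; exact Nat.eq_zero_of_zero_dvd hd)
  have : NeZero d := ⟨hd0⟩
  rw [jAt_of_neZero, jqModC_rat]
  exact jqd_mem_full N hd

theorem evalDiv_mem_full (P : MvPolynomial ℕ ℤ) (hP : ∀ d ∈ P.vars, d ∣ N) :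
    evalDiv ℚ P ∈ modularFunctionFieldFull N := by
  rw [evalDiv, MvPolynomial.coe_eval₂Hom, MvPolynomial.eval₂_eq]
  refine sum_mem fun m hm => mul_mem ?_ (prod_mem fun d hd => pow_mem ?_ _)
  · rw [eq_intCast]
    exact intCast_mem _ _
  · exact jAt_mem_full N (hP d ((MvPolynomial.mem_vars_iff_mem_support d).mpr ⟨m, hm, hd⟩))

/-- **(P3), final form**: every element of the full modular function field has a primitive
integral representation over the `x_i`. -/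
theorem exists_int_relation_of_mem_full {n : ℕ} (x : Fin n → MvPolynomial ℕ ℤ)
    (hx : ∀ i, ∀ d ∈ (x i).vars, d ∣ N)
    (hind : ∀ P : Fin n → Polynomial (ZMod ℓ),
      ∑ i, evalJ (ZMod ℓ) (jqModC (ZMod ℓ)) (P i) * evalDiv (ZMod ℓ) (x i) = 0 → ∀ i, P i = 0)
    (hD : ∀ y : Fin (n + 1) → LaurentSeries ℚ, (∀ i, y i ∈ modularFunctionFieldFull N) →
      ∃ P : Fin (n + 1) → Polynomial ℚ, P ≠ 0 ∧ ∑ i, evalJ ℚ (jqModC ℚ) (P i) * y i = 0)
    {g : LaurentSeries ℚ} (hg : g ∈ modularFunctionFieldFull N) :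
    ∃ (b : ℤ[X]) (a : Fin n → ℤ[X]), b ≠ 0 ∧
      (b.map (Int.castRingHom (ZMod ℓ)) ≠ 0 ∨ ∃ i, (a i).map (Int.castRingHom (ZMod ℓ)) ≠ 0) ∧
      evalJ ℚ (jqModC ℚ) (b.map (Int.castRingHom ℚ)) * g =
        ∑ i, evalJ ℚ (jqModC ℚ) ((a i).map (Int.castRingHom ℚ)) * evalDiv ℚ (x i) := by
  refine exists_int_relation ℓ x hind g (hD _ ?_)
  refine Fin.cases ?_ (fun i => ?_)
  · simpa only [Fin.cons_zero] using hg
  · simpa only [Fin.cons_succ] using evalDiv_mem_full N (x i) (hx i)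

end Full

end Fermat.Agent.S28lib
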