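/-
S28 (Igusa), brick for (V): the base ring `ℤ_(ℓ) = GaloisRep.ratLocalizedAt ℓ` is the localisation
of `ℤ` at `(ℓ)`, hence a discrete valuation ring in which `ℓ` is prime; for `t` transcendental over
it, `ℤ_(ℓ)[t] = Algebra.adjoin ℤ_(ℓ) {t}` is a polynomial ring, hence integrally closed, `ℓ` stays
prime in it, and `ℓ ∤ b(t)` for every integer polynomial `b` with nonzero reduction mod `ℓ`.
Specialised at the end to `t = j` and `t = 1/j` in the modular function field.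
-/
import Mathlib
import Fermat.Prelude.Def_ModularCurve_IgusaScheme
import Fermat.Agent.S28lib.Series

set_option autoImplicit false

noncomputable section

namespace Fermat.Agent.S28lib

open Polynomial

section Zl

variable (ℓ : ℕ) [Fact ℓ.Prime]

theorem prime_natCast_int : Prime ((ℓ : ℕ) : ℤ) :=
  Nat.prime_iff_prime_int.mp (Fact.out : ℓ.Prime)

instance isPrime_span_natCast_int : (Ideal.span {((ℓ : ℕ) : ℤ)}).IsPrime :=
  (Ideal.span_singleton_prime (prime_natCast_int ℓ).ne_zero).mpr (prime_natCast_int ℓ)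

theorem mem_primeCompl_span_iff (n : ℤ) :
    n ∈ (Ideal.span {((ℓ : ℕ) : ℤ)}).primeCompl ↔ (n.natAbs).Coprime ℓ := by
  rw [Ideal.mem_primeCompl_iff, Ideal.mem_span_singleton, Nat.coprime_comm,
    (Fact.out : ℓ.Prime).coprime_iff_not_dvd, Int.natCast_dvd]

/-- `ℤ_(ℓ)` (as the subring of `ℚ` of fractions with denominator prime to `ℓ`) is the localisation
of `ℤ` at the prime ideal `(ℓ)`. -/
instance ratLocalizedAt_isLocalization :
    IsLocalization.AtPrime ↥(GaloisRep.ratLocalizedAt ℓ) (Ideal.span {((ℓ : ℕ) : ℤ)}) where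
  map_units := by
    rintro ⟨n, hn⟩
    rw [mem_primeCompl_span_iff] at hn
    have hn0 : n ≠ 0 := by
      rintro rfl
      simp only [Int.natAbs_zero, Nat.coprime_zero_left] at hn
      exact (Fact.out : ℓ.Prime).one_lt.ne' hn
    have hmem : ((n : ℚ))⁻¹ ∈ GaloisRep.ratLocalizedAt ℓ := by
      change (((n : ℚ))⁻¹).den.Coprime ℓ
      rw [Rat.inv_intCast_den, if_neg hn0]
      exact hn
    refine IsUnit.of_mul_eq_one ⟨((n : ℚ))⁻¹, hmem⟩ (Subtype.ext ?_)
    have hq : (n : ℚ) ≠ 0 := Int.cast_ne_zero.mpr hn0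
    simp [hq]
  surj := by
    rintro ⟨r, hr⟩
    have hden : ((r.den : ℕ) : ℤ) ∈ (Ideal.span {((ℓ : ℕ) : ℤ)}).primeCompl := by
      rw [mem_primeCompl_span_iff, Int.natAbs_natCast]
      exact hr
    refine ⟨(r.num, ⟨(r.den : ℤ), hden⟩), Subtype.ext ?_⟩
    simp [Rat.mul_den_eq_num]
  exists_of_eq := by
    intro x y h
    refine ⟨1, ?_⟩
    have h' := congrArg (Subtype.val : ↥(GaloisRep.ratLocalizedAt ℓ) → ℚ) h
    simp only [algebraMap_int_eq, eq_intCast, Subring.coe_intCast, Int.cast_inj] at h'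
    rw [h']

instance ratLocalizedAt_isDiscreteValuationRing :
    IsDiscreteValuationRing ↥(GaloisRep.ratLocalizedAt ℓ) :=
  IsLocalization.AtPrime.isDiscreteValuationRing_of_dedekind_domain ℤ
    (P := Ideal.span {((ℓ : ℕ) : ℤ)})
    (by rw [Ne, Ideal.span_singleton_eq_bot]; exact (prime_natCast_int ℓ).ne_zero)
    ↥(GaloisRep.ratLocalizedAt ℓ)

theorem span_natCast_eq_maximalIdeal :
    Ideal.span {((ℓ : ℕ) : ↥(GaloisRep.ratLocalizedAt ℓ))} =
      IsLocalRing.maximalIdeal ↥(GaloisRep.ratLocalizedAt ℓ) := by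
  rw [← IsLocalization.AtPrime.map_eq_maximalIdeal (Ideal.span {((ℓ : ℕ) : ℤ)})
    ↥(GaloisRep.ratLocalizedAt ℓ), Ideal.map_span, Set.image_singleton]
  simp

theorem ratLocalizedAt_natCast_ne_zero : ((ℓ : ℕ) : ↥(GaloisRep.ratLocalizedAt ℓ)) ≠ 0 := by
  intro h
  have h' := congrArg (Subtype.val : ↥(GaloisRep.ratLocalizedAt ℓ) → ℚ) h
  simp only [Subring.coe_natCast, Subring.coe_zero, Nat.cast_eq_zero] at h'
  exact (Fact.out : ℓ.Prime).ne_zero h'

/-- `ℓ` is a prime element of `ℤ_(ℓ)`. -/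
theorem ratLocalizedAt_prime_natCast : Prime ((ℓ : ℕ) : ↥(GaloisRep.ratLocalizedAt ℓ)) := by
  rw [← Ideal.span_singleton_prime (ratLocalizedAt_natCast_ne_zero ℓ),
    span_natCast_eq_maximalIdeal]
  exact (IsLocalRing.maximalIdeal.isMaximal _).isPrime

/-- Divisibility by `ℓ` of an integer in `ℤ_(ℓ)` is divisibility in `ℤ`. -/
theorem ratLocalizedAt_natCast_dvd_intCast_iff (c : ℤ) :
    ((ℓ : ℕ) : ↥(GaloisRep.ratLocalizedAt ℓ)) ∣ (c : ↥(GaloisRep.ratLocalizedAt ℓ)) ↔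
      ((ℓ : ℕ) : ℤ) ∣ c := by
  rw [← Ideal.mem_span_singleton, span_natCast_eq_maximalIdeal, ← Ideal.mem_span_singleton,
    ← eq_intCast (algebraMap ℤ ↥(GaloisRep.ratLocalizedAt ℓ)) c,
    IsLocalization.AtPrime.to_map_mem_maximal_iff ↥(GaloisRep.ratLocalizedAt ℓ)
      (Ideal.span {((ℓ : ℕ) : ℤ)})]

end Zl

section Adjoin

variable {ℓ : ℕ} [Fact ℓ.Prime] {A : Type*} [CommRing A]
  [Algebra ↥(GaloisRep.ratLocalizedAt ℓ) A]

/-- For `t` transcendental over `ℤ_(ℓ)`, the ring `ℤ_(ℓ)[t]` is integrally closed. -/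
theorem isIntegrallyClosed_adjoin_of_transcendental {t : A}
    (ht : Transcendental ↥(GaloisRep.ratLocalizedAt ℓ) t) :
    IsIntegrallyClosed ↥(Algebra.adjoin ↥(GaloisRep.ratLocalizedAt ℓ) {t}) :=
  IsIntegrallyClosed.of_equiv
    (algEquivOfTranscendental ↥(GaloisRep.ratLocalizedAt ℓ) t ht).toRingEquiv

theorem algEquivOfTranscendental_C_natCast {t : A}
    (ht : Transcendental ↥(GaloisRep.ratLocalizedAt ℓ) t) :
    algEquivOfTranscendental ↥(GaloisRep.ratLocalizedAt ℓ) t ht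
      (C ((ℓ : ℕ) : ↥(GaloisRep.ratLocalizedAt ℓ))) =
      ((ℓ : ℕ) : ↥(Algebra.adjoin ↥(GaloisRep.ratLocalizedAt ℓ) {t})) := by
  rw [Polynomial.C_eq_natCast, map_natCast]

/-- For `t` transcendental over `ℤ_(ℓ)`, `ℓ` is a prime element of `ℤ_(ℓ)[t]`. -/
theorem prime_natCast_adjoin_of_transcendental {t : A}
    (ht : Transcendental ↥(GaloisRep.ratLocalizedAt ℓ) t) :
    Prime ((ℓ : ℕ) : ↥(Algebra.adjoin ↥(GaloisRep.ratLocalizedAt ℓ) {t})) := by
  rw [← algEquivOfTranscendental_C_natCast ht, MulEquiv.prime_iff, prime_C_iff]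
  exact ratLocalizedAt_prime_natCast ℓ

/-- `ℓ ∣ b(t)` in `ℤ_(ℓ)[t]` iff `ℓ` divides all coefficients of `b ∈ ℤ_(ℓ)[X]`. -/
theorem natCast_dvd_aeval_adjoin_iff {t : A}
    (ht : Transcendental ↥(GaloisRep.ratLocalizedAt ℓ) t)
    (b : Polynomial ↥(GaloisRep.ratLocalizedAt ℓ))
    (y : ↥(Algebra.adjoin ↥(GaloisRep.ratLocalizedAt ℓ) {t})) (hy : (y : A) = aeval t b) :
    ((ℓ : ℕ) : ↥(Algebra.adjoin ↥(GaloisRep.ratLocalizedAt ℓ) {t})) ∣ y ↔
      ∀ i, ((ℓ : ℕ) : ↥(GaloisRep.ratLocalizedAt ℓ)) ∣ b.coeff i := by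
  have hyb : y = algEquivOfTranscendental ↥(GaloisRep.ratLocalizedAt ℓ) t ht b := by
    apply Subtype.ext
    rw [hy, algEquivOfTranscendental_apply, Polynomial.aeval_subalgebra_coe]
  rw [hyb, ← algEquivOfTranscendental_C_natCast ht, map_dvd_iff, C_dvd_iff_dvd_coeff]

/-- If `b ∈ ℤ[X]` has nonzero reduction mod `ℓ`, then `ℓ ∤ b(t)` in `ℤ_(ℓ)[t]`. -/
theorem not_natCast_dvd_adjoin_of_map_ne_zero {t : A}
    (ht : Transcendental ↥(GaloisRep.ratLocalizedAt ℓ) t) (b : Polynomial ℤ)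
    (hb : b.map (Int.castRingHom (ZMod ℓ)) ≠ 0)
    (y : ↥(Algebra.adjoin ↥(GaloisRep.ratLocalizedAt ℓ) {t})) (hy : (y : A) = aeval t b) :
    ¬ ((ℓ : ℕ) : ↥(Algebra.adjoin ↥(GaloisRep.ratLocalizedAt ℓ) {t})) ∣ y := by
  intro hdvd
  apply hb
  have hy' : (y : A) =
      aeval t (b.map (Int.castRingHom ↥(GaloisRep.ratLocalizedAt ℓ))) := by
    rw [hy, ← algebraMap_int_eq, aeval_map_algebraMap]
  have h := (natCast_dvd_aeval_adjoin_iff ht _ y hy').mp hdvd
  ext i
  rw [coeff_map, coeff_zero, eq_intCast, ZMod.intCast_zmod_eq_zero_iff_dvd]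
  have hi := h i
  rw [coeff_map, eq_intCast, ratLocalizedAt_natCast_dvd_intCast_iff] at hi
  exact hi

end Adjoin

section Igusa

open ModularCurve ModularCurve.IgusaScheme

variable (N : ℕ) [NeZero N] (ℓ : ℕ) [Fact ℓ.Prime]

/-- The structure map `ℤ_(ℓ) → F ⊂ ℚ((q))` is the constant-series map. -/
theorem coe_algebraMap_igusa (a : ↥(GaloisRep.ratLocalizedAt ℓ)) :
    ((algebraMap ↥(GaloisRep.ratLocalizedAt ℓ) ↥(modularFunctionFieldFull N) a :
      ↥(modularFunctionFieldFull N)) : LaurentSeries ℚ) =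
      (algebraMap ℚ (LaurentSeries ℚ)) (a : ℚ) := by
  rw [IsScalarTower.algebraMap_apply ↥(GaloisRep.ratLocalizedAt ℓ) ℚ
      ↥(modularFunctionFieldFull N),
    eq_ratCast (algebraMap ℚ ↥(modularFunctionFieldFull N)),
    eq_ratCast (algebraMap ℚ (LaurentSeries ℚ))]
  exact map_ratCast (modularFunctionFieldFull N).val _

/-- Evaluating `p ∈ ℤ_(ℓ)[X]` at `j` inside the function field is evaluating `p` at the
`q`-series `j`. -/
theorem coe_aeval_jFull (p : Polynomial ↥(GaloisRep.ratLocalizedAt ℓ)) :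
    ((aeval (jFull N) p : ↥(modularFunctionFieldFull N)) : LaurentSeries ℚ) =
      evalJ ℚ (jqModC ℚ) (p.map (algebraMap ↥(GaloisRep.ratLocalizedAt ℓ) ℚ)) := by
  have h : ((modularFunctionFieldFull N).val :
        ↥(modularFunctionFieldFull N) →+* LaurentSeries ℚ).comp
      (aeval (jFull N) : Polynomial ↥(GaloisRep.ratLocalizedAt ℓ) →ₐ[_] _).toRingHom =
      (evalJ ℚ (jqModC ℚ)).comp
        (mapRingHom (algebraMap ↥(GaloisRep.ratLocalizedAt ℓ) ℚ)) := by
    apply Polynomial.ringHom_ext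
    · intro a
      simp only [evalJ, AlgHom.toRingHom_eq_coe, RingHom.coe_comp, RingHom.coe_coe,
        Function.comp_apply, aeval_C, coe_mapRingHom, map_C]
      exact coe_algebraMap_igusa N ℓ a
    · simp only [evalJ, AlgHom.toRingHom_eq_coe, RingHom.coe_comp, RingHom.coe_coe,
        Function.comp_apply, aeval_X, coe_mapRingHom, map_X]
      rfl
  exact congrArg (fun f => f p) h

/-- `j` is transcendental over `ℤ_(ℓ)` in the modular function field. -/
theorem transcendental_jFull :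
    Transcendental ↥(GaloisRep.ratLocalizedAt ℓ) (jFull N) := by
  rw [transcendental_iff]
  intro p hp
  have h1 := coe_aeval_jFull N ℓ p
  rw [hp] at h1
  have h2 : p.map (algebraMap ↥(GaloisRep.ratLocalizedAt ℓ) ℚ) = 0 :=
    evalJ_injective_jqModC ℚ (by rw [← h1, map_zero]; rfl)
  exact (Polynomial.map_eq_zero_iff Subtype.val_injective).mp h2

/-- `1/j` is transcendental over `ℤ_(ℓ)` in the modular function field. -/
theorem transcendental_jFull_inv :
    Transcendental ↥(GaloisRep.ratLocalizedAt ℓ) (jFull N)⁻¹ := by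
  intro h
  have h' := h.inv
  rw [inv_inv] at h'
  exact transcendental_jFull N ℓ h'

/-- Every `t ∈ {j, 1/j}` is transcendental over `ℤ_(ℓ)`. -/
theorem transcendental_of_mem_pair {t : ↥(modularFunctionFieldFull N)}
    (ht : t ∈ ({jFull N, (jFull N)⁻¹} : Set ↥(modularFunctionFieldFull N))) :
    Transcendental ↥(GaloisRep.ratLocalizedAt ℓ) t := by
  rcases ht with rfl | ht
  · exact transcendental_jFull N ℓ
  · rw [Set.mem_singleton_iff] at ht
    rw [ht]
    exact transcendental_jFull_inv N ℓ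

/-- `ℤ_(ℓ)[t]` is integrally closed for `t ∈ {j, 1/j}`. -/
theorem isIntegrallyClosed_adjoin_of_mem_pair {t : ↥(modularFunctionFieldFull N)}
    (ht : t ∈ ({jFull N, (jFull N)⁻¹} : Set ↥(modularFunctionFieldFull N))) :
    IsIntegrallyClosed ↥(Algebra.adjoin ↥(GaloisRep.ratLocalizedAt ℓ) {t}) :=
  isIntegrallyClosed_adjoin_of_transcendental (transcendental_of_mem_pair N ℓ ht)

/-- `ℓ` is prime in `ℤ_(ℓ)[t]` for `t ∈ {j, 1/j}`. -/
theorem prime_natCast_adjoin_of_mem_pair {t : ↥(modularFunctionFieldFull N)}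
    (ht : t ∈ ({jFull N, (jFull N)⁻¹} : Set ↥(modularFunctionFieldFull N))) :
    Prime ((ℓ : ℕ) : ↥(Algebra.adjoin ↥(GaloisRep.ratLocalizedAt ℓ) {t})) :=
  prime_natCast_adjoin_of_transcendental (transcendental_of_mem_pair N ℓ ht)

end Igusa

end Fermat.Agent.S28lib
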