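import Mathlib

/-!
# S28 library: an integrality lemma over integrally closed domains

Let `D` be an integrally closed domain, `l` a prime element of `D` and `b ∈ D` not divisible by `l`.
If `h` lies in a field `F ⊇ D` and both `l • h` and `b • h` are integral over `D`, then `h` is
integral over `D`.  (The coefficients `c_i` of the minimal polynomial of `h` over `Frac D` satisfy
`l^(n-i) c_i ∈ D` and `b^(n-i) c_i ∈ D`, hence `c_i ∈ D`.)
-/

set_option autoImplicit false

noncomputable section

open Polynomial

namespace Fermat.Agent.S28lib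

section

variable {D K F : Type*} [CommRing D] [IsDomain D] [IsIntegrallyClosed D]
  [Field K] [Algebra D K] [IsFractionRing D K] [Field F] [Algebra D F] [Algebra K F]
  [IsScalarTower D K F]

/-- If `a • h` is integral over the integrally closed domain `D` (`a ≠ 0`), the coefficients of
the minimal polynomial `μ` of `h` over `K = Frac D` satisfy `μ_i * a^(deg μ - i) ∈ D`. -/
theorem coeff_minpoly_mul_pow_mem {a : D} (ha : a ≠ 0) {h : F} (hK : IsIntegral K h)
    (hint : IsIntegral D (a • h)) (i : ℕ) :
    ∃ d : D, algebraMap D K d =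
      (minpoly K h).coeff i * (algebraMap D K a) ^ ((minpoly K h).natDegree - i) := by
  set μ := minpoly K h with hμ
  set a' := algebraMap D K a with ha'
  have ha'0 : a' ≠ 0 := by
    rw [ha', Ne, map_eq_zero_iff _ (IsFractionRing.injective D K)]
    exact ha
  have hsmul : a • h = algebraMap K F a' * h := by
    rw [Algebra.smul_def, IsScalarTower.algebraMap_apply D K F]
  have hμmonic : μ.Monic := minpoly.monic hK
  set Q := μ.scaleRoots a' with hQ
  have hQmonic : Q.Monic := (monic_scaleRoots_iff a').mpr hμmonic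
  have hQroot : aeval (a • h) Q = 0 := by
    rw [hsmul]
    exact scaleRoots_aeval_eq_zero (minpoly.aeval K h)
  have hKa : IsIntegral K (a • h) := hint.tower_top
  set ν := minpoly K (a • h) with hν
  have hνmonic : ν.Monic := minpoly.monic hKa
  have hdvd : ν ∣ Q := minpoly.dvd K _ hQroot
  -- reverse degree inequality
  have hrev : μ ∣ ν.scaleRoots a'⁻¹ := by
    apply minpoly.dvd K h
    have h1 := scaleRoots_aeval_eq_zero (r := a'⁻¹) (minpoly.aeval K (a • h))
    have h2 : algebraMap K F a'⁻¹ * (a • h) = h := by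
      rw [hsmul, ← mul_assoc, ← map_mul, inv_mul_cancel₀ ha'0, map_one, one_mul]
    rwa [h2] at h1
  have hdeg : Q.natDegree ≤ ν.natDegree := by
    rw [hQ, natDegree_scaleRoots]
    have h1 := natDegree_le_of_dvd hrev
      ((monic_scaleRoots_iff a'⁻¹).mpr hνmonic).ne_zero
    rwa [natDegree_scaleRoots] at h1
  have hQν : Q = ν := eq_of_monic_of_dvd_of_natDegree_le hνmonic hQmonic hdvd hdeg
  have hνD : ν = (minpoly D (a • h)).map (algebraMap D K) :=
    minpoly.isIntegrallyClosed_eq_field_fractions' K hint
  refine ⟨(minpoly D (a • h)).coeff i, ?_⟩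
  rw [← coeff_map, ← hνD, ← hQν, hQ, coeff_scaleRoots]

variable (K) in
include K in
/-- The integrality lemma, with an explicit fraction field `K`. -/
theorem isIntegral_of_isIntegral_smul_of_prime' {l b : D} (hl : Prime l) (hb : ¬ l ∣ b) {h : F}
    (h1 : IsIntegral D (l • h)) (h2 : IsIntegral D (b • h)) : IsIntegral D h := by
  have hl0 : l ≠ 0 := hl.ne_zero
  have hb0 : b ≠ 0 := fun h0 => hb (h0 ▸ dvd_zero l)
  set l' := algebraMap D K l with hl'
  have hl'0 : l' ≠ 0 := by
    rw [hl', Ne, map_eq_zero_iff _ (IsFractionRing.injective D K)]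
    exact hl0
  -- `h` is algebraic over `K`
  have hK : IsIntegral K h := by
    have h3 : IsIntegral K (l • h) := h1.tower_top
    have h4 : h = algebraMap K F l'⁻¹ * (l • h) := by
      rw [Algebra.smul_def, IsScalarTower.algebraMap_apply D K F, ← mul_assoc, ← map_mul,
        inv_mul_cancel₀ hl'0, map_one, one_mul]
    rw [h4]
    exact isIntegral_algebraMap.mul h3
  set μ := minpoly K h with hμ
  have hμmonic : μ.Monic := minpoly.monic hK
  -- all coefficients of `μ` lie in `D`
  have hcoeff : ∀ i, ∃ d : D, algebraMap D K d = μ.coeff i := by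
    intro i
    obtain ⟨x, hx⟩ := coeff_minpoly_mul_pow_mem (K := K) hl0 hK h1 i
    obtain ⟨y, hy⟩ := coeff_minpoly_mul_pow_mem (K := K) hb0 hK h2 i
    set r := μ.natDegree - i with hr
    have hxy : b ^ r * x = l ^ r * y := by
      apply IsFractionRing.injective D K
      rw [map_mul, map_mul, map_pow, map_pow, hx, hy]
      ring
    have hnd : ¬ l ∣ b ^ r := fun hd => hb (hl.dvd_of_dvd_pow hd)
    have hdvd : l ^ r ∣ x := hl.pow_dvd_of_dvd_mul_left r hnd ⟨y, hxy⟩
    obtain ⟨x', rfl⟩ := hdvd
    refine ⟨x', ?_⟩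
    rw [map_mul, map_pow] at hx
    have hpow : (algebraMap D K l) ^ r ≠ 0 := pow_ne_zero _ hl'0
    apply mul_left_cancel₀ hpow
    rw [hx, mul_comm]
  have hlifts : μ ∈ Polynomial.lifts (algebraMap D K) :=
    (Polynomial.lifts_iff_coeff_lifts μ).mpr fun i => by
      obtain ⟨d, hd⟩ := hcoeff i
      exact ⟨d, hd⟩
  obtain ⟨P, hPμ, -, hPmonic⟩ := Polynomial.lifts_and_natDegree_eq_and_monic hlifts hμmonic
  refine ⟨P, hPmonic, ?_⟩
  have h5 : aeval h (P.map (algebraMap D K)) = 0 := by rw [hPμ]; exact minpoly.aeval K h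
  rwa [aeval_map_algebraMap, aeval_def] at h5

end

/-- The integrality lemma: `D` an integrally closed domain inside a field `F`, `l` prime in `D`,
`l ∤ b`, `l • h` and `b • h` integral over `D` ⇒ `h` integral over `D`. -/
theorem isIntegral_of_isIntegral_smul_of_prime {D F : Type*} [CommRing D] [IsDomain D]
    [IsIntegrallyClosed D] [Field F] [Algebra D F] [FaithfulSMul D F] {l b : D} (hl : Prime l)
    (hb : ¬ l ∣ b) {h : F} (h1 : IsIntegral D (l • h)) (h2 : IsIntegral D (b • h)) :
    IsIntegral D h := by
  let _ : Algebra (FractionRing D) F := FractionRing.liftAlgebra D F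
  have : IsScalarTower D (FractionRing D) F := FractionRing.isScalarTower_liftAlgebra D F
  exact isIntegral_of_isIntegral_smul_of_prime' (FractionRing D) hl hb h1 h2

end Fermat.Agent.S28lib
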