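import Mathlib
import Fermat.Prelude.Def_ModularCurve_IgusaScheme
import Fermat.Agent.S28lib.RedRing
import Fermat.Agent.S28lib.IntegralCoprime
import Fermat.Agent.S28lib.AdjoinPoly

/-!
# S28 library, brick V: generic wrappers for the chart reductions

* `phiOfMem`: if every element of the chart `chartAlg N ℓ S` lies in the reduction ring, the
  composite `chartAlg N ℓ S → redRing ℓ → 𝔽_ℓ((q))` is a ring homomorphism.
* `ker_phiOfMem`: its kernel is `(ℓ)` as soon as every element killed by the reduction is `ℓ` times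
  an element of the chart.
* `mem_chartAlg_of_mul_mem`: the integrality lemma (`IntegralCoprime`) in the chart spelling, for
  the charts `S = {t}`, `t ∈ {j, 1/j}`.
-/

set_option autoImplicit false

noncomputable section

open ModularCurve ModularCurve.IgusaScheme HahnSeries Polynomial

namespace Fermat.Agent.S28lib

open Red

variable (N : ℕ) [NeZero N] (ℓ : ℕ) [hℓ : Fact ℓ.Prime]

/-- The ring hom `chartAlg N ℓ S → ℚ((q))`. -/
def chartToLaurent (S : Set ↥(modularFunctionFieldFull N)) :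
    ↥(chartAlg N ℓ S) →+* LaurentSeries ℚ :=
  ((modularFunctionFieldFull N).val : ↥(modularFunctionFieldFull N) →+* LaurentSeries ℚ).comp
    ((chartAlg N ℓ S).val : ↥(chartAlg N ℓ S) →+* ↥(modularFunctionFieldFull N))

omit [NeZero N] hℓ in
@[simp] theorem chartToLaurent_apply (S : Set ↥(modularFunctionFieldFull N))
    (y : ↥(chartAlg N ℓ S)) :
    chartToLaurent N ℓ S y = ((y : ↥(modularFunctionFieldFull N)) : LaurentSeries ℚ) := rfl

/-- The reduction map of a chart all of whose elements lie in the reduction ring. -/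
def phiOfMem (S : Set ↥(modularFunctionFieldFull N))
    (hmem : ∀ y : ↥(modularFunctionFieldFull N), y ∈ chartAlg N ℓ S →
      (y : LaurentSeries ℚ) ∈ redRing ℓ) :
    ↥(chartAlg N ℓ S) →+* LaurentSeries (ZMod ℓ) :=
  (redHom ℓ).comp ((chartToLaurent N ℓ S).codRestrict (redRing ℓ) fun y => hmem y y.2)

omit [NeZero N] in
theorem phiOfMem_apply (S : Set ↥(modularFunctionFieldFull N))
    (hmem : ∀ y : ↥(modularFunctionFieldFull N), y ∈ chartAlg N ℓ S →
      (y : LaurentSeries ℚ) ∈ redRing ℓ) (y : ↥(chartAlg N ℓ S)) :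
    phiOfMem N ℓ S hmem y =
      redHom ℓ ⟨((y : ↥(modularFunctionFieldFull N)) : LaurentSeries ℚ), hmem y y.2⟩ := rfl

omit [NeZero N] in
/-- The kernel of `phiOfMem` is `(ℓ)` provided the chart is "saturated" for the reduction. -/
theorem ker_phiOfMem (S : Set ↥(modularFunctionFieldFull N))
    (hmem : ∀ y : ↥(modularFunctionFieldFull N), y ∈ chartAlg N ℓ S →
      (y : LaurentSeries ℚ) ∈ redRing ℓ)
    (hker : ∀ (y : ↥(modularFunctionFieldFull N)) (hy : y ∈ chartAlg N ℓ S),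
      redHom ℓ ⟨(y : LaurentSeries ℚ), hmem y hy⟩ = 0 →
        ∃ y' ∈ chartAlg N ℓ S, y = ((ℓ : ℕ) : ↥(modularFunctionFieldFull N)) * y') :
    RingHom.ker (phiOfMem N ℓ S hmem) = Ideal.span {((ℓ : ℕ) : ↥(chartAlg N ℓ S))} := by
  ext y
  rw [RingHom.mem_ker, Ideal.mem_span_singleton']
  constructor
  · intro h
    obtain ⟨y', hy', hyy'⟩ := hker y y.2 h
    refine ⟨⟨y', hy'⟩, Subtype.ext ?_⟩
    have hcast : (((ℓ : ℕ) : ↥(chartAlg N ℓ S)) : ↥(modularFunctionFieldFull N)) =
        ((ℓ : ℕ) : ↥(modularFunctionFieldFull N)) := map_natCast (chartAlg N ℓ S).val ℓ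
    rw [Subalgebra.coe_mul, hcast, hyy', mul_comm]
  · rintro ⟨a, rfl⟩
    rw [map_mul, map_natCast]
    have : ((ℓ : ℕ) : LaurentSeries (ZMod ℓ)) = 0 := by
      rw [← map_natCast (HahnSeries.C : ZMod ℓ →+* LaurentSeries (ZMod ℓ)), ZMod.natCast_self,
        map_zero]
    rw [this, mul_zero]

/-- The integrality lemma in the chart spelling: for `t ∈ {j, 1/j}`, if `ℓ y'` and `b y'` lie in
the chart `chartAlg N ℓ {t}` with `b ∈ ℤ_(ℓ)[t]` not divisible by `ℓ`, then `y'` lies in the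
chart. -/
theorem mem_chartAlg_of_mul_mem {t : ↥(modularFunctionFieldFull N)}
    (ht : t ∈ ({jFull N, (jFull N)⁻¹} : Set ↥(modularFunctionFieldFull N)))
    (y' : ↥(modularFunctionFieldFull N))
    (h1 : ((ℓ : ℕ) : ↥(modularFunctionFieldFull N)) * y' ∈ chartAlg N ℓ {t})
    (b : ↥(Algebra.adjoin ↥(GaloisRep.ratLocalizedAt ℓ) {t}))
    (hb : ¬ ((ℓ : ℕ) : ↥(Algebra.adjoin ↥(GaloisRep.ratLocalizedAt ℓ) {t})) ∣ b)
    (h2 : (b : ↥(modularFunctionFieldFull N)) * y' ∈ chartAlg N ℓ {t}) :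
    y' ∈ chartAlg N ℓ {t} := by
  rw [mem_chartAlg_iff] at h1 h2 ⊢
  have := isIntegrallyClosed_adjoin_of_mem_pair N ℓ ht
  refine isIntegral_of_isIntegral_smul_of_prime (prime_natCast_adjoin_of_mem_pair N ℓ ht) hb ?_ ?_
  · have : ((ℓ : ℕ) : ↥(Algebra.adjoin ↥(GaloisRep.ratLocalizedAt ℓ) {t})) • y' =
        ((ℓ : ℕ) : ↥(modularFunctionFieldFull N)) * y' := by
      rw [Algebra.smul_def]
      rfl
    rw [this]; exact h1
  · have : b • y' = (b : ↥(modularFunctionFieldFull N)) * y' := by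
      rw [Algebra.smul_def]
      rfl
    rw [this]; exact h2

end Fermat.Agent.S28lib
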