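import Mathlib

set_option autoImplicit false
noncomputable section

namespace Fermat.Agent.S28lib.ContentNorm

open Polynomial

/-- A common denominator for the coefficients of a rational polynomial. -/
lemma exists_den_poly (p : ℚ[X]) : ∃ d : ℕ, d ≠ 0 ∧ ∀ n, ∃ z : ℤ, (d : ℚ) * p.coeff n = z := by
  classical
  refine ⟨∏ n ∈ p.support, (p.coeff n).den, ?_, ?_⟩
  · exact Finset.prod_ne_zero_iff.mpr fun n _ => (p.coeff n).den_nz
  · intro n
    by_cases hn : n ∈ p.support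
    · refine ⟨(∏ m ∈ p.support.erase n, (p.coeff m).den : ℕ) * (p.coeff n).num, ?_⟩
      rw [← Finset.mul_prod_erase _ _ hn]
      push_cast
      rw [mul_comm ((p.coeff n).den : ℚ), mul_assoc, Rat.den_mul_eq_num]
    · exact ⟨0, by rw [Polynomial.notMem_support_iff.mp hn]; simp⟩

/-- A common denominator for a finite family of rational polynomials. -/
lemma exists_den_family {ι : Type*} [Fintype ι] (P : ι → ℚ[X]) :
    ∃ D : ℕ, D ≠ 0 ∧ ∃ R : ι → ℤ[X], ∀ i, (R i).map (Int.castRingHom ℚ) = C (D : ℚ) * P i := by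
  classical
  choose d hd0 hd using fun i => exists_den_poly (P i)
  refine ⟨∏ i, d i, Finset.prod_ne_zero_iff.mpr fun i _ => hd0 i, ?_⟩
  have hlift : ∀ i, C ((∏ j, d j : ℕ) : ℚ) * P i ∈ Polynomial.lifts (Int.castRingHom ℚ) := by
    intro i
    rw [Polynomial.lifts_iff_coeff_lifts]
    intro n
    obtain ⟨z, hz⟩ := hd i n
    refine ⟨(∏ j ∈ Finset.univ.erase i, d j : ℕ) * z, ?_⟩
    rw [Polynomial.coeff_C_mul, ← Finset.mul_prod_erase _ _ (Finset.mem_univ i), eq_intCast]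
    push_cast
    rw [← hz]
    ring
  choose R hR using fun i => (Polynomial.mem_lifts _).mp (hlift i)
  exact ⟨R, hR⟩

variable (ℓ : ℕ) [Fact ℓ.Prime]

lemma map_zmod_ne_zero_iff (Q : ℤ[X]) :
    Q.map (Int.castRingHom (ZMod ℓ)) ≠ 0 ↔ ∃ n, ¬ (ℓ : ℤ) ∣ Q.coeff n := by
  rw [Ne, Polynomial.ext_iff, not_forall]
  refine exists_congr fun n => ?_
  rw [Polynomial.coeff_map, Polynomial.coeff_zero, eq_intCast, ZMod.intCast_zmod_eq_zero_iff_dvd]

/-- Dividing a nonzero family of integer polynomials by the exact power of `ℓ`. -/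
lemma exists_prim_family {ι : Type*} (R : ι → ℤ[X]) (i₀ : ι) (n₀ : ℕ) :
    ∀ (a : ℕ), ((R i₀).coeff n₀).natAbs = a → a ≠ 0 →
    ∃ (v : ℕ) (Q : ι → ℤ[X]), (∀ i, R i = C ((ℓ : ℤ) ^ v) * Q i) ∧
      ∃ i, (Q i).map (Int.castRingHom (ZMod ℓ)) ≠ 0 := by
  intro a
  induction a using Nat.strong_induction_on generalizing R with
  | _ a ih =>
    intro ha ha0
    by_cases hall : ∀ i n, (ℓ : ℤ) ∣ (R i).coeff n
    · have hdvd : ∀ i, C (ℓ : ℤ) ∣ R i := fun i => (Polynomial.C_dvd_iff_dvd_coeff _ _).mpr (hall i)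
      choose R' hR' using hdvd
      have hℓ : (ℓ : ℤ) ≠ 0 := by exact_mod_cast (Fact.out : ℓ.Prime).ne_zero
      have hcoef : (R i₀).coeff n₀ = (ℓ : ℤ) * (R' i₀).coeff n₀ := by
        rw [hR' i₀, Polynomial.coeff_C_mul]
      have hne : (R' i₀).coeff n₀ ≠ 0 := by
        intro h0
        rw [h0, mul_zero] at hcoef
        rw [hcoef] at ha
        exact ha0 (by simpa using ha.symm)
      have hlt : ((R' i₀).coeff n₀).natAbs < a := by
        rw [← ha, hcoef, Int.natAbs_mul, Int.natAbs_natCast]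
        have h1 : 1 < ℓ := (Fact.out : ℓ.Prime).one_lt
        have h2 : 0 < ((R' i₀).coeff n₀).natAbs := Int.natAbs_pos.mpr hne
        nlinarith
      obtain ⟨v, Q, hQ, hi⟩ := ih _ hlt R' rfl (Int.natAbs_ne_zero.mpr hne)
      refine ⟨v + 1, Q, fun i => ?_, hi⟩
      rw [hR' i, hQ i, pow_succ, map_mul, map_pow]
      ring
    · push Not at hall
      obtain ⟨i, n, hn⟩ := hall
      refine ⟨0, R, fun i => by simp, i, (map_zmod_ne_zero_iff ℓ _).mpr ⟨n, hn⟩⟩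

/-- **Content normalisation.** A nonzero finite family of rational polynomials can be rescaled by
a nonzero rational to a family of integer polynomials not all divisible by `ℓ`. -/
theorem exists_int_normalisation {ι : Type*} [Fintype ι] (P : ι → ℚ[X]) (hP : P ≠ 0) :
    ∃ (c : ℚ) (Q : ι → ℤ[X]), c ≠ 0 ∧ (∀ i, (Q i).map (Int.castRingHom ℚ) = C c * P i) ∧
      ∃ i, (Q i).map (Int.castRingHom (ZMod ℓ)) ≠ 0 := by
  obtain ⟨D, hD0, R, hR⟩ := exists_den_family P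
  have hD0' : (D : ℚ) ≠ 0 := by exact_mod_cast hD0
  -- a nonzero coefficient
  obtain ⟨i₀, hi₀⟩ : ∃ i, P i ≠ 0 := by
    by_contra h
    push Not at h
    exact hP (funext h)
  obtain ⟨n₀, hn₀⟩ : ∃ n, (P i₀).coeff n ≠ 0 := by
    by_contra h
    push Not at h
    exact hi₀ (Polynomial.ext h)
  have hRne : (R i₀).coeff n₀ ≠ 0 := by
    intro h0
    have := congrArg (fun p => p.coeff n₀) (hR i₀)
    simp only [Polynomial.coeff_map, Polynomial.coeff_C_mul, h0, map_zero] at this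
    exact hn₀ ((mul_eq_zero.mp this.symm).resolve_left hD0')
  obtain ⟨v, Q, hQ, hi⟩ := exists_prim_family ℓ R i₀ n₀ _ rfl (Int.natAbs_ne_zero.mpr hRne)
  have hℓ : ((ℓ : ℚ)) ^ v ≠ 0 := pow_ne_zero _ (by exact_mod_cast (Fact.out : ℓ.Prime).ne_zero)
  refine ⟨(D : ℚ) / (ℓ : ℚ) ^ v, Q, div_ne_zero hD0' hℓ, fun i => ?_, hi⟩
  have h1 := hR i
  rw [hQ i, Polynomial.map_mul, Polynomial.map_C] at h1
  have h2 : C ((ℓ : ℚ) ^ v) * ((Q i).map (Int.castRingHom ℚ)) = C (D : ℚ) * P i := by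
    rw [← h1]; simp
  have h3 : (C ((ℓ : ℚ) ^ v) : ℚ[X]) * C (((ℓ : ℚ) ^ v)⁻¹) = 1 := by
    rw [← map_mul, mul_inv_cancel₀ hℓ, map_one]
  calc (Q i).map (Int.castRingHom ℚ)
      = C (((ℓ : ℚ) ^ v)⁻¹) * (C ((ℓ : ℚ) ^ v) * (Q i).map (Int.castRingHom ℚ)) := by
        rw [← mul_assoc, mul_comm (C (((ℓ : ℚ) ^ v)⁻¹)), h3, one_mul]
    _ = C ((D : ℚ) / (ℓ : ℚ) ^ v) * P i := by
        rw [h2, ← mul_assoc, ← map_mul, div_eq_mul_inv, mul_comm ((D : ℚ))]

end Fermat.Agent.S28lib.ContentNorm
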