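/-
S28 (Igusa), brick V-c: integer polynomial expressions in the `j(q^d)`, `d ∣ N`, are integral over
`ℤ[j(q)]` (given the integrality of each `j(q^d)`).
-/
import Mathlib
import Fermat.Agent.S28lib.Defs

set_option autoImplicit false

noncomputable section

namespace Fermat.Agent.S28lib

open ModularCurve HahnSeries

/-- **V-c.** If every `j(q^d)`, `d ∣ N`, is integral over a subring-like base `A`, then so is every
integer polynomial expression in them. -/
theorem isIntegral_evalDiv {R : Type*} [CommRing R] {A : Type*} [CommRing A]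
    [Algebra A (LaurentSeries R)] (N : ℕ)
    (hint : ∀ d, d ∣ N → IsIntegral A (jAt R d))
    (x : MvPolynomial ℕ ℤ) (hx : ∀ d ∈ x.vars, d ∣ N) :
    IsIntegral A (evalDiv R x) := by
  have h : evalDiv R x = ∑ m ∈ x.support,
      (Int.castRingHom (LaurentSeries R)) (x.coeff m) * ∏ i ∈ m.support, jAt R i ^ m i := by
    simp only [evalDiv, MvPolynomial.coe_eval₂Hom]
    exact MvPolynomial.eval₂_eq _ _ _
  rw [h]
  refine IsIntegral.sum _ fun m hm => ?_
  refine IsIntegral.mul ?_ ?_
  · rw [eq_intCast]
    exact (isIntegral_intCast (R := A) (B := LaurentSeries R) (x.coeff m))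
  · refine IsIntegral.prod _ fun i hi => ?_
    refine IsIntegral.pow (hint i (hx i ?_)) _
    rw [MvPolynomial.mem_vars_iff_mem_support]
    exact ⟨m, hm, hi⟩

end Fermat.Agent.S28lib
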