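/-
S28 (Igusa), brick V-c (chart form): integer polynomial expressions in the `j(q^d)`, `d ∣ N`, are
elements of the function field `F = modularFunctionFieldFull N` integral over `ℤ_(ℓ)[j]`.
-/
import Mathlib
import Fermat.Prelude.Def_ModularCurve_IgusaScheme
import Fermat.Agent.S28lib.Defs
import Fermat.Agent.S28lib.JIntegral
import Fermat.Agent.S28lib.EvalDivIntegral
import Fermat.Agent.S28lib.Representation

set_option autoImplicit false

noncomputable section

namespace Fermat.Agent.S28lib

open ModularCurve ModularCurve.IgusaScheme HahnSeries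

/-- Integrality over `ℤ[t]` implies integrality over `R[t]` for any base ring `R`. -/
theorem isIntegral_adjoin_of_isIntegral_adjoin_int {F : Type*} [CommRing F] [Algebra ℤ F]
    {R : Type*} [CommRing R] [Algebra R F] (t x : F)
    (h : IsIntegral (Algebra.adjoin ℤ {t}) x) : IsIntegral (Algebra.adjoin R {t}) x := by
  obtain ⟨Ψ, hΨ, hx⟩ := exists_poly_of_isIntegral_adjoin_singleton t x h
  refine isIntegral_of_monic_of_coeff_isIntegral (Ψ.map (evalZ t)) (hΨ.map _) ?_ ?_
  · intro i
    rw [Polynomial.coeff_map]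
    have hmem : ∀ q : Polynomial ℤ, evalZ t q ∈ Algebra.adjoin R {t} := by
      intro q
      have ht : t ∈ Algebra.adjoin R {t} := Algebra.subset_adjoin (Set.mem_singleton t)
      induction q using Polynomial.induction_on' with
      | add p q hp hq => rw [map_add]; exact add_mem hp hq
      | monomial n a =>
        rw [← Polynomial.C_mul_X_pow_eq_monomial, map_mul, map_pow, evalZ_X, evalZ_C]
        exact Subalgebra.mul_mem _ (intCast_mem _ a) (Subalgebra.pow_mem _ ht n)
    exact isIntegral_algebraMap (x := (⟨evalZ t (Ψ.coeff i), hmem _⟩ : Algebra.adjoin R {t}))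
  · rw [Polynomial.eval_map]; exact hx

variable (N : ℕ) [NeZero N] (ℓ : ℕ)

/-- **V-c, chart form.** `evalDiv ℚ x` lies in the function field and is integral over
`ℤ_(ℓ)[j]` there. -/
theorem evalDiv_isIntegral_chart
    (hint : ∀ d, d ∣ N → IsIntegral (Algebra.adjoin ℤ {jqModC ℚ}) (jAt ℚ d))
    (x : MvPolynomial ℕ ℤ) (hx : ∀ d ∈ x.vars, d ∣ N) :
    ∃ hmem : evalDiv ℚ x ∈ modularFunctionFieldFull N,
      IsIntegral ↥(Algebra.adjoin ↥(GaloisRep.ratLocalizedAt ℓ) {jFull N})
        (⟨evalDiv ℚ x, hmem⟩ : ↥(modularFunctionFieldFull N)) := by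
  refine ⟨evalDiv_mem_full N x hx, ?_⟩
  apply isIntegral_adjoin_of_isIntegral_adjoin_int
  -- descend along the inclusion `F → ℚ((q))`
  refine isIntegral_adjoin_singleton_of_map
    (SubringClass.subtype (modularFunctionFieldFull N)) Subtype.val_injective ?_
  have h := isIntegral_evalDiv (R := ℚ) N hint x hx
  have hj : (SubringClass.subtype (modularFunctionFieldFull N)) (jFull N) = jqModC ℚ := by
    rw [jqModC_rat]; rfl
  rw [hj]
  exact h

end Fermat.Agent.S28lib
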