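/-
S28 (Igusa), brick C, last step (helper7): extraction of independent monomials.

Whatever the shape of the tower argument, it ends with `n = ψ(N)` elements of the algebra
generated over `F ≅ k(j)` by the `j(q^d)`, `d ∣ N` (possibly after the substitution `q ↦ u^m`),
which are linearly independent over `F`.  Here we turn this into the statement
`exists_independent_monomials` used by the assembly: there are `n` monomials in the
`j(q^d)` which are linearly independent over `k[j]`.

* `exists_subfamily_linearIndependent` : `n` independent vectors in `span T` ⇒ `n` independent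
  vectors taken from `T`.
* `exists_monomials_linearIndependent` : `n` independent elements of
  `Algebra.adjoin F {ev (X d) | d ∈ D}` ⇒ `n` independent `ev (monomial)`.
* finrank / intermediate field variants.
* `exists_independent_monomials_of_linearIndependent` (general `m`, `u = q^{1/m}`) and
  `exists_independent_monomials_of_linearIndependent_one` (`m = 1`) and the finrank forms.
-/
import Mathlib
import Fermat.Agent.S28lib.Defs
import Fermat.Agent.S28lib.Series

set_option autoImplicit false

noncomputable section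

open ModularCurve Cardinal

namespace Fermat.Agent.S28lib.Extract

/-! ### Linear algebra: extraction from a spanning set -/

section LinearAlgebra

variable {F V : Type*} [DivisionRing F] [AddCommGroup V] [Module F V]

/-- `n` linearly independent vectors in the span of `T` ⇒ `n` linearly independent vectors
chosen from `T`. -/
theorem exists_subfamily_linearIndependent (T : Set V) (n : ℕ) (y : Fin n → V)
    (hy : LinearIndependent F y) (hmem : ∀ i, y i ∈ Submodule.span F T) :
    ∃ z : Fin n → V, (∀ i, z i ∈ T) ∧ LinearIndependent F z := by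
  obtain ⟨b, hbT, hspan, hli⟩ := exists_linearIndependent F T
  -- `y` as a family in `W = span b`
  have hmem' : ∀ i, y i ∈ Submodule.span F b := fun i => hspan ▸ hmem i
  let y' : Fin n → Submodule.span F b := fun i => ⟨y i, hmem' i⟩
  have hy' : LinearIndependent F y' := by
    refine LinearIndependent.of_comp (Submodule.span F b).subtype ?_
    exact hy
  have h1 := hy'.cardinal_lift_le_rank
  have h2 : Module.rank F (Submodule.span F b) = #b := rank_span_set hli
  rw [h2] at h1
  obtain ⟨e⟩ := Cardinal.lift_mk_le'.mp h1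
  refine ⟨fun i => (e i : V), fun i => hbT (e i).2, ?_⟩
  exact hli.comp e e.injective

end LinearAlgebra

/-! ### Monomials -/

section Monomials

variable {L : Type*} [CommRing L]

/-- every element of the multiplicative closure of the `ev (X d)`, `d ∈ D`, is `ev` of a
polynomial all of whose variables lie in `D`. -/
theorem exists_of_mem_closure (ev : MvPolynomial ℕ ℤ →+* L) (D : Set ℕ) {z : L}
    (hz : z ∈ Submonoid.closure ((fun d => ev (MvPolynomial.X d)) '' D)) :
    ∃ x : MvPolynomial ℕ ℤ, (∀ d ∈ x.vars, d ∈ D) ∧ ev x = z := by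
  induction hz using Submonoid.closure_induction with
  | mem z hz =>
    obtain ⟨d, hd, rfl⟩ := hz
    refine ⟨MvPolynomial.X d, ?_, rfl⟩
    intro d' hd'
    rw [MvPolynomial.vars_X, Finset.mem_singleton] at hd'
    exact hd' ▸ hd
  | one =>
    refine ⟨1, ?_, map_one ev⟩
    intro d hd
    simp at hd
  | mul a b _ _ iha ihb =>
    obtain ⟨xa, hxa, rfl⟩ := iha
    obtain ⟨xb, hxb, rfl⟩ := ihb
    refine ⟨xa * xb, ?_, map_mul ev xa xb⟩
    intro d hd
    rcases Finset.mem_union.mp (MvPolynomial.vars_mul xa xb hd) with h | h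
    · exact hxa d h
    · exact hxb d h

end Monomials

/-! ### Independent monomials in an algebra generated by the `ev (X d)` -/

section Fields

variable {F L : Type*} [Field F] [Field L] [Algebra F L]

/-- `n` independent elements of the `F`-algebra generated by the `ev (X d)`, `d ∈ D` ⇒ `n`
independent `ev x i` with `x i` having all variables in `D`. -/
theorem exists_monomials_linearIndependent (ev : MvPolynomial ℕ ℤ →+* L) (D : Set ℕ) (n : ℕ)
    (y : Fin n → L) (hy : LinearIndependent F y)
    (hmem : ∀ i, y i ∈ Algebra.adjoin F ((fun d => ev (MvPolynomial.X d)) '' D)) :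
    ∃ x : Fin n → MvPolynomial ℕ ℤ, (∀ i, ∀ d ∈ (x i).vars, d ∈ D) ∧
      LinearIndependent F (fun i => ev (x i)) := by
  set S : Set L := (fun d => ev (MvPolynomial.X d)) '' D with hS
  have hmem' : ∀ i, y i ∈ Submodule.span F (Submonoid.closure S : Set L) := by
    intro i
    rw [← Algebra.adjoin_eq_span]
    exact hmem i
  obtain ⟨z, hzT, hzli⟩ := exists_subfamily_linearIndependent _ n y hy hmem'
  choose x hx1 hx2 using fun i => exists_of_mem_closure ev D (hzT i)
  refine ⟨x, hx1, ?_⟩
  have : (fun i => ev (x i)) = z := funext hx2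
  rw [this]
  exact hzli

/-- finrank form. -/
theorem exists_monomials_linearIndependent_of_le_finrank (ev : MvPolynomial ℕ ℤ →+* L)
    (D : Set ℕ) (n : ℕ)
    (h : n ≤ Module.finrank F ↥(Algebra.adjoin F ((fun d => ev (MvPolynomial.X d)) '' D))) :
    ∃ x : Fin n → MvPolynomial ℕ ℤ, (∀ i, ∀ d ∈ (x i).vars, d ∈ D) ∧
      LinearIndependent F (fun i => ev (x i)) := by
  set A := Algebra.adjoin F ((fun d => ev (MvPolynomial.X d)) '' D) with hA
  rcases Nat.eq_zero_or_pos n with rfl | hn
  · exact ⟨fun i => i.elim0, fun i => i.elim0, linearIndependent_empty_type⟩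
  have hpos : 0 < Module.finrank F ↥A := lt_of_lt_of_le hn h
  have : Module.Finite F ↥A := Module.finite_of_finrank_pos hpos
  let B := Module.finBasis F ↥A
  refine exists_monomials_linearIndependent ev D n (fun i => ((B (Fin.castLE h i) : ↥A) : L)) ?_
    (fun i => (B (Fin.castLE h i)).2)
  have h1 : LinearIndependent F (fun i : Fin n => B (Fin.castLE h i)) :=
    B.linearIndependent.comp _ (Fin.castLE_injective h)
  exact h1.map' A.val.toLinearMap (LinearMap.ker_eq_bot.mpr Subtype.val_injective)

/-- intermediate field form: `E ≤ F(S)` with `S` algebraic and `n ≤ [E : F]`. -/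
theorem exists_monomials_linearIndependent_of_le_finrank_intermediateField
    (ev : MvPolynomial ℕ ℤ →+* L) (D : Set ℕ) (n : ℕ)
    (halg : ∀ d ∈ D, IsAlgebraic F (ev (MvPolynomial.X d)))
    (E : IntermediateField F L)
    (hE : E ≤ IntermediateField.adjoin F ((fun d => ev (MvPolynomial.X d)) '' D))
    (h : n ≤ Module.finrank F ↥E) :
    ∃ x : Fin n → MvPolynomial ℕ ℤ, (∀ i, ∀ d ∈ (x i).vars, d ∈ D) ∧
      LinearIndependent F (fun i => ev (x i)) := by
  rcases Nat.eq_zero_or_pos n with rfl | hn
  · exact ⟨fun i => i.elim0, fun i => i.elim0, linearIndependent_empty_type⟩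
  have hpos : 0 < Module.finrank F ↥E := lt_of_lt_of_le hn h
  have : Module.Finite F ↥E := Module.finite_of_finrank_pos hpos
  let B := Module.finBasis F ↥E
  have hsub : (IntermediateField.adjoin F ((fun d => ev (MvPolynomial.X d)) '' D)).toSubalgebra =
      Algebra.adjoin F ((fun d => ev (MvPolynomial.X d)) '' D) := by
    apply IntermediateField.adjoin_toSubalgebra_of_isAlgebraic
    rintro _ ⟨d, hd, rfl⟩
    exact halg d hd
  refine exists_monomials_linearIndependent ev D n (fun i => ((B (Fin.castLE h i) : ↥E) : L)) ?_ ?_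
  · have h1 : LinearIndependent F (fun i : Fin n => B (Fin.castLE h i)) :=
      B.linearIndependent.comp _ (Fin.castLE_injective h)
    exact h1.map' E.val.toLinearMap (LinearMap.ker_eq_bot.mpr Subtype.val_injective)
  · intro i
    rw [← hsub]
    exact hE (B (Fin.castLE h i)).2

end Fields

/-! ### The S28 form -/

section S28

variable (k : Type*) [Field k]

/-- `qExpand` commutes with evaluation of polynomials with constant coefficients. -/
theorem qExpand_evalJ (m : ℕ) [NeZero m] (y : LaurentSeries k) (P : Polynomial k) :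
    qExpand k m (evalJ k y P) = evalJ k (qExpand k m y) P := by
  have : (qExpand k m).comp (evalJ k y) = evalJ k (qExpand k m y) := by
    apply Polynomial.ringHom_ext
    · intro c
      simp only [RingHom.comp_apply]
      change qExpand k m (Polynomial.aeval y (Polynomial.C c)) =
        Polynomial.aeval (qExpand k m y) (Polynomial.C c)
      rw [Polynomial.aeval_C, Polynomial.aeval_C, algebraMap_laurent_eq_C, qExpand_C]
    · simp only [RingHom.comp_apply, evalJ_X]
  exact RingHom.congr_fun this P

theorem qExpand_jAt (m : ℕ) [NeZero m] (d : ℕ) (hd : d ≠ 0) :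
    qExpand k m (jAt k d) = jAt k (m * d) := by
  have : NeZero d := ⟨hd⟩
  have : NeZero (m * d) := ⟨Nat.mul_ne_zero (NeZero.ne m) hd⟩
  rw [jAt_of_neZero, jAt_of_neZero, qExpand_qExpand]

/-- The substituted evaluation `X_d ↦ j(u^{m d})`. -/
def evSub (m : ℕ) [NeZero m] : MvPolynomial ℕ ℤ →+* LaurentSeries k :=
  (qExpand k m).comp (evalDiv k)

theorem evSub_X (m : ℕ) [NeZero m] (d : ℕ) (hd : d ≠ 0) :
    evSub k m (MvPolynomial.X d) = jAt k (m * d) := by
  rw [evSub, RingHom.comp_apply, evalDiv_X, qExpand_jAt k m d hd]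

theorem evSub_image (N : ℕ) [NeZero N] (m : ℕ) [NeZero m] :
    (fun d => evSub k m (MvPolynomial.X d)) '' {d | d ∣ N} =
      {z | ∃ d, d ∣ N ∧ z = jAt k (m * d)} := by
  ext z
  constructor
  · rintro ⟨d, hd, rfl⟩
    exact ⟨d, hd, evSub_X k m d (ne_zero_of_dvd_ne_zero (NeZero.ne N) hd)⟩
  · rintro ⟨d, hd, rfl⟩
    exact ⟨d, hd, evSub_X k m d (ne_zero_of_dvd_ne_zero (NeZero.ne N) hd)⟩

/-- independence over `F ⊇ k[j(u^m)]` of the substituted monomials gives the polynomial form of
independence of the monomials themselves. -/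
theorem indep_of_linearIndependent_evSub (m : ℕ) [NeZero m] {n : ℕ}
    {F : Type*} [Field F] [Algebra F (LaurentSeries k)]
    (hF : ∀ P : Polynomial k, evalJ k (jAt k m) P ∈ (algebraMap F (LaurentSeries k)).range)
    (x : Fin n → MvPolynomial ℕ ℤ) (hx : LinearIndependent F (fun i => evSub k m (x i))) :
    ∀ P : Fin n → Polynomial k,
      ∑ i, evalJ k (jqModC k) (P i) * evalDiv k (x i) = 0 → ∀ i, P i = 0 := by
  intro P hP i
  choose c hc using fun i => hF (P i)
  have h1 := congrArg (qExpand k m) hP
  rw [map_sum, map_zero] at h1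
  have h2 : ∑ i, c i • evSub k m (x i) = 0 := by
    rw [← h1]
    refine Finset.sum_congr rfl fun i _ => ?_
    rw [Algebra.smul_def, hc, map_mul, qExpand_evalJ, ← jAt_of_neZero, evSub, RingHom.comp_apply]
  have h3 := Fintype.linearIndependent_iff.mp hx c h2 i
  have h4 : evalJ k (jAt k m) (P i) = 0 := by rw [← hc, h3, map_zero]
  rw [jAt_of_neZero, ← qExpand_evalJ] at h4
  have h5 : evalJ k (jqModC k) (P i) = 0 :=
    qExpand_injective (R := k) (N := m) (by rw [h4, map_zero])
  exact evalJ_injective_jqModC k (by rw [h5, map_zero])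

/-- **Extraction, general form** (`u = q^{1/m}`): `n` elements of the `F`-algebra generated by
the `j(u^{m d})`, `d ∣ N`, linearly independent over a field `F` whose image contains
`k[j(u^m)]`, give `n` monomials in the `j(q^d)` independent over `k[j(q)]`. -/
theorem exists_independent_monomials_of_linearIndependent (N : ℕ) [NeZero N] (m : ℕ) [NeZero m]
    (n : ℕ) {F : Type*} [Field F] [Algebra F (LaurentSeries k)]
    (hF : ∀ P : Polynomial k, evalJ k (jAt k m) P ∈ (algebraMap F (LaurentSeries k)).range)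
    (y : Fin n → LaurentSeries k) (hy : LinearIndependent F y)
    (hmem : ∀ i, y i ∈ Algebra.adjoin F {z | ∃ d, d ∣ N ∧ z = jAt k (m * d)}) :
    ∃ x : Fin n → MvPolynomial ℕ ℤ, (∀ i, ∀ d ∈ (x i).vars, d ∣ N) ∧
      ∀ P : Fin n → Polynomial k,
        ∑ i, evalJ k (jqModC k) (P i) * evalDiv k (x i) = 0 → ∀ i, P i = 0 := by
  rw [← evSub_image k N m] at hmem
  obtain ⟨x, hx1, hx2⟩ := exists_monomials_linearIndependent (evSub k m) {d | d ∣ N} n y hy hmem
  exact ⟨x, hx1, indep_of_linearIndependent_evSub k m hF x hx2⟩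

/-- **Extraction, finrank form** (`u = q^{1/m}`). -/
theorem exists_independent_monomials_of_le_finrank (N : ℕ) [NeZero N] (m : ℕ) [NeZero m]
    (n : ℕ) {F : Type*} [Field F] [Algebra F (LaurentSeries k)]
    (hF : ∀ P : Polynomial k, evalJ k (jAt k m) P ∈ (algebraMap F (LaurentSeries k)).range)
    (h : n ≤ Module.finrank F ↥(Algebra.adjoin F {z | ∃ d, d ∣ N ∧ z = jAt k (m * d)})) :
    ∃ x : Fin n → MvPolynomial ℕ ℤ, (∀ i, ∀ d ∈ (x i).vars, d ∣ N) ∧
      ∀ P : Fin n → Polynomial k,
        ∑ i, evalJ k (jqModC k) (P i) * evalDiv k (x i) = 0 → ∀ i, P i = 0 := by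
  rw [← evSub_image k N m] at h
  obtain ⟨x, hx1, hx2⟩ :=
    exists_monomials_linearIndependent_of_le_finrank (evSub k m) {d | d ∣ N} n h
  exact ⟨x, hx1, indep_of_linearIndependent_evSub k m hF x hx2⟩

/-- **Extraction, intermediate field form** (`u = q^{1/m}`): `E ≤ F(j(u^{m d}) : d ∣ N)`,
the generators algebraic over `F`, and `n ≤ [E : F]`. -/
theorem exists_independent_monomials_of_le_finrank_intermediateField (N : ℕ) [NeZero N]
    (m : ℕ) [NeZero m] (n : ℕ) {F : Type*} [Field F] [Algebra F (LaurentSeries k)]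
    (hF : ∀ P : Polynomial k, evalJ k (jAt k m) P ∈ (algebraMap F (LaurentSeries k)).range)
    (halg : ∀ d, d ∣ N → IsAlgebraic F (jAt k (m * d)))
    (E : IntermediateField F (LaurentSeries k))
    (hE : E ≤ IntermediateField.adjoin F {z | ∃ d, d ∣ N ∧ z = jAt k (m * d)})
    (h : n ≤ Module.finrank F ↥E) :
    ∃ x : Fin n → MvPolynomial ℕ ℤ, (∀ i, ∀ d ∈ (x i).vars, d ∣ N) ∧
      ∀ P : Fin n → Polynomial k,
        ∑ i, evalJ k (jqModC k) (P i) * evalDiv k (x i) = 0 → ∀ i, P i = 0 := by
  rw [← evSub_image k N m] at hE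
  obtain ⟨x, hx1, hx2⟩ :=
    exists_monomials_linearIndependent_of_le_finrank_intermediateField (evSub k m) {d | d ∣ N} n
      (fun d hd => by
        rw [evSub_X k m d (ne_zero_of_dvd_ne_zero (NeZero.ne N) hd)]
        exact halg d hd) E hE h
  exact ⟨x, hx1, indep_of_linearIndependent_evSub k m hF x hx2⟩

/-! ### Specialisations -/

theorem jAt_one : jAt k 1 = jqModC k := by
  rw [jAt_of_neZero, qExpand_one_apply]

/-- the hypothesis `hF` for an intermediate field of `k((u))/k` containing `j(u^m)`. -/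
theorem range_algebraMap_of_mem (m : ℕ) (F : IntermediateField k (LaurentSeries k))
    (h : jAt k m ∈ F) :
    ∀ P : Polynomial k, evalJ k (jAt k m) P ∈ (algebraMap ↥F (LaurentSeries k)).range := by
  intro P
  refine ⟨Polynomial.aeval (⟨jAt k m, h⟩ : ↥F) P, ?_⟩
  rw [IntermediateField.algebraMap_apply, ← IntermediateField.aeval_coe]
  rfl

/-- **Extraction, `m = 1`**: `n` elements of the `F`-algebra generated by the `j(q^d)`, `d ∣ N`,
linearly independent over a field `F` whose image contains `k[j(q)]`. -/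
theorem exists_independent_monomials_of_linearIndependent_one (N : ℕ) [NeZero N]
    (n : ℕ) {F : Type*} [Field F] [Algebra F (LaurentSeries k)]
    (hF : ∀ P : Polynomial k, evalJ k (jqModC k) P ∈ (algebraMap F (LaurentSeries k)).range)
    (y : Fin n → LaurentSeries k) (hy : LinearIndependent F y)
    (hmem : ∀ i, y i ∈ Algebra.adjoin F {z | ∃ d, d ∣ N ∧ z = jAt k d}) :
    ∃ x : Fin n → MvPolynomial ℕ ℤ, (∀ i, ∀ d ∈ (x i).vars, d ∣ N) ∧
      ∀ P : Fin n → Polynomial k,
        ∑ i, evalJ k (jqModC k) (P i) * evalDiv k (x i) = 0 → ∀ i, P i = 0 := by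
  refine exists_independent_monomials_of_linearIndependent k N 1 n (F := F) ?_ y hy ?_
  · rw [jAt_one]; exact hF
  · simpa only [one_mul] using hmem

/-- **Extraction, `m = 1`, finrank form.** -/
theorem exists_independent_monomials_of_le_finrank_one (N : ℕ) [NeZero N]
    (n : ℕ) {F : Type*} [Field F] [Algebra F (LaurentSeries k)]
    (hF : ∀ P : Polynomial k, evalJ k (jqModC k) P ∈ (algebraMap F (LaurentSeries k)).range)
    (h : n ≤ Module.finrank F ↥(Algebra.adjoin F {z | ∃ d, d ∣ N ∧ z = jAt k d})) :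
    ∃ x : Fin n → MvPolynomial ℕ ℤ, (∀ i, ∀ d ∈ (x i).vars, d ∣ N) ∧
      ∀ P : Fin n → Polynomial k,
        ∑ i, evalJ k (jqModC k) (P i) * evalDiv k (x i) = 0 → ∀ i, P i = 0 := by
  have hset : {z : LaurentSeries k | ∃ d, d ∣ N ∧ z = jAt k (1 * d)} =
      {z | ∃ d, d ∣ N ∧ z = jAt k d} := by simp only [one_mul]
  refine exists_independent_monomials_of_le_finrank k N 1 n (F := F) ?_ ?_
  · rw [jAt_one]; exact hF
  · rw [hset]; exact h

/-- **Extraction over `k(j(u^m)) ⊆ k((u))` as an intermediate field of `k((u))/k`**: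
`E` an intermediate field of `k((u))/K₁`, `K₁ = k(j(u^m))`, contained in
`K₁(j(u^{m d}) : d ∣ N)`, the generators algebraic over `K₁`, `n ≤ [E : K₁]`. -/
theorem exists_independent_monomials_of_le_finrank_adjoin (N : ℕ) [NeZero N]
    (m : ℕ) [NeZero m] (n : ℕ)
    (halg : ∀ d, d ∣ N →
      IsAlgebraic ↥(IntermediateField.adjoin k {jAt k m}) (jAt k (m * d)))
    (E : IntermediateField ↥(IntermediateField.adjoin k {jAt k m}) (LaurentSeries k))
    (hE : E ≤ IntermediateField.adjoin ↥(IntermediateField.adjoin k {jAt k m})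
      {z | ∃ d, d ∣ N ∧ z = jAt k (m * d)})
    (h : n ≤ Module.finrank ↥(IntermediateField.adjoin k {jAt k m}) ↥E) :
    ∃ x : Fin n → MvPolynomial ℕ ℤ, (∀ i, ∀ d ∈ (x i).vars, d ∣ N) ∧
      ∀ P : Fin n → Polynomial k,
        ∑ i, evalJ k (jqModC k) (P i) * evalDiv k (x i) = 0 → ∀ i, P i = 0 :=
  exists_independent_monomials_of_le_finrank_intermediateField k N m n
    (F := ↥(IntermediateField.adjoin k {jAt k m}))
    (range_algebraMap_of_mem k m _ (IntermediateField.mem_adjoin_simple_self k _)) halg E hE h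

/-- **Extraction, abstract tower form**: `G/G₀` an abstract field extension with an embedding
`ε : G →+* k((u))` such that `ε(G₀) ⊇ k[j(u^m)]`, `G` generated over `G₀` by elements mapping to
the `j(u^{m d})`, `d ∣ N`, and `n ≤ [G : G₀]`. -/
theorem exists_independent_monomials_of_abstract_tower (N : ℕ) [NeZero N] (m : ℕ) [NeZero m]
    (n : ℕ) {G₀ G : Type*} [Field G₀] [Field G] [Algebra G₀ G] (ε : G →+* LaurentSeries k)
    (hF : ∀ P : Polynomial k, ∃ c : G₀, ε (algebraMap G₀ G c) = evalJ k (jAt k m) P)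
    (hgen : Algebra.adjoin G₀ {a : G | ∃ d, d ∣ N ∧ ε a = jAt k (m * d)} = ⊤)
    (h : n ≤ Module.finrank G₀ G) :
    ∃ x : Fin n → MvPolynomial ℕ ℤ, (∀ i, ∀ d ∈ (x i).vars, d ∣ N) ∧
      ∀ P : Fin n → Polynomial k,
        ∑ i, evalJ k (jqModC k) (P i) * evalDiv k (x i) = 0 → ∀ i, P i = 0 := by
  rcases Nat.eq_zero_or_pos n with rfl | hn
  · exact ⟨fun i => i.elim0, fun i => i.elim0, fun P _ i => i.elim0⟩
  letI : Algebra G₀ (LaurentSeries k) := (ε.comp (algebraMap G₀ G)).toAlgebra
  let εA : G →ₐ[G₀] LaurentSeries k := { ε with commutes' := fun _ => rfl }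
  have hpos : 0 < Module.finrank G₀ G := lt_of_lt_of_le hn h
  have : Module.Finite G₀ G := Module.finite_of_finrank_pos hpos
  let B := Module.finBasis G₀ G
  refine exists_independent_monomials_of_linearIndependent k N m n (F := G₀) ?_
    (fun i => εA (B (Fin.castLE h i))) ?_ ?_
  · intro P
    obtain ⟨c, hc⟩ := hF P
    exact ⟨c, hc⟩
  · have h1 : LinearIndependent G₀ (fun i : Fin n => B (Fin.castLE h i)) :=
      B.linearIndependent.comp _ (Fin.castLE_injective h)
    exact h1.map' εA.toLinearMap (LinearMap.ker_eq_bot.mpr εA.injective)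
  · intro i
    have h2 : B (Fin.castLE h i) ∈ Algebra.adjoin G₀ {a : G | ∃ d, d ∣ N ∧ ε a = jAt k (m * d)} := by
      rw [hgen]; exact Algebra.mem_top
    have h3 : εA (B (Fin.castLE h i)) ∈
        (Algebra.adjoin G₀ {a : G | ∃ d, d ∣ N ∧ ε a = jAt k (m * d)}).map εA :=
      ⟨_, h2, rfl⟩
    rw [AlgHom.map_adjoin] at h3
    refine Algebra.adjoin_mono ?_ h3
    rintro _ ⟨a, ⟨d, hd, ha⟩, rfl⟩
    exact ⟨d, hd, ha⟩

end S28

end Fermat.Agent.S28lib.Extract
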