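import Mathlib
import Fermat.Agent.S28lib.ChartRed

/-!
# S28 library, brick V-d: the kernel of the reduction on the `j`-chart

If `y` lies in the `j`-chart `chartAlg N ℓ {j}` and its reduction vanishes, then `y = ℓ y'` with
`y'` in the chart.  Inputs: the span representation of elements of the function field in terms of
the monomials `X_i = evalDiv ℚ (x i)` (`hrep`), their independence mod `ℓ` (`hind`), and their
integrality over `ℤ_(ℓ)[j]` (`hXint`).
-/

set_option autoImplicit false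

noncomputable section

open ModularCurve ModularCurve.IgusaScheme HahnSeries Polynomial

namespace Fermat.Agent.S28lib

open Red

variable (N : ℕ) [NeZero N] (ℓ : ℕ) [hℓ : Fact ℓ.Prime]

include hℓ in
/-- Evaluating `P ∈ ℤ[X]` at `j` inside the function field is evaluating at the `q`-series. -/
theorem coe_aeval_jFull_int (P : ℤ[X]) :
    ((aeval (jFull N) P : ↥(modularFunctionFieldFull N)) : LaurentSeries ℚ) =
      evalJ ℚ (jqModC ℚ) (P.map (Int.castRingHom ℚ)) := by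
  have h1 : aeval (jFull N) P =
      aeval (jFull N) (P.map (algebraMap ℤ ↥(GaloisRep.ratLocalizedAt ℓ))) :=
    (aeval_map_algebraMap _ _ _).symm
  rw [h1, coe_aeval_jFull N ℓ, Polynomial.map_map]
  congr 2

omit hℓ in
/-- `P(j)` for `P ∈ ℤ[X]` lies in `ℤ_(ℓ)[j]`. -/
theorem aeval_jFull_int_mem_adjoin (P : ℤ[X]) :
    aeval (jFull N) P ∈ Algebra.adjoin ↥(GaloisRep.ratLocalizedAt ℓ) {jFull N} := by
  have h1 : aeval (jFull N) P =
      aeval (jFull N) (P.map (algebraMap ℤ ↥(GaloisRep.ratLocalizedAt ℓ))) :=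
    (aeval_map_algebraMap _ _ _).symm
  rw [h1, Algebra.adjoin_singleton_eq_range_aeval]
  exact ⟨_, rfl⟩

/-- `(V-d)` The kernel of the reduction on the `j`-chart. -/
theorem fin_kernel {n : ℕ} (x : Fin n → MvPolynomial ℕ ℤ)
    (hind : ∀ P : Fin n → Polynomial (ZMod ℓ),
      ∑ i, evalJ (ZMod ℓ) (jqModC (ZMod ℓ)) (P i) * evalDiv (ZMod ℓ) (x i) = 0 → ∀ i, P i = 0)
    (hrep : ∀ g : LaurentSeries ℚ, g ∈ modularFunctionFieldFull N →
      ∃ (b : ℤ[X]) (a : Fin n → ℤ[X]), b ≠ 0 ∧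
        (b.map (Int.castRingHom (ZMod ℓ)) ≠ 0 ∨ ∃ i, (a i).map (Int.castRingHom (ZMod ℓ)) ≠ 0) ∧
        evalJ ℚ (jqModC ℚ) (b.map (Int.castRingHom ℚ)) * g =
          ∑ i, evalJ ℚ (jqModC ℚ) ((a i).map (Int.castRingHom ℚ)) * evalDiv ℚ (x i))
    (hXint : ∀ i, ∃ hmem : evalDiv ℚ (x i) ∈ modularFunctionFieldFull N,
      (⟨evalDiv ℚ (x i), hmem⟩ : ↥(modularFunctionFieldFull N)) ∈ chartAlg N ℓ {jFull N})
    (hmemFin : ∀ y : ↥(modularFunctionFieldFull N), y ∈ chartAlg N ℓ {jFull N} →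
      (y : LaurentSeries ℚ) ∈ redRing ℓ)
    (y : ↥(modularFunctionFieldFull N)) (hy : y ∈ chartAlg N ℓ {jFull N})
    (h0 : redHom ℓ ⟨(y : LaurentSeries ℚ), hmemFin y hy⟩ = 0) :
    ∃ y' ∈ chartAlg N ℓ {jFull N}, y = ((ℓ : ℕ) : ↥(modularFunctionFieldFull N)) * y' := by
  -- Step 1: `y = ℓ g'` in the reduction ring
  obtain ⟨g', hg'⟩ := (redHom_eq_zero_iff ℓ _).mp h0
  have hg'1 : (y : LaurentSeries ℚ) = ((ℓ : ℕ) : LaurentSeries ℚ) * (g' : LaurentSeries ℚ) := by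
    have := congrArg (fun z : redRing ℓ => (z : LaurentSeries ℚ)) hg'
    simpa using this
  -- Step 2: `y' := y / ℓ`
  have hℓF : ((ℓ : ℕ) : ↥(modularFunctionFieldFull N)) ≠ 0 :=
    Nat.cast_ne_zero.mpr hℓ.out.ne_zero
  have hℓL : ((ℓ : ℕ) : LaurentSeries ℚ) ≠ 0 := by
    rw [← map_natCast (HahnSeries.C : ℚ →+* LaurentSeries ℚ)]
    exact (map_ne_zero_iff _ HahnSeries.C_injective).mpr (Nat.cast_ne_zero.mpr hℓ.out.ne_zero)
  set y' : ↥(modularFunctionFieldFull N) := ((ℓ : ℕ) : ↥(modularFunctionFieldFull N))⁻¹ * y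
    with hy'
  have hyy' : y = ((ℓ : ℕ) : ↥(modularFunctionFieldFull N)) * y' := by
    rw [hy', ← mul_assoc, mul_inv_cancel₀ hℓF, one_mul]
  have hy'g' : (y' : LaurentSeries ℚ) = (g' : LaurentSeries ℚ) := by
    apply mul_left_cancel₀ hℓL
    rw [← hg'1]
    have := congrArg (fun z : ↥(modularFunctionFieldFull N) => (z : LaurentSeries ℚ)) hyy'
    simpa using this.symm
  obtain ⟨b0, a0, hb0, hw⟩ := g'.2
  rw [← hy'g'] at hw
  -- Step 3: the span representation of `y'`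
  obtain ⟨P0, P, -, hnot, hrel⟩ := hrep (y' : LaurentSeries ℚ) y'.2
  -- Step 4: `P0 mod ℓ ≠ 0`
  set A : LaurentSeries ℤ := ∑ i, bZ (P i) * evalDiv ℤ (x i) with hA
  have hAQ : coeffMap (Int.castRingHom ℚ) A =
      ∑ i, evalJ ℚ (jqModC ℚ) ((P i).map (Int.castRingHom ℚ)) * evalDiv ℚ (x i) := by
    rw [hA, map_sum]
    refine Finset.sum_congr rfl fun i _ => ?_
    rw [map_mul, coeffMap_bZ, coeffMap_evalDiv]
  have hAl : coeffMap (Int.castRingHom (ZMod ℓ)) A =
      ∑ i, evalJ (ZMod ℓ) (jqModC (ZMod ℓ)) ((P i).map (Int.castRingHom (ZMod ℓ))) *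
        evalDiv (ZMod ℓ) (x i) := by
    rw [hA, map_sum]
    refine Finset.sum_congr rfl fun i _ => ?_
    rw [map_mul, coeffMap_bZ, coeffMap_evalDiv]
  have hcross : bZ P0 * a0 = bZ b0 * A := by
    apply coeffMap_castQ_injective
    rw [map_mul, map_mul, ← hw, hAQ, ← hrel, coeffMap_bZ, coeffMap_bZ]
    ring
  have hP0 : P0.map (Int.castRingHom (ZMod ℓ)) ≠ 0 := by
    intro hzero
    have h1 := congrArg (coeffMap (Int.castRingHom (ZMod ℓ))) hcross
    rw [map_mul, map_mul, coeffMap_bZ, hzero, map_zero, zero_mul] at h1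
    have h2 : coeffMap (Int.castRingHom (ZMod ℓ)) A = 0 := by
      rcases mul_eq_zero.mp h1.symm with h3 | h3
      · exact absurd h3 (coeffMap_bZ_ne_zero ℓ hb0)
      · exact h3
    rw [hAl] at h2
    have h4 := hind _ h2
    rcases hnot with h5 | ⟨i, h5⟩
    · exact h5 hzero
    · exact h5 (h4 i)
  -- Step 5-7: integrality of `P0(j) y'`
  set bD : ↥(Algebra.adjoin ↥(GaloisRep.ratLocalizedAt ℓ) {jFull N}) :=
    ⟨aeval (jFull N) P0, aeval_jFull_int_mem_adjoin N ℓ P0⟩ with hbD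
  have hbDnot : ¬ ((ℓ : ℕ) : ↥(Algebra.adjoin ↥(GaloisRep.ratLocalizedAt ℓ) {jFull N})) ∣ bD :=
    not_natCast_dvd_adjoin_of_map_ne_zero (transcendental_jFull N ℓ) P0 hP0 bD rfl
  have hprod : (bD : ↥(modularFunctionFieldFull N)) * y' ∈ chartAlg N ℓ {jFull N} := by
    have hsum : (bD : ↥(modularFunctionFieldFull N)) * y' =
        ∑ i, aeval (jFull N) (P i) *
          (⟨evalDiv ℚ (x i), (hXint i).choose⟩ : ↥(modularFunctionFieldFull N)) := by
      apply Subtype.ext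
      rw [IntermediateField.coe_mul, IntermediateField.coe_sum]
      simp only [IntermediateField.coe_mul]
      rw [hbD]
      simp only [coe_aeval_jFull_int N ℓ]
      exact hrel
    rw [hsum]
    refine Subalgebra.sum_mem _ fun i _ => Subalgebra.mul_mem _ ?_ (hXint i).choose_spec
    exact adjoin_le_chartAlg N ℓ _ (aeval_jFull_int_mem_adjoin N ℓ (P i))
  refine ⟨y', ?_, hyy'⟩
  exact mem_chartAlg_of_mul_mem N ℓ (Set.mem_insert _ _) y' (hyy' ▸ hy) bD hbDnot hprod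

end Fermat.Agent.S28lib
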