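import Mathlib
import Fermat.Prelude.Def_ModularCurve_IgusaScheme
import Fermat.Agent.S28lib.ChartRed

/-!
# S28 library, brick V: the `1/j`-chart and the middle chart reduced to the `j`-chart

* `Red.mem_redRing_of_jpow_mul_mem`: the reduction ring is closed under division by `j`.
* `coe_mem_redRing_of_mem_chartAlgMid`: if every element of the `j`-chart `chartAlgFin` lies in the
  reduction ring, so does every element of the middle chart (hence of the `1/j`-chart).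
-/

set_option autoImplicit false

noncomputable section

open ModularCurve ModularCurve.IgusaScheme HahnSeries Polynomial

namespace Fermat.Agent.S28lib

open Red

variable {ℓ : ℕ} [hℓ : Fact ℓ.Prime]

/-- `(IF1)` The reduction ring is closed under division by powers of `j`. -/
theorem Red.mem_redRing_of_jpow_mul_mem (n : ℕ) {g : LaurentSeries ℚ}
    (h : jqModC ℚ ^ n * g ∈ redRing ℓ) : g ∈ redRing ℓ := by
  obtain ⟨b, a, hb, hrel⟩ := h
  refine ⟨Polynomial.X ^ n * b, a, ?_, ?_⟩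
  · rw [Polynomial.map_mul, Polynomial.map_pow, Polynomial.map_X]
    exact mul_ne_zero (pow_ne_zero _ Polynomial.X_ne_zero) hb
  · have h1 : bZ (Polynomial.X ^ n * b) = jqModC ℤ ^ n * bZ b := by
      rw [bZ_mul, bZ, map_pow, evalJ_X]
    rw [h1, map_mul, map_pow, coeffMap_jqModC, ← hrel]
    ring

variable (N : ℕ) [NeZero N]

/-- the coercion of `jFull N` to Laurent series is `jqModC ℚ`. -/
theorem coe_jFull_eq : ((jFull N : ↥(modularFunctionFieldFull N)) : LaurentSeries ℚ) = jqModC ℚ :=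
  rfl

/-- `(IF2)` If the `j`-chart lies in the reduction ring, so does the middle chart. -/
theorem coe_mem_redRing_of_mem_chartAlgMid
    (hFin : ∀ x : ↥(modularFunctionFieldFull N), x ∈ chartAlg N ℓ {jFull N} →
      (x : LaurentSeries ℚ) ∈ redRing ℓ)
    (x : ↥(modularFunctionFieldFull N)) (hx : x ∈ chartAlg N ℓ {jFull N, (jFull N)⁻¹}) :
    (x : LaurentSeries ℚ) ∈ redRing ℓ := by
  have hx' : x ∈ chartAlg N ℓ (insert (jFull N)⁻¹ {jFull N}) := by
    rw [show insert (jFull N)⁻¹ ({jFull N} : Set ↥(modularFunctionFieldFull N)) =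
      {jFull N, (jFull N)⁻¹} from Set.pair_comm _ _]
    exact hx
  obtain ⟨n, hn⟩ := exists_pow_mul_mem_chartAlg (Set.mem_singleton _) (jFull_ne_zero N) hx'
  have h1 := hFin _ hn
  apply Red.mem_redRing_of_jpow_mul_mem n
  rw [jqModC_rat]
  simpa using h1

/-- `(IF2')` If the `j`-chart lies in the reduction ring, so does the `1/j`-chart. -/
theorem coe_mem_redRing_of_mem_chartAlgInf
    (hFin : ∀ x : ↥(modularFunctionFieldFull N), x ∈ chartAlg N ℓ {jFull N} →
      (x : LaurentSeries ℚ) ∈ redRing ℓ)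
    (x : ↥(modularFunctionFieldFull N)) (hx : x ∈ chartAlg N ℓ {(jFull N)⁻¹}) :
    (x : LaurentSeries ℚ) ∈ redRing ℓ :=
  coe_mem_redRing_of_mem_chartAlgMid N hFin x (chartAlg_mono N ℓ (sInf_subset N) hx)

/-- `(IF3)` The kernel of the reduction on the `1/j`-chart, from the kernel on the `j`-chart. -/
theorem inf_kernel
    (hmemFin : ∀ y : ↥(modularFunctionFieldFull N), y ∈ chartAlg N ℓ {jFull N} →
      (y : LaurentSeries ℚ) ∈ redRing ℓ)
    (hkerFin : ∀ (y : ↥(modularFunctionFieldFull N)) (hy : y ∈ chartAlg N ℓ {jFull N}),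
      redHom ℓ ⟨(y : LaurentSeries ℚ), hmemFin y hy⟩ = 0 →
        ∃ y' ∈ chartAlg N ℓ {jFull N}, y = ((ℓ : ℕ) : ↥(modularFunctionFieldFull N)) * y')
    (y : ↥(modularFunctionFieldFull N)) (hy : y ∈ chartAlg N ℓ {(jFull N)⁻¹})
    (h0 : redHom ℓ ⟨(y : LaurentSeries ℚ),
      coe_mem_redRing_of_mem_chartAlgInf N hmemFin y hy⟩ = 0) :
    ∃ y' ∈ chartAlg N ℓ {(jFull N)⁻¹}, y = ((ℓ : ℕ) : ↥(modularFunctionFieldFull N)) * y' := by
  have hj0 : jFull N ≠ 0 := jFull_ne_zero N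
  -- Step 1: shift into the `j`-chart
  have hyMid : y ∈ chartAlg N ℓ (insert (jFull N)⁻¹ {jFull N}) := by
    refine chartAlg_mono N ℓ ?_ hy
    intro z hz
    rw [Set.mem_singleton_iff] at hz
    rw [hz]
    exact Set.mem_insert _ _
  obtain ⟨n, hn⟩ := exists_pow_mul_mem_chartAlg (Set.mem_singleton _) hj0 hyMid
  -- Step 2: its reduction vanishes
  have hred : redHom ℓ ⟨((jFull N ^ n * y : ↥(modularFunctionFieldFull N)) : LaurentSeries ℚ),
      hmemFin _ hn⟩ = 0 := by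
    have heq : (⟨((jFull N ^ n * y : ↥(modularFunctionFieldFull N)) : LaurentSeries ℚ),
        hmemFin _ hn⟩ : redRing ℓ) =
        ⟨jqModC ℚ, jqModC_mem_redRing ℓ⟩ ^ n *
          ⟨(y : LaurentSeries ℚ), coe_mem_redRing_of_mem_chartAlgInf N hmemFin y hy⟩ := by
      apply Subtype.ext
      simp only [IntermediateField.coe_mul, IntermediateField.coe_pow, Subring.coe_mul,
        Subring.coe_pow]
      rfl
    rw [heq, map_mul, h0, mul_zero]
  -- Step 3: kernel on the `j`-chart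
  obtain ⟨h', hh', hh'eq⟩ := hkerFin _ hn hred
  -- Step 4: `y' := y / ℓ`
  have hℓF : ((ℓ : ℕ) : ↥(modularFunctionFieldFull N)) ≠ 0 :=
    Nat.cast_ne_zero.mpr hℓ.out.ne_zero
  set y' : ↥(modularFunctionFieldFull N) := ((ℓ : ℕ) : ↥(modularFunctionFieldFull N))⁻¹ * y
    with hy'
  have hyy' : y = ((ℓ : ℕ) : ↥(modularFunctionFieldFull N)) * y' := by
    rw [hy', ← mul_assoc, mul_inv_cancel₀ hℓF, one_mul]
  have hy'h' : y' = (jFull N)⁻¹ ^ n * h' := by
    have h1 : jFull N ^ n * y' = h' := by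
      apply mul_left_cancel₀ hℓF
      rw [← hh'eq, hyy']
      ring
    rw [← h1, ← mul_assoc, ← mul_pow, inv_mul_cancel₀ hj0, one_pow, one_mul]
  -- Step 5: shift `h'` into the `1/j`-chart
  have hh'Mid : h' ∈ chartAlg N ℓ (insert (jFull N)⁻¹⁻¹ {(jFull N)⁻¹}) := by
    refine chartAlg_mono N ℓ ?_ hh'
    intro z hz
    rw [Set.mem_singleton_iff] at hz
    rw [hz, inv_inv]
    exact Set.mem_insert _ _
  obtain ⟨E, hE⟩ := exists_pow_mul_mem_chartAlg (Set.mem_singleton _) (inv_ne_zero hj0) hh'Mid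
  -- Step 6: the multiplier `b = (1/j)^E`
  set jI : ↥(Algebra.adjoin ↥(GaloisRep.ratLocalizedAt ℓ) {(jFull N)⁻¹}) :=
    ⟨(jFull N)⁻¹, Algebra.subset_adjoin (Set.mem_singleton _)⟩ with hjI
  have hjInvMem : (jFull N)⁻¹ ∈ chartAlg N ℓ {(jFull N)⁻¹} :=
    subset_chartAlg N ℓ _ (Set.mem_singleton _)
  have hprod : ((jI ^ E : ↥(Algebra.adjoin ↥(GaloisRep.ratLocalizedAt ℓ) {(jFull N)⁻¹})) :
      ↥(modularFunctionFieldFull N)) * y' ∈ chartAlg N ℓ {(jFull N)⁻¹} := by
    have h2 : ((jI ^ E : ↥(Algebra.adjoin ↥(GaloisRep.ratLocalizedAt ℓ) {(jFull N)⁻¹})) :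
        ↥(modularFunctionFieldFull N)) * y' = (jFull N)⁻¹ ^ n * ((jFull N)⁻¹ ^ E * h') := by
      rw [hy'h', Subalgebra.coe_pow]
      ring
    rw [h2]
    exact Subalgebra.mul_mem _ (Subalgebra.pow_mem _ hjInvMem n) hE
  -- Step 7: `ℓ ∤ (1/j)^E`
  have hnot : ¬ ((ℓ : ℕ) : ↥(Algebra.adjoin ↥(GaloisRep.ratLocalizedAt ℓ) {(jFull N)⁻¹})) ∣
      jI ^ E := by
    refine not_natCast_dvd_adjoin_of_map_ne_zero (transcendental_jFull_inv N ℓ)
      (Polynomial.X ^ E : ℤ[X]) ?_ (jI ^ E) ?_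
    · rw [Polynomial.map_pow, Polynomial.map_X]
      exact pow_ne_zero _ Polynomial.X_ne_zero
    · rw [Subalgebra.coe_pow, map_pow, aeval_X]
  -- Step 8: conclude
  refine ⟨y', ?_, hyy'⟩
  exact mem_chartAlg_of_mul_mem N ℓ (Set.mem_insert_of_mem _ rfl) y' (hyy' ▸ hy) (jI ^ E) hnot hprod

end Fermat.Agent.S28lib
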