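import Mathlib
import Fermat.Prelude.Def_ModularCurve_IgusaScheme
import Fermat.Agent.S28lib.FinKernel
import Fermat.Agent.S28lib.InfFromFin
import Fermat.Agent.S28lib.Representation
import Fermat.Agent.S28lib.EvalDivChart

/-!
# S28 library, brick V: assembly of the chart reductions

`exists_phi_of_memFin`: the conclusion of `brickRed` in `Assembly.isIntegral_of_bricks`, from its
four binders plus the single hypothesis that every element of the `j`-chart lies in the reduction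
ring (`hmemFin`).
-/

set_option autoImplicit false

noncomputable section

open ModularCurve ModularCurve.IgusaScheme HahnSeries Polynomial

namespace Fermat.Agent.S28lib

open Red

variable (N : ℕ) [NeZero N] (ℓ : ℕ) [hℓ : Fact ℓ.Prime]

/-- The chart reductions, from `hmemFin`: every element of the `j`-chart lies in the reduction
ring. -/
theorem exists_phi_of_memFin {n : ℕ} (x : Fin n → MvPolynomial ℕ ℤ)
    (hx : ∀ i, ∀ d ∈ (x i).vars, d ∣ N)
    (hind : ∀ P : Fin n → Polynomial (ZMod ℓ),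
      ∑ i, evalJ (ZMod ℓ) (jqModC (ZMod ℓ)) (P i) * evalDiv (ZMod ℓ) (x i) = 0 → ∀ i, P i = 0)
    (hD : ∀ y : Fin (n + 1) → LaurentSeries ℚ, (∀ i, y i ∈ modularFunctionFieldFull N) →
      ∃ P : Fin (n + 1) → Polynomial ℚ, P ≠ 0 ∧ ∑ i, evalJ ℚ (jqModC ℚ) (P i) * y i = 0)
    (hint : ∀ d, d ∣ N → IsIntegral (Algebra.adjoin ℤ {jqModC ℚ}) (jAt ℚ d))
    (hmemFin : ∀ y : ↥(modularFunctionFieldFull N), y ∈ chartAlg N ℓ {jFull N} →
      (y : LaurentSeries ℚ) ∈ redRing ℓ)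
    (S : Set ↥(modularFunctionFieldFull N)) (hS : S ⊆ {jFull N, (jFull N)⁻¹}) :
    ∃ φ : ↥(chartAlg N ℓ S) →+* LaurentSeries (ZMod ℓ),
      (S = {jFull N} ∨ S = {(jFull N)⁻¹}) →
        RingHom.ker φ = Ideal.span {((ℓ : ℕ) : ↥(chartAlg N ℓ S))} := by
  have hmemS : ∀ y : ↥(modularFunctionFieldFull N), y ∈ chartAlg N ℓ S →
      (y : LaurentSeries ℚ) ∈ redRing ℓ := fun y hy =>
    coe_mem_redRing_of_mem_chartAlgMid N hmemFin y (chartAlg_mono N ℓ hS hy)
  have hrep : ∀ g : LaurentSeries ℚ, g ∈ modularFunctionFieldFull N →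
      ∃ (b : ℤ[X]) (a : Fin n → ℤ[X]), b ≠ 0 ∧
        (b.map (Int.castRingHom (ZMod ℓ)) ≠ 0 ∨ ∃ i, (a i).map (Int.castRingHom (ZMod ℓ)) ≠ 0) ∧
        evalJ ℚ (jqModC ℚ) (b.map (Int.castRingHom ℚ)) * g =
          ∑ i, evalJ ℚ (jqModC ℚ) ((a i).map (Int.castRingHom ℚ)) * evalDiv ℚ (x i) :=
    fun g hg => exists_int_relation_of_mem_full ℓ N x hx hind hD hg
  have hXint : ∀ i, ∃ hmem : evalDiv ℚ (x i) ∈ modularFunctionFieldFull N,
      (⟨evalDiv ℚ (x i), hmem⟩ : ↥(modularFunctionFieldFull N)) ∈ chartAlg N ℓ {jFull N} :=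
    fun i => evalDiv_isIntegral_chart N ℓ hint (x i) (hx i)
  have hkerFin : ∀ (y : ↥(modularFunctionFieldFull N)) (hy : y ∈ chartAlg N ℓ {jFull N}),
      redHom ℓ ⟨(y : LaurentSeries ℚ), hmemFin y hy⟩ = 0 →
        ∃ y' ∈ chartAlg N ℓ {jFull N}, y = ((ℓ : ℕ) : ↥(modularFunctionFieldFull N)) * y' :=
    fun y hy h0 => fin_kernel N ℓ x hind hrep hXint hmemFin y hy h0
  refine ⟨phiOfMem N ℓ S hmemS, ?_⟩
  rintro (rfl | rfl)
  · exact ker_phiOfMem N ℓ _ hmemS fun y hy h0 => hkerFin y hy h0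
  · exact ker_phiOfMem N ℓ _ hmemS fun y hy h0 => inf_kernel N hmemFin hkerFin y hy h0

end Fermat.Agent.S28lib
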