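/-
S28 (Igusa), generic commutative algebra brick for the kernel computation in (V):
over an integrally closed domain `R` with a prime element `l`, if `l • z` and `b • z` are
integral over `R` with `l ∤ b`, then `z` is integral over `R`.
-/
import Mathlib

set_option autoImplicit false

namespace Fermat.Agent.S28lib

open Polynomial

/-- The minimal polynomial of `c • z` over a field is the root-scaling of that of `z`. -/
theorem minpoly_smul_eq_scaleRoots {K F : Type*} [Field K] [Field F] [Algebra K F] {c : K}
    (hc : c ≠ 0) {z : F} (hz : IsIntegral K z) :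
    minpoly K (c • z) = (minpoly K z).scaleRoots c := by
  symm
  refine minpoly.unique K (c • z) ((monic_scaleRoots_iff c).mpr (minpoly.monic hz)) ?_ ?_
  · rw [Algebra.smul_def]
    exact scaleRoots_aeval_eq_zero (minpoly.aeval K z)
  · intro q hq hq0
    have h1 : aeval z (q.scaleRoots c⁻¹) = 0 := by
      have := scaleRoots_aeval_eq_zero (r := c⁻¹) hq0
      rwa [← Algebra.smul_def, smul_smul, inv_mul_cancel₀ hc, one_smul] at this
    have h2 : (q.scaleRoots c⁻¹).Monic := (monic_scaleRoots_iff _).mpr hq
    have h3 := minpoly.min K z h2 h1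
    rw [degree_scaleRoots] at h3 ⊢
    exact h3

/-- **Gluing integrality along a prime element.** Let `R` be an integrally closed domain,
`l ∈ R` a prime element and `b ∈ R` not divisible by `l`. If `z` lies in a field extension of
`R` and both `l • z` and `b • z` are integral over `R`, then so is `z`. -/
theorem isIntegral_of_smul_of_prime_smul {R F : Type*} [CommRing R] [IsDomain R]
    [IsIntegrallyClosed R] [Field F] [Algebra R F] [FaithfulSMul R F] {l b : R} (hl : Prime l)
    (hb : ¬ l ∣ b) {z : F} (h1 : IsIntegral R (l • z)) (h2 : IsIntegral R (b • z)) :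
    IsIntegral R z := by
  classical
  letI : Algebra (FractionRing R) F := FractionRing.liftAlgebra R F
  haveI : IsScalarTower R (FractionRing R) F := FractionRing.isScalarTower_liftAlgebra R F
  have hinj : Function.Injective (algebraMap R (FractionRing R)) :=
    IsFractionRing.injective R (FractionRing R)
  have hl0 : algebraMap R (FractionRing R) l ≠ 0 := by
    rw [Ne, map_eq_zero_iff _ hinj]; exact hl.ne_zero
  have hb0 : algebraMap R (FractionRing R) b ≠ 0 := by
    rw [Ne, map_eq_zero_iff _ hinj]; rintro rfl; exact hb (dvd_zero l)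
  have hzK : IsIntegral (FractionRing R) z := by
    have h : IsIntegral (FractionRing R) (l • z) := h1.tower_top
    have h' : IsIntegral (FractionRing R) ((algebraMap R (FractionRing R) l)⁻¹ • (l • z)) :=
      h.smul _
    rwa [← algebraMap_smul (FractionRing R) l z, smul_smul, inv_mul_cancel₀ hl0, one_smul] at h'
  have key : ∀ c : R, algebraMap R (FractionRing R) c ≠ 0 → IsIntegral R (c • z) → ∀ i, ∃ r : R,
      algebraMap R (FractionRing R) r = (minpoly (FractionRing R) z).coeff i *
        (algebraMap R (FractionRing R) c) ^ ((minpoly (FractionRing R) z).natDegree - i) := by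
    intro c hc hcz i
    have e1 := minpoly.isIntegrallyClosed_eq_field_fractions' (FractionRing R) hcz
    have e2 : minpoly (FractionRing R) (c • z) =
        (minpoly (FractionRing R) z).scaleRoots (algebraMap R (FractionRing R) c) := by
      rw [← minpoly_smul_eq_scaleRoots hc hzK, algebraMap_smul]
    refine ⟨(minpoly R (c • z)).coeff i, ?_⟩
    rw [← coeff_scaleRoots, ← e2, e1, coeff_map]
  have hcoeff : ∀ i, ∃ r : R,
      algebraMap R (FractionRing R) r = (minpoly (FractionRing R) z).coeff i := by
    intro i
    obtain ⟨r1, hr1⟩ := key b hb0 h2 i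
    obtain ⟨r2, hr2⟩ := key l hl0 h1 i
    set s := (minpoly (FractionRing R) z).natDegree - i with hs
    have hrel : r1 * l ^ s = r2 * b ^ s := by
      apply hinj
      rw [map_mul, map_mul, map_pow, map_pow, hr1, hr2]
      ring
    have hdvd : l ^ s ∣ r2 := by
      refine Prime.pow_dvd_of_dvd_mul_right hl s (b := b ^ s)
        (fun h => hb (hl.dvd_of_dvd_pow h)) ⟨r1, ?_⟩
      rw [← hrel]; ring
    obtain ⟨r3, hr3⟩ := hdvd
    refine ⟨r3, ?_⟩
    have hls : (algebraMap R (FractionRing R) l) ^ s ≠ 0 := pow_ne_zero _ hl0
    apply mul_right_cancel₀ hls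
    rw [← hr2, hr3, map_mul, map_pow]
    ring
  have hlifts : minpoly (FractionRing R) z ∈ lifts (algebraMap R (FractionRing R)) :=
    (lifts_iff_coeff_lifts _).mpr fun i => by
      obtain ⟨r, hr⟩ := hcoeff i
      exact ⟨r, hr⟩
  obtain ⟨Q0, hQ0, -, hQ0m⟩ := lifts_and_natDegree_eq_and_monic hlifts (minpoly.monic hzK)
  refine ⟨Q0, hQ0m, ?_⟩
  have h := minpoly.aeval (FractionRing R) z
  rw [← hQ0, aeval_map_algebraMap] at h
  exact h

end Fermat.Agent.S28lib
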