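/-
S28 library, brick V, step (B2) / hmem (helper7; independent fallback for the same step of
Reduction.lean): every element of a chart `chartAlg N l S`, `S` inside `{j, 1/j}`, lies in the
reduction ring `Red.redRing l`.

* `coe_mem_redRing_of_mem_adjoin'` : `Z_(l)[S]` lies in the reduction ring.
* `map_ne_zero_of_monic_root` : a root `g` of a monic polynomial over the reduction ring which
  satisfies a primitive relation `b(j) g = sum a_i(j) x_i` has `b mod l != 0`
  (scale the roots by `b(j)`, reduce: `b mod l = 0` would force `(sum abar_i(j) xbar_i)^m = 0`).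
* `coe_mem_redRing_of_mem_chartAlg'` : the membership statement `hmem` for all charts.
All names live in the namespace `Fermat.Agent.S28lib.MemFinH7`.
-/
import Mathlib
import Fermat.Prelude.Def_ModularCurve_IgusaScheme
import Fermat.Agent.S28lib.Defs
import Fermat.Agent.S28lib.Series
import Fermat.Agent.S28lib.RedRing
import Fermat.Agent.S28lib.AdjoinPoly
import Fermat.Agent.S28lib.Representation

set_option autoImplicit false

noncomputable section

namespace Fermat.Agent.S28lib.MemFinH7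

open ModularCurve ModularCurve.IgusaScheme HahnSeries Polynomial Fermat.Agent.S28lib
  Fermat.Agent.S28lib.Red

variable (N : ℕ) [NeZero N] (ℓ : ℕ) [hℓ : Fact ℓ.Prime]

/-- Elements of `ℤ_(ℓ)[S]`, `S ⊆ {j, 1/j}`, lie in the reduction ring. -/
theorem coe_mem_redRing_of_mem_adjoin' {S : Set ↥(modularFunctionFieldFull N)}
    (hS : S ⊆ {jFull N, (jFull N)⁻¹}) {c : ↥(modularFunctionFieldFull N)}
    (hc : c ∈ Algebra.adjoin ↥(GaloisRep.ratLocalizedAt ℓ) S) :
    ((c : ↥(modularFunctionFieldFull N)) : LaurentSeries ℚ) ∈ redRing ℓ := by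
  induction hc using Algebra.adjoin_induction with
  | mem y hy =>
    rcases hS hy with rfl | hy'
    · rw [coe_jFull]; exact jqModC_mem_redRing ℓ
    · rw [Set.mem_singleton_iff] at hy'
      subst hy'
      have : (((jFull N)⁻¹ : ↥(modularFunctionFieldFull N)) : LaurentSeries ℚ) =
          (jqModC ℚ)⁻¹ := by
        rw [IntermediateField.coe_inv, coe_jFull, jqModC_rat]
      rw [this]
      refine mem_redRing_of_mul_eq ℓ (b := X) (a := 1) ?_ ?_
      · rw [Polynomial.map_X]; exact X_ne_zero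
      · rw [Polynomial.map_X, evalJ_X, map_one, mul_inv_cancel₀ (jqModC_ne_zero ℚ)]
  | algebraMap a =>
    rw [coe_algebraMap_igusa, algebraMap_laurent_eq_C]
    apply C_mem_redRing
    intro h
    have h1 : ℓ ∣ (a : ℚ).den := by exact_mod_cast h
    have h2 : ℓ ∣ Nat.gcd (a : ℚ).den ℓ := Nat.dvd_gcd h1 dvd_rfl
    have h3 : Nat.gcd (a : ℚ).den ℓ = 1 := a.2
    rw [h3] at h2
    exact hℓ.out.one_lt.ne' (Nat.dvd_one.mp h2)
  | add y z _ _ hy hz => exact (redRing ℓ).add_mem hy hz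
  | mul y z _ _ hy hz => exact (redRing ℓ).mul_mem hy hz

/-- abstract (B2): `g` is a root of a monic polynomial over `redRing ℓ` and satisfies a primitive
relation ⇒ `b mod ℓ ≠ 0`. -/
theorem map_ne_zero_of_monic_root {n : ℕ} (x : Fin n → MvPolynomial ℕ ℤ)
    (hind : ∀ P : Fin n → Polynomial (ZMod ℓ),
      ∑ i, evalJ (ZMod ℓ) (jqModC (ZMod ℓ)) (P i) * evalDiv (ZMod ℓ) (x i) = 0 → ∀ i, P i = 0)
    {g : LaurentSeries ℚ} (P : Polynomial ↥(redRing ℓ)) (hP : P.Monic)
    (hroot : P.eval₂ (redRing ℓ).subtype g = 0)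
    {b : ℤ[X]} {a : Fin n → ℤ[X]}
    (hprim : b.map (Int.castRingHom (ZMod ℓ)) ≠ 0 ∨
      ∃ i, (a i).map (Int.castRingHom (ZMod ℓ)) ≠ 0)
    (hrel : evalJ ℚ (jqModC ℚ) (b.map (Int.castRingHom ℚ)) * g =
      ∑ i, evalJ ℚ (jqModC ℚ) ((a i).map (Int.castRingHom ℚ)) * evalDiv ℚ (x i)) :
    b.map (Int.castRingHom (ZMod ℓ)) ≠ 0 := by
  intro hb
  -- β = b(j), Y = Σ aᵢ(j) xᵢ as elements of the reduction ring
  set β : ↥(redRing ℓ) := ⟨coeffMap (Int.castRingHom ℚ) (bZ b), coeffMap_mem_redRing ℓ _⟩ with hβ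
  set Y : ↥(redRing ℓ) := ⟨coeffMap (Int.castRingHom ℚ) (intComb x a), coeffMap_mem_redRing ℓ _⟩
    with hY
  have hβval : (redRing ℓ).subtype β = evalJ ℚ (jqModC ℚ) (b.map (Int.castRingHom ℚ)) :=
    coeffMap_bZ b
  have hYval : (redRing ℓ).subtype Y =
      ∑ i, evalJ ℚ (jqModC ℚ) ((a i).map (Int.castRingHom ℚ)) * evalDiv ℚ (x i) :=
    coeffMap_intComb x a
  have hβ0 : redHom ℓ β = 0 := by
    rw [hβ, redHom_coeffMap, coeffMap_bZ, hb, map_zero]
  have hY0 : redHom ℓ Y =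
      ∑ i, evalJ (ZMod ℓ) (jqModC (ZMod ℓ)) ((a i).map (Int.castRingHom (ZMod ℓ))) *
        evalDiv (ZMod ℓ) (x i) := by
    rw [hY, redHom_coeffMap, coeffMap_intComb]
  -- the scaled equation
  have h1 : (scaleRoots P β).eval₂ (redRing ℓ).subtype ((redRing ℓ).subtype β * g) = 0 :=
    scaleRoots_eval₂_eq_zero _ hroot
  rw [hβval, hrel, ← hYval, Polynomial.eval₂_at_apply] at h1
  have h2 : (scaleRoots P β).eval Y = 0 := Subtype.val_injective (by simpa using h1)
  have h3 : ((scaleRoots P β).map (redHom ℓ)).eval (redHom ℓ Y) = 0 := by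
    rw [Polynomial.eval_map_apply, h2, map_zero]
  have h4 : (scaleRoots P β).map (redHom ℓ) = X ^ P.natDegree := by
    ext i
    rw [coeff_map, coeff_scaleRoots, map_mul, map_pow, hβ0, coeff_X_pow]
    by_cases hi : i = P.natDegree
    · subst hi
      rw [if_pos rfl, Nat.sub_self, pow_zero, mul_one, coeff_natDegree, hP.leadingCoeff, map_one]
    · rw [if_neg hi]
      by_cases hlt : i < P.natDegree
      · rw [zero_pow (by omega), mul_zero]
      · rw [coeff_eq_zero_of_natDegree_lt (by omega), map_zero, zero_mul]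
  rw [h4, eval_pow, eval_X] at h3
  have h5 : redHom ℓ Y = 0 := eq_zero_of_pow_eq_zero h3
  rw [hY0] at h5
  have h6 := hind _ h5
  rcases hprim with h | ⟨i, hi⟩
  · exact h hb
  · exact hi (h6 i)

/-- **(B2) / hmem**: every element of a chart `chartAlg N ℓ S`, `S ⊆ {j, 1/j}`, lies in the
reduction ring. -/
theorem coe_mem_redRing_of_mem_chartAlg' {n : ℕ} (x : Fin n → MvPolynomial ℕ ℤ)
    (hind : ∀ P : Fin n → Polynomial (ZMod ℓ),
      ∑ i, evalJ (ZMod ℓ) (jqModC (ZMod ℓ)) (P i) * evalDiv (ZMod ℓ) (x i) = 0 → ∀ i, P i = 0)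
    (hrep : ∀ g : LaurentSeries ℚ, g ∈ modularFunctionFieldFull N →
      ∃ (b : ℤ[X]) (a : Fin n → ℤ[X]), b ≠ 0 ∧
        (b.map (Int.castRingHom (ZMod ℓ)) ≠ 0 ∨
          ∃ i, (a i).map (Int.castRingHom (ZMod ℓ)) ≠ 0) ∧
        evalJ ℚ (jqModC ℚ) (b.map (Int.castRingHom ℚ)) * g =
          ∑ i, evalJ ℚ (jqModC ℚ) ((a i).map (Int.castRingHom ℚ)) * evalDiv ℚ (x i))
    {S : Set ↥(modularFunctionFieldFull N)} (hS : S ⊆ {jFull N, (jFull N)⁻¹})
    (y : ↥(modularFunctionFieldFull N)) (hy : y ∈ chartAlg N ℓ S) :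
    (y : LaurentSeries ℚ) ∈ redRing ℓ := by
  obtain ⟨p, hmonic, hroot⟩ := (mem_chartAlg_iff N ℓ).mp hy
  let ι : ↥(modularFunctionFieldFull N) →+* LaurentSeries ℚ :=
    SubringClass.subtype (modularFunctionFieldFull N)
  let ρ : ↥(Algebra.adjoin ↥(GaloisRep.ratLocalizedAt ℓ) S) →+* ↥(redRing ℓ) :=
    RingHom.codRestrict
      (ι.comp (algebraMap ↥(Algebra.adjoin ↥(GaloisRep.ratLocalizedAt ℓ) S)
        ↥(modularFunctionFieldFull N))) (redRing ℓ)
      (fun c => coe_mem_redRing_of_mem_adjoin' N ℓ hS c.2)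
  have hρ : (redRing ℓ).subtype.comp ρ =
      ι.comp (algebraMap ↥(Algebra.adjoin ↥(GaloisRep.ratLocalizedAt ℓ) S)
        ↥(modularFunctionFieldFull N)) := by
    ext c; rfl
  have hroot' : (p.map ρ).eval₂ (redRing ℓ).subtype (y : LaurentSeries ℚ) = 0 := by
    rw [Polynomial.eval₂_map, hρ]
    have := congrArg ι hroot
    rw [Polynomial.hom_eval₂, map_zero] at this
    exact this
  obtain ⟨b, a, -, hprim, hrel⟩ := hrep (y : LaurentSeries ℚ) y.2
  have hb := map_ne_zero_of_monic_root ℓ x hind (p.map ρ) (hmonic.map ρ) hroot' hprim hrel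
  exact mem_redRing_of_mul_eq ℓ hb (hrel.trans (coeffMap_intComb x a).symm)

end Fermat.Agent.S28lib.MemFinH7
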