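import Mathlib

set_option autoImplicit false
noncomputable section

namespace Fermat.Agent.S28lib.MonicRed

open Polynomial

/-- **Core of (B2).** Let `R ⊆ L` be a subring, `φ : R → K` a ring hom to a domain, `g ∈ L` a root
of a monic polynomial with coefficients in `R`, and `B, A ∈ R` with `B g = A`. If `φ B = 0` then
`φ A = 0`.  (Multiply the monic equation by `B^m`: `A` is a root of the monic `scaleRoots Q B`,
whose reduction is `X^m`.) -/
theorem map_eq_zero_of_monic_root {L K : Type*} [CommRing L] [CommRing K] [IsDomain K]
    (R : Subring L) (φ : R →+* K) (Q : Polynomial L) (hQ : Q.Monic)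
    (hcoef : ∀ i, Q.coeff i ∈ R) {g : L} (hg : Q.eval g = 0) (B A : R)
    (hBA : (B : L) * g = A) (hB : φ B = 0) : φ A = 0 := by
  classical
  set m := Q.natDegree with hm
  -- `A` is a root of the monic polynomial `scaleRoots Q B`
  have h1 : (Q.scaleRoots (B : L)).eval ((B : L) * g) = 0 := by
    have := Polynomial.scaleRoots_eval₂_mul (p := Q) (RingHom.id L) g (B : L)
    simp only [RingHom.id_apply, Polynomial.eval₂_id] at this
    rw [this, hg, mul_zero]
  rw [hBA] at h1
  -- lift to `R[X]`
  have hsub : (↑(Q.scaleRoots (B : L)).coeffs : Set L) ⊆ R := by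
    intro c hc
    obtain ⟨i, -, rfl⟩ := Polynomial.mem_coeffs_iff.mp hc
    rw [Polynomial.coeff_scaleRoots]
    exact R.mul_mem (hcoef i) (R.pow_mem B.2 _)
  set Q' : Polynomial R := (Q.scaleRoots (B : L)).toSubring R hsub with hQ'
  have hQ'map : Q'.map R.subtype = Q.scaleRoots (B : L) := Polynomial.map_toSubring _ R hsub
  have hroot : Q'.eval A = 0 := by
    apply Subtype.val_injective
    have h2 : ((Q'.eval A : R) : L) = (Q'.map R.subtype).eval (R.subtype A) := by
      rw [Polynomial.eval_map, Polynomial.eval₂_at_apply]
      rfl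
    rw [h2, hQ'map]
    exact h1
  -- reduce
  have hred : Q'.map φ = X ^ m := by
    ext i
    rw [Polynomial.coeff_map, Polynomial.coeff_X_pow]
    have hci : ((Q'.coeff i : R) : L) = Q.coeff i * (B : L) ^ (m - i) := by
      rw [hQ', Polynomial.coeff_toSubring, Polynomial.coeff_scaleRoots]
    split_ifs with hi
    · subst hi
      have : Q'.coeff m = 1 := by
        apply Subtype.val_injective
        rw [hci, Nat.sub_self, pow_zero, mul_one, hm]
        exact hQ.coeff_natDegree
      rw [this, map_one]
    · rcases lt_or_gt_of_ne hi with hlt | hgt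
      · have : Q'.coeff i = ⟨Q.coeff i, hcoef i⟩ * B ^ (m - i) := by
          apply Subtype.val_injective
          rw [hci]
          rfl
        rw [this, map_mul, map_pow, hB, zero_pow (by omega), mul_zero]
      · have : Q'.coeff i = 0 := by
          apply Subtype.val_injective
          rw [hci, Polynomial.coeff_eq_zero_of_natDegree_lt (by omega), zero_mul]
          rfl
        rw [this, map_zero]
  have h3 : (Q'.map φ).eval (φ A) = 0 := by
    rw [Polynomial.eval_map, Polynomial.eval₂_at_apply, hroot, map_zero]
  rw [hred, Polynomial.eval_pow, Polynomial.eval_X] at h3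
  by_cases hm0 : m = 0
  · rw [hm0, pow_zero] at h3
    exact absurd h3 one_ne_zero
  · exact (pow_eq_zero_iff hm0).mp h3

end Fermat.Agent.S28lib.MonicRed
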