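/-
S28 library, brick V: every chart algebra of the Igusa scheme lies in the reduction ring
(`hmemFin` of `RedAssembly.exists_phi_of_memFin`, for all three charts at once).

The first part of this file (membership of `ℤ_(ℓ)[S]` in `redRing`, the relation lemmas and (B1))
is helper5's `Reduction.lean` (branch origin/helper5, c0207c6) copied verbatim into the
sub-namespace `Shadow`, so that this file is self-contained; the last theorem (B2 + hmem) uses
`MonicRed.map_eq_zero_of_monic_root`.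
-/
import Mathlib
import Fermat.Prelude.Def_ModularCurve_IgusaScheme
import Fermat.Agent.S28lib.Defs
import Fermat.Agent.S28lib.Series
import Fermat.Agent.S28lib.RedRing
import Fermat.Agent.S28lib.AdjoinPoly
import Fermat.Agent.S28lib.Representation
import Fermat.Agent.S28lib.MonicRed

set_option autoImplicit false

noncomputable section

namespace Fermat.Agent.S28lib.Shadow


open ModularCurve ModularCurve.IgusaScheme HahnSeries Polynomial Red

variable (N : ℕ) [NeZero N] (ℓ : ℕ) [hℓ : Fact ℓ.Prime]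

set_option quotPrecheck false in
local notation "ℤℓ" => ↥(GaloisRep.ratLocalizedAt ℓ)

set_option quotPrecheck false in
local notation "FF" => ↥(modularFunctionFieldFull N)

/-- The inverse of `j` lies in the reduction ring. -/
theorem jqModC_inv_mem_redRing : (jqModC ℚ)⁻¹ ∈ redRing ℓ := by
  refine mem_redRing_of_mul_eq ℓ (b := X) (a := 1) ?_ ?_
  · rw [Polynomial.map_X]; exact X_ne_zero
  · rw [Polynomial.map_X, evalJ_X, map_one, mul_inv_cancel₀ (jqModC_ne_zero ℚ)]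

/-- Elements of `ℤ_(ℓ)[S]`, `S ⊆ {j, 1/j}`, lie in the reduction ring. -/
theorem coe_mem_redRing_of_mem_adjoin {S : Set FF} (hS : S ⊆ {jFull N, (jFull N)⁻¹}) {c : FF}
    (hc : c ∈ Algebra.adjoin ℤℓ S) : ((c : FF) : LaurentSeries ℚ) ∈ redRing ℓ := by
  induction hc using Algebra.adjoin_induction with
  | mem y hy =>
    rcases hS hy with rfl | hy'
    · rw [coe_jFull]; exact jqModC_mem_redRing ℓ
    · rw [Set.mem_singleton_iff] at hy'
      subst hy'
      have : (((jFull N)⁻¹ : FF) : LaurentSeries ℚ) = (jqModC ℚ)⁻¹ := by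
        rw [IntermediateField.coe_inv, coe_jFull, jqModC_rat]
      rw [this]; exact jqModC_inv_mem_redRing ℓ
  | algebraMap a =>
    rw [coe_algebraMap_igusa, algebraMap_laurent_eq_C]
    apply C_mem_redRing
    intro h
    have h1 : ℓ ∣ (a : ℚ).den := by exact_mod_cast h
    have h2 : ℓ ∣ Nat.gcd (a : ℚ).den ℓ := Nat.dvd_gcd h1 dvd_rfl
    have h3 : Nat.gcd (a : ℚ).den ℓ = 1 := a.2
    rw [h3] at h2
    exact hℓ.out.one_lt.ne' (Nat.dvd_one.mp h2)
  | add y z _ _ hy hz => exact (redRing ℓ).add_mem hy hz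
  | mul y z _ _ hy hz => exact (redRing ℓ).mul_mem hy hz

section Relation

variable {n : ℕ} (x : Fin n → MvPolynomial ℕ ℤ)

/-- `b(j)` with `b ∈ ℤ[Y]` as an element of the reduction ring. -/
theorem evalJ_map_mem_redRing (b : ℤ[X]) :
    evalJ ℚ (jqModC ℚ) (b.map (Int.castRingHom ℚ)) ∈ redRing ℓ := by
  rw [← coeffMap_bZ]; exact coeffMap_mem_redRing ℓ _

theorem redHom_evalJ_map (b : ℤ[X]) :
    redHom ℓ ⟨evalJ ℚ (jqModC ℚ) (b.map (Int.castRingHom ℚ)), evalJ_map_mem_redRing ℓ b⟩ =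
      evalJ (ZMod ℓ) (jqModC (ZMod ℓ)) (b.map (Int.castRingHom (ZMod ℓ))) := by
  have h : (⟨evalJ ℚ (jqModC ℚ) (b.map (Int.castRingHom ℚ)), evalJ_map_mem_redRing ℓ b⟩ :
      redRing ℓ) = ⟨coeffMap (Int.castRingHom ℚ) (bZ b), coeffMap_mem_redRing ℓ _⟩ :=
    Subtype.ext (coeffMap_bZ b).symm
  rw [h, redHom_coeffMap, coeffMap_bZ]

/-- The right-hand side of a relation lies in the reduction ring. -/
theorem relSum_mem_redRing (a : Fin n → ℤ[X]) :
    ∑ i, evalJ ℚ (jqModC ℚ) ((a i).map (Int.castRingHom ℚ)) * evalDiv ℚ (x i) ∈ redRing ℓ :=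
  Subring.sum_mem _ fun i _ =>
    Subring.mul_mem _ (evalJ_map_mem_redRing ℓ (a i)) (evalDiv_mem_redRing ℓ (x i))

theorem redHom_relSum (a : Fin n → ℤ[X]) :
    redHom ℓ ⟨_, relSum_mem_redRing ℓ x a⟩ =
      ∑ i, evalJ (ZMod ℓ) (jqModC (ZMod ℓ)) ((a i).map (Int.castRingHom (ZMod ℓ))) *
        evalDiv (ZMod ℓ) (x i) := by
  have h : (⟨_, relSum_mem_redRing ℓ x a⟩ : redRing ℓ) =
      ∑ i, (⟨evalJ ℚ (jqModC ℚ) ((a i).map (Int.castRingHom ℚ)), evalJ_map_mem_redRing ℓ (a i)⟩ :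
        redRing ℓ) * ⟨evalDiv ℚ (x i), evalDiv_mem_redRing ℓ (x i)⟩ := by
    apply Subtype.ext
    rw [AddSubmonoidClass.coe_finsetSum]
    rfl
  rw [h, map_sum]
  refine Finset.sum_congr rfl fun i _ => ?_
  rw [map_mul, redHom_evalJ_map, redHom_evalDiv]

variable {x}

/-- If the right-hand side of a relation reduces to zero, the relation was not primitive. -/
theorem map_eq_zero_of_redHom_relSum_eq_zero
    (hind : ∀ P : Fin n → Polynomial (ZMod ℓ),
      ∑ i, evalJ (ZMod ℓ) (jqModC (ZMod ℓ)) (P i) * evalDiv (ZMod ℓ) (x i) = 0 → ∀ i, P i = 0)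
    {a : Fin n → ℤ[X]} (h : redHom ℓ ⟨_, relSum_mem_redRing ℓ x a⟩ = 0) :
    ∀ i, (a i).map (Int.castRingHom (ZMod ℓ)) = 0 := by
  rw [redHom_relSum] at h
  exact hind _ h

/-- **(B1)** For `g` in the reduction ring, a primitive relation `b(j) g = ∑ aᵢ(j) xᵢ` has
`b mod ℓ ≠ 0`. -/
theorem map_ne_zero_of_mem_redRing
    (hind : ∀ P : Fin n → Polynomial (ZMod ℓ),
      ∑ i, evalJ (ZMod ℓ) (jqModC (ZMod ℓ)) (P i) * evalDiv (ZMod ℓ) (x i) = 0 → ∀ i, P i = 0)
    {g : LaurentSeries ℚ} (hg : g ∈ redRing ℓ) {b : ℤ[X]} {a : Fin n → ℤ[X]}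
    (hprim : b.map (Int.castRingHom (ZMod ℓ)) ≠ 0 ∨
      ∃ i, (a i).map (Int.castRingHom (ZMod ℓ)) ≠ 0)
    (hrel : evalJ ℚ (jqModC ℚ) (b.map (Int.castRingHom ℚ)) * g =
      ∑ i, evalJ ℚ (jqModC ℚ) ((a i).map (Int.castRingHom ℚ)) * evalDiv ℚ (x i)) :
    b.map (Int.castRingHom (ZMod ℓ)) ≠ 0 := by
  intro hb
  have h1 : (⟨evalJ ℚ (jqModC ℚ) (b.map (Int.castRingHom ℚ)), evalJ_map_mem_redRing ℓ b⟩ :
      redRing ℓ) * ⟨g, hg⟩ = ⟨_, relSum_mem_redRing ℓ x a⟩ := Subtype.ext hrel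
  have h2 := congrArg (redHom ℓ) h1
  rw [map_mul, redHom_evalJ_map, hb, map_zero, zero_mul] at h2
  have h3 := map_eq_zero_of_redHom_relSum_eq_zero ℓ hind h2.symm
  rcases hprim with h | ⟨i, hi⟩
  · exact h hb
  · exact hi (h3 i)

end Relation


/-- **(B2) + hmem**: every chart algebra lies in the reduction ring. -/
theorem coe_mem_redRing_of_mem_chartAlg {n : ℕ} (x : Fin n → MvPolynomial ℕ ℤ)
    (hind : ∀ P : Fin n → Polynomial (ZMod ℓ),
      ∑ i, evalJ (ZMod ℓ) (jqModC (ZMod ℓ)) (P i) * evalDiv (ZMod ℓ) (x i) = 0 → ∀ i, P i = 0)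
    (hrep : ∀ g : LaurentSeries ℚ, g ∈ modularFunctionFieldFull N →
      ∃ (b : ℤ[X]) (a : Fin n → ℤ[X]), b ≠ 0 ∧
        (b.map (Int.castRingHom (ZMod ℓ)) ≠ 0 ∨ ∃ i, (a i).map (Int.castRingHom (ZMod ℓ)) ≠ 0) ∧
        evalJ ℚ (jqModC ℚ) (b.map (Int.castRingHom ℚ)) * g =
          ∑ i, evalJ ℚ (jqModC ℚ) ((a i).map (Int.castRingHom ℚ)) * evalDiv ℚ (x i))
    {S : Set ↥(modularFunctionFieldFull N)} (hS : S ⊆ {jFull N, (jFull N)⁻¹})
    (y : ↥(modularFunctionFieldFull N)) (hy : y ∈ chartAlg N ℓ S) :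
    ((y : ↥(modularFunctionFieldFull N)) : LaurentSeries ℚ) ∈ redRing ℓ := by
  obtain ⟨b, a, -, hprim, hrel⟩ := hrep (y : LaurentSeries ℚ) y.2
  have hbbar : b.map (Int.castRingHom (ZMod ℓ)) ≠ 0 := by
    intro hb
    obtain ⟨P, hPmonic, hPy⟩ := (mem_chartAlg_iff N ℓ).mp hy
    set ι : ↥(modularFunctionFieldFull N) →+* LaurentSeries ℚ :=
      SubringClass.subtype (modularFunctionFieldFull N) with hι
    set Q : Polynomial (LaurentSeries ℚ) :=
      P.map (ι.comp (algebraMap ↥(Algebra.adjoin ↥(GaloisRep.ratLocalizedAt ℓ) S)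
        ↥(modularFunctionFieldFull N))) with hQdef
    have hQ : Q.Monic := hPmonic.map _
    have hcoef : ∀ i, Q.coeff i ∈ redRing ℓ := by
      intro i
      rw [hQdef, Polynomial.coeff_map]
      exact coe_mem_redRing_of_mem_adjoin N ℓ hS (P.coeff i).2
    have hg : Q.eval (y : LaurentSeries ℚ) = 0 := by
      have h1 := Polynomial.hom_eval₂ P (algebraMap ↥(Algebra.adjoin ↥(GaloisRep.ratLocalizedAt ℓ) S)
        ↥(modularFunctionFieldFull N)) ι y
      rw [hPy, map_zero] at h1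
      rw [hQdef, Polynomial.eval_map]
      exact h1.symm
    have h2 := MonicRed.map_eq_zero_of_monic_root (redRing ℓ) (redHom ℓ) Q hQ hcoef hg
      ⟨_, evalJ_map_mem_redRing ℓ b⟩ ⟨_, relSum_mem_redRing ℓ x a⟩ hrel
      (by rw [redHom_evalJ_map, hb, map_zero])
    have h3 := map_eq_zero_of_redHom_relSum_eq_zero ℓ hind h2
    rcases hprim with h | ⟨i, hi⟩
    · exact h hb
    · exact hi (h3 i)
  refine mem_redRing_of_mul_eq ℓ hbbar (a := intComb x a) ?_
  rw [hrel, coeffMap_intComb]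


end Fermat.Agent.S28lib.Shadow
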