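import Mathlib
import Fermat.Agent.S28lib.Defs
import Fermat.Agent.S28lib.Series
import Fermat.Agent.S28lib.Theta
import Fermat.Agent.S28lib.JIntegral

set_option autoImplicit false
noncomputable section

namespace Fermat.Agent.S28lib.NuInt

open ModularCurve HahnSeries Polynomial Fermat.Agent.S28lib

variable {k : Type*} [Field k]

/-- The subring `k[y]` of `k((q))`. -/
abbrev polyRing (y : LaurentSeries k) : Subring (LaurentSeries k) := (evalJ k y).range

lemma evalJ_mem_polyRing (y : LaurentSeries k) (c : Polynomial k) : evalJ k y c ∈ polyRing y :=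
  ⟨c, rfl⟩

lemma isIntegral_of_mem_polyRing {y x : LaurentSeries k} (hx : x ∈ polyRing y) :
    IsIntegral ↥(polyRing y) x :=
  isIntegral_algebraMap (R := ↥(polyRing y)) (x := ⟨x, hx⟩)

/-- Integrality over `k[y]` is the existence of a monic equation with coefficients in `k[Y]`. -/
theorem isIntegral_polyRing_iff (y x : LaurentSeries k) :
    IsIntegral ↥(polyRing y) x ↔
      ∃ Ψ : Polynomial (Polynomial k), Ψ.Monic ∧ Ψ.eval₂ (evalJ k y) x = 0 := by
  constructor
  · rintro ⟨Q, hQ, hroot⟩
    have hsurj : Function.Surjective (evalJ k y).rangeRestrict := (evalJ k y).rangeRestrict_surjective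
    have hlift : Q ∈ Polynomial.lifts (evalJ k y).rangeRestrict := by
      rw [Polynomial.lifts_iff_coeff_lifts]
      intro n
      exact hsurj _
    obtain ⟨Ψ, hΨQ, -, hΨ⟩ := Polynomial.lifts_and_natDegree_eq_and_monic hlift hQ
    refine ⟨Ψ, hΨ, ?_⟩
    rw [← hΨQ, Polynomial.eval₂_map] at hroot
    exact hroot
  · rintro ⟨Ψ, hΨ, hroot⟩
    refine ⟨Ψ.map (evalJ k y).rangeRestrict, hΨ.map _, ?_⟩
    rw [Polynomial.eval₂_map]
    exact hroot

/-- Transitivity of integrality along `k[z] ⊆ k[z][y]`. -/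
theorem isIntegral_polyRing_trans {x y z : LaurentSeries k}
    (hy : IsIntegral ↥(polyRing z) y) (hx : IsIntegral ↥(polyRing y) x) :
    IsIntegral ↥(polyRing z) x := by
  obtain ⟨Ψ, hΨ, hroot⟩ := (isIntegral_polyRing_iff y x).mp hx
  have hcoef : ∀ c : Polynomial k, IsIntegral ↥(polyRing z) (evalJ k y c) := by
    intro c
    induction c using Polynomial.induction_on with
    | C a =>
      rw [evalJ_C]
      apply isIntegral_of_mem_polyRing
      rw [← evalJ_C z a]
      exact evalJ_mem_polyRing z _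
    | add p q hp hq => rw [map_add]; exact hp.add hq
    | monomial n a h =>
      rw [pow_succ, ← mul_assoc, map_mul, evalJ_X]
      exact h.mul hy
  refine isIntegral_of_monic_of_coeff_isIntegral (Ψ.map (evalJ k y)) (hΨ.map _) (fun i => ?_) ?_
  · rw [Polynomial.coeff_map]
    exact hcoef _
  · rw [Polynomial.eval_map]
    exact hroot

/-- `j(q^{np})` is integral over `k[j(q^n)]`. -/
theorem isIntegral_jAt_mul_prime (n p : ℕ) [NeZero n] [NeZero p] (D : ModPolyData k p) :
    IsIntegral ↥(polyRing (jAt k n)) (jAt k (n * p)) := by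
  rw [isIntegral_polyRing_iff]
  refine ⟨D.Φ, D.monic, ?_⟩
  have h := congrArg (qExpand k n) D.eval₂_eq_zero
  rw [map_zero, qExpand_eval₂, qExpand_qExpand] at h
  rw [jAt_of_neZero, jAt_of_neZero]
  exact h

/-- `j(q^{nd})` is integral over `k[j(q^n)]`, given the modular equations of all prime levels
dividing `d`. -/
theorem isIntegral_jAt_mul (n : ℕ) [NeZero n] :
    ∀ (d : ℕ), d ≠ 0 → (∀ p', p'.Prime → p' ∣ d → ∀ [NeZero p'], Nonempty (ModPolyData k p')) →
      IsIntegral ↥(polyRing (jAt k n)) (jAt k (n * d)) := by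
  intro d
  induction d using Nat.strong_induction_on with
  | _ d ih =>
    intro hd hΦ
    rcases eq_or_ne d 1 with rfl | hd1
    · rw [mul_one]
      apply isIntegral_of_mem_polyRing
      have := evalJ_mem_polyRing (jAt k n) Polynomial.X
      rwa [evalJ_X] at this
    · obtain ⟨p, hp, hpd⟩ := Nat.exists_prime_and_dvd hd1
      obtain ⟨d', rfl⟩ := hpd
      have hd' : d' ≠ 0 := fun h => hd (by rw [h, mul_zero])
      have hlt : d' < p * d' := by
        have := hp.one_lt
        nlinarith [Nat.pos_of_ne_zero hd']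
      have : NeZero p := ⟨hp.ne_zero⟩
      have : NeZero d' := ⟨hd'⟩
      have : NeZero (n * d') := ⟨Nat.mul_ne_zero (NeZero.ne n) hd'⟩
      obtain ⟨D⟩ := hΦ p hp (dvd_mul_right p d')
      have h1 := ih d' hlt hd' (fun p' hp' hp'd => hΦ p' hp' (hp'd.trans (dvd_mul_left d' p)))
      have h2 := isIntegral_jAt_mul_prime (n * d') p D
      rw [show n * d' * p = n * (p * d') by ring] at h2
      exact isIntegral_polyRing_trans h1 h2

/-- The unit `ν(q^{nM}) = Δ(q^{nMp})/Δ(q^{nM})` is integral over `k[j(q^n)]`. -/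
theorem isIntegral_qExpand_nuQ (n M p : ℕ) [NeZero n] [NeZero M] [NeZero p] [NeZero (n * M)]
    (hΦ : ∀ p', p'.Prime → p' ∣ M → ∀ [NeZero p'], Nonempty (ModPolyData k p'))
    (hU : UnitData k p) :
    IsIntegral ↥(polyRing (jAt k n)) (qExpand k (n * M) (nuQ k p)) := by
  have h1 := isIntegral_jAt_mul (k := k) n M (NeZero.ne M) hΦ
  refine isIntegral_polyRing_trans h1 ?_
  rw [isIntegral_polyRing_iff]
  refine ⟨hU.Ψ, hU.monic, ?_⟩
  have h := congrArg (qExpand k (n * M)) hU.root
  rw [map_zero, qExpand_eval₂] at h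
  rw [jAt_of_neZero]
  exact h

end Fermat.Agent.S28lib.NuInt
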