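/-
S28 library, brick V (helper5): the reduction homomorphisms on the three charts of the Igusa scheme.
`exists_phi` = `brickRed` of `Assembly.isIntegral_of_bricks`.
-/
import Mathlib
import Fermat.Prelude.Def_ModularCurve_IgusaScheme
import Fermat.Agent.S28lib.Defs
import Fermat.Agent.S28lib.Series
import Fermat.Agent.S28lib.RedRing
import Fermat.Agent.S28lib.AdjoinPoly
import Fermat.Agent.S28lib.IntegralCoprime
import Fermat.Agent.S28lib.EvalDivIntegral
import Fermat.Agent.S28lib.JIntegral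
import Fermat.Agent.S28lib.Representation
import Fermat.Agent.S28lib.EvalDivChart
import Fermat.Agent.S28lib.RedAssembly

set_option autoImplicit false

noncomputable section

namespace Fermat.Agent.S28lib

open ModularCurve ModularCurve.IgusaScheme HahnSeries Polynomial Red

variable (N : ℕ) [NeZero N] (ℓ : ℕ) [hℓ : Fact ℓ.Prime]

set_option quotPrecheck false in
local notation "ℤℓ" => ↥(GaloisRep.ratLocalizedAt ℓ)

set_option quotPrecheck false in
local notation "FF" => ↥(modularFunctionFieldFull N)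

/-- The inverse of `j` lies in the reduction ring. -/
theorem jqModC_inv_mem_redRing : (jqModC ℚ)⁻¹ ∈ redRing ℓ := by
  refine mem_redRing_of_mul_eq ℓ (b := X) (a := 1) ?_ ?_
  · rw [Polynomial.map_X]; exact X_ne_zero
  · rw [Polynomial.map_X, evalJ_X, map_one, mul_inv_cancel₀ (jqModC_ne_zero ℚ)]

/-- Elements of `ℤ_(ℓ)[S]`, `S ⊆ {j, 1/j}`, lie in the reduction ring. -/
theorem coe_mem_redRing_of_mem_adjoin {S : Set FF} (hS : S ⊆ {jFull N, (jFull N)⁻¹}) {c : FF}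
    (hc : c ∈ Algebra.adjoin ℤℓ S) : ((c : FF) : LaurentSeries ℚ) ∈ redRing ℓ := by
  induction hc using Algebra.adjoin_induction with
  | mem y hy =>
    rcases hS hy with rfl | hy'
    · rw [coe_jFull]; exact jqModC_mem_redRing ℓ
    · rw [Set.mem_singleton_iff] at hy'
      subst hy'
      have : (((jFull N)⁻¹ : FF) : LaurentSeries ℚ) = (jqModC ℚ)⁻¹ := by
        rw [IntermediateField.coe_inv, coe_jFull, jqModC_rat]
      rw [this]; exact jqModC_inv_mem_redRing ℓ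
  | algebraMap a =>
    rw [coe_algebraMap_igusa, algebraMap_laurent_eq_C]
    apply C_mem_redRing
    intro h
    have h1 : ℓ ∣ (a : ℚ).den := by exact_mod_cast h
    have h2 : ℓ ∣ Nat.gcd (a : ℚ).den ℓ := Nat.dvd_gcd h1 dvd_rfl
    have h3 : Nat.gcd (a : ℚ).den ℓ = 1 := a.2
    rw [h3] at h2
    exact hℓ.out.one_lt.ne' (Nat.dvd_one.mp h2)
  | add y z _ _ hy hz => exact (redRing ℓ).add_mem hy hz
  | mul y z _ _ hy hz => exact (redRing ℓ).mul_mem hy hz

section Relation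

variable {n : ℕ} (x : Fin n → MvPolynomial ℕ ℤ)

/-- `b(j)` with `b ∈ ℤ[Y]` as an element of the reduction ring. -/
theorem evalJ_map_mem_redRing (b : ℤ[X]) :
    evalJ ℚ (jqModC ℚ) (b.map (Int.castRingHom ℚ)) ∈ redRing ℓ := by
  rw [← coeffMap_bZ]; exact coeffMap_mem_redRing ℓ _

theorem redHom_evalJ_map (b : ℤ[X]) :
    redHom ℓ ⟨evalJ ℚ (jqModC ℚ) (b.map (Int.castRingHom ℚ)), evalJ_map_mem_redRing ℓ b⟩ =
      evalJ (ZMod ℓ) (jqModC (ZMod ℓ)) (b.map (Int.castRingHom (ZMod ℓ))) := by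
  have h : (⟨evalJ ℚ (jqModC ℚ) (b.map (Int.castRingHom ℚ)), evalJ_map_mem_redRing ℓ b⟩ :
      redRing ℓ) = ⟨coeffMap (Int.castRingHom ℚ) (bZ b), coeffMap_mem_redRing ℓ _⟩ :=
    Subtype.ext (coeffMap_bZ b).symm
  rw [h, redHom_coeffMap, coeffMap_bZ]

/-- The right-hand side of a relation lies in the reduction ring. -/
theorem relSum_mem_redRing (a : Fin n → ℤ[X]) :
    ∑ i, evalJ ℚ (jqModC ℚ) ((a i).map (Int.castRingHom ℚ)) * evalDiv ℚ (x i) ∈ redRing ℓ :=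
  Subring.sum_mem _ fun i _ =>
    Subring.mul_mem _ (evalJ_map_mem_redRing ℓ (a i)) (evalDiv_mem_redRing ℓ (x i))

theorem redHom_relSum (a : Fin n → ℤ[X]) :
    redHom ℓ ⟨_, relSum_mem_redRing ℓ x a⟩ =
      ∑ i, evalJ (ZMod ℓ) (jqModC (ZMod ℓ)) ((a i).map (Int.castRingHom (ZMod ℓ))) *
        evalDiv (ZMod ℓ) (x i) := by
  have h : (⟨_, relSum_mem_redRing ℓ x a⟩ : redRing ℓ) =
      ∑ i, (⟨evalJ ℚ (jqModC ℚ) ((a i).map (Int.castRingHom ℚ)), evalJ_map_mem_redRing ℓ (a i)⟩ :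
        redRing ℓ) * ⟨evalDiv ℚ (x i), evalDiv_mem_redRing ℓ (x i)⟩ := by
    apply Subtype.ext
    rw [AddSubmonoidClass.coe_finsetSum]
    rfl
  rw [h, map_sum]
  refine Finset.sum_congr rfl fun i _ => ?_
  rw [map_mul, redHom_evalJ_map, redHom_evalDiv]

variable {x}

/-- If the right-hand side of a relation reduces to zero, the relation was not primitive. -/
theorem map_eq_zero_of_redHom_relSum_eq_zero
    (hind : ∀ P : Fin n → Polynomial (ZMod ℓ),
      ∑ i, evalJ (ZMod ℓ) (jqModC (ZMod ℓ)) (P i) * evalDiv (ZMod ℓ) (x i) = 0 → ∀ i, P i = 0)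
    {a : Fin n → ℤ[X]} (h : redHom ℓ ⟨_, relSum_mem_redRing ℓ x a⟩ = 0) :
    ∀ i, (a i).map (Int.castRingHom (ZMod ℓ)) = 0 := by
  rw [redHom_relSum] at h
  exact hind _ h

/-- **(B1)** For `g` in the reduction ring, a primitive relation `b(j) g = ∑ aᵢ(j) xᵢ` has
`b mod ℓ ≠ 0`. -/
theorem map_ne_zero_of_mem_redRing
    (hind : ∀ P : Fin n → Polynomial (ZMod ℓ),
      ∑ i, evalJ (ZMod ℓ) (jqModC (ZMod ℓ)) (P i) * evalDiv (ZMod ℓ) (x i) = 0 → ∀ i, P i = 0)
    {g : LaurentSeries ℚ} (hg : g ∈ redRing ℓ) {b : ℤ[X]} {a : Fin n → ℤ[X]}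
    (hprim : b.map (Int.castRingHom (ZMod ℓ)) ≠ 0 ∨
      ∃ i, (a i).map (Int.castRingHom (ZMod ℓ)) ≠ 0)
    (hrel : evalJ ℚ (jqModC ℚ) (b.map (Int.castRingHom ℚ)) * g =
      ∑ i, evalJ ℚ (jqModC ℚ) ((a i).map (Int.castRingHom ℚ)) * evalDiv ℚ (x i)) :
    b.map (Int.castRingHom (ZMod ℓ)) ≠ 0 := by
  intro hb
  have h1 : (⟨evalJ ℚ (jqModC ℚ) (b.map (Int.castRingHom ℚ)), evalJ_map_mem_redRing ℓ b⟩ :
      redRing ℓ) * ⟨g, hg⟩ = ⟨_, relSum_mem_redRing ℓ x a⟩ := Subtype.ext hrel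
  have h2 := congrArg (redHom ℓ) h1
  rw [map_mul, redHom_evalJ_map, hb, map_zero, zero_mul] at h2
  have h3 := map_eq_zero_of_redHom_relSum_eq_zero ℓ hind h2.symm
  rcases hprim with h | ⟨i, hi⟩
  · exact h hb
  · exact hi (h3 i)

end Relation

section Integral

variable {n : ℕ} {x : Fin n → MvPolynomial ℕ ℤ}

/-- Key step of (B2): if `g` is a root of a monic polynomial with coefficients in the reduction
ring, `β` lies in the kernel of the reduction and `β g` lies in the reduction ring, then `β g` lies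
in the kernel of the reduction. -/
theorem redHom_mul_eq_zero_of_isRoot {p : Polynomial (LaurentSeries ℚ)} (hp : p.Monic)
    (hpR : ∀ i, p.coeff i ∈ redRing ℓ) {g : LaurentSeries ℚ} (hpg : p.eval g = 0)
    {β : LaurentSeries ℚ} (hβ : β ∈ redRing ℓ) (hβ0 : redHom ℓ ⟨β, hβ⟩ = 0)
    (hw : β * g ∈ redRing ℓ) : redHom ℓ ⟨β * g, hw⟩ = 0 := by
  set m := p.natDegree with hm
  -- the relation multiplied by `β ^ m`
  have h1 : ∑ i ∈ Finset.range (m + 1), p.coeff i * β ^ (m - i) * (β * g) ^ i = 0 := by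
    have h0 : p.eval g * β ^ m = 0 := by rw [hpg, zero_mul]
    rw [Polynomial.eval_eq_sum_range, Finset.sum_mul] at h0
    rw [← h0]
    refine Finset.sum_congr rfl fun i hi => ?_
    have hi' : i ≤ m := Nat.lt_succ_iff.mp (Finset.mem_range.mp hi)
    have : β ^ m = β ^ (m - i) * β ^ i := by rw [← _root_.pow_add, Nat.sub_add_cancel hi']
    rw [this, mul_pow]; ring
  -- the same relation inside the reduction ring
  have h2 : ∑ i ∈ Finset.range (m + 1), (⟨p.coeff i, hpR i⟩ : redRing ℓ) * ⟨β, hβ⟩ ^ (m - i) *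
      ⟨β * g, hw⟩ ^ i = 0 := by
    apply Subtype.ext
    rw [AddSubmonoidClass.coe_finsetSum]
    exact h1
  have h3 := congrArg (redHom ℓ) h2
  rw [map_sum, map_zero, Finset.sum_eq_single m] at h3
  · have hlead : (⟨p.coeff m, hpR m⟩ : redRing ℓ) = 1 := by
      apply Subtype.ext
      show p.coeff m = 1
      rw [hm]
      exact hp.coeff_natDegree
    rw [map_mul, map_mul, map_pow, map_pow, hlead, map_one, Nat.sub_self, pow_zero, one_mul,
      one_mul] at h3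
    exact pow_eq_zero_iff (by
      intro hm0
      -- `m = 0` : then `p = 1`, impossible since `p.eval g = 0`
      have : p = 1 := by
        rw [hm] at hm0
        exact Polynomial.eq_one_of_monic_natDegree_zero hp hm0
      rw [this, Polynomial.eval_one] at hpg
      exact one_ne_zero hpg) |>.mp h3
  · intro i hi him
    have hi' : i < m := lt_of_le_of_ne (Nat.lt_succ_iff.mp (Finset.mem_range.mp hi)) him
    rw [map_mul, map_mul, map_pow, hβ0, zero_pow (Nat.sub_ne_zero_of_lt hi'), mul_zero, zero_mul]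
  · intro hm'
    exact absurd (Finset.mem_range.mpr (Nat.lt_succ_self m)) hm'

/-- **(B2)** If `g` is integral over a subring of the reduction ring, a primitive relation
`b(j) g = ∑ aᵢ(j) xᵢ` has `b mod ℓ ≠ 0`; in particular `g` lies in the reduction ring. -/
theorem map_ne_zero_of_isRoot
    (hind : ∀ P : Fin n → Polynomial (ZMod ℓ),
      ∑ i, evalJ (ZMod ℓ) (jqModC (ZMod ℓ)) (P i) * evalDiv (ZMod ℓ) (x i) = 0 → ∀ i, P i = 0)
    {p : Polynomial (LaurentSeries ℚ)} (hp : p.Monic)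
    (hpR : ∀ i, p.coeff i ∈ redRing ℓ) {g : LaurentSeries ℚ} (hpg : p.eval g = 0)
    {b : ℤ[X]} {a : Fin n → ℤ[X]}
    (hprim : b.map (Int.castRingHom (ZMod ℓ)) ≠ 0 ∨
      ∃ i, (a i).map (Int.castRingHom (ZMod ℓ)) ≠ 0)
    (hrel : evalJ ℚ (jqModC ℚ) (b.map (Int.castRingHom ℚ)) * g =
      ∑ i, evalJ ℚ (jqModC ℚ) ((a i).map (Int.castRingHom ℚ)) * evalDiv ℚ (x i)) :
    b.map (Int.castRingHom (ZMod ℓ)) ≠ 0 := by
  intro hb
  have hβ0 : redHom ℓ ⟨_, evalJ_map_mem_redRing ℓ b⟩ = 0 := by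
    rw [redHom_evalJ_map, hb, map_zero]
  have hw : evalJ ℚ (jqModC ℚ) (b.map (Int.castRingHom ℚ)) * g ∈ redRing ℓ := by
    rw [hrel]; exact relSum_mem_redRing ℓ x a
  have h1 := redHom_mul_eq_zero_of_isRoot ℓ hp hpR hpg (evalJ_map_mem_redRing ℓ b) hβ0 hw
  have h2 : (⟨_, hw⟩ : redRing ℓ) = ⟨_, relSum_mem_redRing ℓ x a⟩ := Subtype.ext hrel
  rw [h2] at h1
  have h3 := map_eq_zero_of_redHom_relSum_eq_zero ℓ hind h1
  rcases hprim with h | ⟨i, hi⟩
  · exact h hb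
  · exact hi (h3 i)

end Integral

section Charts

variable {n : ℕ} {x : Fin n → MvPolynomial ℕ ℤ}

/-- **(hmem)** Every element of every chart algebra lies in the reduction ring. -/
theorem coe_mem_redRing_of_mem_chartAlg
    (hind : ∀ P : Fin n → Polynomial (ZMod ℓ),
      ∑ i, evalJ (ZMod ℓ) (jqModC (ZMod ℓ)) (P i) * evalDiv (ZMod ℓ) (x i) = 0 → ∀ i, P i = 0)
    (hrep : ∀ g : LaurentSeries ℚ, g ∈ modularFunctionFieldFull N →
      ∃ (b : ℤ[X]) (a : Fin n → ℤ[X]), b ≠ 0 ∧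
        (b.map (Int.castRingHom (ZMod ℓ)) ≠ 0 ∨
          ∃ i, (a i).map (Int.castRingHom (ZMod ℓ)) ≠ 0) ∧
        evalJ ℚ (jqModC ℚ) (b.map (Int.castRingHom ℚ)) * g =
          ∑ i, evalJ ℚ (jqModC ℚ) ((a i).map (Int.castRingHom ℚ)) * evalDiv ℚ (x i))
    {S : Set FF} (hS : S ⊆ {jFull N, (jFull N)⁻¹}) {y : FF} (hy : y ∈ chartAlg N ℓ S) :
    ((y : FF) : LaurentSeries ℚ) ∈ redRing ℓ := by
  obtain ⟨p₀, hmonic, hroot⟩ := (mem_chartAlg_iff N ℓ).mp hy
  obtain ⟨b, a, -, hprim, hrel⟩ := hrep (y : LaurentSeries ℚ) y.2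
  set ι : FF →+* LaurentSeries ℚ := SubringClass.subtype (modularFunctionFieldFull N) with hι
  set f : ↥(Algebra.adjoin ℤℓ S) →+* LaurentSeries ℚ :=
    ι.comp (algebraMap ↥(Algebra.adjoin ℤℓ S) FF) with hf
  have hp : (p₀.map f).Monic := hmonic.map f
  have hpR : ∀ i, (p₀.map f).coeff i ∈ redRing ℓ := by
    intro i
    rw [Polynomial.coeff_map]
    exact coe_mem_redRing_of_mem_adjoin N ℓ hS (p₀.coeff i).2
  have hpg : (p₀.map f).eval ((y : FF) : LaurentSeries ℚ) = 0 := by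
    rw [Polynomial.eval_map, hf]
    have h := Polynomial.hom_eval₂ p₀ (algebraMap ↥(Algebra.adjoin ℤℓ S) FF) ι y
    rw [hroot, map_zero] at h
    exact h.symm
  have hb := map_ne_zero_of_isRoot ℓ hind hp hpR hpg hprim hrel
  refine mem_redRing_of_mul_eq ℓ (a := intComb x a) hb ?_
  rw [hrel, coeffMap_intComb]

/-- **Brick V** = `brickRed` of `Assembly.isIntegral_of_bricks`: reduction homomorphisms on the
three charts, with kernel `(ℓ)` on the `j`-chart and the `1/j`-chart. -/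
theorem exists_phi (_hℓN : ¬ ℓ ∣ N)
    (x : Fin (dedekindPsi N) → MvPolynomial ℕ ℤ) (hx : ∀ i, ∀ d ∈ (x i).vars, d ∣ N)
    (hind : ∀ P : Fin (dedekindPsi N) → Polynomial (ZMod ℓ),
      ∑ i, evalJ (ZMod ℓ) (jqModC (ZMod ℓ)) (P i) * evalDiv (ZMod ℓ) (x i) = 0 → ∀ i, P i = 0)
    (hD : ∀ y : Fin (dedekindPsi N + 1) → LaurentSeries ℚ,
      (∀ i, y i ∈ modularFunctionFieldFull N) →
      ∃ P : Fin (dedekindPsi N + 1) → Polynomial ℚ, P ≠ 0 ∧
        ∑ i, evalJ ℚ (jqModC ℚ) (P i) * y i = 0)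
    (hint : ∀ d, d ∣ N → IsIntegral (Algebra.adjoin ℤ {jqModC ℚ}) (jAt ℚ d))
    (S : Set ↥(modularFunctionFieldFull N)) (hS : S ⊆ {jFull N, (jFull N)⁻¹}) :
    ∃ φ : ↥(chartAlg N ℓ S) →+* LaurentSeries (ZMod ℓ),
      (S = {jFull N} ∨ S = {(jFull N)⁻¹}) →
        RingHom.ker φ = Ideal.span {((ℓ : ℕ) : ↥(chartAlg N ℓ S))} :=
  exists_phi_of_memFin N ℓ x hx hind hD hint
    (fun _ hy => coe_mem_redRing_of_mem_chartAlg N ℓ hind
      (fun _ hg => exists_int_relation_of_mem_full ℓ N x hx hind hD hg) (sFin_subset N) hy) S hS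

end Charts

end Fermat.Agent.S28lib
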